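import Fermat.Agent.LocalEC.FreyTwo

/-!
# A torsion point moved by a scalar other than `±1` lies in the identity component

At a multiplicative prime of the Frey curve the decomposition group acts on the component of a
torsion point by a sign.
-/

set_option autoImplicit false
set_option linter.style.haveILetI false
set_option linter.unusedSectionVars false
set_option synthInstance.maxHeartbeats 400000

noncomputable section

open WeierstrassCurve WeierstrassCurve.Affine IsLocalRing
open FLTAgent.LocalEC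
open scoped Classical WeierstrassCurve.Affine

namespace FLTAgent.Mazur

local notation "QA" => AlgebraicClosure ℚ
local notation "GG" => (AlgebraicClosure ℚ ≃ₐ[ℚ] AlgebraicClosure ℚ)

variable {A : ValuationSubring QA}

section Node

variable {W : WeierstrassCurve.Affine QA} {p : ℕ} [Fact p.Prime]

/-- The decomposition group acts on the components of torsion points by signs. -/
theorem node_pm (hN : NodeModel A W) (hp2 : p ≠ 2) {σ : GG} (hσ : σ ∈ A.decompositionSubgroup ℚ)
    (hσa : σ W.a₄ = W.a₄) {x y : QA} {h : W.Nonsingular x y}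
    {h' : W.Nonsingular (σ x) (σ y)} (hT : p • Point.some x y h = 0)
    (hT' : p • Point.some (σ x) (σ y) h' = 0) :
    InE0 hN.toIntCoeff (Point.some (σ x) (σ y) h' - Point.some x y h) ∨
      InE0 hN.toIntCoeff (Point.some (σ x) (σ y) h' + Point.some x y h) := by
  by_cases h0 : InE0 hN.toIntCoeff (Point.some x y h)
  · left
    refine (mem_e0Subgroup _).mp (sub_mem ((mem_e0Subgroup _).mpr ?_) ((mem_e0Subgroup _).mpr h0))
    by_contra hc
    have hx := hN.not_inE0_iff.mp hc
    rw [xVal_some] at hx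
    have hge := hN.inE0_iff.mp h0
    rw [xVal_some] at hge
    have hm : σ x ∈ A := mem_of_val_le_one hx.le
    have hu1 : A.valuation x = 1 :=
      le_antisymm (val_le_one ((mem_iff_of_mem_decomposition hσ x).mp hm)) hge
    exact hx.ne (val_map_eq_one hσ hu1)
  · have hv : A.valuation (σ x) = A.valuation x := by
      obtain ⟨k, -, -, hk⟩ := hN.exists_xVal_pow_eq hp2 hT h0
      rw [xVal_some] at hk
      have hu : A.valuation (W.a₄ ^ (2 * k)) ≠ 0 := by
        rw [map_pow]; exact pow_ne_zero _ hN.u_pos.ne'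
      have h1 : A.valuation (x ^ p / W.a₄ ^ (2 * k)) = 1 := by
        rw [map_div₀, map_pow, hk, ← map_pow, div_self hu]
      have h2 := val_map_eq_one hσ h1
      rw [map_div₀, map_pow, map_pow, hσa, map_div₀, map_pow, map_pow,
        div_eq_one_iff_eq (by rw [← map_pow]; exact hu), ← hk] at h2
      exact (pow_left_inj₀ zero_le zero_le (Fact.out : p.Prime).ne_zero).mp h2
    have hu := hN.u_lt_xVal ((Fact.out : p.Prime).odd_of_ne_two hp2) hT h0
    have hlt := hN.not_inE0_iff.mp h0
    rw [xVal_some] at hu hlt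
    exact (hN.add_or_sub_inE0 (P := Point.some (σ x) (σ y) h') (Q := Point.some x y h)
      (by rw [xVal_some, hv]; exact hu) (by rw [xVal_some, hv]; exact hlt)
      (by rw [xVal_some, xVal_some, hv])).symm

/-- A torsion point moved by a scalar other than `±1` has nonsingular reduction. -/
theorem node_toric (hN : NodeModel A W) (hp2 : p ≠ 2) {σ : GG}
    (hσ : σ ∈ A.decompositionSubgroup ℚ) (hσa : σ W.a₄ = W.a₄) {x y : QA}
    {h : W.Nonsingular x y} {h' : W.Nonsingular (σ x) (σ y)} {k : ℕ}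
    (hT : p • Point.some x y h = 0) (hk : Point.some (σ x) (σ y) h' = k • Point.some x y h)
    (hk1 : (k : ZMod p) ≠ 1) (hk2 : (k : ZMod p) ≠ -1) :
    InE0 hN.toIntCoeff (Point.some x y h) := by
  set T := Point.some x y h
  have hT' : p • Point.some (σ x) (σ y) h' = 0 := by rw [hk, smul_comm, hT]; exact nsmul_zero k
  suffices key : ∀ c : ℤ, ¬ (p : ℤ) ∣ c → c • T ∈ e0Subgroup hN.toIntCoeff →
      InE0 hN.toIntCoeff T by
    rcases node_pm hN hp2 hσ hσa hT hT' with h1 | h1
    · refine key ((k : ℤ) - 1) ?_ ?_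
      · rw [← ZMod.intCast_zmod_eq_zero_iff_dvd]
        push_cast
        exact sub_ne_zero.mpr hk1
      · rw [mem_e0Subgroup, sub_zsmul, one_zsmul, natCast_zsmul]
        rwa [hk] at h1
    · refine key ((k : ℤ) + 1) ?_ ?_
      · rw [← ZMod.intCast_zmod_eq_zero_iff_dvd]
        push_cast
        exact fun e => hk2 (eq_neg_of_add_eq_zero_left e)
      · rw [mem_e0Subgroup, add_zsmul, one_zsmul, natCast_zsmul]
        rwa [hk] at h1
  intro c hc hmem
  obtain ⟨a, b, hab⟩ := ((Nat.prime_iff_prime_int.mp (Fact.out : p.Prime)).coprime_iff_not_dvd).mpr hc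
  rw [← mem_e0Subgroup]
  have hpT : (p : ℤ) • T = 0 := by rw [natCast_zsmul]; exact hT
  rw [← one_zsmul T, ← hab, add_zsmul, mul_zsmul, mul_zsmul, hpT, zsmul_zero, zero_add]
  exact AddSubgroup.zsmul_mem _ hmem b

end Node

/-- A change of variables with `u = 1`, `s = 0` and integral `r` respects `E₀`. -/
theorem inE0_pointMap {W W' : WeierstrassCurve.Affine QA} (C : PointChange W W') (hu : C.u = 1)
    (hs : C.s = 0) (hr : C.r ∈ A) (hW : IntCoeff A W) (hW' : IntCoeff A W') {P : W'.Point}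
    (hP : InE0 hW' P) : InE0 hW (C.pointMap P) := by
  rcases P with _ | ⟨x, y, h⟩
  · exact trivial
  rw [C.pointMap_some, inE0_some_iff]
  rw [inE0_some_iff] at hP
  have eX : C.X x = x + C.r := by rw [PointChange.X, hu, one_pow, one_mul]
  rcases hP with hx | ⟨hx, hy, hns⟩
  · left
    rw [eX]
    exact fun hm => hx ((add_mem_cancel_right hr).mp hm)
  · have hX : C.X x ∈ A := eX ▸ add_mem hx hr
    have hY : C.Y x y ∈ A := hW.y_mem (C.nonsingular_map h).1 hX
    refine Or.inr ⟨hX, hY, (hW.redCurve_nonsingular_iff (x := ⟨_, hX⟩) (y := ⟨_, hY⟩)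
      (C.nonsingular_map h).1).mpr ?_⟩
    show A.valuation (psi W (C.X x) (C.Y x y)) = 1 ∨ A.valuation (tanNum W (C.X x) (C.Y x y)) = 1
    rw [C.psi_map, C.tanNum_map, hu, hs, zero_mul, add_zero, one_pow, one_pow, one_mul, one_mul]
    exact (hW'.redCurve_nonsingular_iff (x := ⟨x, hx⟩) (y := ⟨y, hy⟩) h.1).mp hns

/-- The Frey curve has a node at every prime dividing `abc`. -/
theorem exists_frey_node (P : FreyPackage) {l : ℕ} (hl : l.Prime)
    (hbad : (l : ℤ) ∣ P.a * P.b * P.c) (hA : A.LiesOverPrime l) :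
    ∃ (W' : WeierstrassCurve.Affine QA) (C : PointChange (freyBar P) W'), C.u = 1 ∧ C.s = 0 ∧
      C.r ∈ A ∧ (∀ σ : GG, σ C.r = C.r ∧ σ C.t = C.t ∧ σ W'.a₄ = W'.a₄) ∧ NodeModel A W' := by
  rcases eq_or_ne l 2 with rfl | h2
  · let C : PointChange (freyBar P) (freyBar P) :=
      { u := 1, r := 0, s := 0, t := 0, hu := one_ne_zero
        h₁ := by ring
        h₂ := by ring
        h₃ := by ring
        h₄ := by ring
        h₆ := by ring }
    exact ⟨_, C, rfl, rfl, zero_mem A,
      fun σ => ⟨map_zero σ, map_zero σ, frey_map_a₄ P σ⟩, frey_nodeModel_two P hA⟩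
  · rcases freyReduction P hl h2 hA with ⟨hW, hΔ⟩ | ⟨W', C, hu, hs, hr, hfix, hN, m, hm⟩
    · exfalso
      have h256 : A.valuation (256 : QA) = 1 := by
        have := val_natCast_eq_one hA hl (n := 256) fun h => h2 <| (Nat.prime_dvd_prime_iff_eq hl
          Nat.prime_two).mp (hl.dvd_of_dvd_pow (show l ∣ 2 ^ 8 by norm_num; exact h))
        simpa using this
      have hlt : A.valuation ((P.a * P.b * P.c : ℤ) : QA) < 1 := val_intCast_lt_one hA hbad
      push_cast at hlt
      rw [freyBar_Δ, map_div₀, h256, div_one, map_pow, ← mul_pow, ← mul_pow, map_pow,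
        ← pow_mul] at hΔ
      exact (pow_lt_one₀ zero_le hlt (mul_ne_zero P.hp0 two_ne_zero)).ne hΔ
    refine ⟨W', C, hu, hs, hr, fun σ => ⟨(hfix σ).1, (hfix σ).2, ?_⟩, hN⟩
    have e := C.h₄
    rw [hu, hs, one_pow, one_mul, freyBar_a₁, freyBar_a₃] at e
    rw [e]
    simp only [map_mul, map_add, map_sub, map_pow, map_zero, map_one, map_ofNat, frey_map_a₄ P σ,
      show σ (freyBar P).a₂ = (freyBar P).a₂ by rw [freyBar_a₂]; simp [map_div₀, map_ofNat]]
    erw [(hfix σ).1, (hfix σ).2]

/-- **Toric points.** -/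
theorem frey_toric (P : FreyPackage) {l : ℕ} (hl : l.Prime) (hbad : (l : ℤ) ∣ P.a * P.b * P.c)
    (hA : A.LiesOverPrime l) {σ : GG} (hσ : σ ∈ A.decompositionSubgroup ℚ) {k : ℕ}
    (hk1 : (k : ZMod P.p) ≠ 1) (hk2 : (k : ZMod P.p) ≠ -1) (hW : IntCoeff A (freyBar P))
    {T : (freyBar P).Point} (hT : P.p • T = 0) (hσT : σ • T = k • T) : InE0 hW T := by
  haveI : Fact P.p.Prime := ⟨P.pp⟩
  obtain ⟨W', C, hu, hs, hr, hfix, hN⟩ := exists_frey_node P hl hbad hA
  rcases T with _ | ⟨x, y, h⟩
  · exact trivial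
  obtain ⟨x₀, y₀, he, ex, ey⟩ := C.exists_preimage h.1
  subst ex ey
  have h₀ : W'.Nonsingular x₀ y₀ := C.nonsingular_of_map he h
  obtain ⟨h', e'⟩ := smul_some P σ h
  have eX : σ (C.X x₀) = C.X (σ x₀) := by simp [PointChange.X, hu, (hfix σ).1]
  have eY : σ (C.Y x₀ y₀) = C.Y (σ x₀) (σ y₀) := by
    simp [PointChange.Y, hu, hs, (hfix σ).2.1]
  have h'' : (freyBar P).Nonsingular (C.X (σ x₀)) (C.Y (σ x₀) (σ y₀)) := by
    rw [← eX, ← eY]; exact h'
  have h₁ : W'.Nonsingular (σ x₀) (σ y₀) :=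
    C.nonsingular_of_map ((C.equation_iff_map _ _).mp h''.1) h''
  have e₀ : Point.some _ _ h = C.pointMap (Point.some x₀ y₀ h₀) := rfl
  have e₁ : Point.some _ _ h' = C.pointMap (Point.some _ _ h₁) := by
    rw [C.pointMap_some, Point.some.injEq]; exact ⟨eX, eY⟩
  rw [e₀]
  refine inE0_pointMap C hu hs hr hW hN.toIntCoeff (node_toric hN
    (by have := P.hp5; omega) hσ (hfix σ).2.2 (h' := h₁) (k := k) (C.pointMap_injective ?_)
    (C.pointMap_injective ?_) hk1 hk2)
  · rw [map_nsmul, ← e₀, map_zero]; exact hT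
  · rw [map_nsmul, ← e₀, ← e₁, ← e']; exact hσT

end FLTAgent.Mazur
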