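import Fermat.Agent.Mazur.ImmersionMain
import Fermat.Agent.Mazur.FreyToric
import Fermat.Agent.Reducible.Frey
import Fermat.Agent.FrobTrace.Det
import Fermat.Agent.FrobTrace.Count
import Fermat.Prelude.Def_FLTPrelim_CofixedLine
import Fermat.Prelude.Def_FLTPrelim_Modularity

/-!
# The Frey curve has no cofixed line for `p ≥ 17`

For an Eisenstein prime `l` of level `p` the curve is multiplicative at `l` and the line is toric,
so the point of `X₀(p)` lies in the disc of `∞`, against the formal immersion.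
-/

set_option autoImplicit false
set_option linter.style.haveILetI false
set_option linter.unusedSectionVars false
set_option maxHeartbeats 1000000
set_option synthInstance.maxHeartbeats 400000

noncomputable section

open AlgebraicCurve ModularCurve IsLocalRing
open WeierstrassCurve WeierstrassCurve.Affine WeierstrassCurve.Affine.Point
open FLTAgent.X0Fn (XF jF)
open scoped Classical WeierstrassCurve.Affine

namespace FLTAgent.Mazur

local notation "QA" => AlgebraicClosure ℚ
local notation "GG" => (AlgebraicClosure ℚ ≃ₐ[ℚ] AlgebraicClosure ℚ)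

/-! ### A stable line with trivial quotient -/

/-- The scalar on a line with trivial quotient is the determinant, one less than the trace. -/
theorem cofixed_linear {K V : Type*} [Field K] [AddCommGroup V] [Module K V]
    (h2 : Module.finrank K V = 2) {N : Submodule K V} (hbot : N ≠ ⊥) (htop : N ≠ ⊤)
    {f : Module.End K V} (hstab : ∀ x ∈ N, f x ∈ N) (hco : ∀ x, f x - x ∈ N) :
    LinearMap.trace K V f = 1 + LinearMap.det f ∧ ∀ x ∈ N, f x = LinearMap.det f • x := by
  haveI : FiniteDimensional K V := Module.finite_of_finrank_eq_succ h2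
  obtain ⟨n, hn, hn0⟩ := (Submodule.ne_bot_iff N).mp hbot
  have hN1 : Module.finrank K N = 1 := by
    have h1 := Submodule.finrank_lt htop
    have h3 : Module.finrank K N ≠ 0 := fun h => hbot (Submodule.finrank_eq_zero.mp h)
    omega
  have hline : ∀ x ∈ N, ∃ c : K, c • n = x := fun x hx => by
    obtain ⟨c, hc⟩ := (finrank_eq_one_iff_of_nonzero' (⟨n, hn⟩ : N)
      (fun h => hn0 (congrArg Subtype.val h))).mp hN1 ⟨x, hx⟩
    exact ⟨c, congrArg Subtype.val hc⟩
  obtain ⟨v, -, hv⟩ : ∃ v ∈ (⊤ : Submodule K V), v ∉ N :=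
    SetLike.exists_of_lt (lt_top_iff_ne_top.mpr htop)
  obtain ⟨a, ha⟩ := hline _ (hstab n hn)
  obtain ⟨b, hb⟩ := hline _ (hco v)
  have hli : LinearIndependent K ![n, v] := by
    rw [LinearIndependent.pair_iff]
    intro s t hst
    by_cases ht : t = 0
    · refine ⟨?_, ht⟩
      rw [ht, zero_smul, add_zero] at hst
      exact (smul_eq_zero.mp hst).resolve_right hn0
    · refine absurd ?_ hv
      have : v = (-(t⁻¹ * s)) • n := by
        rw [neg_smul, mul_smul, eq_neg_of_add_eq_zero_left hst, smul_neg, smul_smul,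
          inv_mul_cancel₀ ht, one_smul, neg_neg]
      exact this ▸ N.smul_mem _ hn
  let B := basisOfLinearIndependentOfCardEqFinrank hli (by rw [Fintype.card_fin, h2])
  have hB : (B : Fin 2 → V) = ![n, v] := coe_basisOfLinearIndependentOfCardEqFinrank ..
  have h0 : B 0 = n := by rw [hB]; rfl
  have h1 : B 1 = v := by rw [hB]; rfl
  have e0 : f (B 0) = a • B 0 := by rw [h0, ha]
  have e1 : f (B 1) = b • B 0 + (1 : K) • B 1 := by
    rw [h0, h1, hb, one_smul, sub_add_cancel]
  have hM : LinearMap.toMatrix B B f = !![a, b; 0, 1] := by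
    ext i j
    fin_cases i <;> fin_cases j <;>
      simp [LinearMap.toMatrix_apply, e0, e1, Module.Basis.repr_self, Finsupp.single_apply]
  have hdet : LinearMap.det f = a := by
    rw [← LinearMap.det_toMatrix B, hM, Matrix.det_fin_two]
    simp
  refine ⟨?_, fun x hx => ?_⟩
  · rw [LinearMap.trace_eq_matrix_trace K B, hM, hdet, Matrix.trace_fin_two]
    simp [add_comm]
  · obtain ⟨c, rfl⟩ := hline x hx
    rw [map_smul, ← ha, hdet, smul_comm]

/-! ### The integral model -/

variable (P : FreyPackage)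

theorem two_dvd_b : (2 : ℤ) ∣ P.b := (ZMod.intCast_zmod_eq_zero_iff_dvd P.b 2).mp P.hb2

theorem pow_dvd_b {k : ℕ} (hk : k ≤ P.p) : (2 : ℤ) ^ k ∣ P.b ^ P.p :=
  (pow_dvd_pow_of_dvd (two_dvd_b P) k).trans (pow_dvd_pow P.b hk)

theorem four_dvd_frey : (4 : ℤ) ∣ P.b ^ P.p - 1 - P.a ^ P.p := by
  have h5 := P.hp5
  have hb : ((P.b ^ P.p : ℤ) : ZMod 4) = 0 :=
    (ZMod.intCast_zmod_eq_zero_iff_dvd _ 4).mpr (pow_dvd_b P (k := 2) (by omega))
  have ha : ((P.a : ZMod 4)) ^ P.p = 3 := by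
    rw [P.ha4]
    obtain ⟨j, hj⟩ := P.hp_odd
    rw [hj, pow_succ, pow_mul, show (3 : ZMod 4) ^ 2 = 1 from by decide, one_pow, one_mul]
  refine (ZMod.intCast_zmod_eq_zero_iff_dvd _ 4).mp ?_
  push_cast at hb ⊢
  rw [hb, ha]
  decide

theorem sixteen_dvd_frey : (16 : ℤ) ∣ -(P.a ^ P.p) * P.b ^ P.p :=
  (show (16 : ℤ) = 2 ^ 4 by norm_num) ▸
    (pow_dvd_b P (k := 4) (by have := P.hp5; omega)).mul_left _

theorem freyCurveInt_map : P.freyCurveInt.map (Int.castRingHom ℚ) = P.freyCurve := by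
  ext
  · simp [FreyPackage.freyCurveInt, FreyPackage.freyCurve]
  · obtain ⟨m, hm⟩ := four_dvd_frey P
    have hm' : (P.b : ℚ) ^ P.p - 1 - (P.a : ℚ) ^ P.p = 4 * (m : ℚ) := by exact_mod_cast hm
    simp only [FreyPackage.freyCurveInt, FreyPackage.freyCurve, WeierstrassCurve.map_a₂, eq_intCast,
      hm, hm']
    rw [Int.mul_ediv_cancel_left _ (by norm_num)]
    ring
  · simp [FreyPackage.freyCurveInt, FreyPackage.freyCurve]
  · obtain ⟨m, hm⟩ := sixteen_dvd_frey P
    have hm' : -((P.a : ℚ) ^ P.p) * (P.b : ℚ) ^ P.p = 16 * (m : ℚ) := by exact_mod_cast hm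
    simp only [FreyPackage.freyCurveInt, FreyPackage.freyCurve, WeierstrassCurve.map_a₄, eq_intCast,
      hm, hm']
    rw [Int.mul_ediv_cancel_left _ (by norm_num)]
    ring
  · simp [FreyPackage.freyCurveInt, FreyPackage.freyCurve]

theorem freyInt_disc : 256 * P.freyCurveInt.Δ = (P.a * P.b * P.c) ^ (2 * P.p) := by
  have h := congrArg WeierstrassCurve.Δ (freyCurveInt_map P)
  rw [WeierstrassCurve.map_Δ, eq_intCast, Reducible.freyCurve_discr, eq_div_iff (by norm_num)] at h
  have h' : ((256 * P.freyCurveInt.Δ : ℤ) : ℚ) = (((P.a * P.b * P.c) ^ (2 * P.p) : ℤ) : ℚ) := by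
    push_cast; linear_combination h
  exact_mod_cast h'

theorem freyInt_c4 : P.freyCurveInt.c₄ =
    (P.b ^ P.p - P.a ^ P.p) ^ 2 + 3 * (P.a ^ P.p * P.b ^ P.p) := by
  obtain ⟨m, hm⟩ := four_dvd_frey P
  obtain ⟨n, hn⟩ := sixteen_dvd_frey P
  simp only [FreyPackage.freyCurveInt, WeierstrassCurve.c₄, WeierstrassCurve.b₂,
    WeierstrassCurve.b₄, hm, hn, Int.mul_ediv_cancel_left _ (show (4 : ℤ) ≠ 0 by norm_num),
    Int.mul_ediv_cancel_left _ (show (16 : ℤ) ≠ 0 by norm_num)]
  rw [show P.b ^ P.p - P.a ^ P.p = 4 * m + 1 by linear_combination hm,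
    show P.a ^ P.p * P.b ^ P.p = -(16 * n) by linear_combination -hn]
  ring

theorem freyInt_disc_ne_zero : P.freyCurveInt.Δ ≠ 0 := fun h => by
  have h' := freyInt_disc P
  rw [h, mul_zero] at h'
  exact pow_ne_zero _ P.habc0 h'.symm

/-- At a prime dividing `abc` the model is multiplicative with discriminant divisible by the
square. -/
theorem freyInt_mult {l : ℕ} (hl : l.Prime) (hbad : (l : ℤ) ∣ P.a * P.b * P.c) :
    ((l : ℤ) ^ 2 ∣ P.freyCurveInt.Δ) ∧ ¬ (l : ℤ) ∣ P.freyCurveInt.c₄ := by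
  have hli : Prime (l : ℤ) := Nat.prime_iff_prime_int.mp hl
  have hp5 := P.hp5
  constructor
  · have h := freyInt_disc P
    rcases eq_or_ne l 2 with rfl | h2
    · have hd : (2 : ℤ) ^ 10 ∣ (P.a * P.b * P.c) ^ (2 * P.p) :=
        (pow_dvd_pow_of_dvd P.two_dvd_abc 10).trans (pow_dvd_pow _ (by omega))
      rw [← h] at hd
      exact (Int.mul_dvd_mul_iff_left (show (256 : ℤ) ≠ 0 by norm_num)).mp (by simpa using hd)
    · have hd : (l : ℤ) ^ 2 ∣ 256 * P.freyCurveInt.Δ :=
        h ▸ (pow_dvd_pow_of_dvd hbad 2).trans (pow_dvd_pow _ (by omega))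
      refine IsCoprime.dvd_of_dvd_mul_left (IsCoprime.pow_left ?_) hd
      refine hli.coprime_iff_not_dvd.mpr fun hd' => h2 ((Nat.prime_dvd_prime_iff_eq hl
        Nat.prime_two).mp (hl.dvd_of_dvd_pow (show l ∣ 2 ^ 8 by exact_mod_cast hd')))
  · intro hc
    rw [freyInt_c4] at hc
    have hcop : ∀ {x y : ℤ}, gcd x y = 1 → (l : ℤ) ∣ x → ¬(l : ℤ) ∣ y := fun h hx hy =>
      hli.not_isUnit (isUnit_of_dvd_one (h ▸ dvd_gcd hx hy))
    have hF := P.hFLT
    rcases hli.dvd_or_dvd hbad with hab | hcc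
    · rcases hli.dvd_or_dvd hab with ha | hb
      · have ha' : (l : ℤ) ∣ P.a ^ P.p := dvd_pow ha P.hp0
        refine hcop P.hgcdab ha (hli.dvd_of_dvd_pow (n := P.p * 2) ?_)
        rw [pow_mul]
        have := dvd_sub hc (ha'.mul_right (P.a ^ P.p + P.b ^ P.p))
        rwa [show (P.b ^ P.p - P.a ^ P.p) ^ 2 + 3 * (P.a ^ P.p * P.b ^ P.p) -
          P.a ^ P.p * (P.a ^ P.p + P.b ^ P.p) = (P.b ^ P.p) ^ 2 by ring] at this
      · have hb' : (l : ℤ) ∣ P.b ^ P.p := dvd_pow hb P.hp0
        refine hcop (x := P.b) (y := P.a) (by rw [gcd_comm]; exact P.hgcdab) hb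
          (hli.dvd_of_dvd_pow (n := P.p * 2) ?_)
        rw [pow_mul]
        have := dvd_sub hc (hb'.mul_right (P.a ^ P.p + P.b ^ P.p))
        rwa [show (P.b ^ P.p - P.a ^ P.p) ^ 2 + 3 * (P.a ^ P.p * P.b ^ P.p) -
          P.b ^ P.p * (P.a ^ P.p + P.b ^ P.p) = (P.a ^ P.p) ^ 2 by ring] at this
    · have hc' : (l : ℤ) ∣ P.a ^ P.p + P.b ^ P.p := hF ▸ dvd_pow hcc P.hp0
      refine hcop (x := P.c) (y := P.a) (by rw [gcd_comm]; exact P.hgcdac) hcc
        (hli.dvd_of_dvd_pow (n := P.p * 2) ?_)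
      rw [pow_mul]
      have := dvd_sub hc (hc'.mul_right (P.b ^ P.p))
      rwa [show (P.b ^ P.p - P.a ^ P.p) ^ 2 + 3 * (P.a ^ P.p * P.b ^ P.p) -
        (P.a ^ P.p + P.b ^ P.p) * P.b ^ P.p = (P.a ^ P.p) ^ 2 by ring] at this

/-- The count of points of the reduction is at most `2 l`. -/
theorem card_reduction_le {l : ℕ} [Fact l.Prime] (hgood : P.freyCurveInt.IsGoodPrimeFor l) :
    0 < (P.freyCurveInt.reductionMod l).card ∧ (P.freyCurveInt.reductionMod l).card ≤ 2 * l := by
  haveI := FrobTrace.isElliptic_reductionMod hgood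
  set V := P.freyCurveInt.reductionMod l with hV
  rw [FrobTrace.card_eq_sum_fibre]
  refine ⟨by omega, ?_⟩
  have h2 : ∀ x, FrobTrace.fibre V x ≤ 2 := fun x => (FrobTrace.numP_local V x).1
  have h0 : FrobTrace.fibre V 0 ≤ 1 := by
    refine Finset.card_le_one.mpr fun y hy y' hy' => ?_
    have key : ∀ z : ZMod l, z ∈ Finset.univ.filter (fun y ↦ V.toAffine.Equation 0 y) → z = 0 := by
      intro z hz
      have h := (Finset.mem_filter.mp hz).2
      rw [WeierstrassCurve.Affine.equation_iff] at h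
      simpa [hV, WeierstrassCurve.reductionMod, FreyPackage.freyCurveInt] using h
    rw [key y hy, key y' hy']
  have hs : ∑ x ∈ Finset.univ.erase (0 : ZMod l), FrobTrace.fibre V x ≤
      (Finset.univ.erase (0 : ZMod l)).card * 2 := Finset.sum_le_card_nsmul _ _ _ fun x _ => h2 x
  rw [Finset.card_erase_of_mem (Finset.mem_univ _), Finset.card_univ, ZMod.card] at hs
  rw [← Finset.sum_erase_add _ _ (Finset.mem_univ (0 : ZMod l))]
  have := (Fact.out : l.Prime).two_le
  omega

/-! ### The contradiction -/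

theorem smul_coe_torsion {E : WeierstrassCurve ℚ} {n : ℕ} (σ : GG)
    (x : Submodule.torsionBy ℤ (E⁄QA).Point n) :
    ((σ • x : Submodule.torsionBy ℤ (E⁄QA).Point n) : (E⁄QA).Point) =
      σ • (x : (E⁄QA).Point) := rfl

/-- A torsion point moved by a scalar other than `±1` is in the identity component. -/
theorem frey_inZeroComponent {l : ℕ} (hl : l.Prime) (hbad : (l : ℤ) ∣ P.a * P.b * P.c)
    {A : ValuationSubring QA} (hA : A.LiesOverPrime l) {σ : GG}
    (hσ : σ ∈ A.decompositionSubgroup ℚ) {k : ℕ} (hk1 : (k : ZMod P.p) ≠ 1)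
    (hk2 : (k : ZMod P.p) ≠ -1)
    {T : ((P.freyCurveInt.map (Int.castRingHom ℚ))⁄QA).Point} (hT : P.p • T = 0)
    (hσT : σ • T = k • T) : P.freyCurveInt.InZeroComponentAt A T := by
  have key : ∀ (V : WeierstrassCurve ℚ) (_ : V = P.freyCurve) (T : (V⁄QA).Point), P.p • T = 0 →
      σ • T = k • T → ∀ hW : LocalEC.IntCoeff A (V⁄QA).toAffine, LocalEC.InE0 hW T := by
    rintro V rfl T hT hσT hW
    exact frey_toric P hl hbad hA hσ hk1 hk2 hW hT hσT
  exact (inE0_iff (intCoeff_curveOver P.freyCurveInt A) T).mp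
    (key _ (freyCurveInt_map P) T hT hσT _)

set_option maxHeartbeats 2000000 in
/-- **No cofixed line for `p ≥ 17`**, given the finite generation of the rational classes. -/
theorem frey_no_cofixed_large_of_fg (hp : 17 ≤ P.p)
    (hfg : haveI : NeZero P.p := ⟨P.hp0⟩
      AddGroup.FG ↥(FixedPoints.addSubgroup GG (JZero P.p))) :
    ¬ HasGaloisStableCofixedLine (K := QA) ℚ P.freyCurve P.p := by
  intro hline
  haveI : Fact P.p.Prime := ⟨P.pp⟩
  haveI : NeZero P.p := ⟨P.hp0⟩
  have hp5 := P.hp5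
  obtain ⟨l, a, j, e, m, hl, hlp, hm, hja, hjp, hje, he⟩ :=
    exists_eisenstein_prime (p := P.p) P.pp (by
      simp only [Finset.mem_insert, Finset.mem_singleton, not_or]
      omega)
  haveI : Fact l.Prime := ⟨hl⟩
  have hla : l ∣ P.p - 1 := hm ▸ (dvd_pow_self l (by omega)).mul_right m
  have hl1 : l + 1 < P.p ∧ (l ≠ 2 → 2 * l < P.p) := by
    refine ⟨?_, fun h2 => ?_⟩
    · rcases eq_or_ne l 2 with h2 | h2
      · omega
      · have h2' : 2 * l ∣ P.p - 1 := Nat.Coprime.mul_dvd_of_dvd_of_dvd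
          ((Nat.coprime_primes Nat.prime_two hl).mpr (Ne.symm h2))
          (by obtain ⟨t, ht⟩ := P.hp_odd; exact ⟨t, by omega⟩) hla
        have := Nat.le_of_dvd (by omega) h2'
        have := hl.two_le
        omega
    · have h2' : 2 * l ∣ P.p - 1 := Nat.Coprime.mul_dvd_of_dvd_of_dvd
        ((Nat.coprime_primes Nat.prime_two hl).mpr (Ne.symm h2))
        (by obtain ⟨t, ht⟩ := P.hp_odd; exact ⟨t, by omega⟩) hla
      have := Nat.le_of_dvd (by omega) h2'
      omega
  set W := P.freyCurveInt with hWdef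
  have hΔ := freyInt_disc_ne_zero P
  rw [← freyCurveInt_map P, ← hWdef] at hline
  obtain ⟨N, hstab, hbot, htop, hco⟩ := hline
  haveI : WeierstrassCurve.IsElliptic (W.map (Int.castRingHom ℚ)) := ⟨by
    rw [WeierstrassCurve.map_Δ]; exact isUnit_iff_ne_zero.mpr (by simpa using hΔ)⟩
  haveI := Torsion.isElliptic_baseChange (K := QA) (W := W.map (Int.castRingHom ℚ))
  have h2 := Torsion.finrank_torsionBy (K := QA) (W := W.map (Int.castRingHom ℚ)) (p := P.p)
    (Nat.cast_ne_zero.mpr P.hp0)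
  have hn : Nat.card (rootsOfUnity P.p QA) = P.p :=
    HasEnoughRootsOfUnity.natCard_rootsOfUnity _ _
  set ρ := galoisRepModuleEnd (S := ℚ) (K := QA) (W.map (Int.castRingHom ℚ)) P.p
  have hlin : ∀ σ : GG, LinearMap.trace (ZMod P.p) _ (ρ σ) = 1 + LinearMap.det (ρ σ) ∧
      ∀ x ∈ N, ρ σ x = LinearMap.det (ρ σ) • x := fun σ =>
    cofixed_linear h2 hbot htop (fun x hx => hstab σ x hx) (hco σ)
  obtain ⟨A, hA⟩ := Frobenius.exists_liesOverPrime l hl
  obtain ⟨φ, hφ⟩ := Frobenius.exists_isFrobeniusAt A l hl hA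
  have hdetφ : LinearMap.det (ρ φ) = (l : ZMod P.p) := by
    rw [FrobTrace.det_eq_cyclotomic W hΔ hn, FrobTrace.cyclotomic_frobenius hlp.symm hA hφ hn]
  -- the prime is bad
  have hbad : (l : ℤ) ∣ P.a * P.b * P.c := by
    rcases eq_or_ne l 2 with rfl | h2l
    · exact P.two_dvd_abc
    by_contra hnd
    have hgood : W.IsGoodPrimeFor l := fun h => hnd
      ((Nat.prime_iff_prime_int.mp hl).dvd_of_dvd_pow (freyInt_disc P ▸ h.mul_left 256))
    have htr := (FrobTrace.trace_det_frobenius (p := P.p) hgood hlp.symm hA hφ).1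
    rw [(hlin φ).1, hdetφ] at htr
    obtain ⟨hpos, hle⟩ := card_reduction_le P hgood
    rw [WeierstrassCurve.apOfModel, WeierstrassCurve.traceOfFrobenius, Nat.card_zmod] at htr
    push_cast at htr
    have h0 : (((W.reductionMod l).card : ℕ) : ZMod P.p) = 0 := by linear_combination htr
    rw [ZMod.natCast_eq_zero_iff] at h0
    have := Nat.le_of_dvd hpos h0
    have := hl1.2 h2l
    omega
  obtain ⟨hΔ2, hc4⟩ := freyInt_mult P hl hbad
  have hΔl : (l : ℤ) ∣ W.Δ := (dvd_pow_self _ two_ne_zero).trans hΔ2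
  -- the point of the line
  obtain ⟨Q, hQN, hQ0⟩ := (Submodule.ne_bot_iff N).mp hbot
  have hQp : P.p • (Q : ((W.map (Int.castRingHom ℚ))⁄QA).Point) = 0 :=
    Torsion.mem_torsionBy_iff_nsmul.mp Q.2
  have hQord : addOrderOf (Q : ((W.map (Int.castRingHom ℚ))⁄QA).Point) = P.p :=
    addOrderOf_eq_prime hQp fun h => hQ0 (Subtype.ext h)
  have hQσ : ∀ σ : GG, σ • (Q : ((W.map (Int.castRingHom ℚ))⁄QA).Point) =
      (LinearMap.det (ρ σ)).val • (Q : ((W.map (Int.castRingHom ℚ))⁄QA).Point) := fun σ => by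
    have h := (hlin σ).2 Q hQN
    rw [← ZMod.natCast_zmod_val (LinearMap.det (ρ σ)), Nat.cast_smul_eq_nsmul,
      galoisRepModuleEnd_apply] at h
    rw [← smul_coe_torsion, h]
    rfl
  have hQzero : W.InZeroComponentAt A (Q : ((W.map (Int.castRingHom ℚ))⁄QA).Point) :=
    frey_inZeroComponent P hl hbad hA hφ.mem_decompositionSubgroup
      (k := (LinearMap.det (ρ φ)).val) (by
        rw [ZMod.natCast_zmod_val, hdetφ, ← Nat.cast_one, Ne, ZMod.natCast_eq_natCast_iff',
          Nat.mod_eq_of_lt (by omega), Nat.mod_eq_of_lt (by omega)]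
        exact hl.ne_one) (by
        rw [ZMod.natCast_zmod_val, hdetφ, Ne, eq_neg_iff_add_eq_zero, ← Nat.cast_one,
          ← Nat.cast_add, ZMod.natCast_eq_zero_iff]
        exact fun h => by have := Nat.le_of_dvd (by omega) h; omega) hQp (hQσ φ)
  obtain ⟨x, hfix, hxj, hxred⟩ := exists_point_cusp_j hp5 hΔ ⟨l, hl, hΔl, hc4⟩ _ hQord
    fun σ => ⟨_, hQσ σ⟩
  have hlp' : ¬ l ∣ P.p := fun h => hlp ((Nat.prime_dvd_prime_iff_eq hl P.pp).mp h)
  have hin : ReductionInputsModL A P.p :=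
    (Kronecker.goodReductionAt P.p l hl hlp' A hA).1
  set r := placeReductionModL hin
  have hr := isPlaceReductionModL_placeReductionModL hin
  have hxd : r x = r (cuspInf P.p) := (hxred l hl hlp hΔl hc4 A hA r hr).2.1 hQzero
  have hxi : x ≠ cuspInf P.p := by
    rintro rfl
    set c : QA := algebraMap ℚ QA ((W.c₄ : ℚ) ^ 3 / W.Δ)
    have h' : Curves.OrdGE (cuspInf P.p) 0 (jF QA P.p) := by
      have h0 := ((Curves.ordGE_of_le (show (0 : ℤ) ≤ (cuspInf P.p).ord
        (jF QA P.p - algebraMap QA (XF QA P.p) c) by omega)) :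
          Curves.OrdGE (cuspInf P.p) 0 _).add (Curves.ordGE_algebraMap (cuspInf P.p) c)
      rwa [sub_add_cancel] at h0
    rcases h' with h' | h'
    · have := ord_jF_cuspInf (p := P.p)
      rw [h', Place.ord_zero] at this
      omega
    · rw [ord_jF_cuspInf] at h'
      omega
  -- the parameter
  obtain ⟨cinv, hcinv⟩ : ∃ c : A, (W.c₄ : A) * c = 1 :=
    ((residue_ne_zero_iff_isUnit _).mp fun h ↦
      hc4 ((residue_intCast_eq_zero hA _).mp h)).exists_right_inv
  obtain ⟨D, hD⟩ := hΔ2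
  set w : A := (l : A) * ((D : A) * cinv ^ 3)
  have hw : residue A w = 0 := by
    have := (residue_intCast_eq_zero hA (l : ℤ)).mpr dvd_rfl
    rw [Int.cast_natCast] at this
    rw [map_mul, this, zero_mul]
  have hlwQ : (((l : A) * w : A) : QA) =
      (algebraMap ℚ QA ((W.c₄ : ℚ) ^ 3 / W.Δ))⁻¹ := by
    have hc : ((W.c₄ : QA)) * (cinv : QA) = 1 := by
      have := congrArg (Subtype.val : A → QA) hcinv
      simpa using this
    rw [map_div₀, map_pow, map_intCast, map_intCast, inv_div, hD]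
    push_cast
    have hl' : ((l : A) : QA) = (l : QA) := rfl
    have hD' : ((D : A) : QA) = (D : QA) := map_intCast A.subtype D
    simp only [w, MulMemClass.coe_mul, SubmonoidClass.coe_pow]
    rw [hl', hD']
    rw [eq_inv_of_mul_eq_one_right hc, div_eq_mul_inv, ← inv_pow]
    ring
  have ha0 : algebraMap ℚ QA ((W.c₄ : ℚ) ^ 3 / W.Δ) ≠ 0 := by
    rw [map_ne_zero]
    refine div_ne_zero (pow_ne_zero _ (Int.cast_ne_zero.mpr fun h => hc4 (h ▸ dvd_zero _))) ?_
    exact Int.cast_ne_zero.mpr hΔ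
  have hw0 : w ≠ 0 := fun h => by
    rw [h, mul_zero] at hlwQ
    exact inv_ne_zero ha0 hlwQ.symm
  have hx : Curves.OrdGE x 1
      (1 - algebraMap QA (XF QA P.p) (((l : A) * w : A) : QA) * jF QA P.p) := by
    set c : QA := algebraMap ℚ QA ((W.c₄ : ℚ) ^ 3 / W.Δ)
    rw [hlwQ, show 1 - algebraMap QA (XF QA P.p) c⁻¹ * jF QA P.p =
      algebraMap QA (XF QA P.p) (-c⁻¹) * (jF QA P.p - algebraMap QA (XF QA P.p) c) by
        rw [map_neg, neg_mul, mul_sub, ← map_mul, inv_mul_cancel₀ ha0, map_one]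
        ring]
    simpa using (Curves.ordGE_algebraMap x (-c⁻¹)).mul (Curves.ordGE_of_le
      (show (1 : ℤ) ≤ x.ord (jF QA P.p - algebraMap QA (XF QA P.p) c) by omega))
  -- the class of the point
  haveI : Curves.IsFunctionField QA (modularFunctionFieldBar P.p) :=
    Specialization.instIsFunctionFieldX0Bar P.p
  let D0 : Divisor.degZero (K := QA) (F := modularFunctionFieldBar P.p) :=
    ⟨Finsupp.single x 1 - Finsupp.single (cuspInf P.p) 1,
      Divisor.mem_degZero.2 (by simp [map_sub, Curves.deg_eq_one])⟩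
  have hz : ∀ σ : GG, σ • (Pic0.mk D0 : JZero P.p) = Pic0.mk D0 :=
    smul_mk_sub hfix smul_cuspInf D0 rfl
  obtain ⟨M, n, d, ws, hws, hzero, hnd⟩ := exists_words_torsion hfg hz
    (exists_words_divisible_eisenstein hp5 hlp hm hja hjp hje he hz)
  choose hmem hmk using fun i => exists_mk_tWord (ws i) D0
  let mkH : Divisor.degZero (K := QA) (F := modularFunctionFieldBar P.p) →+ JZero P.p :=
    AddMonoidHom.mk' Pic0.mk Pic0.mk_add
  have hsum : mkH (l ^ M • ∑ i, d i • ⟨_, hmem i⟩) = 0 := by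
    rw [map_nsmul, map_sum]
    refine (congrArg (fun s => l ^ M • s) (Finset.sum_congr rfl fun i _ => ?_)).trans hzero
    rw [map_zsmul]
    exact congrArg (d i • ·) (hmk i).symm
  have hprinc := (QuotientAddGroup.eq_zero_iff _).1 hsum
  refine false_of_principal_words hA hlp hp5 hr hxd hxi hw hw0 hx d ws hws M ?_ hnd
  have h := hprinc
  change Divisor.IsPrincipal _ at h
  rw [map_nsmul, map_sum] at h
  simp only [map_zsmul] at h
  exact h

end FLTAgent.Mazur
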