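import Fermat.Agent.Mazur.Kummer

/-!
# Cocycles with values in `μ_l` unramified outside `p`

Such a cocycle of `Gal(ℚ̄/ℚ)` is a combination of the Kummer cocycles of `p` and `-1` up to a
coboundary: this replaces all class field theory in the descent.
-/

set_option autoImplicit false

noncomputable section

namespace FLTAgent.Mazur

open scoped Pointwise

local notation "QQb" => AlgebraicClosure ℚ
local notation "GG" => (AlgebraicClosure ℚ ≃ₐ[ℚ] AlgebraicClosure ℚ)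

/-- The Kummer cocycle of `x` relative to `ζ`. -/
def kum (m : ℕ) (ζ x : QQb) (σ : GG) : ZMod m :=
  Classical.epsilon fun c : ZMod m => σ x = ζ ^ c.val * x

theorem kum_spec {m : ℕ} [NeZero m] {ζ : QQb} (hζ : IsPrimitiveRoot ζ m) {x : QQb} (hx : x ≠ 0)
    {σ : GG} (hfix : σ (x ^ m) = x ^ m) : σ x = ζ ^ (kum m ζ x σ).val * x :=
  Classical.epsilon_spec (exists_exponent hζ hx hfix)

theorem kum_spec_rat {m : ℕ} [NeZero m] {ζ : QQb} (hζ : IsPrimitiveRoot ζ m) {x : QQb} {r : ℚ}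
    (hr : r ≠ 0) (hx : x ^ m = (r : QQb)) (σ : GG) : σ x = ζ ^ (kum m ζ x σ).val * x :=
  kum_spec hζ (fun e ↦ hr (by
    rw [e, zero_pow (NeZero.ne m)] at hx; exact_mod_cast hx.symm)) (by rw [hx, map_ratCast])

/-- The exponent character of `ζ`. -/
def expChar (m : ℕ) (ζ : QQb) (σ : GG) : ZMod m :=
  Classical.epsilon fun c : ZMod m => σ ζ = ζ ^ c.val

theorem isExp_expChar {m : ℕ} [NeZero m] {ζ : QQb} (hζ : IsPrimitiveRoot ζ m) :
    IsExp ζ (expChar m ζ) := fun σ ↦ by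
  refine Classical.epsilon_spec (p := fun c : ZMod m => σ ζ = ζ ^ c.val) ?_
  obtain ⟨i, hi, e⟩ := hζ.eq_pow_of_pow_eq_one (ξ := σ ζ)
    (by rw [← map_pow, hζ.pow_eq_one, map_one])
  exact ⟨(i : ZMod m), by rw [ZMod.val_natCast, Nat.mod_eq_of_lt hi, e]⟩

section RationalValuation

variable {q : ℕ} (A : ValuationSubring (AlgebraicClosure ℚ))

theorem valuation_natCast_eq_one (hq : q.Prime) (hA : A.LiesOverPrime q) {n : ℕ} (hn : ¬ q ∣ n) :
    A.valuation (n : QQb) = 1 := by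
  refine le_antisymm ((A.valuation_le_one_iff _).mpr (natCast_mem A n)) (not_lt.mp fun hlt ↦ ?_)
  obtain ⟨a, b, hab⟩ : IsCoprime (q : ℤ) (n : ℤ) :=
    ((Nat.prime_iff_prime_int.mp hq).coprime_iff_not_dvd).mpr (by exact_mod_cast hn)
  have h1 : A.valuation ((a : QQb) * (q : QQb) + (b : QQb) * (n : QQb)) < 1 := by
    refine A.valuation.map_add_lt ?_ ?_ <;> rw [map_mul]
    · exact (mul_le_of_le_one_left' ((A.valuation_le_one_iff _).mpr (intCast_mem A a))).trans_lt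
        (valuation_natCast_lt_one A hA)
    · exact (mul_le_of_le_one_left' ((A.valuation_le_one_iff _).mpr (intCast_mem A b))).trans_lt hlt
  have e : (a : QQb) * (q : QQb) + (b : QQb) * (n : QQb) = 1 := by
    exact_mod_cast congrArg (Int.cast : ℤ → QQb) hab
  rw [e, map_one] at h1
  exact lt_irrefl 1 h1

theorem valuation_natCast_eq_zpow (hq : q.Prime) (hA : A.LiesOverPrime q) {n : ℕ} (hn : n ≠ 0) :
    A.valuation (n : QQb) = A.valuation (q : QQb) ^ (padicValNat q n : ℤ) := by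
  haveI : Fact q.Prime := ⟨hq⟩
  obtain ⟨k, hk⟩ : q ^ padicValNat q n ∣ n := pow_padicValNat_dvd
  have hqk : ¬ q ∣ k := fun ⟨t, ht⟩ ↦ pow_succ_padicValNat_not_dvd (p := q) hn ⟨t, by
    conv_lhs => rw [hk, ht, ← mul_assoc, ← pow_succ]⟩
  conv_lhs => rw [hk]
  rw [Nat.cast_mul, Nat.cast_pow]
  rw [map_mul, map_pow, valuation_natCast_eq_one A hq hA hqk, mul_one, zpow_natCast]

theorem valuation_ratCast (hq : q.Prime) (hA : A.LiesOverPrime q) {r : ℚ} (hr : r ≠ 0) :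
    A.valuation (r : QQb) = A.valuation (q : QQb) ^ padicValRat q r := by
  have hnum : A.valuation ((r.num : ℤ) : QQb) =
      A.valuation (q : QQb) ^ (padicValNat q r.num.natAbs : ℤ) := by
    have h0 : r.num.natAbs ≠ 0 := Int.natAbs_ne_zero.mpr (Rat.num_ne_zero.mpr hr)
    rw [← valuation_natCast_eq_zpow A hq hA h0]
    rcases Int.natAbs_eq r.num with h | h <;> conv_lhs => rw [h]
    · rw [Int.cast_natCast]
    · rw [Int.cast_neg, Valuation.map_neg, Int.cast_natCast]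
  rw [Rat.cast_def, map_div₀, hnum, valuation_natCast_eq_zpow A hq hA r.den_nz,
    ← zpow_sub₀ (valuation_natCast_ne_zero A hq), padicValRat_def, padicValInt]

end RationalValuation

theorem exists_eq_pow {n l : ℕ} (hn : n ≠ 0) (h : ∀ q : ℕ, q.Prime → l ∣ padicValNat q n) :
    ∃ b : ℕ, n = b ^ l := by
  refine ⟨∏ q ∈ n.factorization.support, q ^ (n.factorization q / l), ?_⟩
  rw [← Finset.prod_pow]
  conv_lhs => rw [← Nat.prod_factorization_pow_eq_self hn, Finsupp.prod]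
  refine Finset.prod_congr rfl fun q hq ↦ ?_
  rw [← pow_mul, Nat.div_mul_cancel]
  have hqp : q.Prime := Nat.prime_of_mem_primeFactors (Nat.support_factorization n ▸ hq)
  rw [Nat.factorization_def n hqp]
  exact h q hqp

theorem exists_sign_pow {r : ℚ} {l : ℕ} (hr : r ≠ 0)
    (h : ∀ q : ℕ, q.Prime → (l : ℤ) ∣ padicValRat q r) :
    ∃ (s : Bool) (b : ℚ), r = (if s then -1 else 1) * b ^ l := by
  have hnum0 : r.num.natAbs ≠ 0 := Int.natAbs_ne_zero.mpr (Rat.num_ne_zero.mpr hr)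
  have hdiv : ∀ q : ℕ, q.Prime → l ∣ padicValNat q r.num.natAbs ∧ l ∣ padicValNat q r.den := by
    intro q hq
    have h' := h q hq
    rw [padicValRat_def, padicValInt] at h'
    by_cases hd : q ∣ r.den
    · have hn : ¬ q ∣ r.num.natAbs := fun hn ↦
        hq.ne_one (Nat.eq_one_of_dvd_coprimes r.reduced hn hd)
      rw [padicValNat.eq_zero_of_not_dvd hn, Nat.cast_zero, zero_sub, dvd_neg] at h'
      exact ⟨by rw [padicValNat.eq_zero_of_not_dvd hn]; exact dvd_zero l, by exact_mod_cast h'⟩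
    · rw [padicValNat.eq_zero_of_not_dvd hd, Nat.cast_zero, sub_zero] at h'
      exact ⟨by exact_mod_cast h', by rw [padicValNat.eq_zero_of_not_dvd hd]; exact dvd_zero l⟩
  obtain ⟨a, ha⟩ := exists_eq_pow hnum0 fun q hq ↦ (hdiv q hq).1
  obtain ⟨b, hb⟩ := exists_eq_pow r.den_nz fun q hq ↦ (hdiv q hq).2
  refine ⟨decide (r.num < 0), (a : ℚ) / b, ?_⟩
  have hab : ((r.num.natAbs : ℕ) : ℚ) / r.den = ((a : ℚ) / b) ^ l := by
    rw [ha, hb, div_pow]; push_cast; rfl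
  rw [← hab]
  conv_lhs => rw [← r.num_div_den]
  by_cases hn : r.num < 0
  · rw [if_pos (by simpa using hn), Nat.cast_natAbs, abs_of_neg hn]; push_cast; ring
  · rw [if_neg (by simpa using hn), one_mul, Nat.cast_natAbs, abs_of_nonneg (not_lt.mp hn)]

/-- **Classification.** A cocycle with values in `μ_l` which at every prime `q ≠ p` has Kummer
value divisible by `l` is a combination of the cocycles of `p` and `-1`, up to a coboundary. -/
theorem exists_rational_combination {p l : ℕ} [NeZero l] (hp : p.Prime) {ζ π μ : QQb}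
    (hζ : IsPrimitiveRoot ζ l) (hπ : π ^ l = p) (hμ : μ ^ l = -1) {c e : GG → ZMod l}
    (he : IsExp ζ e) (hc : ∀ σ τ : GG, c (σ * τ) = c σ + e σ * c τ) (V : Subgroup GG)
    (hV : IsOpen (V : Set GG)) (hcV : ∀ σ ∈ V, c σ = 0)
    (hloc : ∀ q : ℕ, q.Prime → q ≠ p → ∃ A : ValuationSubring QQb, A.LiesOverPrime q ∧
      ∃ i : ℤ, HasVal A q ζ c ((l : ℤ) * i)) :
    ∃ i s d : ZMod l, ∀ σ, c σ = i * kum l ζ π σ + s * kum l ζ μ σ + (e σ - 1) * d := by
  haveI := isGalois_QQb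
  have hz0 : ζ ≠ 0 := hζ.ne_zero (NeZero.ne l)
  obtain ⟨α, hα0, hα⟩ := exists_kummer ⊤ V hV le_top (fun σ ↦ ζ ^ (c σ).val)
    (fun σ _ ↦ pow_ne_zero _ hz0)
    (fun σ _ τ _ ↦ by rw [hc, zpowZMod_add hζ, zpowZMod_mul hζ, map_pow, he σ])
    (fun σ hσ ↦ by simp [hcV σ hσ])
  have hfix : ∀ σ : GG, σ (α ^ l) = α ^ l := fun σ ↦ by
    rw [map_pow, hα σ trivial, mul_pow, ← pow_mul ζ, mul_comm (c σ).val, pow_mul, hζ.pow_eq_one,
      one_pow, one_mul]
  obtain ⟨r, hr⟩ := IntermediateField.mem_bot.mp ((InfiniteGalois.mem_bot_iff_fixed _).mpr hfix)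
  rw [eq_ratCast] at hr
  have hr0 : r ≠ 0 := fun e0 ↦ pow_ne_zero l hα0 (by rw [← hr, e0, Rat.cast_zero])
  haveI : Fact p.Prime := ⟨hp⟩
  set k := padicValRat p r
  have hp0 : (p : ℚ) ≠ 0 := Nat.cast_ne_zero.mpr hp.ne_zero
  have hdiv : ∀ q : ℕ, q.Prime → (l : ℤ) ∣ padicValRat q (r / (p : ℚ) ^ k) := by
    intro q hq
    haveI : Fact q.Prime := ⟨hq⟩
    rw [padicValRat.div hr0 (zpow_ne_zero _ hp0), padicValRat.zpow, padicValRat.of_nat]
    by_cases hqp : q = p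
    · subst hqp
      rw [padicValNat_self, Nat.cast_one, mul_one, sub_self]
      exact dvd_zero _
    · rw [padicValNat_primes hqp, Nat.cast_zero, mul_zero, sub_zero]
      obtain ⟨A, hA, i, hi⟩ := hloc q hq hqp
      have h' : HasVal A q ζ c (padicValRat q r) :=
        ⟨α, hα0, by rw [← hr, valuation_ratCast A hq hA hr0], fun σ _ ↦ hα σ trivial⟩
      have := HasVal.unique hq hA hζ h' hi
      exact (dvd_sub_left (dvd_mul_right _ _)).mp this
  obtain ⟨s, b, hb⟩ := exists_sign_pow (div_ne_zero hr0 (zpow_ne_zero _ hp0)) hdiv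
  have hb0 : b ≠ 0 := by
    rintro rfl
    rw [zero_pow (NeZero.ne l), mul_zero] at hb
    exact div_ne_zero hr0 (zpow_ne_zero _ hp0) hb
  have hπ0 : π ≠ 0 := fun e0 ↦ (Nat.cast_ne_zero (R := QQb)).mpr hp.ne_zero
    (by rw [← hπ, e0, zero_pow (NeZero.ne l)])
  have hμ0 : μ ≠ 0 := fun e0 ↦ by
    rw [e0, zero_pow (NeZero.ne l)] at hμ; exact (neg_ne_zero.mpr one_ne_zero) hμ.symm
  let β : QQb := π ^ k * (if s then μ else 1) * (b : QQb)
  have hβ : β ^ l = α ^ l := by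
    have h1 : (π ^ k) ^ l = (p : QQb) ^ k := by
      rw [← hπ, ← zpow_natCast, ← zpow_natCast π l, ← zpow_mul, ← zpow_mul, mul_comm]
    have h2 : (if s then μ else 1) ^ l = (((if s then -1 else 1 : ℚ) : ℚ) : QQb) := by
      cases s <;> simp [hμ]
    rw [← hr, mul_pow, mul_pow, h1, h2]
    have hb' := congrArg (Rat.cast : ℚ → QQb) hb
    push_cast at hb'
    rw [div_eq_iff (zpow_ne_zero _ (Nat.cast_ne_zero.mpr hp.ne_zero))] at hb'
    rw [hb']; push_cast; ring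
  have hβ0 : β ≠ 0 := mul_ne_zero (mul_ne_zero (zpow_ne_zero _ hπ0)
    (by split_ifs <;> first | exact hμ0 | exact one_ne_zero)) (Rat.cast_ne_zero.mpr hb0)
  obtain ⟨d, hd, hζd⟩ := hζ.eq_pow_of_pow_eq_one (ξ := α / β)
    (by rw [div_pow, hβ, div_self (pow_ne_zero _ hα0)])
  refine ⟨(k : ZMod l), if s then 1 else 0, (d : ZMod l), fun σ ↦ zpowZMod_injective hζ ?_⟩
  have hαβ : α = ζ ^ d * β := by rw [hζd, div_mul_cancel₀ _ hβ0]
  have hσπ : σ π = ζ ^ (kum l ζ π σ).val * π :=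
    kum_spec_rat hζ (r := (p : ℚ)) hp0 (by rw [hπ, Rat.cast_natCast]) σ
  have hσμ : σ μ = ζ ^ (kum l ζ μ σ).val * μ :=
    kum_spec_rat hζ (r := (-1 : ℚ)) (by norm_num) (by rw [hμ]; push_cast; rfl) σ
  have hσd : σ (ζ ^ d) = ζ ^ ((e σ - 1) * (d : ZMod l)).val * ζ ^ d := by
    rw [map_pow, he σ]
    conv_rhs => rw [show ζ ^ d = ζ ^ ((d : ZMod l)).val by
      rw [ZMod.val_natCast, Nat.mod_eq_of_lt hd], ← zpowZMod_add hζ]
    rw [show (e σ - 1) * (d : ZMod l) + (d : ZMod l) = e σ * (d : ZMod l) by ring, zpowZMod_mul hζ,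
      ZMod.val_natCast, Nat.mod_eq_of_lt hd]
  have hσs : σ (if s then μ else 1) =
      ζ ^ ((if s then 1 else 0 : ZMod l) * kum l ζ μ σ).val * (if s then μ else 1) := by
    cases s <;> simp [hσμ]
  have hσk : σ (π ^ k) = ζ ^ ((k : ZMod l) * kum l ζ π σ).val * π ^ k := by
    rw [map_zpow₀ σ, hσπ, mul_zpow, mul_comm (k : ZMod l), zpowZMod_mul hζ, pow_val_intCast]
    rw [← pow_mul, mul_comm, pow_mul, hζ.pow_eq_one, one_pow]
  have h := hα σ trivial
  conv_lhs at h => rw [hαβ, map_mul, map_mul, map_mul, hσd, hσk, hσs, map_ratCast]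
  conv_rhs at h => rw [hαβ]
  refine (mul_right_cancel₀ (mul_ne_zero (pow_ne_zero d hz0) hβ0) ?_).symm
  rw [← h, zpowZMod_add hζ, zpowZMod_add hζ]
  ring

end FLTAgent.Mazur
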