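import Fermat.Agent.Mazur.AtL

/-!
# Tame inertia at `p`

The nilpotent parts of inertia at `p` have a common kernel line, and every cocycle takes its values
on inertia at `p` in this line.
-/

set_option autoImplicit false
set_option linter.overlappingInstances false
set_option linter.unusedSectionVars false

noncomputable section

namespace FLTAgent.Mazur

open scoped Pointwise

local notation "QQb" => AlgebraicClosure ℚ
local notation "GG" => (AlgebraicClosure ℚ ≃ₐ[ℚ] AlgebraicClosure ℚ)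

variable {l p : ℕ} [Fact l.Prime] {O : Type} [CommRing O] [IsDomain O] [IsDiscreteValuationRing O]
  [Algebra ℤ_[l] O] [Module.Finite ℤ_[l] O] [Module.Free ℤ_[l] O] {ϖ : O} {R : Rep O ϖ}

theorem Setup.trace_zero (S : Setup l p R) {σ : GG} (hσ : σ ∈ S.Ap.inertiaSubgroupIn ℚ) :
    R.a σ - 1 + (R.d σ - 1) = 0 := by
  obtain ⟨e1, e2, e3, e4⟩ := S.unipotent σ hσ
  by_contra h
  have hb := (mul_eq_zero.mp e2).resolve_right h
  rw [hb, zero_mul, add_zero, mul_self_eq_zero] at e1 e4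
  exact h (by rw [e1, e4, add_zero])

theorem Setup.det_eq_one (S : Setup l p R) {σ : GG} (hσ : σ ∈ S.Ap.inertiaSubgroupIn ℚ) :
    R.det σ = 1 := by
  rw [Rep.det]
  linear_combination R.a σ * S.trace_zero hσ - (S.unipotent σ hσ).1

/-- A basis adapted to inertia at `p`. -/
structure PBasis (S : Setup l p R) where
  /-- coordinate -/
  x1 : O
  /-- coordinate -/
  x2 : O
  /-- coordinate -/
  y1 : O
  /-- coordinate -/
  y2 : O
  det_one : x1 * y2 - x2 * y1 = 1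
  kill : ∀ σ ∈ S.Ap.inertiaSubgroupIn ℚ,
    (R.a σ - 1) * x1 + R.b σ * x2 = 0 ∧ R.c σ * x1 + (R.d σ - 1) * x2 = 0

theorem Setup.exists_pbasis (S : Setup l p R) : Nonempty (PBasis S) := by
  by_cases h : ∀ σ ∈ S.Ap.inertiaSubgroupIn ℚ, R.a σ - 1 = 0 ∧ R.b σ = 0 ∧ R.c σ = 0
  · exact ⟨⟨1, 0, 0, 1, by ring, fun σ hσ ↦ by
      obtain ⟨h1, h2, h3⟩ := h σ hσ
      simp [h1, h3]⟩⟩
  push Not at h
  obtain ⟨s, hs, hne⟩ := h
  set A := R.a s - 1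
  set B := R.b s
  set C := R.c s
  have hsq : A * A + B * C = 0 := (S.unipotent s hs).1
  -- a kernel vector and its primitive multiple
  obtain ⟨q1, q2, hq, hk1, hk2⟩ :
      ∃ q1 q2 : O, (q1 ≠ 0 ∨ q2 ≠ 0) ∧ A * q1 + B * q2 = 0 ∧ C * q1 - A * q2 = 0 := by
    by_cases hA : A = 0
    · by_cases hB : B = 0
      · exact ⟨A, C, Or.inr (hne hA hB), by rw [hA, hB]; ring, by ring⟩
      · exact ⟨B, -A, Or.inl hB, by ring, by linear_combination hsq⟩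
    · exact ⟨A, C, Or.inl hA, hsq, by ring⟩
  obtain ⟨x1, x2, y1, y2, hdet, hx1, hx2⟩ : ∃ x1 x2 y1 y2 : O,
      x1 * y2 - x2 * y1 = 1 ∧ A * x1 + B * x2 = 0 ∧ C * x1 - A * x2 = 0 := by
    rcases ValuationRing.dvd_total q1 q2 with ⟨t, ht⟩ | ⟨t, ht⟩
    · have h0 : q1 ≠ 0 := fun h0 ↦ hq.elim (fun h ↦ h h0) (fun h ↦ h (by rw [ht, h0, zero_mul]))
      exact ⟨1, t, 0, 1, by ring, mul_left_cancel₀ h0 (by linear_combination hk1 - B * ht),
        mul_left_cancel₀ h0 (by linear_combination hk2 + A * ht)⟩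
    · have h0 : q2 ≠ 0 := fun h0 ↦ hq.elim (fun h ↦ h (by rw [ht, h0, zero_mul])) (fun h ↦ h h0)
      exact ⟨t, 1, -1, 0, by ring, mul_left_cancel₀ h0 (by linear_combination hk1 - A * ht),
        mul_left_cancel₀ h0 (by linear_combination hk2 - C * ht)⟩
  refine ⟨⟨x1, x2, y1, y2, hdet, fun σ hσ ↦ ?_⟩⟩
  set A' := R.a σ - 1
  set B' := R.b σ
  set C' := R.c σ
  have hD' : R.d σ - 1 = -A' := by linear_combination S.trace_zero hσ
  have hsq' : A' * A' + B' * C' = 0 := (S.unipotent σ hσ).1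
  have htr : 2 * A * A' + B * C' + C * B' = 0 := by
    have h := S.trace_zero (mul_mem hs hσ)
    rw [R.a_mul, R.d_mul] at h
    have t1 := S.trace_zero hs
    linear_combination h - R.d σ * t1 - (1 - A) * hD'
  have q1' : B * C' - C * B' = 0 := mul_self_eq_zero.mp (by
    linear_combination (B * C' + C * B' - 2 * A * A') * htr + 4 * A ^ 2 * hsq' -
      4 * B' * C' * hsq)
  have q2' : A * B' - A' * B = 0 := mul_self_eq_zero.mp (by
    linear_combination (B' ^ 2) * hsq + B ^ 2 * hsq' - B * B' * htr)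
  have q3' : A * C' - A' * C = 0 := mul_self_eq_zero.mp (by
    linear_combination (C' ^ 2) * hsq + C ^ 2 * hsq' - C * C' * htr)
  rw [hD']
  by_cases hA : A = 0
  · by_cases hB : B = 0
    · have hC : C ≠ 0 := hne hA hB
      exact ⟨mul_left_cancel₀ hC (by linear_combination C' * hx1 - x2 * q1' - x1 * q3'),
        mul_left_cancel₀ hC (by linear_combination C' * hx2 + x2 * q3')⟩
    · exact ⟨mul_left_cancel₀ hB (by linear_combination B' * hx1 - x1 * q2'),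
        mul_left_cancel₀ hB (by linear_combination B' * hx2 + x1 * q1' + x2 * q2')⟩
  · exact ⟨mul_left_cancel₀ hA (by linear_combination A' * hx1 + x2 * q2'),
      mul_left_cancel₀ hA (by linear_combination A' * hx2 + x1 * q3')⟩

/-- The representation in a new basis. -/
def Rep.conj (R : Rep O ϖ) (x1 x2 y1 y2 : O) (h : x1 * y2 - x2 * y1 = 1) : Rep O ϖ where
  a σ := y2 * (R.a σ * x1 + R.b σ * x2) - y1 * (R.c σ * x1 + R.d σ * x2)
  b σ := y2 * (R.a σ * y1 + R.b σ * y2) - y1 * (R.c σ * y1 + R.d σ * y2)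
  c σ := x1 * (R.c σ * x1 + R.d σ * x2) - x2 * (R.a σ * x1 + R.b σ * x2)
  d σ := x1 * (R.c σ * y1 + R.d σ * y2) - x2 * (R.a σ * y1 + R.b σ * y2)
  a_one := by rw [R.a_one, R.b_one, R.c_one, R.d_one]; linear_combination h
  b_one := by rw [R.a_one, R.b_one, R.c_one, R.d_one]; ring
  c_one := by rw [R.a_one, R.b_one, R.c_one, R.d_one]; ring
  d_one := by rw [R.a_one, R.b_one, R.c_one, R.d_one]; linear_combination h
  a_mul σ τ := by
    rw [R.a_mul, R.b_mul, R.c_mul, R.d_mul]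
    linear_combination -((y2 * R.a σ - y1 * R.c σ) * (R.a τ * x1 + R.b τ * x2) +
      (y2 * R.b σ - y1 * R.d σ) * (R.c τ * x1 + R.d τ * x2)) * h
  b_mul σ τ := by
    rw [R.a_mul, R.b_mul, R.c_mul, R.d_mul]
    linear_combination -((y2 * R.a σ - y1 * R.c σ) * (R.a τ * y1 + R.b τ * y2) +
      (y2 * R.b σ - y1 * R.d σ) * (R.c τ * y1 + R.d τ * y2)) * h
  c_mul σ τ := by
    rw [R.a_mul, R.b_mul, R.c_mul, R.d_mul]
    linear_combination -((x1 * R.c σ - x2 * R.a σ) * (R.a τ * x1 + R.b τ * x2) +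
      (x1 * R.d σ - x2 * R.b σ) * (R.c τ * x1 + R.d τ * x2)) * h
  d_mul σ τ := by
    rw [R.a_mul, R.b_mul, R.c_mul, R.d_mul]
    linear_combination -((x1 * R.c σ - x2 * R.a σ) * (R.a τ * y1 + R.b τ * y2) +
      (x1 * R.d σ - x2 * R.b σ) * (R.c τ * y1 + R.d τ * y2)) * h
  cont n := by
    obtain ⟨V, hV, hd⟩ := R.cont n
    refine ⟨V, hV, fun σ hσ ↦ ?_⟩
    obtain ⟨⟨ta, ha⟩, ⟨tb, hb⟩, ⟨tc, hc⟩, ⟨td, hd'⟩⟩ := hd σ hσ
    refine ⟨⟨y2 * (ta * x1 + tb * x2) - y1 * (tc * x1 + td * x2), ?_⟩,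
      ⟨y2 * (ta * y1 + tb * y2) - y1 * (tc * y1 + td * y2), ?_⟩,
      ⟨x1 * (tc * x1 + td * x2) - x2 * (ta * x1 + tb * x2), ?_⟩,
      ⟨x1 * (tc * y1 + td * y2) - x2 * (ta * y1 + tb * y2), ?_⟩⟩
    · linear_combination y2 * x1 * ha + y2 * x2 * hb - y1 * x1 * hc - y1 * x2 * hd' + h
    · linear_combination y2 * y1 * ha + y2 * y2 * hb - y1 * y1 * hc - y1 * y2 * hd'
    · linear_combination -x2 * x1 * ha - x2 * x2 * hb + x1 * x1 * hc + x1 * x2 * hd'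
    · linear_combination -x2 * y1 * ha - x2 * y2 * hb + x1 * y1 * hc + x1 * y2 * hd' + h

theorem Rep.det_conj_basis (R : Rep O ϖ) (x1 x2 y1 y2 : O) (h : x1 * y2 - x2 * y1 = 1) (σ : GG) :
    (R.conj x1 x2 y1 y2 h).det σ = R.det σ := by
  simp only [Rep.det, Rep.conj]
  linear_combination (R.a σ * R.d σ - R.b σ * R.c σ) * (x1 * y2 - x2 * y1 + 1) * h

/-- The cocycle in a new basis. -/
def Cocycle.conj (κ : Cocycle R) (x1 x2 y1 y2 : O) (h : x1 * y2 - x2 * y1 = 1) :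
    Cocycle (R.conj x1 x2 y1 y2 h) where
  u σ := y2 * κ.u σ - y1 * κ.v σ
  v σ := x1 * κ.v σ - x2 * κ.u σ
  u_mul σ τ := by
    simp only [Rep.conj]
    rw [κ.u_mul, κ.v_mul]
    linear_combination -((y2 * R.a σ - y1 * R.c σ) * κ.u τ +
      (y2 * R.b σ - y1 * R.d σ) * κ.v τ) * h
  v_mul σ τ := by
    simp only [Rep.conj]
    rw [κ.u_mul, κ.v_mul]
    linear_combination -((x1 * R.c σ - x2 * R.a σ) * κ.u τ +
      (x1 * R.d σ - x2 * R.b σ) * κ.v τ) * h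
  cont n := by
    obtain ⟨V, hV, hd⟩ := κ.cont n
    exact ⟨V, hV, fun σ hσ ↦ ⟨((hd σ hσ).1.mul_left _).sub ((hd σ hσ).2.mul_left _),
      ((hd σ hσ).2.mul_left _).sub ((hd σ hσ).1.mul_left _)⟩⟩

variable (ϖ) in
/-- Data making `c` a homomorphism on a neighbourhood of inertia, level by level. -/
def IsTame (A : ValuationSubring (AlgebraicClosure ℚ)) (χ c : GG → O) : Prop :=
  ∀ n : ℕ, ∃ U V : Subgroup GG, IsOpen (V : Set GG) ∧ V ≤ U ∧ A.inertiaSubgroupIn ℚ ≤ U ∧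
    (∀ σ ∈ U, (l : O) ^ n ∣ χ σ - 1) ∧ (∀ σ ∈ V, (l : O) ^ n ∣ c σ) ∧
    ∀ σ ∈ U, ∀ τ ∈ U, (l : O) ^ n ∣ c (σ * τ) - (c σ + c τ)

theorem functional_eq_zero_of_dvd {n : ℕ} (g : O →+ ZMod (l ^ n)) {x : O} (hx : (l : O) ^ n ∣ x) :
    g x = 0 := by
  have h := functional_mul g (x := x) (y := 1) (k := 0) (by rwa [Nat.cast_zero, sub_zero])
  rwa [mul_one, Nat.cast_zero, zero_mul] at h

theorem IsTame.exists_eq_mul {A : ValuationSubring QQb} {χ c : GG → O}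
    (h : IsTame (l := l) A χ c) (hp : p.Prime) (hpl : p ≠ l) (hA : A.LiesOverPrime p)
    (hχ : IsCyclo l χ) {n : ℕ} {ζ π : QQb} (hζ : IsPrimitiveRoot ζ (l ^ n))
    (hπ : π ^ l ^ n = p) (g : O →+ ZMod (l ^ n)) :
    ∃ i : ZMod (l ^ n), ∀ σ ∈ A.inertiaSubgroupIn ℚ, g (c σ) = i * kum (l ^ n) ζ π σ := by
  obtain ⟨U, V, hV, hVU, hI, hdet, hcV, hadd⟩ := h n
  have hpm : ¬ p ∣ l ^ n := fun hd ↦
    hpl ((Nat.prime_dvd_prime_iff_eq hp Fact.out).mp (hp.dvd_of_dvd_pow hd))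
  have he : ∀ σ ∈ U, expChar (l ^ n) ζ σ = 1 := fun σ hσ ↦ by
    have h1 := (hdet σ hσ).sub (hχ.dvd_expChar hζ σ)
    rw [sub_sub_sub_cancel_left] at h1
    have h2 : (l : ℤ) ^ n ∣ ((expChar (l ^ n) ζ σ).val : ℤ) - 1 :=
      intCast_dvd_of_dvd (O := O) (by push_cast; exact h1)
    rw [← Nat.cast_pow, ← ZMod.intCast_zmod_eq_zero_iff_dvd, Int.cast_sub, Int.cast_natCast,
      ZMod.natCast_zmod_val, Int.cast_one, sub_eq_zero] at h2
    exact h2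
  refine exists_eq_tame_mul A hp hA hpm hζ hπ (isExp_expChar hζ)
    (fun σ ↦ kum_spec_rat hζ (r := (p : ℚ)) (Nat.cast_ne_zero.mpr hp.ne_zero)
      (by rw [hπ, Rat.cast_natCast]) σ) U V hV hVU hI (fun σ hσ τ hτ ↦ ?_)
    fun σ hσ ↦ functional_eq_zero_of_dvd g (hcV σ hσ)
  rw [he σ hσ, one_mul, ← map_add, ← sub_eq_zero, ← map_sub]
  exact functional_eq_zero_of_dvd g (hadd σ hσ τ hτ)

theorem kum_conj {A : ValuationSubring QQb} (hp : p.Prime) (hA : A.LiesOverPrime p) {m : ℕ}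
    [NeZero m] (hpm : ¬ p ∣ m) {ζ π : QQb} (hζ : IsPrimitiveRoot ζ m) (hπ : π ^ m = p) {φ σ : GG}
    (hσ : σ ∈ A.inertiaSubgroupIn ℚ) :
    kum m ζ π (φ * σ * φ⁻¹) = expChar m ζ φ * kum m ζ π σ := by
  have hp0 : (p : ℚ) ≠ 0 := Nat.cast_ne_zero.mpr hp.ne_zero
  have hr : π ^ m = ((p : ℚ) : QQb) := by rw [hπ, Rat.cast_natCast]
  have hπ0 : π ≠ 0 := fun e ↦ by
    rw [e, zero_pow (NeZero.ne m)] at hπ; exact Nat.cast_ne_zero.mpr hp.ne_zero hπ.symm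
  have hfix : σ ζ = ζ := map_eq_self_of_unit_pow A hp hA hpm
    (valuation_root_of_unity A (NeZero.ne m) hζ.pow_eq_one) hσ
    (by rw [hζ.pow_eq_one, map_one])
  refine zpowZMod_injective hζ (mul_right_cancel₀ hπ0 ?_)
  rw [← kum_spec_rat hζ hp0 hr, AlgEquiv.mul_apply, AlgEquiv.mul_apply,
    kum_spec_rat hζ hp0 hr φ⁻¹, map_mul σ, map_pow σ, hfix, kum_spec_rat hζ hp0 hr σ, map_mul,
    map_mul, map_pow, map_pow, isExp_expChar hζ φ, ← zpowZMod_mul hζ, ← zpowZMod_mul hζ]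
  have h : π = φ (ζ ^ (kum m ζ π φ⁻¹).val * π) := by
    rw [← kum_spec_rat hζ hp0 hr φ⁻¹, ← AlgEquiv.mul_apply, mul_inv_cancel, AlgEquiv.one_apply]
  rw [map_mul, map_pow, isExp_expChar hζ φ, ← zpowZMod_mul hζ] at h
  conv_rhs => arg 2; rw [h]
  ring

theorem IsTame.twist (hϖ : Irreducible ϖ) {A : ValuationSubring QQb} {χ c : GG → O}
    (h : IsTame (l := l) A χ c) (hp : p.Prime) (hpl : p ≠ l) (hA : A.LiesOverPrime p)
    (hχ : IsCyclo l χ) {φ σ : GG} (hφ : φ ∈ A.decompositionSubgroup ℚ)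
    (hσ : σ ∈ A.inertiaSubgroupIn ℚ) : c (φ * σ * φ⁻¹) = χ φ * c σ := by
  have hl : l.Prime := Fact.out
  refine sub_eq_zero.mp (eq_zero_of_forall_dvd hϖ fun n ↦ ?_)
  refine (pow_dvd_pow_of_dvd (irreducible_dvd_natCast (l := l) hϖ) n).trans
    (dvd_of_forall_functional fun g ↦ ?_)
  haveI : NeZero ((l : ℕ) : QQb) := ⟨Nat.cast_ne_zero.mpr hl.ne_zero⟩
  obtain ⟨ζ, hζ⟩ := HasEnoughRootsOfUnity.exists_primitiveRoot QQb (l ^ n)
  obtain ⟨π, hπ⟩ := IsAlgClosed.exists_pow_nat_eq (p : QQb) (pow_pos hl.pos n)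
  obtain ⟨i, hi⟩ := h.exists_eq_mul hp hpl hA hχ hζ hπ g
  rw [map_sub, functional_mul g (hχ.dvd_expChar hζ φ), hi _ (conj_mem A hφ hσ), hi σ hσ,
    kum_conj hp hA (fun hd ↦ hpl ((Nat.prime_dvd_prime_iff_eq hp hl).mp (hp.dvd_of_dvd_pow hd)))
      hζ hπ hσ, ZMod.natCast_zmod_val]
  ring

/-- Kernel of the determinant modulo `lⁿ`. -/
def detSubgroup (R : Rep O ϖ) (n : ℕ) : Subgroup GG where
  carrier := {σ | (l : O) ^ n ∣ R.det σ - 1}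
  one_mem' := by simp [R.det_one]
  mul_mem' {σ τ} h h' := by
    show (l : O) ^ n ∣ R.det (σ * τ) - 1
    rw [R.det_mul, show R.det σ * R.det τ - 1 =
      (R.det σ - 1) * R.det τ + (R.det τ - 1) by ring]
    exact (Dvd.dvd.mul_right h _).add h'
  inv_mem' {σ} h := by
    show (l : O) ^ n ∣ R.det σ⁻¹ - 1
    rw [show R.det σ⁻¹ - 1 = -((R.det σ - 1) * R.det σ⁻¹) by
      linear_combination R.det_mul_inv σ]
    exact (Dvd.dvd.mul_right h _).neg_right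

theorem dvd_a_sub_one {κ : Cocycle R} {n : ℕ} {σ : GG}
    (h : σ ∈ upperSubgroup (l := l) κ n ⊓ detSubgroup (l := l) R n) :
    (l : O) ^ n ∣ R.a σ - 1 := by
  obtain ⟨⟨hc, hd, -⟩, hdet : (l : O) ^ n ∣ R.det σ - 1⟩ := h
  rw [show R.a σ - 1 = (R.det σ - 1) - R.a σ * (R.d σ - 1) + R.b σ * R.c σ by rw [Rep.det]; ring]
  exact (hdet.sub (hd.mul_left _)).add (hc.mul_left _)

/-- The common hypothesis on a basis adapted to `p`. -/
def IsUpperAt (A : ValuationSubring (AlgebraicClosure ℚ)) (R : Rep O ϖ) : Prop :=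
  ∀ σ ∈ A.inertiaSubgroupIn ℚ, R.a σ = 1 ∧ R.c σ = 0 ∧ R.d σ = 1

theorem IsUpperAt.isTame (hϖ : Irreducible ϖ) {A : ValuationSubring QQb} (hA : IsUpperAt A R)
    (κ : Cocycle R) :
    IsTame (l := l) A R.det R.b ∧ IsTame (l := l) A R.det κ.v ∧
      ((∀ σ ∈ A.inertiaSubgroupIn ℚ, κ.v σ = 0) → IsTame (l := l) A R.det κ.u) := by
  have hI : ∀ (κ : Cocycle R) (n : ℕ), (∀ σ ∈ A.inertiaSubgroupIn ℚ, κ.v σ = 0) →
      A.inertiaSubgroupIn ℚ ≤ upperSubgroup (l := l) κ n ⊓ detSubgroup (l := l) R n := by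
    intro κ n hv σ hσ
    obtain ⟨ha, hc, hd⟩ := hA σ hσ
    refine ⟨⟨by simp [hc], by simp [hd], by simp [hv σ hσ]⟩, ?_⟩
    show (l : O) ^ n ∣ R.det σ - 1
    simp [Rep.det, ha, hc, hd]
  have hV : ∀ (κ : Cocycle R) (n : ℕ), ∃ V : Subgroup GG, IsOpen (V : Set GG) ∧
      V ≤ upperSubgroup (l := l) κ n ⊓ detSubgroup (l := l) R n ∧
      ∀ σ ∈ V, (l : O) ^ n ∣ R.b σ ∧ (l : O) ^ n ∣ κ.u σ ∧ (l : O) ^ n ∣ κ.v σ := by
    intro κ n
    obtain ⟨V, hV, h⟩ := R.exists_open_dvd κ hϖ (l := l) n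
    refine ⟨V, hV, fun σ hσ ↦ ?_, fun σ hσ ↦ ⟨(h σ hσ).2.1, (h σ hσ).2.2.2.2.1,
      (h σ hσ).2.2.2.2.2⟩⟩
    obtain ⟨ha, hb, hc, hd, hu, hv⟩ := h σ hσ
    refine ⟨⟨hc, hd, hv⟩, ?_⟩
    show (l : O) ^ n ∣ R.det σ - 1
    rw [show R.det σ - 1 = (R.a σ - 1) * R.d σ + (R.d σ - 1) - R.b σ * R.c σ by
      rw [Rep.det]; ring]
    exact ((ha.mul_right _).add hd).sub (hb.mul_right _)
  refine ⟨fun n ↦ ?_, fun n ↦ ?_, fun hv n ↦ ?_⟩
  · obtain ⟨V, hV0, hVU, hVd⟩ := hV (Cocycle.zero R) n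
    refine ⟨_, V, hV0, hVU, hI _ n fun _ _ ↦ rfl, fun σ hσ ↦ hσ.2,
      fun σ hσ ↦ (hVd σ hσ).1, fun σ hσ τ hτ ↦ ?_⟩
    rw [R.b_mul, show R.a σ * R.b τ + R.b σ * R.d τ - (R.b σ + R.b τ) =
      (R.a σ - 1) * R.b τ + R.b σ * (R.d τ - 1) by ring]
    exact ((dvd_a_sub_one hσ).mul_right _).add (hτ.1.2.1.mul_left _)
  · obtain ⟨V, hV0, hVU, hVd⟩ := hV (Cocycle.zero R) n
    obtain ⟨V', hV0', -, hVd'⟩ := hV κ n
    refine ⟨_, V ⊓ V', hV0.inter hV0', inf_le_left.trans hVU, hI _ n fun _ _ ↦ rfl,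
      fun σ hσ ↦ hσ.2, fun σ hσ ↦ (hVd' σ hσ.2).2.2, fun σ hσ τ hτ ↦ ?_⟩
    rw [κ.v_mul, show κ.v σ + (R.c σ * κ.u τ + R.d σ * κ.v τ) - (κ.v σ + κ.v τ) =
      R.c σ * κ.u τ + (R.d σ - 1) * κ.v τ by ring]
    exact (hσ.1.1.mul_right _).add (hσ.1.2.1.mul_right _)
  · obtain ⟨V, hV0, hVU, hVd⟩ := hV κ n
    refine ⟨_, V, hV0, hVU, hI κ n hv, fun σ hσ ↦ hσ.2,
      fun σ hσ ↦ (hVd σ hσ).2.1, fun σ hσ τ hτ ↦ ?_⟩
    rw [κ.u_mul, show κ.u σ + (R.a σ * κ.u τ + R.b σ * κ.v τ) - (κ.u σ + κ.u τ) =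
      (R.a σ - 1) * κ.u τ + R.b σ * κ.v τ by ring]
    exact ((dvd_a_sub_one hσ).mul_right _).add (hτ.1.2.2.mul_left _)

theorem PBasis.isUpperAt {S : Setup l p R} (B : PBasis S) :
    IsUpperAt S.Ap (R.conj B.x1 B.x2 B.y1 B.y2 B.det_one) := fun σ hσ ↦ by
  obtain ⟨k1, k2⟩ := B.kill σ hσ
  refine ⟨?_, ?_, ?_⟩ <;> simp only [Rep.conj]
  · linear_combination B.y2 * k1 - B.y1 * k2 + B.det_one
  · linear_combination B.x1 * k2 - B.x2 * k1
  · linear_combination B.y1 * k2 - B.y2 * k1 + B.det_one +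
      (B.x1 * B.y2 - B.x2 * B.y1) * S.trace_zero hσ - S.trace_zero hσ * 0

/-- If inertia at `p` acts nontrivially, cocycles take values in the common line. -/
theorem PBasis.v_eq_zero (hϖ : Irreducible ϖ) (hp : p.Prime) (hpl : p ≠ l) {S : Setup l p R}
    (B : PBasis S) {s : GG} (hs : s ∈ S.Ap.inertiaSubgroupIn ℚ)
    (hne : ¬ (R.a s = 1 ∧ R.b s = 0 ∧ R.c s = 0 ∧ R.d s = 1)) (κ : Cocycle R) {σ : GG}
    (hσ : σ ∈ S.Ap.inertiaSubgroupIn ℚ) : B.x1 * κ.v σ - B.x2 * κ.u σ = 0 := by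
  set T := R.conj B.x1 B.x2 B.y1 B.y2 B.det_one with hT
  set μ := κ.conj B.x1 B.x2 B.y1 B.y2 B.det_one
  have hU : IsUpperAt S.Ap T := B.isUpperAt
  have hdet : T.det = R.det := funext fun σ ↦ R.det_conj_basis _ _ _ _ B.det_one σ
  have hχ : IsCyclo l T.det := hdet ▸ S.cyclo
  obtain ⟨hb, hv, -⟩ := hU.isTame (l := l) hϖ μ
  have hsb : T.b s ≠ 0 := fun h0 ↦ by
    obtain ⟨h1, h2, h3⟩ := hU s hs
    simp only [hT, Rep.conj] at h0 h1 h2 h3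
    refine hne ⟨?_, ?_, ?_, ?_⟩
    · linear_combination B.x1 * B.y2 * h1 - B.x1 * B.x2 * h0 + B.y1 * B.y2 * h2 -
        B.y1 * B.x2 * h3 + (B.det_one) - (B.x1 * B.y2 - B.x2 * B.y1 + 1) * R.a s * B.det_one
    · linear_combination -B.x1 * B.y1 * h1 + B.x1 ^ 2 * h0 - B.y1 ^ 2 * h2 + B.x1 * B.y1 * h3 -
        (B.x1 * B.y2 - B.x2 * B.y1 + 1) * R.b s * B.det_one
    · linear_combination B.x2 * B.y2 * h1 - B.x2 ^ 2 * h0 + B.y2 ^ 2 * h2 - B.x2 * B.y2 * h3 -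
        (B.x1 * B.y2 - B.x2 * B.y1 + 1) * R.c s * B.det_one
    · linear_combination -B.x2 * B.y1 * h1 + B.x1 * B.x2 * h0 - B.y1 * B.y2 * h2 +
        B.x1 * B.y2 * h3 + (B.det_one) - (B.x1 * B.y2 - B.x2 * B.y1 + 1) * R.d s * B.det_one
  have hφ := S.φp_mem
  set φ := S.φp
  have hs' : φ * s * φ⁻¹ * φ = φ * s := by group
  have hbs := hb.twist hϖ hp hpl S.liesp hχ hφ hs
  obtain ⟨a1, c1, d1⟩ := hU _ (conj_mem S.Ap hφ hs)
  obtain ⟨a0, c0, d0⟩ := hU s hs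
  have ea := T.a_mul (φ * s * φ⁻¹) φ
  have eb := T.b_mul (φ * s * φ⁻¹) φ
  rw [hs', a1, hbs] at ea eb
  rw [T.a_mul φ s, a0, c0] at ea
  rw [T.b_mul φ s, d0] at eb
  have hu := T.isUnit_det φ
  have hC : T.c φ = 0 :=
    (mul_eq_zero.mp (show T.det φ * T.b s * T.c φ = 0 by linear_combination -ea)).resolve_left
      (mul_ne_zero hu.ne_zero hsb)
  have hA' : T.a φ = T.det φ * T.d φ := mul_left_cancel₀ hsb (by linear_combination eb)
  have hD : T.d φ * T.d φ = 1 := by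
    refine mul_left_cancel₀ hu.ne_zero ?_
    have hd := show T.det φ = T.a φ * T.d φ by rw [Rep.det, hC, mul_zero, sub_zero]
    linear_combination -hd - T.d φ * hA'
  obtain ⟨a2, c2, d2⟩ := hU _ (conj_mem S.Ap hφ hσ)
  have hvs := hv.twist hϖ hp hpl S.liesp hχ hφ hσ
  have ev := μ.v_mul (φ * σ * φ⁻¹) φ
  rw [show φ * σ * φ⁻¹ * φ = φ * σ by group, hvs, c2, d2, μ.v_mul φ σ, hC] at ev
  have hne' : T.det φ - T.d φ ≠ 0 := fun h ↦ S.φp_sq (by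
    rw [← congrFun hdet φ, sub_eq_zero.mp h, sq]; exact hD)
  exact (mul_eq_zero.mp (show (T.det φ - T.d φ) * μ.v σ = 0 by
    linear_combination -ev)).resolve_left hne'

/-- Residual shape of a cocycle on inertia at `p`, in the common line. -/
theorem PBasis.exists_eq_mul (hϖ : Irreducible ϖ) (hp : p.Prime) (hpl : p ≠ l) {S : Setup l p R}
    (B : PBasis S) (κ : Cocycle R)
    (hv : ∀ σ ∈ S.Ap.inertiaSubgroupIn ℚ, B.x1 * κ.v σ - B.x2 * κ.u σ = 0) {n : ℕ} {ζ π : QQb}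
    (hζ : IsPrimitiveRoot ζ (l ^ n)) (hπ : π ^ l ^ n = p) (g : O →+ ZMod (l ^ n)) :
    ∃ i : ZMod (l ^ n), ∀ σ ∈ S.Ap.inertiaSubgroupIn ℚ,
      g (B.y2 * κ.u σ - B.y1 * κ.v σ) = i * kum (l ^ n) ζ π σ := by
  set T := R.conj B.x1 B.x2 B.y1 B.y2 B.det_one with hT
  set μ := κ.conj B.x1 B.x2 B.y1 B.y2 B.det_one
  have hdet : T.det = R.det := funext fun σ ↦ R.det_conj_basis _ _ _ _ B.det_one σ
  exact ((B.isUpperAt.isTame (l := l) hϖ μ).2.2 hv).exists_eq_mul hp hpl S.liesp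
    (hdet ▸ S.cyclo) hζ hπ g

end FLTAgent.Mazur
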