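import Fermat.Agent.Places.Basic

/-!
# Elements fixed by inertia have the values of rational numbers

If `a ≠ 0` is fixed by the inertia group of a place `A` of `ℚ̄` over `q` then the value of `a` is an
integral power of the value of `q`. This is the only input from local fields used in the descent.
-/

set_option autoImplicit false

noncomputable section

namespace FLTAgent.Mazur

open NumberField FLTAgent.Frobenius FLTAgent.Places
open scoped Pointwise

local notation "QQb" => AlgebraicClosure ℚ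
local notation "GG" => (AlgebraicClosure ℚ ≃ₐ[ℚ] AlgebraicClosure ℚ)
local notation "ZB" => integralClosure ℤ (AlgebraicClosure ℚ)

local instance (priority := 2000) algLevel (L : IntermediateField ℚ (AlgebraicClosure ℚ)) :
    Algebra ℚ L := L.algebra'

theorem isGalois_QQb : IsGalois ℚ (AlgebraicClosure ℚ) := by
  haveI : IsAlgClosure ℚ (AlgebraicClosure ℚ) :=
    ⟨inferInstance, AlgebraicClosure.isAlgebraic ℚ⟩
  haveI : Normal ℚ (AlgebraicClosure ℚ) := IsAlgClosure.normal ℚ _
  exact ⟨⟩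

variable {q : ℕ} (A : ValuationSubring (AlgebraicClosure ℚ))

theorem valuation_natCast_lt_one (hA : A.LiesOverPrime q) : A.valuation (q : QQb) < 1 :=
  A.mem_nonunits_iff.mp hA

theorem valuation_natCast_ne_zero (hq : q.Prime) : A.valuation (q : QQb) ≠ 0 :=
  (Valuation.ne_zero_iff _).mpr (Nat.cast_ne_zero.mpr hq.ne_zero)

/-- An algebraic integer outside the centre is a unit at the place. -/
theorem valuation_eq_one_of_notMem {b : ZB} (hb : b ∉ centre A) :
    A.valuation (b : QQb) = 1 :=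
  le_antisymm ((A.valuation_le_one_iff _).mpr (integralClosure_le A b))
    (not_lt.mp fun h => hb ((mem_centre_iff A).mpr (A.mem_nonunits_iff.mpr h)))

variable {L : IntermediateField ℚ (AlgebraicClosure ℚ)}

/-- The integers of a subfield inside the algebraic integers. -/
def intEmbed (L : IntermediateField ℚ (AlgebraicClosure ℚ)) : 𝓞 L →+* ZB :=
  ((algebraMap L QQb).comp (algebraMap (𝓞 L) L)).codRestrict (ZB).toSubring
    fun c ↦ c.2.algebraMap

theorem coe_intEmbed (L : IntermediateField ℚ (AlgebraicClosure ℚ)) (c : 𝓞 L) :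
    ((intEmbed L c : ZB) : QQb) = ((c : L) : QQb) := rfl

/-- The inertia group of a finite Galois level lifts to inertia, modulo the kernel. -/
theorem exists_inertia_restrict [FiniteDimensional ℚ L] [hgal : IsGalois ℚ L]
    (τ : Gal(L/ℚ)) (hτ : ∀ c : 𝓞 L,
      intEmbed L (RingOfIntegers.mapRingHom (τ : L →+* L) c) - intEmbed L c ∈ centre A) :
    ∃ σ ∈ A.inertiaSubgroupIn ℚ, AlgEquiv.restrictNormalHom L σ = τ := by
  haveI := isGalois_QQb
  obtain ⟨g, hg⟩ := AlgEquiv.restrictNormalHom_surjective QQb (K₁ := L) τ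
  set H := L.fixingSubgroup
  haveI hn : H.Normal := (InfiniteGalois.normal_iff_isGalois L).mpr hgal
  haveI : Normal ℚ L := hgal.to_normal
  have hclosed : IsClosed (H : Set GG) := InfiniteGalois.fixingSubgroup_isClosed L
  have hfix : IntermediateField.fixedField H = L := InfiniteGalois.fixedField_fixingSubgroup L
  have hcong : ∀ b : FixedPoints.subalgebra ℤ ZB H, g • (b : ZB) - b ∈ centre A := by
    intro b
    have hmem : ((b : ZB) : QQb) ∈ L := by
      rw [← hfix]
      exact fun k ↦ congrArg Subtype.val (b.2 k)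
    have hint : IsIntegral ℤ (⟨_, hmem⟩ : L) :=
      (isIntegral_algebraMap_iff (algebraMap L QQb).injective).mp (b : ZB).2
    have h := hτ ⟨⟨_, hmem⟩, hint⟩
    have e : intEmbed L (RingOfIntegers.mapRingHom (τ : L →+* L) ⟨⟨_, hmem⟩, hint⟩) =
        g • (b : ZB) := Subtype.ext <| by
      rw [coe_intEmbed, ← hg]
      exact AlgEquiv.restrictNormalHom_apply L g _
    rwa [e] at h
  obtain ⟨k, hk, hkI⟩ := exists_mul_mem_inertia A H hclosed g hcong
  refine ⟨k * g, hkI, ?_⟩
  rw [map_mul, hg]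
  have : AlgEquiv.restrictNormalHom L k = 1 := by
    refine AlgEquiv.ext fun x ↦ Subtype.ext ?_
    refine (AlgEquiv.restrictNormalHom_apply L k x).trans ?_
    exact (IntermediateField.mem_fixingSubgroup_iff _ _).mp hk x x.2
  rw [this, one_mul]

/-- **Elements fixed by inertia have rational values.** -/
theorem exists_zpow_valuation (hq : q.Prime) (hA : A.LiesOverPrime q) {a : QQb} (ha : a ≠ 0)
    (hfix : ∀ σ ∈ A.inertiaSubgroupIn ℚ, σ a = a) :
    ∃ i : ℤ, A.valuation a = A.valuation (q : QQb) ^ i := by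
  haveI := isGalois_QQb
  -- a finite Galois level
  let L : IntermediateField ℚ QQb := IntermediateField.normalClosure ℚ (IntermediateField.adjoin ℚ {a}) QQb
  haveI : FiniteDimensional ℚ (IntermediateField.adjoin ℚ ({a} : Set QQb)) :=
    IntermediateField.adjoin.finiteDimensional (AlgebraicClosure.isAlgebraic ℚ |>.isAlgebraic a).isIntegral
  haveI : FiniteDimensional ℚ L := normalClosure.is_finiteDimensional ℚ _ _
  haveI : IsGalois ℚ L := IsGalois.normalClosure ℚ _ _
  haveI : NumberField L := ⟨⟩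
  have haL : a ∈ L := IntermediateField.le_normalClosure _ (IntermediateField.mem_adjoin_simple_self ℚ a)
  -- the prime of the level
  let P : Ideal (𝓞 L) := (centre A).comap (intEmbed L)
  haveI : P.IsPrime := Ideal.IsPrime.comap _
  have hqP : (q : 𝓞 L) ∈ P := by
    rw [Ideal.mem_comap, map_natCast]
    exact natCast_mem_centre A hA
  have hPbot : P ≠ ⊥ := fun hb ↦ by
    rw [hb, Ideal.mem_bot, Nat.cast_eq_zero] at hqP
    exact hq.ne_zero hqP
  haveI hPmax : P.IsMaximal := Ideal.IsPrime.isMaximal inferInstance hPbot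
  let : MulSemiringAction Gal(L/ℚ) (𝓞 L) := IsIntegralClosure.MulSemiringAction ℤ ℚ L _
  haveI := IsGaloisGroup.of_isFractionRing Gal(L/ℚ) ℤ (𝓞 L) ℚ L
  have hsmul : ∀ (τ : Gal(L/ℚ)) (c : 𝓞 L), ((τ • c : 𝓞 L) : L) = τ (c : L) :=
    fun τ c ↦ algebraMap_galRestrict_apply ℤ τ c
  -- its inertia field
  let T : Subgroup Gal(L/ℚ) := P.inertia Gal(L/ℚ)
  let E : IntermediateField ℚ L := FixedPoints.intermediateField T
  have haE : (⟨a, haL⟩ : L) ∈ E := by
    intro τ
    obtain ⟨σ, hσ, hστ⟩ := exists_inertia_restrict A (τ : Gal(L/ℚ)) (fun c ↦ by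
      have h : (τ : Gal(L/ℚ)) • c - c ∈ P := τ.2 c
      rw [Ideal.mem_comap, map_sub] at h
      have e : RingOfIntegers.mapRingHom (((τ : Gal(L/ℚ)) : L ≃ₐ[ℚ] L) : L →+* L) c =
          (τ : Gal(L/ℚ)) • c := RingOfIntegers.ext (hsmul _ c).symm
      rw [e]
      exact h)
    refine Subtype.ext ?_
    show (((τ : Gal(L/ℚ)) ⟨a, haL⟩ : L) : QQb) = a
    rw [← hστ]
    exact (AlgEquiv.restrictNormalHom_apply L σ _).trans (hfix σ hσ)
  haveI : NumberField E := NumberField.of_module_finite ℚ E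
  let PE : Ideal (𝓞 E) := P.under (𝓞 E)
  haveI : PE.IsPrime := Ideal.IsPrime.under _ P
  haveI : P.LiesOver PE := ⟨rfl⟩
  haveI : IsGaloisGroup T E L := IsGaloisGroup.subgroup Gal(L/ℚ) ℚ L T
  haveI : SMulDistribClass T (𝓞 L) L := ⟨fun g c x ↦ by
    rw [Algebra.smul_def, Algebra.smul_def, smul_mul']
    congr 1
    exact (hsmul (g : Gal(L/ℚ)) c).symm⟩
  haveI := IsGaloisGroup.of_isFractionRing T (𝓞 E) (𝓞 L) E L
  haveI : PE.IsMaximal := Ideal.IsMaximal.under (𝓞 E) P
  haveI : (P.under ℤ).IsMaximal := Ideal.IsMaximal.under ℤ P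
  have hT : P.inertia T = ⊤ := by
    refine eq_top_iff.mpr fun g _ c ↦ ?_
    exact g.2 c
  have e1 : Nat.card T = P.ramificationIdx ℤ := by
    rw [← Ideal.ramificationIdxIn_eq_ramificationIdx (P.under ℤ) P Gal(L/ℚ)]
    exact Ideal.card_inertia_eq_ramificationIdxIn (G := Gal(L/ℚ)) (P.under ℤ) P
  have e2 : Nat.card T = P.ramificationIdx (𝓞 E) := by
    rw [← Ideal.ramificationIdxIn_eq_ramificationIdx PE P T,
      ← Ideal.card_inertia_eq_ramificationIdxIn (G := T) PE P, hT, Subgroup.card_top]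
  have hunr : PE.ramificationIdx ℤ = 1 := by
    have ht := Ideal.ramificationIdx_tower (R := ℤ) PE P
    rw [← e1, ← e2] at ht
    exact (Nat.eq_of_mul_eq_mul_right Nat.card_pos ((one_mul _).trans ht)).symm
  -- uniformiser `q`
  have hqPE : (q : 𝓞 E) ∈ PE := by
    rw [Ideal.mem_comap, map_natCast]; exact hqP
  have hPE0 : PE ≠ ⊥ := fun hb ↦ by
    rw [hb, Ideal.mem_bot, Nat.cast_eq_zero] at hqPE
    exact hq.ne_zero hqPE
  have hmap : Ideal.map (algebraMap ℤ (𝓞 E)) (Ideal.span {(q : ℤ)}) = Ideal.span {(q : 𝓞 E)} := by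
    rw [Ideal.map_span, Set.image_singleton, map_natCast]
  haveI : PE.LiesOver (Ideal.span {(q : ℤ)}) := ⟨by
    have hmax : (Ideal.span {(q : ℤ)}).IsMaximal :=
      PrincipalIdealRing.isMaximal_of_irreducible (Nat.prime_iff_prime_int.mp hq).irreducible
    refine hmax.eq_of_le (Ideal.IsPrime.under ℤ PE).ne_top ?_
    rw [Ideal.span_le, Set.singleton_subset_iff, SetLike.mem_coe, Ideal.mem_comap, map_natCast]
    exact hqPE⟩
  obtain ⟨J, hJ, hqJ⟩ : ∃ J : Ideal (𝓞 E), ¬ J ≤ PE ∧ Ideal.span {(q : 𝓞 E)} = PE * J := by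
    have hne : Ideal.span {(q : 𝓞 E)} ≠ ⊥ := by
      rw [Ne, Ideal.span_singleton_eq_bot, Nat.cast_eq_zero]; exact hq.ne_zero
    obtain ⟨J, hJ⟩ := Ideal.dvd_iff_le.mpr
      ((Ideal.span_singleton_le_iff_mem (I := PE)).mpr hqPE)
    refine ⟨J, fun hle ↦ ?_, hJ⟩
    obtain ⟨J', rfl⟩ := Ideal.dvd_iff_le.mpr hle
    have h2 : PE ^ 2 ∣ Ideal.span {(q : 𝓞 E)} := ⟨J', by rw [hJ, sq, mul_assoc]⟩
    have hm := Ideal.IsDedekindDomain.ramificationIdx_eq_multiplicity (Ideal.span {(q : ℤ)}) PE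
      (by rw [hmap]; exact hne)
    rw [hunr, hmap] at hm
    have hfin : FiniteMultiplicity PE (Ideal.span {(q : 𝓞 E)}) :=
      FiniteMultiplicity.of_not_isUnit
        (fun hu ↦ (Ideal.IsPrime.ne_top inferInstance : PE ≠ ⊤) (Ideal.isUnit_iff.mp hu)) hne
    have := hfin.le_multiplicity_of_pow_dvd h2
    omega
  obtain ⟨j, hjJ, hjP⟩ := SetLike.not_le_iff_exists.mp hJ
  let ι : 𝓞 E →+* ZB := (intEmbed L).comp (algebraMap (𝓞 E) (𝓞 L))
  have hval1 : ∀ z : 𝓞 E, z ∉ PE → A.valuation (ι z : QQb) = 1 := fun z hz ↦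
    valuation_eq_one_of_notMem A fun h ↦ hz h
  have key : ∀ x : 𝓞 E, x ≠ 0 → ∃ n : ℕ, A.valuation (ι x : QQb) = A.valuation (q : QQb) ^ n := by
    intro x hx
    have hfin : FiniteMultiplicity PE (Ideal.span {x}) :=
      FiniteMultiplicity.of_not_isUnit
        (fun hu ↦ (Ideal.IsPrime.ne_top inferInstance : PE ≠ ⊤) (Ideal.isUnit_iff.mp hu))
        (by simpa using hx)
    set n := multiplicity PE (Ideal.span {x})
    have hdvd : Ideal.span {(q : 𝓞 E) ^ n} ∣ Ideal.span {x * j ^ n} := by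
      rw [← Ideal.span_singleton_pow, hqJ, mul_pow, ← Ideal.span_singleton_mul_span_singleton,
        ← Ideal.span_singleton_pow]
      exact mul_dvd_mul (pow_multiplicity_dvd _ _)
        (pow_dvd_pow_of_dvd (Ideal.dvd_iff_le.mpr
          ((Ideal.span_singleton_le_iff_mem (I := J)).mpr hjJ)) n)
    rw [Ideal.dvd_iff_le, Ideal.span_singleton_le_span_singleton] at hdvd
    obtain ⟨t, ht⟩ := hdvd
    have htP : t ∉ PE := fun htP ↦ by
      have h1 : PE ^ (n + 1) ∣ Ideal.span {x} * Ideal.span {j} ^ n := by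
        rw [Ideal.span_singleton_pow, Ideal.span_singleton_mul_span_singleton, ht,
          ← Ideal.span_singleton_mul_span_singleton, ← Ideal.span_singleton_pow, pow_succ]
        exact mul_dvd_mul (pow_dvd_pow_of_dvd (Ideal.dvd_iff_le.mpr
            ((Ideal.span_singleton_le_iff_mem (I := PE)).mpr hqPE)) n)
          (Ideal.dvd_iff_le.mpr ((Ideal.span_singleton_le_iff_mem (I := PE)).mpr htP))
      have hp : Prime PE := Ideal.prime_of_isPrime hPE0 inferInstance
      have h2 := hp.pow_dvd_of_dvd_mul_right (n + 1)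
        (fun h ↦ hjP ((Ideal.span_singleton_le_iff_mem (I := PE)).mp
          (Ideal.dvd_iff_le.mp (hp.dvd_of_dvd_pow h)))) h1
      have h3 := hfin.le_multiplicity_of_pow_dvd h2
      change n + 1 ≤ n at h3
      omega
    refine ⟨n, ?_⟩
    have h := congrArg (fun z : 𝓞 E ↦ A.valuation (ι z : QQb)) ht
    simp only [map_mul, map_pow, map_natCast] at h
    push_cast at h
    simp only [map_mul, map_pow, hval1 t htP, hval1 j hjP, one_pow, mul_one] at h
    exact h
  obtain ⟨x, y, hy, hxy⟩ := IsFractionRing.div_surjective (𝓞 E) (⟨⟨a, haL⟩, haE⟩ : E)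
  have hy0 : y ≠ 0 := nonZeroDivisors.ne_zero hy
  have hx0 : x ≠ 0 := by
    rintro rfl
    rw [map_zero, zero_div] at hxy
    exact ha (congrArg (fun z : E ↦ ((z : L) : QQb)) hxy).symm
  obtain ⟨n, hn⟩ := key x hx0
  obtain ⟨m, hm⟩ := key y hy0
  refine ⟨(n : ℤ) - m, ?_⟩
  rw [zpow_sub₀ (valuation_natCast_ne_zero A hq), zpow_natCast, zpow_natCast, ← hn, ← hm,
    ← map_div₀]
  congr 1
  have := congrArg (fun z : E ↦ ((z : L) : QQb)) hxy
  push_cast at this
  exact this.symm

end FLTAgent.Mazur
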