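import Fermat.Agent.TorsionHom.Interp
import Fermat.Agent.GoodModel.WDiff

/-!
# Functions on `X₀(p)` from families indexed by the vectors modulo `p`

A family `F_v`, permuted by `SL₂(ℤ)` acting on `v`, gives the `Γ₀(p)`-invariant product over the
vectors `(0, u)`, `u ≠ 0`; it lies in the function field when the expansions are over `ℚ̄`.
-/

set_option autoImplicit false
set_option linter.style.haveILetI false
set_option maxHeartbeats 1000000
set_option synthInstance.maxHeartbeats 400000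

noncomputable section

open UpperHalfPlane hiding I I_re I_im
open Filter Topology Complex Function CongruenceSubgroup ModularCurve
open FLTAgent.ModEq (qp HasExp GeOrd exists_geOrd)
open FLTAgent.X0Fn (qh Per PerL expL expL_eq qExp hasSum_qExp W0 expW XF iota trans pointEmb cuspEmb
  taylorAt)
open scoped MatrixGroups Manifold

namespace FLTAgent.Mazur

local notation "QA" => AlgebraicClosure ℚ

/-- The right action of `SL₂(ℤ)` on vectors modulo `p`. -/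
def vact {p : ℕ} (v : ZMod p × ZMod p) (γ : SL(2, ℤ)) : ZMod p × ZMod p :=
  (v.1 * (γ 0 0 : ℤ) + v.2 * (γ 1 0 : ℤ), v.1 * (γ 0 1 : ℤ) + v.2 * (γ 1 1 : ℤ))

theorem vact_mul {p : ℕ} (v : ZMod p × ZMod p) (γ δ : SL(2, ℤ)) :
    vact v (γ * δ) = vact (vact v γ) δ := by
  simp only [vact, Matrix.SpecialLinearGroup.coe_mul, Matrix.mul_apply, Fin.sum_univ_two]
  push_cast
  ext <;> ring

theorem vact_one {p : ℕ} (v : ZMod p × ZMod p) : vact v 1 = v := by simp [vact]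

theorem vact_ne_zero {p : ℕ} {v : ZMod p × ZMod p} (hv : v ≠ 0) (γ : SL(2, ℤ)) : vact v γ ≠ 0 :=
  fun h ↦ hv (by
    have := congrArg (fun w ↦ vact w γ⁻¹) h
    rw [← vact_mul, mul_inv_cancel, vact_one] at this
    rw [this]
    simp [vact])

section General

variable {N : ℕ} [NeZero N]

theorem hasExp_expL (f : PerL (N : ℝ)) : HasExp N (f : ℍ → ℂ) (expL (N : ℝ) f) := by
  obtain ⟨m, hm⟩ := f.2
  rw [expL_eq f hm]
  have h1 : HasExp N ((f : ℍ → ℂ) * qh (N : ℝ) ^ m)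
      (HahnSeries.ofPowerSeries ℤ ℂ (qExp (N : ℝ) ⟨_, hm⟩)) :=
    HasExp.of_nat (Eventually.of_forall fun τ ↦ by
      simpa [qh, qp, smul_eq_mul] using hasSum_qExp ⟨_, hm⟩ τ)
  refine (h1.mul_single (-(m : ℤ))).congr (Eventually.of_forall fun τ ↦ ?_)
  simp only [Pi.mul_apply, Pi.pow_apply, zpow_neg, zpow_natCast]
  show (qp N τ ^ m)⁻¹ * ((f : ℍ → ℂ) τ * qp N τ ^ m) = _
  field_simp [FLTAgent.ModEq.qp_ne_zero N τ]

theorem mem_PerL_of_hasExp {f : ℍ → ℂ} {F : LaurentSeries ℂ} (hf : MDiff f)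
    (hper : ∀ τ : ℍ, f ((N : ℝ) +ᵥ τ) = f τ) (he : HasExp N f F) : f ∈ PerL (N : ℝ) := by
  obtain ⟨m, hm⟩ := exists_geOrd F
  refine ⟨m, hf.mul (FLTAgent.X0Fn.mdiff_qh.pow m), fun z ↦ ?_, ?_⟩
  · have hq := FLTAgent.X0Fn.periodic_qh (h := (N : ℝ)) z
    simp only [comp_apply] at hq
    simp only [comp_apply, Pi.mul_apply, Pi.pow_apply, hq]
    congr 1
    by_cases hz : 0 < z.im
    · have hz1 : 0 < (z + ((N : ℝ) : ℂ)).im := by simpa using hz
      rw [ofComplex_apply_of_im_pos hz, ofComplex_apply_of_im_pos hz1, ← hper ⟨z, hz⟩]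
      congr 1
      apply UpperHalfPlane.ext
      simp [add_comm]
    · have hz1 : (z + ((N : ℝ) : ℂ)).im ≤ 0 := by simpa using not_lt.mp hz
      rw [ofComplex_apply_of_im_nonpos hz1, ofComplex_apply_of_im_nonpos (not_lt.mp hz)]
  · have h := he.mul_single (m : ℤ)
    have hb := h.isBoundedAtImInfty fun k hk ↦ by
      rw [HahnSeries.coeff_single_mul, one_mul]
      exact hm _ (by omega)
    refine hb.congr_left fun τ ↦ ?_
    simp [qh, qp, mul_comm]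

theorem exists_qExpand_eq {R : Type*} [CommRing R] {X : LaurentSeries R}
    (h : ∀ k : ℤ, ¬ (N : ℤ) ∣ k → X.coeff k = 0) :
    ∃ z : LaurentSeries R, qExpand R N z = X := by
  refine ⟨HahnSeries.ofSuppBddBelow (fun k => X.coeff ((N : ℤ) * k))
    ⟨min X.order 0, fun k hk => ?_⟩, ?_⟩
  · have h2 := HahnSeries.order_le_of_coeff_ne_zero (show X.coeff ((N : ℤ) * k) ≠ 0 from hk)
    rcases le_or_gt 0 k with h | h
    · exact (min_le_right _ _).trans h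
    · refine (min_le_left _ _).trans (h2.trans ?_)
      have : (1 : ℤ) ≤ N := by exact_mod_cast Nat.pos_of_ne_zero (NeZero.ne N)
      nlinarith
  · ext i
    by_cases hi : (N : ℤ) ∣ i
    · obtain ⟨k, rfl⟩ := hi
      rw [qExpand_coeff_mul]
      rfl
    · rw [qExpand_coeff_of_not_dvd N _ hi, h i hi]

end General

variable (κ : QA →+* ℂ) (p : ℕ)

/-- A family of holomorphic functions indexed by nonzero vectors modulo `p`. -/
structure Fam where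
  /-- the functions -/
  F : ZMod p × ZMod p → ℍ → ℂ
  /-- their expansions -/
  X : ZMod p × ZMod p → LaurentSeries QA
  mdiff : ∀ v, v ≠ 0 → MDiff (F v)
  smul : ∀ v, v ≠ 0 → ∀ (γ : SL(2, ℤ)) (τ : ℍ), F v (γ • τ) = F (vact v γ) τ
  exp : ∀ v, v ≠ 0 → HasExp p (F v) (coeffMap κ (X v))

variable {κ} {p} [Fact p.Prime] (𝔉 : Fam κ p)

instance instNeZeroOfFact : NeZero p := ⟨(Fact.out : p.Prime).ne_zero⟩

theorem unit_vec_ne_zero (u : (ZMod p)ˣ) : ((0 : ZMod p), (u : ZMod p)) ≠ 0 := fun h ↦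
  u.ne_zero (congrArg Prod.snd h)

omit [Fact p.Prime] in
theorem smul_vadd (τ : ℍ) : ((p : ℝ) +ᵥ τ) = ModularGroup.T ^ (p : ℤ) • τ := by
  apply UpperHalfPlane.ext
  rw [UpperHalfPlane.modular_T_zpow_smul]
  simp

omit [Fact p.Prime] in
theorem vact_T_pow (v : ZMod p × ZMod p) : vact v (ModularGroup.T ^ (p : ℤ)) = v := by
  have h : (↑(ModularGroup.T ^ (p : ℤ)) : Matrix (Fin 2) (Fin 2) ℤ) = !![1, (p : ℤ); 0, 1] :=
    ModularGroup.coe_T_zpow p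
  simp only [vact, h]
  simp

theorem Fam.periodic {v : ZMod p × ZMod p} (hv : v ≠ 0) (τ : ℍ) :
    𝔉.F v ((p : ℝ) +ᵥ τ) = 𝔉.F v τ := by
  rw [smul_vadd, 𝔉.smul v hv, vact_T_pow]

/-- The invariant product. -/
def Fam.prod : ℍ → ℂ := fun τ ↦ ∏ u : (ZMod p)ˣ, 𝔉.F (0, (u : ZMod p)) τ

theorem Fam.prod_smul (g : SL(2, ℤ)) (τ : ℍ) :
    𝔉.prod (g • τ) = ∏ u : (ZMod p)ˣ, 𝔉.F (vact (0, (u : ZMod p)) g) τ :=
  Finset.prod_congr rfl fun u _ ↦ 𝔉.smul _ (unit_vec_ne_zero u) g τ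

theorem Fam.prod_mem : 𝔉.prod ∈ W0 p := by
  have hmd : ∀ g : SL(2, ℤ),
      MDiff fun τ ↦ ∏ u : (ZMod p)ˣ, 𝔉.F (vact (0, (u : ZMod p)) g) τ := fun g ↦ by
    have h := Subalgebra.prod_mem FLTAgent.X0Fn.Hol (t := Finset.univ)
      (f := fun u : (ZMod p)ˣ ↦ 𝔉.F (vact (0, (u : ZMod p)) g))
      fun u _ ↦ 𝔉.mdiff _ (vact_ne_zero (unit_vec_ne_zero u) g)
    rw [show (fun τ ↦ ∏ u : (ZMod p)ˣ, 𝔉.F (vact (0, (u : ZMod p)) g) τ) =
      ∏ u : (ZMod p)ˣ, 𝔉.F (vact (0, (u : ZMod p)) g) from funext fun τ ↦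
        (Finset.prod_apply τ _ _).symm]
    exact h
  refine ⟨?_, fun γ hγ τ ↦ ?_, fun g ↦ ?_⟩
  · have := hmd 1
    simp only [vact_one] at this
    exact this
  · rw [Fam.prod_smul]
    have hc : ((γ 1 0 : ℤ) : ZMod p) = 0 := Gamma0_mem.mp hγ
    have hd : IsUnit ((γ 1 1 : ℤ) : ZMod p) := by
      have := congrArg (Int.cast : ℤ → ZMod p) (GoodModel.det_eq γ)
      push_cast at this
      rw [hc, mul_zero, sub_zero] at this
      exact IsUnit.of_mul_eq_one_right _ this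
    refine Finset.prod_equiv (Equiv.mulRight hd.unit) (fun _ ↦ by simp) fun u _ ↦ ?_
    simp [vact, hc]
  · rw [show (fun τ ↦ 𝔉.prod (g • τ)) = fun τ ↦ ∏ u : (ZMod p)ˣ,
      𝔉.F (vact (0, (u : ZMod p)) g) τ from funext (𝔉.prod_smul g)]
    refine mem_PerL_of_hasExp (F := ∏ u : (ZMod p)ˣ, coeffMap κ (𝔉.X (vact (0, (u : ZMod p)) g)))
      (hmd g) (fun τ ↦ Finset.prod_congr rfl fun u _ ↦
        𝔉.periodic (vact_ne_zero (unit_vec_ne_zero u) g) τ) ?_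
    rw [show (fun τ ↦ ∏ u : (ZMod p)ˣ, 𝔉.F (vact (0, (u : ZMod p)) g) τ) =
      ∏ u : (ZMod p)ˣ, 𝔉.F (vact (0, (u : ZMod p)) g) from funext fun τ ↦
        (Finset.prod_apply τ _ _).symm]
    exact GoodModel.hasExp_prod _ fun u _ ↦ 𝔉.exp _ (vact_ne_zero (unit_vec_ne_zero u) g)

theorem Fam.hasExp_smul (g : SL(2, ℤ)) :
    HasExp p (fun τ ↦ 𝔉.prod (g • τ))
      (coeffMap κ (∏ u : (ZMod p)ˣ, 𝔉.X (vact (0, (u : ZMod p)) g))) := by
  rw [map_prod, show (fun τ ↦ 𝔉.prod (g • τ)) =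
    ∏ u : (ZMod p)ˣ, 𝔉.F (vact (0, (u : ZMod p)) g) from funext fun τ ↦ by
      rw [𝔉.prod_smul g, Finset.prod_apply]]
  exact GoodModel.hasExp_prod _ fun u _ ↦ 𝔉.exp _ (vact_ne_zero (unit_vec_ne_zero u) g)

variable {K : Type*} [Field K] [Algebra ℚ K] {N : ℕ} [NeZero N] (μ : K →+* ℂ)

/-- An element of the function field whose expansion is that of a function. -/
theorem exists_div_W0 (z : XF K N) {W : W0 N}
    (hW : iota (N := N) μ (z : LaurentSeries K) = expW N W) :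
    ∃ a b : X0Fn.XA K N, X0Fn.incA K N b ≠ 0 ∧ z = X0Fn.incA K N a / X0Fn.incA K N b ∧
      X0Fn.toW μ a = W * X0Fn.toW μ b := by
  obtain ⟨a, b, hab⟩ := X0Fn.exists_incA_div z
  by_cases hb : X0Fn.incA K N b = 0
  · have hz : z = 0 := by rw [hab, hb, div_zero]
    refine ⟨0, 1, by simp, by simp [hz], ?_⟩
    have hW0 : W = 0 := X0Fn.expW_injective (by rw [← hW, hz, map_zero]; simp)
    simp [hW0]
  refine ⟨a, b, hb, hab, X0Fn.expW_injective ?_⟩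
  rw [map_mul, X0Fn.expW_toW, X0Fn.expW_toW, ← hW, ← map_mul]
  congr 1
  have h : z * X0Fn.incA K N b = X0Fn.incA K N a := by rw [hab, div_mul_cancel₀ _ hb]
  exact (congrArg Subtype.val h).symm

theorem pointEmb_eq (z : XF K N) {W : W0 N}
    (hW : iota (N := N) μ (z : LaurentSeries K) = expW N W) (τ : ℍ) (q : X0Fn.Cos N) :
    pointEmb μ τ q z =
      HahnSeries.ofPowerSeries ℤ ℂ (taylorAt τ ⟨trans q W, X0Fn.trans_mem_Hol q W⟩) := by
  obtain ⟨a, b, hb, hab, hW'⟩ := exists_div_W0 μ z hW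
  rw [hab, map_div₀, div_eq_iff ((map_ne_zero _).mpr hb), X0Fn.pointEmb_incA, X0Fn.pointEmb_incA,
    X0Fn.pointHom_apply, X0Fn.pointHom_apply, ← map_mul, ← map_mul]
  congr 2
  exact Subtype.ext (by simp [hW'])

theorem cuspEmb_eq (z : XF K N) {W : W0 N}
    (hW : iota (N := N) μ (z : LaurentSeries K) = expW N W) (q : X0Fn.Cos N) :
    cuspEmb μ q z = expL (N : ℝ) ⟨trans q W, X0Fn.trans_mem_PerL q W⟩ := by
  obtain ⟨a, b, hb, hab, hW'⟩ := exists_div_W0 μ z hW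
  rw [hab, map_div₀, div_eq_iff ((map_ne_zero _).mpr hb), X0Fn.cuspEmb_incA, X0Fn.cuspEmb_incA,
    X0Fn.cuspHom_apply, X0Fn.cuspHom_apply, ← map_mul]
  congr 1
  exact Subtype.ext (by simp [hW'])

/-- The product as an element of the function field. -/
theorem Fam.exists_fn :
    ∃ z : XF QA p,
      qExpand QA p (z : LaurentSeries QA) = ∏ u : (ZMod p)ˣ, 𝔉.X (0, (u : ZMod p)) ∧
      (∀ (τ : ℍ) (g : SL(2, ℤ)),
        GeOrd (pointEmb κ τ (g : X0Fn.Cos p) z) 0 ∧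
          (pointEmb κ τ (g : X0Fn.Cos p) z).coeff 0 = 𝔉.prod (g⁻¹ • τ)) ∧
      ∀ g : SL(2, ℤ), cuspEmb κ (g : X0Fn.Cos p) z =
        coeffMap κ (∏ u : (ZMod p)ˣ, 𝔉.X (vact (0, (u : ZMod p)) g⁻¹)) := by
  have hT : ∀ τ : ℍ, 𝔉.prod ((1 : ℝ) +ᵥ τ) = 𝔉.prod τ := fun τ ↦ by
    have e : ((1 : ℝ) +ᵥ τ) = ModularGroup.T • τ := by
      apply UpperHalfPlane.ext
      rw [show ModularGroup.T = ModularGroup.T ^ (1 : ℤ) from (zpow_one _).symm,
        UpperHalfPlane.modular_T_zpow_smul]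
      simp
    rw [e]
    exact 𝔉.prod_mem.2.1 _ (by simp [Gamma0_mem, ModularGroup.coe_T]) τ
  have h1 := 𝔉.hasExp_smul 1
  simp only [one_smul, vact_one] at h1
  set X := ∏ u : (ZMod p)ˣ, 𝔉.X (0, (u : ZMod p))
  have hsupp : ∀ k : ℤ, ¬ (p : ℤ) ∣ k → X.coeff k = 0 := fun k hk ↦ by
    have := GoodModel.coeff_eq_zero_of_periodic (M := 1) (k := p) (one_mul p) h1
      (by simpa using hT) hk
    rwa [coeffMap_coeff, map_eq_zero] at this
  obtain ⟨z, hz⟩ := exists_qExpand_eq hsupp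
  set W : W0 p := ⟨𝔉.prod, 𝔉.prod_mem⟩
  have hW : iota (N := p) κ z = expW p W := by
    rw [iota, RingHom.comp_apply, ← coeffMap_qExpand, hz]
    exact (h1.unique (hasExp_expL ⟨_, X0Fn.W0_le_PerL W.2⟩))
  have hmem : z ∈ XF QA p := by
    refine TorsionHom.mem_XF_of_W0 κ (A := W) (B := 1) (fun h ↦ one_ne_zero (congrFun
      (congrArg (fun f : W0 p => (f : ℍ → ℂ)) h) UpperHalfPlane.I)) ?_
    rw [map_one, mul_one, hW]
  have htr : ∀ g : SL(2, ℤ), trans (g : X0Fn.Cos p) W = fun τ ↦ 𝔉.prod (g⁻¹ • τ) := fun g ↦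
    funext fun τ ↦ X0Fn.trans_mk W g τ
  refine ⟨⟨z, hmem⟩, hz, fun τ g ↦ ?_, fun g ↦ ?_⟩
  · rw [pointEmb_eq κ ⟨z, hmem⟩ hW τ]
    refine ⟨fun k hk ↦ ofPowerSeries_coeff_of_neg _ hk, ?_⟩
    rw [show (0 : ℤ) = ((0 : ℕ) : ℤ) from rfl, HahnSeries.ofPowerSeries_apply_coeff]
    have e : taylorAt τ ⟨trans (g : X0Fn.Cos p) W, X0Fn.trans_mem_Hol _ W⟩ =
        X0Fn.tay τ (trans (g : X0Fn.Cos p) W ∘ ofComplex) := rfl
    rw [e, htr, X0Fn.tay, PowerSeries.coeff_mk]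
    simp
  · rw [cuspEmb_eq κ ⟨z, hmem⟩ hW]
    refine ((hasExp_expL _).unique ?_)
    rw [show ((⟨trans (g : X0Fn.Cos p) W, X0Fn.trans_mem_PerL _ W⟩ : PerL (p : ℝ)) : ℍ → ℂ) =
      fun τ ↦ 𝔉.prod (g⁻¹ • τ) from htr g]
    exact 𝔉.hasExp_smul g⁻¹

end FLTAgent.Mazur
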