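import Fermat.Agent.Mazur.Value

/-!
# Kummer theory for the descent

* every cocycle on an open subgroup with values in roots of unity is a Kummer cocycle;
* `HasVal`: the valuation of the Kummer element of a cocycle restricted to inertia. It only depends
  on the restriction, and is invariant under twisting by the decomposition group;
* tame inertia: every homomorphism is a multiple of the Kummer cocycle of `p`;
* the global classification of cocycles with values in `μ_l`, unramified outside `p`.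
-/

set_option autoImplicit false

noncomputable section

namespace FLTAgent.Mazur

open FLTAgent.Places
open scoped Pointwise

local notation "QQb" => AlgebraicClosure ℚ
local notation "GG" => (AlgebraicClosure ℚ ≃ₐ[ℚ] AlgebraicClosure ℚ)

/-- **Hilbert 90** over an open subgroup. -/
theorem exists_kummer (U V : Subgroup GG) (hV : IsOpen (V : Set GG)) (hVU : V ≤ U) (f : GG → QQb)
    (hne : ∀ σ ∈ U, f σ ≠ 0) (hf : ∀ σ ∈ U, ∀ τ ∈ U, f (σ * τ) = f σ * σ (f τ))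
    (hfV : ∀ σ ∈ V, f σ = 1) :
    ∃ α : QQb, α ≠ 0 ∧ ∀ σ ∈ U, σ α = f σ * α := by
  classical
  haveI := isGalois_QQb
  obtain ⟨L, hL, hLV⟩ := (krullTopology_mem_nhds_one_iff ℚ QQb (V : Set GG)).mp
    (hV.mem_nhds (one_mem V))
  haveI := hL
  let res : GG → (L →ₐ[ℚ] QQb) := fun σ ↦ (σ : QQb →ₐ[ℚ] QQb).comp L.val
  have hres : ∀ σ τ : GG, σ ∈ U → τ ∈ U → res σ = res τ → f σ = f τ := by
    intro σ τ hσ hτ h
    have hk : σ⁻¹ * τ ∈ V := by
      refine hLV ((IntermediateField.mem_fixingSubgroup_iff _ _).mpr fun x hx ↦ ?_)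
      have hx' : σ x = τ x := DFunLike.congr_fun h ⟨x, hx⟩
      show σ⁻¹ (τ x) = x
      rw [← hx']
      exact σ.symm_apply_apply x
    conv_rhs => rw [show τ = σ * (σ⁻¹ * τ) by group, hf σ hσ _ (hVU hk), hfV _ hk, map_one, mul_one]
  have hfin : (res '' (U : Set GG)).Finite := Set.toFinite _
  let R := hfin.toFinset
  have hR : ∀ {h}, h ∈ R ↔ ∃ σ ∈ U, res σ = h := by intro h; simp [R]
  have hrep : ∀ h : L →ₐ[ℚ] QQb, ∃ σ : GG, h ∈ R → σ ∈ U ∧ res σ = h := fun h ↦ by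
    by_cases hh : h ∈ R
    · obtain ⟨σ, hσ, e⟩ := hR.mp hh
      exact ⟨σ, fun _ ↦ ⟨hσ, e⟩⟩
    · exact ⟨1, fun h' ↦ absurd h' hh⟩
  choose rep hrep using hrep
  let cf : (L →ₐ[ℚ] QQb) → QQb := fun h ↦ f (rep h)
  have hli : LinearIndependent QQb fun h : L →ₐ[ℚ] QQb ↦ (h : L → QQb) :=
    (linearIndependent_monoidHom L QQb).comp (fun h : L →ₐ[ℚ] QQb ↦ (h : L →* QQb))
      fun h h' e ↦ AlgHom.ext fun x ↦ DFunLike.congr_fun e x
  obtain ⟨z, hz⟩ : ∃ z : L, ∑ h ∈ R, cf h * h z ≠ 0 := by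
    by_contra hall
    push Not at hall
    have h0 := linearIndependent_iff'.mp hli R cf (funext fun z ↦ by simpa using hall z)
    have h1 : res 1 ∈ R := hR.mpr ⟨1, one_mem U, rfl⟩
    exact hne _ (hrep _ h1).1 (h0 _ h1)
  refine ⟨(∑ h ∈ R, cf h * h z)⁻¹, inv_ne_zero hz, fun σ hσ ↦ ?_⟩
  have key : f σ * σ (∑ h ∈ R, cf h * h z) = ∑ h ∈ R, cf h * h z := by
    rw [map_sum, Finset.mul_sum]
    have hmaps : ∀ g ∈ R, (σ : QQb →ₐ[ℚ] QQb).comp g ∈ R := by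
      intro g hg
      obtain ⟨τ, hτ, rfl⟩ := hR.mp hg
      exact hR.mpr ⟨σ * τ, U.mul_mem hσ hτ, AlgHom.ext fun x ↦ rfl⟩
    refine Finset.sum_bij (fun g _ ↦ (σ : QQb →ₐ[ℚ] QQb).comp g) hmaps
      (fun g _ g' _ e ↦ AlgHom.ext fun x ↦ σ.injective (DFunLike.congr_fun e x)) ?_ ?_
    · intro g hg
      obtain ⟨τ, hτ, rfl⟩ := hR.mp hg
      refine ⟨res (σ⁻¹ * τ), hR.mpr ⟨_, U.mul_mem (U.inv_mem hσ) hτ, rfl⟩,
        AlgHom.ext fun x ↦ ?_⟩
      show σ ((σ⁻¹ * τ) (x : QQb)) = τ (x : QQb)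
      rw [← AlgEquiv.mul_apply, mul_inv_cancel_left]
    · intro g hg
      obtain ⟨h1, h2⟩ := hrep g hg
      obtain ⟨h3, h4⟩ := hrep _ (hmaps g hg)
      have e : res (σ * rep g) = (σ : QQb →ₐ[ℚ] QQb).comp g := by
        refine AlgHom.ext fun x ↦ ?_
        show σ (rep g (x : QQb)) = σ (g x)
        exact congrArg σ (DFunLike.congr_fun h2 x)
      show f σ * σ (cf g * g z) = cf _ * σ (g z)
      rw [map_mul, ← mul_assoc, ← hf σ hσ _ h1, ← hres _ _ h3 (U.mul_mem hσ h1) (h4.trans e.symm)]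
  rw [map_inv₀]
  conv_rhs => rw [← key]
  rw [mul_inv, mul_inv_cancel_left₀ (hne σ hσ)]

section Valuation

variable {q : ℕ} (A : ValuationSubring (AlgebraicClosure ℚ))

theorem valuation_pos {x : QQb} (hx : x ≠ 0) : 0 < A.valuation x :=
  zero_lt_iff.mpr ((Valuation.ne_zero_iff _).mpr hx)

theorem zpow_valuation_injective (hq : q.Prime) (hA : A.LiesOverPrime q) :
    Function.Injective fun i : ℤ => A.valuation (q : QQb) ^ i :=
  zpow_right_injective₀ (valuation_pos A (Nat.cast_ne_zero.mpr hq.ne_zero))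
    (valuation_natCast_lt_one A hA).ne

theorem valuation_eq_one_of_pow {x : QQb} {m : ℕ} (hm : m ≠ 0) (h : A.valuation (x ^ m) = 1) :
    A.valuation x = 1 :=
  (pow_eq_one_iff_left hm).mp ((map_pow A.valuation x m).symm.trans h)

theorem valuation_root_of_unity {x : QQb} {m : ℕ} (hm : m ≠ 0) (h : x ^ m = 1) :
    A.valuation x = 1 :=
  valuation_eq_one_of_pow A hm (by rw [h, map_one])

theorem valuation_map_eq_one' {σ : GG} (hσ : σ ∈ A.decompositionSubgroup ℚ) {x : QQb}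
    (hx : A.valuation x = 1) : A.valuation (σ x) = 1 := by
  have h1 : A.valuation (σ x) ≤ 1 := (A.valuation_le_one_iff _).mpr
    (smul_mem_of_decomposition A hσ ((A.valuation_le_one_iff _).mp hx.le))
  have h2 : A.valuation (σ x)⁻¹ ≤ 1 := by
    rw [← map_inv₀]
    exact (A.valuation_le_one_iff _).mpr (smul_mem_of_decomposition A hσ
      ((A.valuation_le_one_iff _).mp (by rw [map_inv₀, hx, inv_one])))
  refine le_antisymm h1 ?_
  rw [map_inv₀] at h2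
  have hx0 : x ≠ 0 := fun e ↦ by rw [e, map_zero] at hx; exact zero_ne_one hx
  exact (inv_le_one₀ (valuation_pos A ((map_ne_zero_iff _ σ.injective).mpr hx0))).mp h2

theorem valuation_map_zpow {σ : GG} (hσ : σ ∈ A.decompositionSubgroup ℚ) (hq : q.Prime) {x : QQb}
    {i : ℤ} (hx : A.valuation x = A.valuation (q : QQb) ^ i) :
    A.valuation (σ x) = A.valuation (q : QQb) ^ i := by
  have hq0 : (q : QQb) ^ i ≠ 0 := zpow_ne_zero _ (Nat.cast_ne_zero.mpr hq.ne_zero)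
  have h1 : A.valuation (x / (q : QQb) ^ i) = 1 := by
    rw [map_div₀, map_zpow₀, hx,
      div_self (zpow_ne_zero _ (valuation_natCast_ne_zero A hq))]
  have h2 := valuation_map_eq_one' A hσ h1
  rw [map_div₀ σ, map_zpow₀ σ, map_natCast, map_div₀, div_eq_one_iff_eq
    ((Valuation.ne_zero_iff _).mpr hq0)] at h2
  rw [h2, map_zpow₀]

theorem conj_mem {φ σ : GG} (hφ : φ ∈ A.decompositionSubgroup ℚ)
    (hσ : σ ∈ A.inertiaSubgroupIn ℚ) : φ * σ * φ⁻¹ ∈ A.inertiaSubgroupIn ℚ := by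
  have h := conj_mem_inertia A hσ φ
  rwa [MulAction.mem_stabilizer_iff.mp hφ] at h

/-- Inertia fixes roots of units of order prime to the residue characteristic. -/
theorem map_eq_self_of_unit_pow (hq : q.Prime) (hA : A.LiesOverPrime q) {m : ℕ} (hm : ¬ q ∣ m)
    {x : QQb} (hx : A.valuation x = 1) {σ : GG} (hσ : σ ∈ A.inertiaSubgroupIn ℚ)
    (hfix : σ (x ^ m) = x ^ m) : σ x = x := by
  have hm0 : m ≠ 0 := fun h ↦ hm (h ▸ dvd_zero q)
  have hx0 : x ≠ 0 := fun e ↦ by rw [e, map_zero] at hx; exact zero_ne_one hx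
  set ζ := σ x / x with hζ
  have hζm : ζ ^ m = 1 := by rw [hζ, div_pow, ← map_pow, hfix, div_self (pow_ne_zero _ hx0)]
  by_contra hne
  have hζ1 : ζ - 1 ≠ 0 := sub_ne_zero.mpr fun e ↦ hne ((div_eq_one_iff_eq hx0).mp e)
  have hlt : A.valuation (ζ - 1) < 1 := by
    have h := ((mem_inertia_iff A).mp hσ).2 x ((A.valuation_le_one_iff _).mp hx.le)
    rw [A.mem_nonunits_iff] at h
    rw [hζ, div_sub_one hx0, map_div₀, hx, div_one]
    exact h
  have hζA : ζ ∈ A := (A.valuation_le_one_iff _).mp (valuation_root_of_unity A hm0 hζm).le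
  have hsum : ∑ i ∈ Finset.range m, ζ ^ i = 0 := by
    have := geom_sum_mul ζ m
    rw [hζm, sub_self] at this
    exact (mul_eq_zero.mp this).resolve_right hζ1
  have hdvd : ∀ i : ℕ, A.valuation (ζ ^ i - 1) < 1 := by
    intro i
    obtain ⟨c, hc⟩ := sub_one_dvd_pow_sub_one (⟨ζ, hζA⟩ : A) i
    have hc' := congrArg Subtype.val hc
    push_cast at hc'
    rw [hc', map_mul]
    exact (mul_le_of_le_one_right' ((A.valuation_le_one_iff _).mpr c.2)).trans_lt hlt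
  have h : A.valuation (m : QQb) < 1 := by
    have e : (m : QQb) = - ∑ i ∈ Finset.range m, (ζ ^ i - 1) := by
      rw [Finset.sum_sub_distrib, hsum]; simp
    rw [e, Valuation.map_neg]
    exact A.valuation.map_sum_lt one_ne_zero fun i _ ↦ hdvd i
  obtain ⟨a, b, hab⟩ : IsCoprime (q : ℤ) (m : ℤ) :=
    ((Nat.prime_iff_prime_int.mp hq).coprime_iff_not_dvd).mpr (by exact_mod_cast hm)
  have h1 : A.valuation ((a : QQb) * (q : QQb) + (b : QQb) * (m : QQb)) < 1 := by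
    refine A.valuation.map_add_lt ?_ ?_ <;> rw [map_mul]
    · exact (mul_le_of_le_one_left' ((A.valuation_le_one_iff _).mpr (intCast_mem A a))).trans_lt
        (valuation_natCast_lt_one A hA)
    · exact (mul_le_of_le_one_left' ((A.valuation_le_one_iff _).mpr (intCast_mem A b))).trans_lt h
  have e : (a : QQb) * (q : QQb) + (b : QQb) * (m : QQb) = 1 := by
    exact_mod_cast congrArg (Int.cast : ℤ → QQb) hab
  rw [e, map_one] at h1
  exact lt_irrefl 1 h1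

end Valuation

section Exponent

variable {m : ℕ} [NeZero m] {ζ : QQb} (hζ : IsPrimitiveRoot ζ m)

include hζ

theorem zpowZMod_add (a b : ZMod m) : ζ ^ (a + b).val = ζ ^ a.val * ζ ^ b.val := by
  rw [← pow_add, ZMod.val_add]
  exact (pow_eq_pow_mod _ hζ.pow_eq_one).symm

theorem zpowZMod_mul (a b : ZMod m) : ζ ^ (a * b).val = (ζ ^ a.val) ^ b.val := by
  rw [← pow_mul, ZMod.val_mul]
  exact (pow_eq_pow_mod _ hζ.pow_eq_one).symm

theorem zpowZMod_injective {a b : ZMod m} (h : ζ ^ a.val = ζ ^ b.val) : a = b :=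
  ZMod.val_injective m (hζ.pow_inj (ZMod.val_lt a) (ZMod.val_lt b) h)


theorem exists_exponent {x : QQb} (hx : x ≠ 0) {σ : GG} (hfix : σ (x ^ m) = x ^ m) :
    ∃ c : ZMod m, σ x = ζ ^ c.val * x := by
  obtain ⟨i, hi, e⟩ := hζ.eq_pow_of_pow_eq_one (ξ := σ x / x)
    (by rw [div_pow, ← map_pow, hfix, div_self (pow_ne_zero _ hx)])
  exact ⟨(i : ZMod m), by rw [ZMod.val_natCast, Nat.mod_eq_of_lt hi, e, div_mul_cancel₀ _ hx]⟩

end Exponent

theorem pow_val_intCast {m : ℕ} [NeZero m] {x : QQb} (hx : x ^ m = 1) (a : ℤ) :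
    x ^ (a : ZMod m).val = x ^ a := by
  have hx0 : x ≠ 0 := fun e ↦ by rw [e, zero_pow (NeZero.ne m)] at hx; exact zero_ne_one hx
  rw [← zpow_natCast, ZMod.val_intCast]
  conv_rhs => rw [← Int.emod_add_mul_ediv a m, zpow_add₀ hx0, zpow_mul, zpow_natCast, hx,
    one_zpow, mul_one]

/-- `e` gives the action on `ζ`. -/
def IsExp {m : ℕ} (ζ : QQb) (e : GG → ZMod m) : Prop := ∀ σ : GG, σ ζ = ζ ^ (e σ).val

section HasVal

variable {q : ℕ} (A : ValuationSubring (AlgebraicClosure ℚ)) {m : ℕ} [NeZero m] {ζ : QQb}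

/-- The restriction of `c` to inertia at `A` is the Kummer cocycle of an element of value
`v(q)^i`. -/
def HasVal (q : ℕ) (ζ : QQb) (c : GG → ZMod m) (i : ℤ) : Prop :=
  ∃ α : QQb, α ≠ 0 ∧ A.valuation (α ^ m) = A.valuation (q : QQb) ^ i ∧
    ∀ σ ∈ A.inertiaSubgroupIn ℚ, σ α = ζ ^ (c σ).val * α

variable {A} {c c' : GG → ZMod m} {i j : ℤ} (hq : q.Prime) (hA : A.LiesOverPrime q)
  (hζ : IsPrimitiveRoot ζ m)

theorem HasVal.congr (h : HasVal A q ζ c i) (hc : ∀ σ ∈ A.inertiaSubgroupIn ℚ, c σ = c' σ) :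
    HasVal A q ζ c' i := by
  obtain ⟨α, h0, hv, hα⟩ := h
  exact ⟨α, h0, hv, fun σ hσ ↦ hc σ hσ ▸ hα σ hσ⟩

theorem hasVal_zero (hc : ∀ σ ∈ A.inertiaSubgroupIn ℚ, c σ = 0) : HasVal A q ζ c 0 :=
  ⟨1, one_ne_zero, by simp, fun σ hσ ↦ by simp [hc σ hσ]⟩

include hq hA hζ in
theorem HasVal.unique (h : HasVal A q ζ c i) (h' : HasVal A q ζ c j) : (m : ℤ) ∣ i - j := by
  obtain ⟨α, hα0, hαv, hα⟩ := h
  obtain ⟨β, hβ0, hβv, hβ⟩ := h'
  have hfix : ∀ σ ∈ A.inertiaSubgroupIn ℚ, σ (α / β) = α / β := fun σ hσ ↦ by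
    rw [map_div₀, hα σ hσ, hβ σ hσ, mul_div_mul_left]
    exact pow_ne_zero _ (hζ.ne_zero (NeZero.ne m))
  obtain ⟨k, hk⟩ := exists_zpow_valuation A hq hA (div_ne_zero hα0 hβ0) hfix
  have hv0 : A.valuation (q : QQb) ≠ 0 := valuation_natCast_ne_zero A hq
  have h1 : A.valuation ((α / β) ^ m) = A.valuation (q : QQb) ^ (i - j) := by
    rw [div_pow, map_div₀, hαv, hβv, zpow_sub₀ hv0]
  rw [map_pow, hk, ← zpow_natCast, ← zpow_mul] at h1
  exact ⟨k, by rw [← zpow_valuation_injective A hq hA h1, mul_comm]⟩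

include hq hζ in
theorem HasVal.add (h : HasVal A q ζ c i) (h' : HasVal A q ζ c' j) :
    HasVal A q ζ (fun σ ↦ c σ + c' σ) (i + j) := by
  obtain ⟨α, hα0, hαv, hα⟩ := h
  obtain ⟨β, hβ0, hβv, hβ⟩ := h'
  refine ⟨α * β, mul_ne_zero hα0 hβ0, ?_, fun σ hσ ↦ ?_⟩
  · rw [mul_pow, map_mul, hαv, hβv, zpow_add₀ (valuation_natCast_ne_zero A hq)]
  · rw [map_mul, hα σ hσ, hβ σ hσ, zpowZMod_add hζ]; ring

include hζ in
theorem HasVal.smul (h : HasVal A q ζ c i) (r : ℕ) :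
    HasVal A q ζ (fun σ ↦ (r : ZMod m) * c σ) (r * i) := by
  obtain ⟨α, hα0, hαv, hα⟩ := h
  refine ⟨α ^ r, pow_ne_zero _ hα0, ?_, fun σ hσ ↦ ?_⟩
  · rw [← pow_mul, mul_comm, pow_mul, map_pow, hαv, ← zpow_natCast, ← zpow_mul, mul_comm (r : ℤ)]
  · dsimp only
    rw [map_pow, hα σ hσ, mul_pow, mul_comm (r : ZMod m), zpowZMod_mul hζ, ZMod.val_natCast,
      pow_eq_pow_mod r (a := ζ ^ (c σ).val) (n := m) (by rw [← pow_mul, mul_comm, pow_mul,
        hζ.pow_eq_one, one_pow])]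

include hζ in
theorem hasVal_coboundary {e : GG → ZMod m} (he : IsExp ζ e) (d : ZMod m)
    (hc : ∀ σ ∈ A.inertiaSubgroupIn ℚ, c σ = (e σ - 1) * d) : HasVal A q ζ c 0 := by
  refine ⟨ζ ^ d.val, pow_ne_zero _ (hζ.ne_zero (NeZero.ne m)), ?_, fun σ hσ ↦ ?_⟩
  · rw [← pow_mul, mul_comm, pow_mul, hζ.pow_eq_one, one_pow, map_one, zpow_zero]
  · rw [map_pow, he σ, ← zpowZMod_mul hζ, hc σ hσ, ← zpowZMod_add hζ]
    ring_nf

include hq in
/-- Twisting by the decomposition group does not change the value. -/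
theorem HasVal.twist (hζ : IsPrimitiveRoot ζ m) (h : HasVal A q ζ c i) {φ : GG}
    (hφ : φ ∈ A.decompositionSubgroup ℚ) {e : GG → ZMod m} (he : IsExp ζ e)
    (hc : ∀ σ ∈ A.inertiaSubgroupIn ℚ, c (φ * σ * φ⁻¹) = e φ * c' σ) : HasVal A q ζ c' i := by
  obtain ⟨α, hα0, hαv, hα⟩ := h
  have hφi : φ⁻¹ ∈ A.decompositionSubgroup ℚ := inv_mem hφ
  refine ⟨φ⁻¹ α, (map_ne_zero_iff _ (φ⁻¹ : GG).injective).mpr hα0, ?_, fun σ hσ ↦ ?_⟩
  · rw [← map_pow]
    exact valuation_map_zpow A hφi hq hαv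
  · apply φ.injective
    rw [show φ (σ (φ⁻¹ α)) = (φ * σ * φ⁻¹) α from rfl, hα _ (conj_mem A hφ hσ), hc σ hσ, map_mul,
      ← AlgEquiv.mul_apply, mul_inv_cancel, AlgEquiv.one_apply, map_pow, he φ, zpowZMod_mul hζ]

include hq hA hζ in
/-- A cocycle on an open subgroup containing inertia has a value. -/
theorem exists_hasVal {e : GG → ZMod m} (he : IsExp ζ e) (U V : Subgroup GG)
    (hV : IsOpen (V : Set GG)) (hVU : V ≤ U) (hI : A.inertiaSubgroupIn ℚ ≤ U)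
    (hc : ∀ σ ∈ U, ∀ τ ∈ U, c (σ * τ) = c σ + e σ * c τ) (hcV : ∀ σ ∈ V, c σ = 0) :
    ∃ α : QQb, α ≠ 0 ∧ (∀ σ ∈ U, σ α = ζ ^ (c σ).val * α) ∧
      (∀ σ ∈ U, σ (α ^ m) = α ^ m) ∧ ∃ i : ℤ, A.valuation (α ^ m) = A.valuation (q : QQb) ^ i := by
  obtain ⟨α, hα0, hα⟩ := exists_kummer U V hV hVU (fun σ ↦ ζ ^ (c σ).val)
    (fun σ _ ↦ pow_ne_zero _ (hζ.ne_zero (NeZero.ne m)))
    (fun σ hσ τ hτ ↦ by rw [hc σ hσ τ hτ, zpowZMod_add hζ, zpowZMod_mul hζ, map_pow, he σ])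
    (fun σ hσ ↦ by simp [hcV σ hσ])
  have hfix : ∀ σ ∈ U, σ (α ^ m) = α ^ m := fun σ hσ ↦ by
    rw [map_pow, hα σ hσ, mul_pow, ← pow_mul ζ, mul_comm (c σ).val, pow_mul, hζ.pow_eq_one, one_pow,
      one_mul]
  exact ⟨α, hα0, hα, hfix, exists_zpow_valuation A hq hA (pow_ne_zero _ hα0)
    fun σ hσ ↦ hfix σ (hI hσ)⟩

end HasVal

section Tame

variable {p : ℕ} (A : ValuationSubring (AlgebraicClosure ℚ)) {m : ℕ} [NeZero m] {ζ π : QQb}

/-- Every homomorphism on tame inertia is a multiple of the Kummer cocycle of `p`. -/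
theorem exists_eq_tame_mul (hp : p.Prime) (hA : A.LiesOverPrime p) (hpm : ¬ p ∣ m)
    (hζ : IsPrimitiveRoot ζ m) (hπ : π ^ m = p) {P c e : GG → ZMod m} (he : IsExp ζ e)
    (hP : ∀ σ : GG, σ π = ζ ^ (P σ).val * π) (U V : Subgroup GG)
    (hV : IsOpen (V : Set GG)) (hVU : V ≤ U) (hI : A.inertiaSubgroupIn ℚ ≤ U)
    (hc : ∀ σ ∈ U, ∀ τ ∈ U, c (σ * τ) = c σ + e σ * c τ) (hcV : ∀ σ ∈ V, c σ = 0) :
    ∃ i : ZMod m, ∀ σ ∈ A.inertiaSubgroupIn ℚ, c σ = i * P σ := by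
  obtain ⟨α, hα0, hα, hfix, i, hi⟩ := exists_hasVal hp hA hζ he U V hV hVU hI hc hcV
  have hp0 : (p : QQb) ≠ 0 := Nat.cast_ne_zero.mpr hp.ne_zero
  have hπ0 : π ≠ 0 := fun e0 ↦ hp0 (by rw [← hπ, e0, zero_pow (NeZero.ne m)])
  refine ⟨i, fun σ hσ ↦ ?_⟩
  have hπi : (π ^ i) ^ m = (p : QQb) ^ i := by
    rw [← hπ, ← zpow_natCast, ← zpow_natCast π m, ← zpow_mul, ← zpow_mul, mul_comm]
  have hval : A.valuation ((α / π ^ i) ^ m) = 1 := by
    rw [div_pow, hπi,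
      map_div₀, map_zpow₀, hi, div_self (zpow_ne_zero _ (valuation_natCast_ne_zero A hp))]
  have hfix' : σ ((α / π ^ i) ^ m) = (α / π ^ i) ^ m := by
    rw [div_pow, hπi, map_div₀ σ, map_zpow₀ σ, map_natCast, hfix σ (hI hσ)]
  have h := map_eq_self_of_unit_pow A hp hA hpm
    (valuation_eq_one_of_pow A (NeZero.ne m) hval) hσ hfix'
  rw [map_div₀ σ, map_zpow₀ σ, hα σ (hI hσ), hP σ, mul_zpow,
    div_eq_div_iff (mul_ne_zero (zpow_ne_zero _ (pow_ne_zero _ (hζ.ne_zero (NeZero.ne m))))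
      (zpow_ne_zero _ hπ0)) (zpow_ne_zero _ hπ0)] at h
  have h2 : ζ ^ (c σ).val = (ζ ^ (P σ).val) ^ i :=
    mul_right_cancel₀ (mul_ne_zero hα0 (zpow_ne_zero i hπ0)) (by
      rw [← mul_assoc, h]; ring)
  refine zpowZMod_injective hζ ?_
  rw [h2, mul_comm (i : ZMod m), zpowZMod_mul hζ, pow_val_intCast]
  rw [← pow_mul, mul_comm, pow_mul, hζ.pow_eq_one, one_pow]

end Tame

end FLTAgent.Mazur
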