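import Fermat.Agent.Mazur.Coeff

/-!
# The local condition at `l`

On inertia at `l` the relevant coordinates are cocycles with values in `O(1)`; a Frobenius element
acting by a number `≠ 1` on their twist forces all their Kummer values to vanish.
-/

set_option autoImplicit false
set_option linter.overlappingInstances false
set_option linter.unusedSectionVars false

noncomputable section

namespace FLTAgent.Mazur

open scoped Pointwise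

local notation "QQb" => AlgebraicClosure ℚ
local notation "GG" => (AlgebraicClosure ℚ ≃ₐ[ℚ] AlgebraicClosure ℚ)

variable {l : ℕ} [Fact l.Prime] {O : Type} [CommRing O] [IsDomain O] [IsDiscreteValuationRing O]
  [Algebra ℤ_[l] O] [Module.Finite ℤ_[l] O] [Module.Free ℤ_[l] O] {ϖ : O}

instance neZero_of_fact_prime : NeZero l := ⟨(Fact.out : l.Prime).ne_zero⟩

theorem HasVal.shift {q : ℕ} {A : ValuationSubring QQb} {m : ℕ} [NeZero m] {ζ : QQb}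
    {c : GG → ZMod m} {i : ℤ} (h : HasVal A q ζ c i) (hq : q.Prime) (j : ℤ) :
    HasVal A q ζ c (i + m * j) := by
  obtain ⟨α, h0, hv, hα⟩ := h
  refine ⟨α * (q : QQb) ^ j, mul_ne_zero h0 (zpow_ne_zero _ (Nat.cast_ne_zero.mpr hq.ne_zero)),
    ?_, fun σ hσ ↦ ?_⟩
  · rw [mul_pow, map_mul, hv, map_pow, map_zpow₀, ← zpow_natCast (_ ^ j), ← zpow_mul,
      ← zpow_add₀ (valuation_natCast_ne_zero A hq), mul_comm j]
  · rw [map_mul, hα σ hσ, map_zpow₀ σ, map_natCast]; ring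

theorem IsCyclo.dvd_expChar {χ : GG → O} (h : IsCyclo l χ) {n : ℕ} {ζ : QQb}
    (hζ : IsPrimitiveRoot ζ (l ^ n)) (σ : GG) :
    (l : O) ^ n ∣ χ σ - ((expChar (l ^ n) ζ σ).val : O) := by
  refine h n σ _ fun x hx ↦ ?_
  obtain ⟨i, -, rfl⟩ := hζ.eq_pow_of_pow_eq_one hx
  rw [map_pow, isExp_expChar hζ σ, ← pow_mul, ← pow_mul, mul_comm]

/-- All Kummer values of `c` on inertia at `A` vanish. -/
def ValZero (A : ValuationSubring (AlgebraicClosure ℚ)) (c : GG → O) : Prop :=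
  ∀ (n : ℕ) (g : O →+ ZMod (l ^ n)) (ζ : QQb), IsPrimitiveRoot ζ (l ^ n) →
    HasVal A l ζ (fun σ ↦ g (c σ)) 0

theorem valZero_of_twist (hϖ : Irreducible ϖ) {A : ValuationSubring QQb}
    (hA : A.LiesOverPrime l) {χ c b0 : GG → O} (hχ : IsCyclo l χ) {φ : GG}
    (hφ : φ ∈ A.decompositionSubgroup ℚ) {E z w : O} (hE : E ≠ 1)
    (htw : ∀ σ ∈ A.inertiaSubgroupIn ℚ,
      c (φ * σ * φ⁻¹) = χ φ * (E * c σ + z * b0 σ) + (1 - χ σ) * w)
    (hb0 : ValZero (l := l) A b0)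
    (hex : ∀ (n : ℕ) (g : O →+ ZMod (l ^ n)) (ζ : QQb), IsPrimitiveRoot ζ (l ^ n) →
      ∃ i, HasVal A l ζ (fun σ ↦ g (c σ)) i) :
    ValZero (l := l) A c := by
  have hl : l.Prime := Fact.out
  intro n g ζ hζ
  rcases Nat.eq_zero_or_pos n with rfl | hn
  · haveI : Subsingleton (ZMod (l ^ 0)) := (pow_zero l).symm ▸ inferInstanceAs (Subsingleton (ZMod 1))
    exact hasVal_zero fun σ _ ↦ Subsingleton.elim _ _
  obtain ⟨N, w0, hw0⟩ : ∃ (N : ℕ) (w0 : O), (l : O) ^ N = (E - 1) * w0 := by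
    obtain ⟨m, hm⟩ := exists_dvd_pow hϖ (sub_ne_zero.mpr hE)
    have hϖl : ϖ ∣ (l : O) := irreducible_dvd_natCast hϖ
    obtain ⟨w0, hw0⟩ := hm.trans (pow_dvd_pow_of_dvd hϖl m)
    exact ⟨m, w0, hw0⟩
  set M := n + N with hM
  haveI : NeZero ((l : ℕ) : QQb) := ⟨Nat.cast_ne_zero.mpr hl.ne_zero⟩
  obtain ⟨ξ0, hξ0⟩ := HasEnoughRootsOfUnity.exists_primitiveRoot QQb (l ^ M)
  -- normalise so that `ξ ^ (l ^ N) = ζ`
  have hpow : IsPrimitiveRoot (ξ0 ^ l ^ N) (l ^ n) :=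
    hξ0.pow (pow_pos hl.pos _) (by rw [hM, pow_add, mul_comm])
  obtain ⟨a, -, ha⟩ := hpow.eq_pow_of_pow_eq_one hζ.pow_eq_one
  have h1 : a.Coprime (l ^ n) := (hpow.pow_iff_coprime (pow_pos hl.pos _) a).mp (ha ▸ hζ)
  have hac : a.Coprime (l ^ M) := (h1.coprime_dvd_right (dvd_pow_self l hn.ne')).pow_right M
  obtain ⟨ξ, hξ, hξζ⟩ : ∃ ξ : QQb, IsPrimitiveRoot ξ (l ^ M) ∧ ξ ^ l ^ N = ζ :=
    ⟨ξ0 ^ a, hξ0.pow_of_coprime a hac, by rw [← ha, ← pow_mul, ← pow_mul, mul_comm]⟩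
  obtain ⟨g', hg'⟩ := exists_functional_lift g N
  let e := expChar (l ^ M) ξ
  have he : IsExp ξ e := isExp_expChar hξ
  have hmul : ∀ (h : O →+ ZMod (l ^ M)) (σ : GG) (y : O), h (χ σ * y) = e σ * h y := fun h σ y ↦ by
    rw [functional_mul h (hχ.dvd_expChar hξ σ), ZMod.natCast_zmod_val]
  let gw : O → O →+ ZMod (l ^ M) := fun r ↦ g'.comp (AddMonoidHom.mulLeft r)
  -- the twisted functional
  set h1 := gw w0
  obtain ⟨i, hi⟩ := hex M h1 ξ hξ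
  have hEz : HasVal A l ξ (fun σ ↦ h1 (E * c σ) + (h1 (z * b0 σ) +
      (-(h1 w) * (((e φ)⁻¹ : ZMod (l ^ M)))) * (e σ - 1))) i := by
    refine HasVal.twist hl hξ hi hφ he fun σ hσ ↦ ?_
    have hu : IsUnit (e φ) := by
      refine IsUnit.of_mul_eq_one (e φ⁻¹) (zpowZMod_injective hξ ?_)
      rw [mul_comm, zpowZMod_mul hξ, ← he φ⁻¹, ← map_pow, ← he φ, ← AlgEquiv.mul_apply,
        inv_mul_cancel, AlgEquiv.one_apply]
      haveI : Fact (1 < l ^ M) := ⟨Nat.one_lt_pow (by omega) hl.one_lt⟩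
      rw [ZMod.val_one, pow_one]
    rw [htw σ hσ, map_add, hmul, map_add, sub_mul, one_mul, map_sub, hmul]
    linear_combination (-(h1 w)) * (e σ - 1) * (-(ZMod.inv_mul_of_unit _ hu))
  have hco : ∀ r : ZMod (l ^ M), HasVal A l ξ (fun σ ↦ r * (e σ - 1)) 0 :=
    fun r ↦ hasVal_coboundary hξ he r fun σ _ ↦ mul_comm _ _
  have hz : HasVal A l ξ (fun σ ↦ h1 (z * b0 σ)) 0 := hb0 M (h1.comp (AddMonoidHom.mulLeft z)) ξ hξ
  have hE' : HasVal A l ξ (fun σ ↦ h1 (E * c σ)) i := by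
    obtain ⟨j, hj⟩ := hex M (h1.comp (AddMonoidHom.mulLeft E)) ξ hξ
    have h2 := hj.add hl hξ (hz.add hl hξ (hco (-(h1 w) * (((e φ)⁻¹ : ZMod (l ^ M))))))
    have hd := HasVal.unique hl hA hξ hEz h2
    obtain ⟨t, ht⟩ := hd
    have h3 := hj.shift hl t
    rwa [show j + ((l ^ M : ℕ) : ℤ) * t = i by linarith] at h3
  -- the value of `g' ∘ c`
  obtain ⟨k, hk⟩ := hex M g' ξ hξ
  have h4 : HasVal A l ξ (fun σ ↦ h1 (c σ) + ((l ^ N : ℕ) : ZMod (l ^ M)) * g' (c σ))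
      (i + (l ^ N : ℕ) * k) := hi.add hl hξ (hk.smul hξ (l ^ N))
  have h5 : HasVal A l ξ (fun σ ↦ h1 (c σ) + ((l ^ N : ℕ) : ZMod (l ^ M)) * g' (c σ)) i :=
    hE'.congr fun σ _ ↦ by
      show g' (w0 * (E * c σ)) = g' (w0 * c σ) + _
      rw [← nsmul_eq_mul, ← map_nsmul, ← map_add, nsmul_eq_mul, Nat.cast_pow, hw0]
      congr 1; ring
  obtain ⟨t, ht⟩ := HasVal.unique hl hA hξ h4 h5
  rw [add_sub_cancel_left, hM, pow_add, Nat.cast_mul, mul_comm ((l ^ n : ℕ) : ℤ), mul_assoc] at ht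
  have hkt : k = (l ^ n : ℕ) * t :=
    mul_left_cancel₀ (Nat.cast_ne_zero.mpr (pow_ne_zero _ hl.ne_zero)) ht
  -- lower the level
  obtain ⟨α, hα0, hαv, hα⟩ := hk
  have hlow : HasVal A l ζ (fun σ ↦ g (c σ)) k := by
    refine ⟨α ^ l ^ N, pow_ne_zero _ hα0, ?_, fun σ hσ ↦ ?_⟩
    · rw [← pow_mul, ← pow_add, Nat.add_comm, ← hM]; exact hαv
    · rw [map_pow, hα σ hσ, mul_pow, ← pow_mul, mul_comm (ZMod.val _), pow_mul, hξζ]
      show _ = ζ ^ (g (c σ)).val * _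
      rw [← hg' (c σ),
        ZMod.castHom_apply, ZMod.cast_eq_val, ZMod.val_natCast,
        ← pow_eq_pow_mod _ hζ.pow_eq_one]
  simpa [hkt] using hlow.shift hl (-t)

section Local

variable {p : ℕ} {R : Rep O ϖ}

/-- The zero cocycle. -/
def Cocycle.zero (R : Rep O ϖ) : Cocycle R where
  u := fun _ ↦ 0
  v := fun _ ↦ 0
  u_mul := fun _ _ ↦ by ring
  v_mul := fun _ _ ↦ by ring
  cont := fun _ ↦ ⟨⊤, isOpen_univ, fun _ _ ↦ ⟨dvd_zero _, dvd_zero _⟩⟩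

/-- The subgroup on which the first coordinates are cocycles with cyclotomic action mod `lⁿ`. -/
def upperSubgroup (κ : Cocycle R) (n : ℕ) : Subgroup GG where
  carrier := {σ | (l : O) ^ n ∣ R.c σ ∧ (l : O) ^ n ∣ R.d σ - 1 ∧ (l : O) ^ n ∣ κ.v σ}
  one_mem' := by simp [R.c_one, R.d_one, κ.v_one]
  mul_mem' := by
    rintro σ τ ⟨h1, h2, h3⟩ ⟨k1, k2, k3⟩
    refine ⟨?_, ?_, ?_⟩
    · rw [R.c_mul]; exact (h1.mul_right _).add (k1.mul_left _)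
    · rw [R.d_mul, show R.c σ * R.b τ + R.d σ * R.d τ - 1 =
        R.c σ * R.b τ + (R.d σ - 1) * R.d τ + (R.d τ - 1) by ring]
      exact ((h1.mul_right _).add (h2.mul_right _)).add k2
    · rw [κ.v_mul]
      exact h3.add ((h1.mul_right _).add (k3.mul_left _))
  inv_mem' := by
    rintro σ ⟨h1, h2, h3⟩
    have e1 := R.c_mul σ σ⁻¹
    have e2 := R.d_mul σ σ⁻¹
    have e3 := κ.v_mul σ σ⁻¹
    rw [mul_inv_cancel] at e1 e2 e3
    rw [R.c_one] at e1; rw [R.d_one] at e2; rw [κ.v_one] at e3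
    refine ⟨?_, ?_, ?_⟩
    · rw [show R.c σ⁻¹ = -(R.c σ * R.a σ⁻¹) - (R.d σ - 1) * R.c σ⁻¹ by linear_combination -e1]
      exact (h1.mul_right _).neg_right.sub (h2.mul_right _)
    · rw [show R.d σ⁻¹ - 1 = -(R.c σ * R.b σ⁻¹) - (R.d σ - 1) * R.d σ⁻¹ by linear_combination -e2]
      exact (h1.mul_right _).neg_right.sub (h2.mul_right _)
    · rw [show κ.v σ⁻¹ = -κ.v σ - (R.c σ * κ.u σ⁻¹) - (R.d σ - 1) * κ.v σ⁻¹ by
        linear_combination -e3]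
      exact (h3.neg_right.sub (h1.mul_right _)).sub (h2.mul_right _)

theorem mem_upperSubgroup {κ : Cocycle R} {n : ℕ} {σ : GG} : σ ∈ upperSubgroup (l := l) κ n ↔
    (l : O) ^ n ∣ R.c σ ∧ (l : O) ^ n ∣ R.d σ - 1 ∧ (l : O) ^ n ∣ κ.v σ := Iff.rfl

theorem Rep.exists_open_dvd (R : Rep O ϖ) (κ : Cocycle R) (hϖ : Irreducible ϖ) (n : ℕ) :
    ∃ V : Subgroup GG, IsOpen (V : Set GG) ∧ ∀ σ ∈ V, (l : O) ^ n ∣ R.a σ - 1 ∧
      (l : O) ^ n ∣ R.b σ ∧ (l : O) ^ n ∣ R.c σ ∧ (l : O) ^ n ∣ R.d σ - 1 ∧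
      (l : O) ^ n ∣ κ.u σ ∧ (l : O) ^ n ∣ κ.v σ := by
  obtain ⟨m, hm⟩ := exists_natCast_dvd_pow (l := l) hϖ n
  obtain ⟨V, hV, h⟩ := R.cont m
  obtain ⟨W, hW, h'⟩ := κ.cont m
  refine ⟨V ⊓ W, hV.inter hW, fun σ hσ ↦ ?_⟩
  obtain ⟨h1, h2, h3, h4⟩ := h σ hσ.1
  obtain ⟨h5, h6⟩ := h' σ hσ.2
  exact ⟨hm.trans h1, hm.trans h2, hm.trans h3, hm.trans h4, hm.trans h5, hm.trans h6⟩

variable (S : Setup l p R)

theorem exists_hasVal_coord (hϖ : Irreducible ϖ) (κ : Cocycle R)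
    (hv : ∀ σ ∈ S.Al.inertiaSubgroupIn ℚ, κ.v σ = 0) (n : ℕ) (g : O →+ ZMod (l ^ n)) {ζ : QQb}
    (hζ : IsPrimitiveRoot ζ (l ^ n)) :
    (∃ i, HasVal S.Al l ζ (fun σ ↦ g (R.b σ)) i) ∧
      ∃ i, HasVal S.Al l ζ (fun σ ↦ g (κ.u σ)) i := by
  let e := expChar (l ^ n) ζ
  obtain ⟨V, hV, hVd⟩ := R.exists_open_dvd κ hϖ (l := l) n
  set U := upperSubgroup (l := l) κ n
  have hVU : V ≤ U := fun σ hσ ↦ ⟨(hVd σ hσ).2.2.1, (hVd σ hσ).2.2.2.1, (hVd σ hσ).2.2.2.2.2⟩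
  have hI : S.Al.inertiaSubgroupIn ℚ ≤ U := fun σ hσ ↦ by
    refine ⟨?_, ?_, ?_⟩
    · rw [S.decomp_c σ (Places.inertia_le_decomposition _ hσ)]; exact dvd_zero _
    · rw [S.inertia_d σ hσ, sub_self]; exact dvd_zero _
    · rw [hv σ hσ]; exact dvd_zero _
  have hker : ∀ (x : O), (l : O) ^ n ∣ x → g x = 0 := fun x hx ↦ by
    have h := functional_mul g (x := x) (y := 1) (k := 0) (by rwa [Nat.cast_zero, sub_zero])
    rwa [mul_one, Nat.cast_zero, zero_mul] at h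
  have ha : ∀ σ ∈ U, ∀ y : O, g (R.a σ * y) = e σ * g y := fun σ hσ y ↦ by
    rw [← ZMod.natCast_zmod_val (e σ)]
    refine functional_mul g ?_
    obtain ⟨hc, hd, -⟩ := hσ
    have h := S.cyclo.dvd_expChar hζ σ
    rw [show R.a σ - ((e σ).val : O) = (R.det σ - ((e σ).val : O)) -
      R.a σ * (R.d σ - 1) + R.b σ * R.c σ by rw [Rep.det]; ring]
    exact (h.sub (hd.mul_left _)).add (hc.mul_left _)
  have main : ∀ c : GG → O,
      (∀ σ ∈ U, ∀ τ ∈ U, g (c (σ * τ)) = g (c σ) + e σ * g (c τ)) → (∀ σ ∈ V, g (c σ) = 0) →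
      ∃ i, HasVal S.Al l ζ (fun σ ↦ g (c σ)) i := fun c hc hcV ↦ by
    obtain ⟨α, h0, hα, -, i, hi⟩ := exists_hasVal (Fact.out : l.Prime) S.liesl hζ
      (isExp_expChar hζ) U V hV hVU hI hc hcV
    exact ⟨i, α, h0, hi, fun σ hσ ↦ hα σ (hI hσ)⟩
  refine ⟨main _ (fun σ hσ τ hτ ↦ ?_) fun σ hσ ↦ hker _ (hVd σ hσ).2.1,
    main _ (fun σ hσ τ hτ ↦ ?_) fun σ hσ ↦ hker _ (hVd σ hσ).2.2.2.2.1⟩
  · rw [R.b_mul, show R.a σ * R.b τ + R.b σ * R.d τ =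
      R.a σ * R.b τ + R.b σ + R.b σ * (R.d τ - 1) by ring, map_add, map_add, ha σ hσ,
      hker (R.b σ * (R.d τ - 1)) (hτ.2.1.mul_left _), add_zero, add_comm]
  · rw [κ.u_mul, map_add, map_add, ha σ hσ, hker (R.b σ * κ.v τ) (hτ.2.2.mul_left _), add_zero]

theorem twist_b {φ σ : GG} (hφ : φ ∈ S.Al.decompositionSubgroup ℚ) {d' : O}
    (hd : R.d φ * d' = 1) (hσ : σ ∈ S.Al.inertiaSubgroupIn ℚ) :
    R.b (φ * σ * φ⁻¹) = R.det φ * d' ^ 2 * R.b σ + (1 - R.det σ) * (R.b φ * d') := by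
  set τ := φ * σ * φ⁻¹ with hτ
  have hτI := conj_mem S.Al hφ hσ
  have h1 := R.b_mul τ φ
  have h2 := R.b_mul φ σ
  rw [show τ * φ = φ * σ by rw [hτ]; group, h2, S.inertia_d σ hσ] at h1
  have hc := S.decomp_c φ hφ
  have haτ : R.a τ = R.det σ := by
    have h : R.det τ = R.det σ := R.det_conj φ σ
    simp only [Rep.det, S.decomp_c τ (Places.inertia_le_decomposition _ hτI), S.inertia_d τ hτI,
      mul_zero, sub_zero, mul_one] at h ⊢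
    exact h
  rw [haτ] at h1
  rw [show R.det φ = R.a φ * R.d φ by rw [Rep.det, hc, mul_zero, sub_zero]]
  linear_combination (-d') * h1 - (R.b τ + R.a φ * d' * R.b σ) * hd

theorem valZero_b (hϖ : Irreducible ϖ) : ValZero (l := l) S.Al R.b := by
  obtain ⟨d', hd⟩ : ∃ d', R.d S.φl * d' = 1 := by
    have h := R.det_mul_inv S.φl
    rw [Rep.det, S.decomp_c _ S.φl_mem, mul_zero, sub_zero] at h
    exact ⟨R.a S.φl * R.det S.φl⁻¹, by linear_combination h⟩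
  refine valZero_of_twist (E := d' ^ 2) (z := 0) (w := R.b S.φl * d') (b0 := fun _ ↦ 0) hϖ S.liesl
    S.cyclo S.φl_mem (fun e ↦ S.φl_sq ?_) (fun σ hσ ↦ ?_)
    (fun n g ζ hζ ↦ hasVal_zero fun σ _ ↦ map_zero g)
    fun n g ζ hζ ↦ (exists_hasVal_coord S hϖ (Cocycle.zero R) (fun _ _ ↦ rfl) n g hζ).1
  · linear_combination (R.d S.φl * d' + 1) * hd - R.d S.φl ^ 2 * e
  · rw [twist_b S S.φl_mem hd hσ]; ring

theorem valZero_u (hϖ : Irreducible ϖ) (κ : Cocycle R)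
    (hv : ∀ σ ∈ S.Al.inertiaSubgroupIn ℚ, κ.v σ = 0) : ValZero (l := l) S.Al κ.u := by
  obtain ⟨d', hd⟩ : ∃ d', R.d S.φl * d' = 1 := by
    have h := R.det_mul_inv S.φl
    rw [Rep.det, S.decomp_c _ S.φl_mem, mul_zero, sub_zero] at h
    exact ⟨R.a S.φl * R.det S.φl⁻¹, by linear_combination h⟩
  refine valZero_of_twist (E := d') (z := -(d' ^ 2 * κ.v S.φl))
    (w := κ.u S.φl - R.b S.φl * d' * κ.v S.φl) (b0 := R.b) hϖ S.liesl
    S.cyclo S.φl_mem (fun e ↦ S.φl_sq ?_) (fun σ hσ ↦ ?_) (valZero_b S hϖ)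
    fun n g ζ hζ ↦ (exists_hasVal_coord S hϖ κ hv n g hζ).2
  · rw [e, mul_one] at hd; rw [hd]; ring
  · have hφ := S.φl_mem
    set φ := S.φl
    set τ := φ * σ * φ⁻¹ with hτ
    have hτI := conj_mem S.Al hφ hσ
    have h1 := κ.u_mul τ φ
    have h2 := κ.u_mul φ σ
    rw [show τ * φ = φ * σ by rw [hτ]; group, h2, hv σ hσ, mul_zero, add_zero] at h1
    have hb := twist_b S hφ hd hσ
    have haτ : R.a τ = R.det σ := by
      have h : R.det τ = R.det σ := R.det_conj φ σ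
      simp only [Rep.det, S.decomp_c τ (Places.inertia_le_decomposition _ hτI), S.inertia_d τ hτI,
        mul_zero, sub_zero, mul_one] at h ⊢
      exact h
    rw [haτ, hb] at h1
    rw [show R.det φ = R.a φ * R.d φ by rw [Rep.det, S.decomp_c φ hφ, mul_zero, sub_zero]] at h1 ⊢
    linear_combination (-1 : O) * h1 - R.a φ * κ.u σ * hd

end Local

end FLTAgent.Mazur
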