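import Fermat.Agent.Mazur.Datum
import Mathlib.NumberTheory.Padics.RingHoms
import Mathlib.RingTheory.DiscreteValuationRing.Basic

/-!
# Coefficient rings: functionals with values in `ℤ/lⁿ`, limits

`O` is a discrete valuation ring which is free and finite over `ℤ_l`.
-/

set_option autoImplicit false

noncomputable section

namespace FLTAgent.Mazur

variable {l : ℕ} [Fact l.Prime] {O : Type} [CommRing O] [Algebra ℤ_[l] O] [Nontrivial O]
  [Module.Finite ℤ_[l] O] [Module.Free ℤ_[l] O]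

local notation "ι" => Module.Free.ChooseBasisIndex ℤ_[l] O
local notation "bas" => Module.Free.chooseBasis ℤ_[l] O

theorem natCast_pow_mul_eq_smul (k : ℕ) (y : O) :
    (l : O) ^ k * y = ((l : ℤ_[l]) ^ k) • y := by
  rw [Algebra.smul_def, map_pow, map_natCast]

theorem toZModPow_natCast_pow (n : ℕ) :
    PadicInt.toZModPow (p := l) n ((l : ℤ_[l]) ^ n) = 0 := by
  rw [map_pow, map_natCast, ← Nat.cast_pow, ZMod.natCast_self]

/-- Divisibility of integers can be tested in `O`. -/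
theorem intCast_dvd_of_dvd {n : ℕ} {k : ℤ} (h : (l : O) ^ n ∣ (k : O)) : (l : ℤ) ^ n ∣ k := by
  classical
  obtain ⟨y, hy⟩ := h
  obtain ⟨i⟩ : Nonempty ι := (bas).index_nonempty
  have e1 : (k : O) * bas i = (k : ℤ_[l]) • bas i := by rw [Algebra.smul_def, map_intCast]
  have e2 : (k : ℤ_[l]) • bas i = ((l : ℤ_[l]) ^ n) • (y * bas i) := by
    rw [← e1, ← natCast_pow_mul_eq_smul, ← mul_assoc, ← hy]
  have h1 := congrArg (fun x : O => (bas).repr x i) e2
  rw [map_smul, map_smul, Module.Basis.repr_self, Finsupp.smul_apply, Finsupp.smul_apply,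
    Finsupp.single_eq_same, smul_eq_mul, smul_eq_mul, mul_one] at h1
  have h2 := congrArg (PadicInt.toZModPow n) h1
  rw [map_mul, toZModPow_natCast_pow, zero_mul, map_intCast, ZMod.intCast_zmod_eq_zero_iff_dvd,
    Nat.cast_pow] at h2
  exact h2

theorem natCast_prime_not_isUnit : ¬ IsUnit (l : O) := by
  intro h
  have : (l : ℤ) ^ 1 ∣ (1 : ℤ) := intCast_dvd_of_dvd (O := O) (by
    rw [pow_one, Int.cast_one]; exact h.dvd)
  rw [pow_one] at this
  exact (Fact.out : l.Prime).ne_one (by exact_mod_cast Int.eq_one_of_dvd_one (by positivity) this)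

theorem natCast_prime_ne_zero : (l : O) ≠ 0 := by
  intro h
  have : (l : ℤ) ^ 2 ∣ (l : ℤ) := intCast_dvd_of_dvd (O := O) (by
    rw [Int.cast_natCast, h]; exact dvd_zero _)
  have h2 : l ^ 2 ∣ l := by exact_mod_cast this
  have := Nat.le_of_dvd (Fact.out : l.Prime).pos h2
  nlinarith [(Fact.out : l.Prime).two_le]

/-- A functional is compatible with congruences modulo `lⁿ`. -/
theorem functional_mul {n : ℕ} (g : O →+ ZMod (l ^ n)) {x y : O} {k : ℕ}
    (h : (l : O) ^ n ∣ x - k) : g (x * y) = (k : ZMod (l ^ n)) * g y := by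
  obtain ⟨t, ht⟩ := h
  have : x * y = k • y + (l ^ n : ℕ) • (t * y) := by
    rw [nsmul_eq_mul, nsmul_eq_mul, Nat.cast_pow]; linear_combination y * ht
  rw [this, map_add, map_nsmul, map_nsmul, nsmul_eq_mul, nsmul_eq_mul, ZMod.natCast_self, zero_mul,
    add_zero]

theorem functional_smul {n : ℕ} (g : O →+ ZMod (l ^ n)) (r : ℤ_[l]) (y : O) :
    g (r • y) = PadicInt.toZModPow n r * g y := by
  have hd : r - ((PadicInt.toZModPow n r).val : ℤ_[l]) ∈ RingHom.ker (PadicInt.toZModPow (p := l) n) := by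
    rw [RingHom.mem_ker, map_sub, map_natCast, ZMod.natCast_zmod_val, sub_self]
  rw [PadicInt.ker_toZModPow, Ideal.mem_span_singleton] at hd
  obtain ⟨t, ht⟩ := hd
  rw [Algebra.smul_def, functional_mul g (k := (PadicInt.toZModPow n r).val) ⟨algebraMap ℤ_[l] O t,
    by rw [← map_natCast (algebraMap ℤ_[l] O), ← map_natCast (algebraMap ℤ_[l] O) (_), ← map_pow,
      ← map_sub, ← map_mul, ht]⟩, ZMod.natCast_zmod_val]

/-- The coordinate functionals. -/
def coordMod (n : ℕ) (i : ι) : O →+ ZMod (l ^ n) :=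
  (PadicInt.toZModPow (p := l) n).toAddMonoidHom.comp ((bas).coord i).toAddMonoidHom

/-- The functionals separate `O / lⁿ`. -/
theorem dvd_of_forall_functional {n : ℕ} {x : O} (h : ∀ g : O →+ ZMod (l ^ n), g x = 0) :
    (l : O) ^ n ∣ x := by
  have hc : ∀ i, (l : ℤ_[l]) ^ n ∣ (bas).repr x i := fun i ↦ by
    have h1 : PadicInt.toZModPow n ((bas).repr x i) = 0 := h (coordMod n i)
    rwa [← RingHom.mem_ker, PadicInt.ker_toZModPow, Ideal.mem_span_singleton] at h1
  choose t ht using hc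
  refine ⟨∑ i, t i • bas i, ?_⟩
  rw [natCast_pow_mul_eq_smul, Finset.smul_sum]
  conv_lhs => rw [← (bas).sum_repr x]
  exact Finset.sum_congr rfl fun i _ ↦ by rw [ht i, mul_smul]

/-- A functional lifts to a higher level. -/
theorem exists_functional_lift {n : ℕ} (g : O →+ ZMod (l ^ n)) (N : ℕ) :
    ∃ g' : O →+ ZMod (l ^ (n + N)),
      ∀ x, ZMod.castHom (pow_dvd_pow l (Nat.le_add_right n N)) (ZMod (l ^ n)) (g' x) = g x := by
  refine ⟨∑ i, (AddMonoidHom.mulRight ((g (bas i)).val : ZMod (l ^ (n + N)))).comp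
    (coordMod (n + N) i), fun x ↦ ?_⟩
  conv_rhs => rw [← (bas).sum_repr x]
  rw [AddMonoidHom.finsetSum_apply, map_sum, map_sum]
  refine Finset.sum_congr rfl fun i _ ↦ ?_
  rw [functional_smul]
  simp only [coordMod, AddMonoidHom.coe_comp, Function.comp_apply, AddMonoidHom.coe_mulRight,
    LinearMap.toAddMonoidHom_coe, RingHom.toAddMonoidHom_eq_coe, AddMonoidHom.coe_coe, map_mul,
    map_natCast, ZMod.natCast_zmod_val, Module.Basis.coord_apply]
  congr 1
  exact RingHom.congr_fun (PadicInt.zmod_cast_comp_toZModPow n (n + N) (Nat.le_add_right n N)) _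

section Uniformiser

variable [IsDomain O] [IsDiscreteValuationRing O] {ϖ : O}

omit [Algebra ℤ_[l] O] [Module.Finite ℤ_[l] O] [Module.Free ℤ_[l] O] [Nontrivial O] in
theorem exists_dvd_pow (hϖ : Irreducible ϖ) {x : O} (hx : x ≠ 0) : ∃ m, x ∣ ϖ ^ m := by
  obtain ⟨m, u, rfl⟩ := IsDiscreteValuationRing.eq_unit_mul_pow_irreducible hx hϖ
  exact ⟨m, Units.mul_left_dvd.mpr dvd_rfl⟩

omit [Algebra ℤ_[l] O] [Module.Finite ℤ_[l] O] [Module.Free ℤ_[l] O] [Nontrivial O] in
theorem eq_zero_of_forall_dvd (hϖ : Irreducible ϖ) {x : O} (h : ∀ n : ℕ, ϖ ^ n ∣ x) : x = 0 := by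
  by_contra hx
  obtain ⟨m, u, rfl⟩ := IsDiscreteValuationRing.eq_unit_mul_pow_irreducible hx hϖ
  have h1 := h (m + 1)
  rw [Units.dvd_mul_left, pow_succ] at h1
  obtain ⟨t, ht⟩ := h1
  exact hϖ.not_isUnit (IsUnit.of_mul_eq_one t (mul_left_cancel₀ (pow_ne_zero m hϖ.ne_zero)
    (by rw [← mul_assoc, ← ht, mul_one])))

theorem exists_natCast_dvd_pow (hϖ : Irreducible ϖ) (n : ℕ) : ∃ m, (l : O) ^ n ∣ ϖ ^ m :=
  exists_dvd_pow hϖ (pow_ne_zero n natCast_prime_ne_zero)

theorem irreducible_dvd_natCast (hϖ : Irreducible ϖ) : ϖ ∣ (l : O) := by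
  obtain ⟨m, u, h⟩ := IsDiscreteValuationRing.eq_unit_mul_pow_irreducible
    (natCast_prime_ne_zero (l := l) (O := O)) hϖ
  rcases m with _ | m
  · rw [pow_zero, mul_one] at h
    exact absurd (h ▸ u.isUnit) natCast_prime_not_isUnit
  · exact h ▸ Dvd.dvd.mul_left (dvd_pow_self ϖ m.succ_ne_zero) _

omit [Algebra ℤ_[l] O] [Module.Finite ℤ_[l] O] [Module.Free ℤ_[l] O] [Nontrivial O] [IsDomain O]
  [IsDiscreteValuationRing O] in
theorem pow_dvd_sub_of_le {f : ℕ → O} (hf : ∀ n, ϖ ^ n ∣ f (n + 1) - f n) {n m : ℕ} (h : n ≤ m) :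
    ϖ ^ n ∣ f m - f n := by
  induction m, h using Nat.le_induction with
  | base => simp
  | succ m hnm ih =>
    have := dvd_add ((pow_dvd_pow ϖ hnm).trans (hf m)) ih
    rwa [sub_add_sub_cancel] at this

include l in
/-- Completeness. -/
theorem exists_limit (hϖ : Irreducible ϖ) (f : ℕ → O) (hf : ∀ n, ϖ ^ n ∣ f (n + 1) - f n) :
    ∃ x, ∀ n, ϖ ^ n ∣ x - f n := by
  obtain ⟨e, u, hu⟩ := IsDiscreteValuationRing.eq_unit_mul_pow_irreducible
    (natCast_prime_ne_zero (l := l) (O := O)) hϖ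
  have he : 1 ≤ e := by
    rcases e with _ | e
    · rw [pow_zero, mul_one] at hu
      exact absurd (hu ▸ u.isUnit) natCast_prime_not_isUnit
    · omega
  have hl : ∀ k, ((l : O) ^ k ∣ f (e * (k + 1)) - f (e * k)) := fun k ↦ by
    rw [hu, mul_pow, ← pow_mul]
    exact (IsUnit.mul_left_dvd (u.isUnit.pow k)).mpr
      (pow_dvd_sub_of_le hf (Nat.mul_le_mul_left e (Nat.le_succ k)))
  have hc : ∀ i, ∀ k, (l : ℤ_[l]) ^ k ∣
      (bas).repr (f (e * (k + 1))) i - (bas).repr (f (e * k)) i := fun i k ↦ by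
    obtain ⟨y, hy⟩ := hl k
    refine ⟨(bas).repr y i, ?_⟩
    rw [natCast_pow_mul_eq_smul] at hy
    rw [← Finsupp.sub_apply, ← map_sub, hy, map_smul, Finsupp.smul_apply, smul_eq_mul]
  have hlim : ∀ i, ∃ z : ℤ_[l], ∀ k, (l : ℤ_[l]) ^ k ∣ z - (bas).repr (f (e * k)) i := fun i ↦ by
    obtain ⟨z, hz⟩ := IsPrecomplete.prec (I := IsLocalRing.maximalIdeal ℤ_[l]) inferInstance
      (f := fun k => (bas).repr (f (e * k)) i) (fun {m n} hmn ↦ by
        rw [SModEq.sub_mem, smul_eq_mul, Ideal.mul_top, PadicInt.maximalIdeal_eq_span_p,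
          Ideal.span_singleton_pow, Ideal.mem_span_singleton, ← neg_sub, dvd_neg]
        exact pow_dvd_sub_of_le (f := fun k => (bas).repr (f (e * k)) i) (hc i) hmn)
    refine ⟨z, fun k ↦ ?_⟩
    have h := hz k
    rw [SModEq.sub_mem, smul_eq_mul, Ideal.mul_top, PadicInt.maximalIdeal_eq_span_p,
      Ideal.span_singleton_pow, Ideal.mem_span_singleton] at h
    rwa [← dvd_neg, neg_sub] at h
  choose z hz using hlim
  refine ⟨∑ i, z i • bas i, fun n ↦ ?_⟩
  have h1 : (l : O) ^ n ∣ ∑ i, z i • bas i - f (e * n) := by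
    conv_rhs => rw [← (bas).sum_repr (f (e * n)), ← Finset.sum_sub_distrib]
    refine Finset.dvd_sum fun i _ ↦ ?_
    obtain ⟨t, ht⟩ := hz i n
    exact ⟨t • bas i, by rw [natCast_pow_mul_eq_smul, ← mul_smul, ← ht, sub_smul]⟩
  have h2 : ϖ ^ n ∣ (l : O) ^ n := pow_dvd_pow_of_dvd (irreducible_dvd_natCast hϖ) n
  have h3 := dvd_add (h2.trans h1) (pow_dvd_sub_of_le hf (Nat.le_mul_of_pos_left n he))
  rwa [sub_add_sub_cancel] at h3

end Uniformiser

end FLTAgent.Mazur
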