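import Fermat.Agent.Kronecker.Congruence
import Fermat.Agent.Specialization.Inputs

/-!
# The kernel of reduction on torsion is stable under the good Hecke operators

For a prime `r` not dividing the level, the norm of `y(q^r)` of an integral series has a reduction
depending only on the reduction of the series.
-/

set_option autoImplicit false
set_option linter.style.haveILetI false
set_option synthInstance.maxHeartbeats 400000
set_option maxHeartbeats 1000000

noncomputable section

namespace FLTAgent.Mazur

open AlgebraicCurve ModularCurve FLTAgent.ModEq FLTAgent.Kronecker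

local notation "LL" => AlgebraicClosure ℚ

section Norm

variable {N r : ℕ} [NeZero N] [Fact r.Prime] (A : ValuationSubring LL) {kk : Type*} [Field kk]
  (π : A →+* kk)

theorem exists_norm_series (hrN : ¬ r ∣ N) :
    ∃ R : LaurentSeries kk → LaurentSeries kk, (∀ z, z ≠ 0 → R z ≠ 0) ∧
      ∀ (y : LaurentSeries A) (hy : coeffMap A.subtype y ∈ modularFunctionFieldBar N),
        ∃ g : LaurentSeries A,
          coeffMap A.subtype g = (normAlpha N r (heckeBetaBar LL N r ⟨_, hy⟩) : LaurentSeries LL) ∧
            qExpand kk (N * r) (coeffMap π g) = R (coeffMap π y) := by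
  classical
  haveI : NeZero (N * r) := ⟨Nat.mul_ne_zero (NeZero.ne N) (NeZero.ne r)⟩
  obtain ⟨ζ, hζ⟩ := exists_isPrimitiveRoot_units (K := LL) (N * r)
    (Nat.cast_ne_zero.2 (NeZero.ne (N * r)))
  have hζ1 : (ζ : LL) ^ (N * r) = 1 := by
    rw [← Units.val_pow_eq_pow_val, hζ.pow_eq_one, Units.val_one]
  have hζA : (ζ : LL) ∈ A := mem_of_pow_eq_one A (NeZero.ne _) hζ1
  have hζA' : (⟨(ζ : LL), hζA⟩ : A) ^ (N * r) = 1 := Subtype.ext hζ1
  let u : Aˣ := Units.ofPowEqOne _ _ hζA' (NeZero.ne _)
  have hu : Units.map A.subtype.toMonoidHom u = ζ := Units.ext rfl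
  refine ⟨fun z ↦ qExpand kk (r * (N * r)) z *
    ∏ b : Fin r, substHom (Units.map π.toMonoidHom (u ^ ((b : ℕ) * N))) N z, fun z hz ↦ ?_,
    fun y hy ↦ ?_⟩
  · exact mul_ne_zero ((map_ne_zero_iff _ (RingHom.injective _)).2 hz)
      (Finset.prod_ne_zero_iff.2 fun b _ ↦ (map_ne_zero_iff _ (RingHom.injective _)).2 hz)
  set R : LaurentSeries A := qExpand A (r * (N * r)) y *
    ∏ b : Fin r, substHom (u ^ ((b : ℕ) * N)) N y with hR
  set G : LaurentSeries LL := (normAlpha N r (heckeBetaBar LL N r ⟨_, hy⟩) : LaurentSeries LL)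
  have hG : coeffMap A.subtype R = qExpand LL (N * r) G := by
    rw [qExpand_normAlpha hrN hζ, Fintype.prod_option, hR, map_mul, map_prod, coeffMap_qExpand]
    simp only [coeffMap_substHom, map_pow, hu]
    rfl
  have hmem : ∀ n : ℤ, G.coeff n ∈ A := fun n ↦ by
    have h := congrArg (fun z : LaurentSeries LL => z.coeff (((N * r : ℕ) : ℤ) * n)) hG
    simp only [qExpand_coeff_mul, coeffMap_coeff] at h
    rw [← h]
    exact (R.coeff _).2
  let g : LaurentSeries A :=
    { coeff := fun n => ⟨G.coeff n, hmem n⟩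
      isPWO_support' := G.isPWO_support.mono fun n hn h0 => hn (Subtype.ext h0) }
  have hg : coeffMap A.subtype g = G := by ext n; rfl
  refine ⟨g, hg, ?_⟩
  have hgR : qExpand A (N * r) g = R := by
    refine coeffMap_injective A.subtype Subtype.val_injective ?_
    rw [coeffMap_qExpand, hg, hG]
  rw [← coeffMap_qExpand, hgR, hR, map_mul, map_prod, coeffMap_qExpand]
  simp only [coeffMap_substHom]

end Norm

section Kernel

variable {N : ℕ} [NeZero N] {A : ValuationSubring LL} {kk : Type*} [Field kk] {π : A →+* kk}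

/-- Series of functions on the special fibre lift. -/
theorem exists_series_lift (hπ : Function.Surjective π) {z : LaurentSeries kk}
    (hz : z ∈ Algebra.adjoin kk (divisorExpansionsC kk N)) :
    ∃ y : LaurentSeries A,
      coeffMap A.subtype y ∈ modularFunctionFieldBar N ∧ coeffMap π y = z := by
  induction hz using Algebra.adjoin_induction with
  | mem s hs =>
    obtain ⟨d, hne, hd, rfl⟩ := hs
    haveI := hne
    exact ⟨qExpand A d (jqModC A), Specialization.gen_mem (A := A) N hd,
      Specialization.coeffMap_gen π d⟩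
  | algebraMap c =>
    obtain ⟨a, rfl⟩ := hπ c
    refine ⟨HahnSeries.single 0 a, ?_, ?_⟩
    · rw [Specialization.coeffMap_single_zero, ← algebraMap_laurentSeries_eq_single]
      exact IntermediateField.algebraMap_mem _ _
    · rw [Specialization.coeffMap_single_zero, algebraMap_laurentSeries_eq_single]
  | add a b _ _ ha hb =>
    obtain ⟨y, hy, rfl⟩ := ha
    obtain ⟨y', hy', rfl⟩ := hb
    exact ⟨y + y', by rw [map_add]; exact add_mem hy hy', map_add _ _ _⟩
  | mul a b _ _ ha hb =>
    obtain ⟨y, hy, rfl⟩ := ha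
    obtain ⟨y', hy', rfl⟩ := hb
    exact ⟨y * y', by rw [map_mul]; exact mul_mem hy hy', map_mul _ _ _⟩

/-- Integral series with non-zero reduction. -/
structure IntFun (A : ValuationSubring LL) (π : A →+* kk) (N : ℕ) [NeZero N] where
  y : LaurentSeries A
  mem : coeffMap A.subtype y ∈ modularFunctionFieldBar N
  memk : coeffMap π y ∈ modularFunctionFieldFullC kk N
  ne : coeffMap π y ≠ 0

namespace IntFun

variable (u v : IntFun A π N)

/-- The function. -/
def fn : modularFunctionFieldBar N := ⟨coeffMap A.subtype u.y, u.mem⟩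

/-- Its reduction. -/
def red : modularFunctionFieldFullC kk N := ⟨coeffMap π u.y, u.memk⟩

theorem fn_ne : u.fn ≠ 0 := fun h ↦ u.ne (by
  have h1 : coeffMap A.subtype u.y = 0 := congrArg Subtype.val h
  rw [coeffMap_injective A.subtype Subtype.val_injective (h1.trans (map_zero _).symm), map_zero])

theorem red_ne : u.red ≠ 0 := fun h ↦ u.ne (congrArg Subtype.val h)

/-- The product. -/
protected def mul : IntFun A π N where
  y := u.y * v.y
  mem := by rw [map_mul]; exact mul_mem u.mem v.mem
  memk := by rw [map_mul]; exact mul_mem u.memk v.memk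
  ne := by rw [map_mul]; exact mul_ne_zero u.ne v.ne

theorem mul_fn : (u.mul v).fn = u.fn * v.fn := Subtype.ext (map_mul _ _ _)

theorem mul_red : (u.mul v).red = u.red * v.red := Subtype.ext (map_mul _ _ _)

variable (A π N) in
/-- The constant one. -/
protected def one : IntFun A π N where
  y := 1
  mem := by rw [map_one]; exact one_mem _
  memk := by rw [map_one]; exact one_mem _
  ne := by rw [map_one]; exact one_ne_zero

theorem one_fn : (IntFun.one N A π).fn = 1 := Subtype.ext (map_one _)

variable {r : Place LL (modularFunctionFieldBar N) → Place kk (modularFunctionFieldFullC kk N)}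

open FLTAgent.Specialization in
theorem map_div [IsAlgClosed kk] [FLTAgent.Curves.IsFunctionField kk (modularFunctionFieldFullC kk N)]
    (hr : IsPlaceReductionAlong A π N r) :
    Finsupp.mapDomain r (Curves.divOf LL u.fn) = Curves.divOf kk u.red :=
  Finsupp.ext fun Q ↦ (hr.2 u.y u.mem u.memk u.ne _ (fun P ↦ Curves.divOf_apply _ P) Q).trans
    (Curves.divOf_apply _ Q).symm

end IntFun

theorem exists_pair_of_principal (hgen : PrincipalGeneratedByIntegral A π N)
    {E : Divisor LL (modularFunctionFieldBar N)} (hE : Divisor.IsPrincipal E) :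
    ∃ u v : IntFun A π N, E = Curves.divOf LL u.fn - Curves.divOf LL v.fn := by
  have h : E ∈ AddSubgroup.closure (integralPrincipalDivisors A π N) := hgen hE
  clear hE
  induction h using AddSubgroup.closure_induction with
  | mem E hE =>
    obtain ⟨y, hy, hyk, hne, hD⟩ := hE
    refine ⟨⟨y, hy, hyk, hne⟩, IntFun.one N A π, ?_⟩
    rw [IntFun.one_fn, ← map_one (algebraMap LL (modularFunctionFieldBar N)),
      Specialization.divOf_algebraMap, sub_zero]
    exact Finsupp.ext fun P ↦ (hD P).trans (Curves.divOf_apply _ P).symm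
  | zero => exact ⟨IntFun.one N A π, IntFun.one N A π, (sub_self _).symm⟩
  | add E E' _ _ hE hE' =>
    obtain ⟨u, v, rfl⟩ := hE
    obtain ⟨u', v', rfl⟩ := hE'
    refine ⟨u.mul u', v.mul v', ?_⟩
    rw [IntFun.mul_fn, IntFun.mul_fn, Specialization.divOf_mul u.fn_ne u'.fn_ne,
      Specialization.divOf_mul v.fn_ne v'.fn_ne]
    abel
  | neg E _ hE =>
    obtain ⟨u, v, rfl⟩ := hE
    exact ⟨v, u, neg_sub _ _⟩

end Kernel

section Main

variable {N : ℕ} [NeZero N] {A : ValuationSubring LL}

local notation "kA" => IsLocalRing.ResidueField A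
local notation "Jk" => modularFunctionFieldFullC (IsLocalRing.ResidueField A) N

/-- If a torsion class reduces to zero, so does its image under `T_r`, `r ∤ N`. -/
theorem reductionModL_hecke_eq_zero [IsAlgClosed kA] [FLTAgent.Curves.IsFunctionField kA Jk]
    (h : ReductionInputsModL A N) (hNk : (N : kA) ≠ 0) (r : ℕ) [Fact r.Prime] (hrN : ¬ r ∣ N) {x : JZero N} {m : ℕ}
    (hm : m ≠ 0) (hmx : m • x = 0) (hx : reductionModL A N x = 0) :
    reductionModL A N (heckeOperatorAlong LL N r x) = 0 := by
  classical
  haveI : NeZero r := ⟨(Fact.out : r.Prime).ne_zero⟩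
  haveI : NeZero (N * r) := ⟨Nat.mul_ne_zero (NeZero.ne N) (NeZero.ne r)⟩
  haveI : HasPrincipalDivisors LL (modularFunctionFieldBar (N * r)) :=
    FLTAgent.Curves.hasPrincipalDivisors
  have hα : HeckeAlphaBarIntegral LL N r := isIntegralAlong _
  have hβ : HeckeBetaBarIntegral LL N r := isIntegralAlong _
  set π := IsLocalRing.residue A
  set pr := placeReductionModL h
  have hpr : IsPlaceReductionAlong A π N pr := isPlaceReductionModL_placeReductionModL h
  have hgen : PrincipalGeneratedByIntegral A π N := h.choose_spec.2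
  obtain ⟨D, rfl⟩ := Pic0.mk_surjective x
  rw [reductionModL_mk h] at hx
  have hxP : Divisor.IsPrincipal
      (Finsupp.mapDomain pr (D : Divisor LL (modularFunctionFieldBar N))) :=
    (QuotientAddGroup.eq_zero_iff _).1 hx
  obtain ⟨gb, hgb0, hgb⟩ := Specialization.isPrincipal_iff.1 hxP
  obtain ⟨a, ha, b, hb, hab⟩ := IntermediateField.mem_adjoin_iff_div.1
    (show (gb : LaurentSeries kA) ∈
      IntermediateField.adjoin kA (divisorExpansionsC kA N) from gb.2)
  have hgb' : (gb : LaurentSeries kA) ≠ 0 := fun h0 ↦ hgb0 (Subtype.ext h0)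
  have hb0 : b ≠ 0 := fun h0 ↦ hgb' (by rw [hab, h0, div_zero])
  have ha0 : a ≠ 0 := fun h0 ↦ hgb' (by rw [hab, h0, zero_div])
  obtain ⟨ya, hya, hyak⟩ := exists_series_lift (IsLocalRing.residue_surjective (R := A)) ha
  obtain ⟨yb, hyb, hybk⟩ := exists_series_lift (IsLocalRing.residue_surjective (R := A)) hb
  let ua : IntFun A π N := ⟨ya, hya, hyak ▸ IntermediateField.algebra_adjoin_le_adjoin _ _ ha,
    hyak ▸ ha0⟩
  let ub : IntFun A π N := ⟨yb, hyb, hybk ▸ IntermediateField.algebra_adjoin_le_adjoin _ _ hb,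
    hybk ▸ hb0⟩
  have hua : ua.red = gb * ub.red := Subtype.ext (by
    show coeffMap π ya = (gb : LaurentSeries kA) * coeffMap π yb
    rw [hyak, hybk, hab, div_mul_cancel₀ a hb0])
  -- a representative reducing to the zero divisor
  set D' : Divisor LL (modularFunctionFieldBar N) :=
    (D : Divisor LL (modularFunctionFieldBar N)) -
      (Curves.divOf LL ua.fn - Curves.divOf LL ub.fn) with hD'
  have hdeg : D' ∈ Divisor.degZero (K := LL) (F := modularFunctionFieldBar N) := by
    rw [Divisor.mem_degZero, hD', map_sub, map_sub, Curves.degree_divOf, Curves.degree_divOf,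
      Divisor.mem_degZero.1 D.2, sub_zero, sub_zero]
  have hred : Finsupp.mapDomain pr D' = 0 := by
    rw [hD', ← Finsupp.mapDomain.addMonoidHom_apply, map_sub, map_sub,
      Finsupp.mapDomain.addMonoidHom_apply, Finsupp.mapDomain.addMonoidHom_apply,
      Finsupp.mapDomain.addMonoidHom_apply, ua.map_div hpr, ub.map_div hpr, hgb, hua,
      Specialization.divOf_mul hgb0 ub.red_ne]
    abel
  have hclass : Pic0.mk D = Pic0.mk (⟨D', hdeg⟩ : Divisor.degZero (K := LL)
      (F := modularFunctionFieldBar N)) := by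
    refine (QuotientAddGroup.eq_iff_sub_mem).2 (Specialization.isPrincipal_iff.2
      ⟨ua.fn / ub.fn, div_ne_zero ua.fn_ne ub.fn_ne, ?_⟩)
    show (D : Divisor LL (modularFunctionFieldBar N)) - D' = _
    rw [hD', sub_sub_cancel, Specialization.divOf_div ua.fn_ne ub.fn_ne]
  rw [hclass] at hmx ⊢
  have hmP : Divisor.IsPrincipal (m • D') := (QuotientAddGroup.eq_zero_iff _).1 hmx
  obtain ⟨u, v, huv⟩ := exists_pair_of_principal hgen hmP
  have hdiv0 : Curves.divOf kA u.red = Curves.divOf kA v.red := by
    let ψ : Divisor LL (modularFunctionFieldBar N) →+ Divisor kA Jk :=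
      Finsupp.mapDomain.addMonoidHom pr
    have h1 : m • ψ D' = ψ (Curves.divOf LL u.fn) - ψ (Curves.divOf LL v.fn) :=
      (map_nsmul ψ m D').symm.trans ((congrArg ψ huv).trans (map_sub ψ _ _))
    have h0 : ψ D' = 0 := hred
    rw [h0, nsmul_zero, show ψ (Curves.divOf LL u.fn) = _ from u.map_div hpr,
      show ψ (Curves.divOf LL v.fn) = _ from v.map_div hpr] at h1
    exact sub_eq_zero.1 h1.symm
  obtain ⟨c, hc⟩ := Curves.eq_algebraMap_of_forall_ord_nonneg (K := kA) (f := u.red / v.red)
    fun Q ↦ by
      rw [← Curves.divOf_apply, Specialization.divOf_div u.red_ne v.red_ne, hdiv0, sub_self]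
      exact le_rfl
  obtain ⟨ca, hca⟩ := IsLocalRing.residue_surjective (R := A) c
  have hc0 : c ≠ 0 := fun h0 ↦ by
    rw [h0, map_zero] at hc; exact div_ne_zero u.red_ne v.red_ne hc
  let v' : IntFun A π N :=
    { y := HahnSeries.single 0 ca * v.y
      mem := by
        rw [map_mul, Specialization.coeffMap_single_zero, ← algebraMap_laurentSeries_eq_single]
        exact mul_mem (IntermediateField.algebraMap_mem _ _) v.mem
      memk := by
        rw [map_mul, Specialization.coeffMap_single_zero, ← algebraMap_laurentSeries_eq_single]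
        exact mul_mem (IntermediateField.algebraMap_mem _ _) v.memk
      ne := by
        rw [map_mul, Specialization.coeffMap_single_zero, ← algebraMap_laurentSeries_eq_single,
          hca]
        exact mul_ne_zero ((_root_.map_ne_zero _).2 hc0) v.ne }
  have hv'fn : v'.fn = algebraMap LL _ (ca : LL) * v.fn := Subtype.ext (by
    show coeffMap A.subtype (HahnSeries.single 0 ca * v.y) = _
    rw [map_mul, Specialization.coeffMap_single_zero, ← algebraMap_laurentSeries_eq_single]
    rfl)
  have hca0 : (ca : LL) ≠ 0 := fun h0 ↦ hc0 (by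
    rw [← hca, show ca = 0 from Subtype.ext h0, map_zero])
  have hv'u : coeffMap π u.y = coeffMap π v'.y := by
    have h1 := congrArg Subtype.val ((div_eq_iff v.red_ne).1 hc).symm
    show coeffMap π u.y = coeffMap π (HahnSeries.single 0 ca * v.y)
    rw [map_mul, Specialization.coeffMap_single_zero, ← algebraMap_laurentSeries_eq_single, hca]
    exact h1.symm
  have huv' : m • D' = Curves.divOf LL u.fn - Curves.divOf LL v'.fn := by
    rw [huv, hv'fn, Specialization.divOf_mul ((_root_.map_ne_zero _).2 hca0) v.fn_ne,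
      Specialization.divOf_algebraMap, zero_add]
  -- the norms
  obtain ⟨R, hR0, hR⟩ := exists_norm_series (N := N) (r := r) A π hrN
  obtain ⟨gu, hgu, hguk⟩ := hR u.y u.mem
  obtain ⟨gv, hgv, hgvk⟩ := hR v'.y v'.mem
  have hguv : coeffMap π gu = coeffMap π gv :=
    qExpand_injective (R := kA) (N * r) (by rw [hguk, hgvk, hv'u])
  have hgne : coeffMap π gu ≠ 0 := fun h0 ↦ hR0 _ u.ne (by rw [← hguk, h0, map_zero])
  have hmem : ∀ (w : modularFunctionFieldBar N) (g : LaurentSeries A),
      coeffMap A.subtype g = (w : LaurentSeries LL) →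
        coeffMap π g ∈ modularFunctionFieldFullC kA N := by
    intro w g hg
    have hgF : coeffMap A.subtype g ∈ Specialization.X0Bar N := hg ▸ w.2
    exact Specialization.res_mem_full (IsLocalRing.residue_surjective (R := A)) N
      hNk (Specialization.laurentReduction_res hgF)
  let Gu : IntFun A π N := ⟨gu, hgu ▸ SetLike.coe_mem _, hmem _ _ hgu, hgne⟩
  let Gv : IntFun A π N := ⟨gv, hgv ▸ SetLike.coe_mem _, hmem _ _ hgv, hguv ▸ hgne⟩
  have hT : m • Finsupp.mapDomain pr (heckeDivBar hα hβ D') = 0 := by
    have e : ∀ (w : IntFun A π N) (G : IntFun A π N),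
        coeffMap A.subtype G.y = (normAlpha N r (heckeBetaBar LL N r w.fn) : LaurentSeries LL) →
        Finsupp.mapDomain pr (heckeDivBar hα hβ (Curves.divOf LL w.fn)) = Curves.divOf kA G.red := by
      intro w G hG
      rw [← G.map_div hpr]
      congr 1
      refine Finsupp.ext fun P ↦ ?_
      rw [heckeDivBar_apply_of_ord hα hβ w.fn_ne (fun P ↦ Curves.divOf_apply _ P) P,
        Curves.divOf_apply]
      exact congrArg _ (Subtype.ext hG.symm)
    rw [← Finsupp.mapDomain.addMonoidHom_apply, ← map_nsmul, ← map_nsmul, huv', map_sub, map_sub,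
      Finsupp.mapDomain.addMonoidHom_apply, Finsupp.mapDomain.addMonoidHom_apply, e u Gu hgu,
      e v' Gv hgv, show Gu.red = Gv.red from Subtype.ext hguv, sub_self]
  obtain ⟨hTd, hTeq⟩ := heckeOperatorAlong_mk N r hα hβ ⟨D', hdeg⟩
  rw [hTeq, reductionModL_mk h]
  refine (QuotientAddGroup.eq_zero_iff _).2 ?_
  have h0 : Finsupp.mapDomain pr (heckeDivBar hα hβ D') = 0 := by
    ext Q
    have := congrArg (fun E : Divisor kA Jk ↦ E Q) hT
    simp only [Finsupp.smul_apply, nsmul_eq_mul, Finsupp.zero_apply] at this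
    exact (mul_eq_zero.1 this).resolve_left (Int.natCast_ne_zero.2 hm)
  rw [AddSubgroup.mem_addSubgroupOf, coe_reductionDegZeroAlong]
  show Finsupp.mapDomain pr (heckeDivBar hα hβ D') ∈ _
  rw [h0]
  exact AddSubgroup.zero_mem _

end Main

end FLTAgent.Mazur
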