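import Fermat.Agent.Mazur.PointUnit
import Fermat.Agent.Mazur.HeckeKernel
import Fermat.Agent.Kronecker.GoodReduction
import Fermat.Agent.GoodModel.Cusps
import Fermat.Agent.FrobTrace.Global

/-!
# The `l`-part of the cuspidal class survives reduction at `l`

For a suitable prime `l ∣ p - 1` the expansion of the modular unit is not a series in `q^(l^a)`
modulo `l`, while the expansions of `l^a`-th powers are.
-/

set_option autoImplicit false
set_option linter.style.haveILetI false
set_option synthInstance.maxHeartbeats 400000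
set_option maxHeartbeats 1000000

noncomputable section

open ModularCurve AlgebraicCurve IsLocalRing Filter Topology

namespace FLTAgent.Mazur

open FLTAgent.ModEq (deltaSer deltaInvSer)

local notation "QA" => AlgebraicClosure ℚ

/-! ### The coefficient -/

open scoped PowerSeries.WithPiTopology in
theorem coeff_one_etaProd : PowerSeries.coeff 1 etaProd = -1 := by
  have h1 := (PowerSeries.WithPiTopology.multipliable_one_sub_X_pow ℤ).hasProd.tendsto_prod_nat
  have h2 := ((PowerSeries.WithPiTopology.continuous_coeff ℤ 1).tendsto _).comp h1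
  have h3 : ∀ N, 1 ≤ N → PowerSeries.coeff 1
      (∏ i ∈ Finset.range N, (1 - PowerSeries.X ^ (i + 1) : PowerSeries ℤ)) = -1 := by
    intro N hN
    induction N, hN using Nat.le_induction with
    | base => simp
    | succ N hN ih =>
      rw [Finset.prod_range_succ, mul_sub, mul_one, map_sub, ih, PowerSeries.coeff_mul_X_pow',
        if_neg (by omega), sub_zero]
  refine tendsto_nhds_unique h2 (tendsto_const_nhds.congr' ?_)
  filter_upwards [Filter.eventually_ge_atTop 1] with N hN
  exact (h3 N hN).symm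

theorem coeff_one_add_X_pow {R : Type*} [CommRing R] (h : PowerSeries R) {d : ℕ} (hd : 0 < d)
    (e : ℕ) : PowerSeries.coeff d ((1 + PowerSeries.X ^ d * h) ^ e) =
      e * PowerSeries.constantCoeff h := by
  induction e with
  | zero => simp [PowerSeries.coeff_one, hd.ne']
  | succ e ih =>
    have h0 : PowerSeries.constantCoeff ((1 + PowerSeries.X ^ d * h) ^ e) = 1 := by
      simp [zero_pow hd.ne']
    rw [pow_succ, mul_add, mul_one, map_add, ih, mul_left_comm, PowerSeries.coeff_X_pow_mul',
      if_pos le_rfl, Nat.sub_self, PowerSeries.coeff_zero_eq_constantCoeff_apply, map_mul, h0,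
      one_mul]
    push_cast
    ring

theorem coeff_etaUnit {k : Type*} [Field k] (l : ℕ) [Fact l.Prime] [CharP k l] {j e : ℕ}
    (hje : l ^ j * e = 24) : PowerSeries.coeff (l ^ j)
      (dedekindEtaUnit.map (Int.castRingHom k)) = e * (-1) ^ l ^ j := by
  haveI : CharP (PowerSeries k) l :=
    charP_of_injective_ringHom (f := PowerSeries.C) PowerSeries.C_injective l
  obtain ⟨g, hg⟩ : PowerSeries.X ∣ etaProd.map (Int.castRingHom k) - 1 := by
    rw [PowerSeries.X_dvd_iff, map_sub, ← PowerSeries.coeff_zero_eq_constantCoeff_apply,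
      PowerSeries.coeff_map, PowerSeries.coeff_zero_eq_constantCoeff_apply, constantCoeff_etaProd]
    simp
  have hg0 : PowerSeries.constantCoeff g = -1 := by
    have h := congrArg (PowerSeries.coeff 1) hg
    rw [map_sub, PowerSeries.coeff_map, coeff_one_etaProd, PowerSeries.coeff_one,
      PowerSeries.coeff_succ_X_mul, PowerSeries.coeff_zero_eq_constantCoeff_apply] at h
    simpa using h.symm
  rw [dedekindEtaUnit, ← hje, map_pow, pow_mul, sub_eq_iff_eq_add'.1 hg,
    add_pow_char_pow, one_pow, mul_pow, coeff_one_add_X_pow _ (pow_pos (Fact.out : l.Prime).pos j),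
    map_pow, hg0]

/-- The choice of the prime: `l^a ∤ l^j` while the coefficient at `l^j` is nonzero. -/
theorem exists_eisenstein_prime {p : ℕ} (hp : p.Prime)
    (hp' : p ∉ ({2, 3, 5, 7, 13} : Finset ℕ)) :
    ∃ l a j e m : ℕ, l.Prime ∧ l ≠ p ∧ p - 1 = l ^ a * m ∧ j < a ∧ l ^ j < p ∧
      l ^ j * e = 24 ∧ ¬ l ∣ e := by
  have h2 := hp.two_le
  simp only [Finset.mem_insert, Finset.mem_singleton, not_or] at hp'
  have hne : p - 1 ≠ 0 := by omega
  suffices ∃ l j : ℕ, l.Prime ∧ l ^ (j + 1) ∣ p - 1 ∧ l ^ j ∣ 24 ∧ ¬ l ∣ 24 / l ^ j by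
    obtain ⟨l, j, hl, ⟨m, hm⟩, hj, hje⟩ := this
    have h1 : 0 < m := Nat.pos_of_ne_zero fun h => hne (by rw [hm, h, mul_zero])
    have hlt : l ^ j < p := by
      have h3 : l ^ j ≤ l ^ (j + 1) := Nat.pow_le_pow_right hl.pos j.le_succ
      have h4 : l ^ (j + 1) ≤ p - 1 := hm ▸ Nat.le_mul_of_pos_right _ h1
      omega
    refine ⟨l, j + 1, j, 24 / l ^ j, m, hl, fun e => ?_, hm, j.lt_succ_self, hlt,
      Nat.mul_div_cancel' hj, hje⟩
    have := Nat.le_of_dvd (by omega) ((dvd_pow_self l j.succ_ne_zero).trans ⟨m, hm⟩)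
    omega
  by_cases h16 : 16 ∣ p - 1
  · exact ⟨2, 3, Nat.prime_two, h16, by norm_num, by norm_num⟩
  by_cases h9 : 9 ∣ p - 1
  · exact ⟨3, 1, Nat.prime_three, h9, by norm_num, by norm_num⟩
  by_cases h5 : ∃ l, l.Prime ∧ 5 ≤ l ∧ l ∣ p - 1
  · obtain ⟨l, hl, hl5, hld⟩ := h5
    refine ⟨l, 0, hl, by simpa using hld, one_dvd _, ?_⟩
    rw [pow_zero, Nat.div_one]
    intro h
    rw [show 24 = 2 ^ 3 * 3 by norm_num] at h
    rcases hl.dvd_mul.1 h with h | h
    · have := Nat.le_of_dvd two_pos (hl.dvd_of_dvd_pow h); omega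
    · have := Nat.le_of_dvd three_pos h; omega
  exfalso
  push Not at h5
  have h24 : p - 1 ∣ 24 := by
    rw [Nat.dvd_iff_prime_pow_dvd_dvd]
    intro l k hl hk
    rcases Nat.lt_or_ge k 1 with hk0 | hk1
    · interval_cases k; simp
    have hl5 : l < 5 := lt_of_not_ge fun h =>
      h5 l hl h ((dvd_pow_self l (by omega)).trans hk)
    interval_cases l
    · exact absurd hl Nat.not_prime_zero
    · exact absurd hl Nat.not_prime_one
    · have : k < 4 := lt_of_not_ge fun h => h16 ((pow_dvd_pow 2 h).trans hk)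
      interval_cases k <;> norm_num
    · have : k < 2 := lt_of_not_ge fun h => h9 ((pow_dvd_pow 3 h).trans hk)
      interval_cases k; norm_num
    · exact absurd hl (by norm_num)
  have hle := Nat.le_of_dvd (by norm_num) h24
  have : p ≤ 25 := by omega
  interval_cases p <;> simp_all <;> norm_num at *

/-! ### The reduction -/

theorem dvd_of_coeff_pow_ne_zero {k : Type*} [Field k] (l : ℕ) [Fact l.Prime] [CharP k l] :
    ∀ (j : ℕ) (x : LaurentSeries k) (n : ℤ), (x ^ l ^ j).coeff n ≠ 0 → ((l ^ j : ℕ) : ℤ) ∣ n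
  | 0, x, n, _ => by simp
  | j + 1, x, n, hn => by
    haveI : NeZero l := ⟨(Fact.out : l.Prime).ne_zero⟩
    rw [pow_succ, pow_mul, Kronecker.laurent_pow_char l] at hn
    by_cases hd : (l : ℤ) ∣ n
    · obtain ⟨m, rfl⟩ := hd
      rw [qExpand_coeff_mul, coeffMap_coeff, map_ne_zero] at hn
      rw [pow_succ, Nat.cast_mul, mul_comm (l : ℤ)]
      exact mul_dvd_mul_right (dvd_of_coeff_pow_ne_zero l j x m hn) _
    · exact absurd (qExpand_coeff_of_not_dvd l _ hd) hn

/-- The expansion of the modular unit over any ring. -/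
def unitSer (p : ℕ) [NeZero p] (R : Type*) [CommRing R] : LaurentSeries R :=
  deltaSer R * qExpand R p (deltaInvSer R)

theorem coeffMap_unitSer {p : ℕ} [NeZero p] {R S : Type*} [CommRing R] [CommRing S] (f : R →+* S) :
    coeffMap f (unitSer p R) = unitSer p S := by
  rw [unitSer, unitSer, map_mul, ModEq.coeffMap_deltaSer, coeffMap_qExpand,
    ModEq.coeffMap_deltaInvSer]

theorem coeff_unitSer {p : ℕ} [NeZero p] {R : Type*} [CommRing R] {d : ℕ} (hd : d < p) :
    (unitSer p R).coeff (1 - (p : ℤ) + d) =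
      PowerSeries.coeff d (dedekindEtaUnit.map (Int.castRingHom R)) := by
  have h : unitSer p R = HahnSeries.single (1 - (p : ℤ)) 1 * HahnSeries.ofPowerSeries ℤ R
      (dedekindEtaUnit.map (Int.castRingHom R) *
        PowerSeries.expand p (NeZero.ne p) (dedekindEtaUnitInv.map (Int.castRingHom R))) := by
    rw [unitSer, deltaSer, deltaInvSer, map_mul (qExpand R p), qExpand_single,
      Kronecker.qExpand_ofPowerSeries, mul_mul_mul_comm, HahnSeries.single_mul_single, one_mul,
      ← map_mul (HahnSeries.ofPowerSeries ℤ R), mul_neg, mul_one, ← sub_eq_add_neg]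
  rw [h, add_comm, HahnSeries.coeff_single_mul_add, one_mul, HahnSeries.ofPowerSeries_apply_coeff,
    PowerSeries.coeff_mul, Finset.sum_eq_single (d, 0)]
  · have hinv : PowerSeries.constantCoeff (dedekindEtaUnitInv.map (Int.castRingHom R)) = 1 := by
      rw [← PowerSeries.coeff_zero_eq_constantCoeff_apply, PowerSeries.coeff_map,
        PowerSeries.coeff_zero_eq_constantCoeff_apply, constantCoeff_dedekindEtaUnitInv, map_one]
    rw [PowerSeries.coeff_zero_eq_constantCoeff_apply, PowerSeries.constantCoeff_expand, hinv,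
      mul_one]
  · rintro ⟨i, k⟩ hik hne
    rw [Finset.HasAntidiagonal.mem_antidiagonal] at hik
    rw [PowerSeries.coeff_expand_of_not_dvd _ _ _ fun hdvd => ?_, mul_zero]
    rcases Nat.eq_zero_or_pos k with rfl | hk
    · exact hne (by simp only [add_zero] at hik; simp [hik])
    · have := Nat.le_of_dvd hk hdvd
      change i + k = d at hik
      change k ≥ p at this
      omega
  · intro hd'
    exact absurd (by simp) hd'

theorem coeffEmb_modularUnitSeries {p : ℕ} [Fact p.Prime] [NeZero p] :
    coeffEmb QA (modularUnitSeries p) = unitSer p QA := by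
  have hd : deltaSeries = deltaSer ℚ := rfl
  have hi : (deltaSeriesN p)⁻¹ = qExpand ℚ p (deltaInvSer ℚ) := by
    refine inv_eq_of_mul_eq_one_right ?_
    rw [deltaSeriesN, hd, ← map_mul, ModEq.deltaSer_mul_inv, map_one]
  rw [modularUnitSeries, hi, hd]
  exact coeffMap_unitSer (algebraMap ℚ QA)

/-- The class of the difference of the cusps. -/
def cuspClass (p : ℕ) [Fact p.Prime] : JZero p :=
  Pic0.mk ⟨Finsupp.single (cuspZero p) 1 - Finsupp.single (cuspInf p) 1,
    haveI : NeZero p := ⟨(Fact.out : p.Prime).ne_zero⟩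
    Divisor.mem_degZero.2 (by simp [map_sub, Curves.deg_eq_one])⟩

theorem nsmul_cuspClass (p : ℕ) [Fact p.Prime] [NeZero p] : (p - 1) • cuspClass p = 0 := by
  haveI : Curves.IsFunctionField QA (modularFunctionFieldBar p) :=
    Specialization.instIsFunctionFieldX0Bar p
  obtain ⟨f, -, hf0, hf⟩ := exists_unit_divOf (p := p)
  rw [cuspClass, ← Kronecker.pic0_mk_nsmul]
  refine (QuotientAddGroup.eq_zero_iff _).2 (Specialization.isPrincipal_iff.2 ⟨f, hf0, ?_⟩)
  rw [hf, map_nsmul, ← natCast_zsmul, Nat.cast_sub (Fact.out : p.Prime).one_le, Nat.cast_one]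
  rfl

theorem reductionModL_cuspClass_ne_zero {p l : ℕ} [Fact p.Prime] [NeZero p] [Fact l.Prime]
    (hlp : l ≠ p) {a j e m : ℕ} (hm : p - 1 = l ^ a * m) (hja : j < a) (hjp : l ^ j < p)
    (hje : l ^ j * e = 24) (he : ¬ l ∣ e) {A : ValuationSubring QA} (hA : A.LiesOverPrime l) :
    reductionModL A p (m • cuspClass p) ≠ 0 := by
  intro h0
  have hpn : ¬ l ∣ p := fun h => hlp ((Nat.prime_dvd_prime_iff_eq Fact.out Fact.out).1 h)
  have h : ReductionInputsModL A p := (Kronecker.goodReductionAt p l Fact.out hpn A hA).1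
  haveI : CharP (ResidueField A) l := FrobTrace.charP_residueField hA
  haveI : IsAlgClosed (ResidueField A) := FrobTrace.isAlgClosed_residueField A
  have hpk : (p : ResidueField A) ≠ 0 := Specialization.natCast_ne_zero_residue hA hpn
  haveI : Curves.IsFunctionField (ResidueField A) (modularFunctionFieldFullC (ResidueField A) p) :=
    GoodModel.isFunctionField_fullC hpk
  haveI : Curves.IsFunctionField QA (modularFunctionFieldBar p) :=
    Specialization.instIsFunctionFieldX0Bar p
  set pr := placeReductionModL h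
  have hpr : IsPlaceReductionAlong A (residue A) p pr := isPlaceReductionModL_placeReductionModL h
  set D : Divisor QA (modularFunctionFieldBar p) :=
    Finsupp.single (cuspZero p) 1 - Finsupp.single (cuspInf p) 1
  rw [cuspClass, ← Kronecker.pic0_mk_nsmul, reductionModL_mk h] at h0
  have hP : Divisor.IsPrincipal (Finsupp.mapDomain pr (m • D)) :=
    (QuotientAddGroup.eq_zero_iff _).1 h0
  obtain ⟨g, hg0, hg⟩ := Specialization.isPrincipal_iff.1 hP
  obtain ⟨f, hfser, hf0, hfdiv⟩ := exists_unit_divOf (p := p)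
  set y : LaurentSeries A := unitSer p A
  have hy : coeffMap A.subtype y = (f : LaurentSeries QA) := by
    rw [coeffMap_unitSer, hfser, coeffEmb_modularUnitSeries]
  have hyF : coeffMap A.subtype y ∈ modularFunctionFieldBar p := hy ▸ f.2
  have hyk : coeffMap (residue A) y ∈ modularFunctionFieldFullC (ResidueField A) p :=
    Specialization.res_mem_full (residue_surjective (R := A)) p hpk
      (Specialization.laurentReduction_res (show coeffMap A.subtype y ∈ Specialization.X0Bar p
        from hyF))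
  have hcoef : (coeffMap (residue A) y).coeff (1 - (p : ℤ) + (l ^ j : ℕ)) ≠ 0 := by
    rw [coeffMap_unitSer, coeff_unitSer hjp, coeff_etaUnit l hje]
    exact mul_ne_zero (fun h => he ((CharP.cast_eq_zero_iff _ l e).1 h))
      (pow_ne_zero _ (neg_ne_zero.2 one_ne_zero))
  let u : IntFun A (residue A) p := ⟨y, hyF, hyk, fun h => hcoef (by rw [h]; rfl)⟩
  have hu : u.fn = f := Subtype.ext hy
  have hdiv : Curves.divOf (ResidueField A) u.red = Curves.divOf (ResidueField A) (g ^ l ^ a) := by
    rw [← u.map_div hpr, hu, hfdiv, Specialization.divOf_pow, ← hg, Nat.cast_one.symm,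
      ← Nat.cast_sub (Fact.out : p.Prime).one_le, natCast_zsmul, hm, mul_nsmul']
    exact map_nsmul (Finsupp.mapDomain.addMonoidHom pr) (l ^ a) (m • D)
  obtain ⟨c, hc⟩ := Curves.eq_algebraMap_of_forall_ord_nonneg (K := ResidueField A)
    (f := u.red / g ^ l ^ a) fun Q => by
      rw [← Curves.divOf_apply, Specialization.divOf_div u.red_ne (pow_ne_zero _ hg0), hdiv,
        sub_self]
      exact le_rfl
  have he' : coeffMap (residue A) y =
      HahnSeries.single 0 c * (g : LaurentSeries (ResidueField A)) ^ l ^ a := by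
    have h1 := congrArg Subtype.val ((div_eq_iff (pow_ne_zero _ hg0)).1 hc)
    rw [← algebraMap_laurentSeries_eq_single]
    exact h1
  refine hcoef ?_
  rw [he', HahnSeries.coeff_single_zero_mul]
  by_contra hne
  have hd := dvd_of_coeff_pow_ne_zero l a _ _ (right_ne_zero_of_mul hne)
  have hd1 : ((l ^ a : ℕ) : ℤ) ∣ 1 - (p : ℤ) :=
    ⟨-(m : ℤ), by rw [mul_neg, ← Nat.cast_mul, ← hm, Nat.cast_sub (Fact.out : p.Prime).one_le]; ring⟩
  have hd2 := Int.natCast_dvd_natCast.1 ((dvd_add_right hd1).1 hd)
  exact absurd ((Nat.pow_dvd_pow_iff_le_right (Fact.out : l.Prime).one_lt).1 hd2) (by omega)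

end FLTAgent.Mazur
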