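import Fermat.Agent.Mazur.Rational

/-!
# Two-dimensional Galois data over a discrete valuation ring

A representation is given by its four entries in a basis; a cocycle by its two coordinates.
-/

set_option autoImplicit false

noncomputable section

namespace FLTAgent.Mazur

open scoped Pointwise

local notation "QQb" => AlgebraicClosure ℚ
local notation "GG" => (AlgebraicClosure ℚ ≃ₐ[ℚ] AlgebraicClosure ℚ)

variable (O : Type) [CommRing O]

/-- A continuous two-dimensional representation, by entries. -/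
structure Rep (ϖ : O) where
  /-- entry -/
  a : GG → O
  /-- entry -/
  b : GG → O
  /-- entry -/
  c : GG → O
  /-- entry -/
  d : GG → O
  a_one : a 1 = 1
  b_one : b 1 = 0
  c_one : c 1 = 0
  d_one : d 1 = 1
  a_mul : ∀ σ τ, a (σ * τ) = a σ * a τ + b σ * c τ
  b_mul : ∀ σ τ, b (σ * τ) = a σ * b τ + b σ * d τ
  c_mul : ∀ σ τ, c (σ * τ) = c σ * a τ + d σ * c τ
  d_mul : ∀ σ τ, d (σ * τ) = c σ * b τ + d σ * d τ
  cont : ∀ n : ℕ, ∃ V : Subgroup GG, IsOpen (V : Set GG) ∧ ∀ σ ∈ V,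
    ϖ ^ n ∣ a σ - 1 ∧ ϖ ^ n ∣ b σ ∧ ϖ ^ n ∣ c σ ∧ ϖ ^ n ∣ d σ - 1

variable {O} {ϖ : O}

namespace Rep

variable (R : Rep O ϖ)

/-- The determinant. -/
def det (σ : GG) : O := R.a σ * R.d σ - R.b σ * R.c σ

theorem det_mul (σ τ : GG) : R.det (σ * τ) = R.det σ * R.det τ := by
  simp only [det, R.a_mul, R.b_mul, R.c_mul, R.d_mul]; ring

theorem det_one : R.det 1 = 1 := by simp [det, R.a_one, R.b_one, R.c_one, R.d_one]

theorem det_mul_inv (σ : GG) : R.det σ * R.det σ⁻¹ = 1 := by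
  rw [← R.det_mul, mul_inv_cancel, R.det_one]

theorem isUnit_det (σ : GG) : IsUnit (R.det σ) := IsUnit.of_mul_eq_one _ (R.det_mul_inv σ)

theorem det_conj (φ σ : GG) : R.det (φ * σ * φ⁻¹) = R.det σ := by
  rw [R.det_mul, R.det_mul, mul_right_comm, R.det_mul_inv, one_mul]

end Rep

/-- A continuous cocycle with values in the representation, by coordinates. -/
structure Cocycle (R : Rep O ϖ) where
  /-- coordinate -/
  u : GG → O
  /-- coordinate -/
  v : GG → O
  u_mul : ∀ σ τ, u (σ * τ) = u σ + (R.a σ * u τ + R.b σ * v τ)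
  v_mul : ∀ σ τ, v (σ * τ) = v σ + (R.c σ * u τ + R.d σ * v τ)
  cont : ∀ n : ℕ, ∃ V : Subgroup GG, IsOpen (V : Set GG) ∧ ∀ σ ∈ V, ϖ ^ n ∣ u σ ∧ ϖ ^ n ∣ v σ

namespace Cocycle

variable {R : Rep O ϖ} (κ : Cocycle R)

theorem u_one : κ.u 1 = 0 := by
  have h := κ.u_mul 1 1
  rw [one_mul, R.a_one, R.b_one, one_mul, zero_mul, add_zero] at h
  exact left_eq_add.mp h

theorem v_one : κ.v 1 = 0 := by
  have h := κ.v_mul 1 1
  rw [one_mul, R.c_one, R.d_one, one_mul, zero_mul, zero_add] at h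
  exact left_eq_add.mp h

end Cocycle

/-- `χ` is congruent to the cyclotomic exponents at `l`-power level. -/
def IsCyclo (l : ℕ) (χ : GG → O) : Prop :=
  ∀ (n : ℕ) (σ : GG) (k : ℕ), (∀ ζ : QQb, ζ ^ l ^ n = 1 → σ ζ = ζ ^ k) → (l : O) ^ n ∣ χ σ - k

variable (l p : ℕ)

/-- The local hypotheses at the chosen places. -/
structure Setup (R : Rep O ϖ) where
  /-- the place over `l` -/
  Al : ValuationSubring (AlgebraicClosure ℚ)
  /-- the place over `p` -/
  Ap : ValuationSubring (AlgebraicClosure ℚ)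
  liesl : Al.LiesOverPrime l
  liesp : Ap.LiesOverPrime p
  cyclo : IsCyclo l R.det
  /-- a place over each of the other primes -/
  place : ℕ → ValuationSubring (AlgebraicClosure ℚ)
  liesq : ∀ q : ℕ, q.Prime → (place q).LiesOverPrime q
  unram : ∀ q : ℕ, q.Prime → q ≠ p → q ≠ l → ∀ σ ∈ (place q).inertiaSubgroupIn ℚ,
    R.a σ = 1 ∧ R.b σ = 0 ∧ R.c σ = 0 ∧ R.d σ = 1
  decomp_c : ∀ σ ∈ Al.decompositionSubgroup ℚ, R.c σ = 0
  inertia_d : ∀ σ ∈ Al.inertiaSubgroupIn ℚ, R.d σ = 1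
  /-- an element of the decomposition group at `l` acting on the quotient by a number of square
  different from `1` -/
  φl : GG
  φl_mem : φl ∈ Al.decompositionSubgroup ℚ
  φl_sq : R.d φl ^ 2 ≠ 1
  unipotent : ∀ σ ∈ Ap.inertiaSubgroupIn ℚ,
    (R.a σ - 1) * (R.a σ - 1) + R.b σ * R.c σ = 0 ∧
      R.b σ * (R.a σ - 1 + (R.d σ - 1)) = 0 ∧ R.c σ * (R.a σ - 1 + (R.d σ - 1)) = 0 ∧
      (R.d σ - 1) * (R.d σ - 1) + R.b σ * R.c σ = 0
  /-- an element of the decomposition group at `p` with cyclotomic value of square different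
  from `1` -/
  φp : GG
  φp_mem : φp ∈ Ap.decompositionSubgroup ℚ
  φp_sq : R.det φp ^ 2 ≠ 1

/-- The cocycles considered in the descent: trivial on inertia at the auxiliary places, and with
trivial quotient component on inertia at `l`. -/
structure Valid {R : Rep O ϖ} (S : Setup l p R) (κ : Cocycle R) : Prop where
  unram : ∀ q : ℕ, q.Prime → q ≠ p → q ≠ l → ∀ σ ∈ (S.place q).inertiaSubgroupIn ℚ,
    κ.u σ = 0 ∧ κ.v σ = 0
  inertia_l : ∀ σ ∈ S.Al.inertiaSubgroupIn ℚ, κ.v σ = 0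

end FLTAgent.Mazur
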