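import Fermat.Agent.Mazur.Form

/-!
# The descent theorem

A cocycle which is unramified outside `p l` and trivial on inertia at `l` in the quotient
coordinate is torsion.
-/

set_option autoImplicit false
set_option linter.overlappingInstances false
set_option linter.unusedSectionVars false

noncomputable section

namespace FLTAgent.Mazur

open scoped Pointwise

local notation "QQb" => AlgebraicClosure ℚ
local notation "GG" => (AlgebraicClosure ℚ ≃ₐ[ℚ] AlgebraicClosure ℚ)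

variable {l p : ℕ} [Fact l.Prime] {O : Type} [CommRing O] [IsDomain O] [IsDiscreteValuationRing O]
  [Algebra ℤ_[l] O] [Module.Finite ℤ_[l] O] [Module.Free ℤ_[l] O] {ϖ : O} {R : Rep O ϖ}

/-- Division of a reachable cocycle by `ϖ`. -/
theorem exists_div (hϖ : ϖ ≠ 0) {S : Setup l p R} {κ : Cocycle R} (hκ : Valid l p S κ)
    (h : Reach R κ) : ∃ (x1 x2 : O) (κ' : Cocycle R), Valid l p S κ' ∧ ∀ σ,
      κ.u σ = (R.a σ - 1) * x1 + R.b σ * x2 + ϖ * κ'.u σ ∧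
      κ.v σ = R.c σ * x1 + (R.d σ - 1) * x2 + ϖ * κ'.v σ := by
  obtain ⟨x1, x2, hx⟩ := h
  choose fu hu using fun σ ↦ (hx σ).1
  choose fv hv using fun σ ↦ (hx σ).2
  let κ' : Cocycle R :=
    { u := fu
      v := fv
      u_mul := fun σ τ ↦ mul_left_cancel₀ hϖ (by
        have e := hu (σ * τ)
        rw [κ.u_mul, R.a_mul, R.b_mul] at e
        linear_combination -e + hu σ + R.a σ * hu τ + R.b σ * hv τ)
      v_mul := fun σ τ ↦ mul_left_cancel₀ hϖ (by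
        have e := hv (σ * τ)
        rw [κ.v_mul, R.c_mul, R.d_mul] at e
        linear_combination -e + hv σ + R.c σ * hu τ + R.d σ * hv τ)
      cont := fun n ↦ by
        obtain ⟨V, hV, hd⟩ := κ.cont (n + 1)
        obtain ⟨W, hW, hd'⟩ := R.cont (n + 1)
        refine ⟨V ⊓ W, hV.inter hW, fun σ hσ ↦ ?_⟩
        obtain ⟨ku, kv⟩ := hd σ hσ.1
        obtain ⟨ka, kb, kc, kd⟩ := hd' σ hσ.2
        constructor <;> refine (mul_dvd_mul_iff_left hϖ).mp ?_ <;> rw [← pow_succ']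
        · rw [← hu σ]; exact ku.sub ((ka.mul_right _).add (kb.mul_right _))
        · rw [← hv σ]; exact kv.sub ((kc.mul_right _).add (kd.mul_right _)) }
  refine ⟨x1, x2, κ', ⟨fun q h1 h2 h3 σ hσ ↦ ?_, fun σ hσ ↦ ?_⟩, fun σ ↦
    ⟨by linear_combination hu σ, by linear_combination hv σ⟩⟩
  · obtain ⟨e1, e2⟩ := hκ.unram q h1 h2 h3 σ hσ
    obtain ⟨f1, f2, f3, f4⟩ := S.unram q h1 h2 h3 σ hσ
    have hu' := hu σ
    have hv' := hv σ
    rw [e1, f1, f2] at hu'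
    rw [e2, f3, f4] at hv'
    simp only [sub_self, zero_mul, add_zero, zero_eq_mul, hϖ, false_or] at hu' hv'
    exact ⟨hu', hv'⟩
  · have hv' := hv σ
    rw [hκ.inertia_l σ hσ, S.inertia_d σ hσ,
      S.decomp_c σ (Places.inertia_le_decomposition _ hσ)] at hv'
    simp only [sub_self, zero_mul, add_zero, zero_eq_mul, hϖ, false_or] at hv'
    exact hv'

/-- Successive approximation with one auxiliary torsion cocycle. -/
theorem isTorsion_of_step (hϖ : Irreducible ϖ) {S : Setup l p R} (ε : Cocycle R) (j : ℕ)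
    (W1 W2 : O) (hε : Valid l p S ε)
    (hW : ∀ σ, ϖ ^ j * ε.u σ = (R.a σ - 1) * W1 + R.b σ * W2 ∧
      ϖ ^ j * ε.v σ = R.c σ * W1 + (R.d σ - 1) * W2)
    (hstep : ∀ κ, Valid l p S κ → ∃ y, Reach R (κ.subMul ε y)) : Goal S := by
  intro κ hκ
  have hnext : ∀ μ : {μ : Cocycle R // Valid l p S μ}, ∃ (y x1 x2 : O)
      (μ' : {μ : Cocycle R // Valid l p S μ}), ∀ σ,
      μ.1.u σ = y * ε.u σ + ((R.a σ - 1) * x1 + R.b σ * x2) + ϖ * μ'.1.u σ ∧
      μ.1.v σ = y * ε.v σ + (R.c σ * x1 + (R.d σ - 1) * x2) + ϖ * μ'.1.v σ := fun μ ↦ by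
    obtain ⟨y, hy⟩ := hstep μ.1 μ.2
    obtain ⟨x1, x2, μ', hμ', e⟩ := exists_div hϖ.ne_zero (μ.2.subMul hε y) hy
    refine ⟨y, x1, x2, ⟨μ', hμ'⟩, fun σ ↦ ?_⟩
    obtain ⟨e1, e2⟩ := e σ
    simp only [Cocycle.subMul] at e1 e2
    exact ⟨by linear_combination e1, by linear_combination e2⟩
  choose fy f1 f2 next hnx using hnext
  let seq : ℕ → {μ : Cocycle R // Valid l p S μ} := fun n ↦
    Nat.rec ⟨κ, hκ⟩ (fun _ μ ↦ next μ) n
  let Y : ℕ → O := fun n ↦ ∑ k ∈ Finset.range n, ϖ ^ k * fy (seq k)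
  let A1 : ℕ → O := fun n ↦ ∑ k ∈ Finset.range n, ϖ ^ k * f1 (seq k)
  let A2 : ℕ → O := fun n ↦ ∑ k ∈ Finset.range n, ϖ ^ k * f2 (seq k)
  have hinv : ∀ n σ,
      κ.u σ = Y n * ε.u σ + ((R.a σ - 1) * A1 n + R.b σ * A2 n) + ϖ ^ n * (seq n).1.u σ ∧
      κ.v σ = Y n * ε.v σ + (R.c σ * A1 n + (R.d σ - 1) * A2 n) + ϖ ^ n * (seq n).1.v σ := by
    intro n σ
    induction n with
    | zero => simp [Y, A1, A2, seq]
    | succ n ih =>
      obtain ⟨e1, e2⟩ := hnx (seq n) σ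
      simp only [Y, A1, A2, Finset.sum_range_succ] at ih ⊢
      exact ⟨by linear_combination ih.1 + ϖ ^ n * e1, by linear_combination ih.2 + ϖ ^ n * e2⟩
  have hlim : ∀ f : {μ : Cocycle R // Valid l p S μ} → O,
      ∃ x, ∀ n, ϖ ^ n ∣ x - ∑ k ∈ Finset.range n, ϖ ^ k * f (seq k) := fun f ↦
    exists_limit (l := l) hϖ _ fun n ↦ by
      rw [Finset.sum_range_succ, add_sub_cancel_left]; exact dvd_mul_right _ _
  obtain ⟨y, hy⟩ := hlim fy
  obtain ⟨a1, ha1⟩ := hlim f1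
  obtain ⟨a2, ha2⟩ := hlim f2
  refine ⟨j, ϖ ^ j * a1 + y * W1, ϖ ^ j * a2 + y * W2, fun σ ↦ ?_⟩
  obtain ⟨w1, w2⟩ := hW σ
  constructor
  · have h : κ.u σ - (y * ε.u σ + ((R.a σ - 1) * a1 + R.b σ * a2)) = 0 :=
      eq_zero_of_forall_dvd hϖ fun n ↦ by
        rw [show κ.u σ - (y * ε.u σ + ((R.a σ - 1) * a1 + R.b σ * a2)) =
          ϖ ^ n * (seq n).1.u σ - ((y - Y n) * ε.u σ + ((R.a σ - 1) * (a1 - A1 n) +
            R.b σ * (a2 - A2 n))) by linear_combination (hinv n σ).1]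
        exact (dvd_mul_right _ _).sub (((hy n).mul_right _).add
          (((ha1 n).mul_left _).add ((ha2 n).mul_left _)))
    linear_combination ϖ ^ j * h + y * w1
  · have h : κ.v σ - (y * ε.v σ + (R.c σ * a1 + (R.d σ - 1) * a2)) = 0 :=
      eq_zero_of_forall_dvd hϖ fun n ↦ by
        rw [show κ.v σ - (y * ε.v σ + (R.c σ * a1 + (R.d σ - 1) * a2)) =
          ϖ ^ n * (seq n).1.v σ - ((y - Y n) * ε.v σ + (R.c σ * (a1 - A1 n) +
            (R.d σ - 1) * (a2 - A2 n))) by linear_combination (hinv n σ).2]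
        exact (dvd_mul_right _ _).sub (((hy n).mul_right _).add
          (((ha1 n).mul_left _).add ((ha2 n).mul_left _)))
    linear_combination ϖ ^ j * h + y * w2

theorem goal_of_lattice (hϖ : Irreducible ϖ) (hp : p.Prime) (hpl : p ≠ l) (S : Setup l p R)
    (htr : ∀ σ, ϖ ∣ R.a σ + R.d σ - 1 - R.det σ) (hc : ∀ σ, ϖ ∣ R.c σ)
    (hns : ¬ ∃ x, ∀ σ, ϖ ∣ R.b σ + (R.a σ - R.d σ) * x) : Goal S := by
  obtain ⟨L, hlin, hL, hdisj⟩ := exists_form hϖ hp hpl S htr hc hns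
  by_cases hall : ∀ κ, Valid l p S κ → Reach R κ
  · have hz : Valid l p S (Cocycle.zero R) :=
      ⟨fun _ _ _ _ _ _ ↦ ⟨rfl, rfl⟩, fun _ _ ↦ rfl⟩
    exact isTorsion_of_step hϖ (Cocycle.zero R) 0 0 0 hz (fun σ ↦ by simp [Cocycle.zero])
      fun κ hκ ↦ ⟨0, hall _ (hκ.subMul hz 0)⟩
  push Not at hall
  obtain ⟨κ0, hκ0, hκ0r⟩ := hall
  obtain ⟨hχ, σI, hσI, hσI1⟩ := hdisj.resolve_left fun h0 ↦
    hκ0r (hL κ0 hκ0 (by rw [h0]; exact dvd_zero _))
  -- the torsion cocycle of maximal order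
  let P : ℕ → Prop := fun j ↦ ∃ w, ∀ σ,
    ϖ ^ j ∣ R.a σ - 1 + R.b σ * w ∧ ϖ ^ j ∣ R.c σ + (R.d σ - 1) * w
  have hP1 : P 1 := ⟨0, fun σ ↦ by
    rw [mul_zero, add_zero, mul_zero, add_zero, pow_one]
    refine ⟨?_, hc σ⟩
    have h := htr σ
    have hd : ϖ ∣ R.a σ - 1 ∨ ϖ ∣ R.d σ - 1 := hϖ.prime.dvd_or_dvd (by
      rw [show (R.a σ - 1) * (R.d σ - 1) =
        -(R.a σ + R.d σ - 1 - R.det σ) + R.b σ * R.c σ by rw [Rep.det]; ring]
      exact h.neg_right.add ((hc σ).mul_left _))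
    refine hd.elim id fun hd ↦ ?_
    rw [show R.a σ - 1 = (R.a σ + R.d σ - 1 - R.det σ) + (R.det σ - 1) - (R.d σ - 1) by ring]
    exact (h.add (hχ σ)).sub hd⟩
  have hbound : ∃ N, ∀ j, P j → j ≤ N := by
    have hne : (R.d S.φl - 1) * (R.det σI - 1) ≠ 0 := mul_ne_zero
      (sub_ne_zero.mpr fun e ↦ S.φl_sq (by rw [e, one_pow])) (sub_ne_zero.mpr hσI1)
    obtain ⟨N, u, hu⟩ := IsDiscreteValuationRing.eq_unit_mul_pow_irreducible hne hϖ
    refine ⟨N, fun j ⟨w, hw⟩ ↦ ?_⟩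
    have h2 := (hw S.φl).2
    rw [S.decomp_c _ S.φl_mem, zero_add] at h2
    have h1 := (hw σI).1
    have hI : R.det σI = R.a σI := by
      rw [Rep.det, S.decomp_c _ (Places.inertia_le_decomposition _ hσI), S.inertia_d σI hσI]; ring
    have h3 : ϖ ^ j ∣ (R.d S.φl - 1) * (R.det σI - 1) := by
      rw [show (R.d S.φl - 1) * (R.det σI - 1) = (R.d S.φl - 1) * (R.a σI - 1 + R.b σI * w) -
        R.b σI * ((R.d S.φl - 1) * w) by rw [hI]; ring]
      exact (h1.mul_left _).sub (h2.mul_left _)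
    rw [hu, Units.dvd_mul_left] at h3
    exact (pow_dvd_pow_iff hϖ.ne_zero hϖ.not_isUnit).mp h3
  obtain ⟨j, hj1, ⟨w, hw⟩, hjmax⟩ : ∃ j, 1 ≤ j ∧ P j ∧ ¬ P (j + 1) := by
    classical
    obtain ⟨N, hN⟩ := hbound
    refine ⟨Nat.findGreatest P N, ?_, Nat.findGreatest_spec (hN 1 hP1) hP1, fun h ↦ ?_⟩
    · exact Nat.le_findGreatest (hN 1 hP1) hP1
    · exact Nat.not_succ_le_self _ (Nat.le_findGreatest (hN _ h) h)
  choose eu heu using fun σ ↦ (hw σ).1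
  choose ev hev using fun σ ↦ (hw σ).2
  have hj0 : ϖ ^ j ≠ 0 := pow_ne_zero j hϖ.ne_zero
  let ε : Cocycle R :=
    { u := eu
      v := ev
      u_mul := fun σ τ ↦ mul_left_cancel₀ hj0 (by
        have e := heu (σ * τ)
        rw [R.a_mul, R.b_mul] at e
        linear_combination -e + heu σ + R.a σ * heu τ + R.b σ * hev τ)
      v_mul := fun σ τ ↦ mul_left_cancel₀ hj0 (by
        have e := hev (σ * τ)
        rw [R.c_mul, R.d_mul] at e
        linear_combination -e + hev σ + R.c σ * heu τ + R.d σ * hev τ)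
      cont := fun n ↦ by
        obtain ⟨V, hV, hd⟩ := R.cont (j + n)
        refine ⟨V, hV, fun σ hσ ↦ ?_⟩
        obtain ⟨ka, kb, kc, kd⟩ := hd σ hσ
        constructor <;> refine (mul_dvd_mul_iff_left hj0).mp ?_ <;> rw [← pow_add]
        · rw [← heu σ]; exact ka.add (kb.mul_right _)
        · rw [← hev σ]; exact kc.add (kd.mul_right _) }
  have hε : Valid l p S ε := by
    refine ⟨fun q h1 h2 h3 σ hσ ↦ ?_, fun σ hσ ↦ ?_⟩
    · obtain ⟨f1, f2, f3, f4⟩ := S.unram q h1 h2 h3 σ hσ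
      have a := heu σ
      have b := hev σ
      rw [f1, f2] at a
      rw [f3, f4] at b
      simp only [sub_self, zero_mul, add_zero, zero_eq_mul, hj0, false_or] at a b
      exact ⟨a, b⟩
    · have b := hev σ
      rw [S.inertia_d σ hσ, S.decomp_c σ (Places.inertia_le_decomposition _ hσ)] at b
      simp only [sub_self, zero_mul, add_zero, zero_eq_mul, hj0, false_or] at b
      exact b
  have hLε : IsUnit (L ε) := isUnit_of_not_dvd hϖ fun hd ↦ by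
    obtain ⟨x1, x2, hx⟩ := hL ε hε hd
    obtain ⟨ui, hui⟩ : IsUnit (1 - ϖ ^ j * x1) := isUnit_of_not_dvd hϖ fun h ↦ by
      refine hϖ.not_isUnit (isUnit_of_dvd_one ?_)
      have := h.add ((dvd_pow_self ϖ (by omega : j ≠ 0)).mul_right x1)
      rwa [sub_add_cancel] at this
    refine hjmax ⟨(w - ϖ ^ j * x2) * ↑ui⁻¹, fun σ ↦ ?_⟩
    have hu1 : (1 - ϖ ^ j * x1) * (↑ui⁻¹ : O) = 1 := by rw [← hui, Units.mul_inv]
    obtain ⟨⟨t1, ht1⟩, ⟨t2, ht2⟩⟩ := hx σ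
    constructor
    · refine ⟨(↑ui⁻¹ : O) * t1, ?_⟩
      linear_combination (↑ui⁻¹ : O) * heu σ + ϖ ^ j * (↑ui⁻¹ : O) * ht1 - (R.a σ - 1) * hu1
    · refine ⟨(↑ui⁻¹ : O) * t2, ?_⟩
      linear_combination (↑ui⁻¹ : O) * hev σ + ϖ ^ j * (↑ui⁻¹ : O) * ht2 - R.c σ * hu1
  obtain ⟨li, hli⟩ := hLε.exists_right_inv
  refine isTorsion_of_step hϖ ε j 1 w hε (fun σ ↦ ⟨?_, ?_⟩)
    fun κ hκ ↦ ⟨L κ * li, hL _ (hκ.subMul hε _) ?_⟩
  · show ϖ ^ j * eu σ = _
    rw [mul_one]; exact (heu σ).symm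
  · show ϖ ^ j * ev σ = _
    rw [mul_one]; exact (hev σ).symm
  · rw [hlin, show L κ - L κ * li * L ε = 0 by linear_combination -L κ * hli]
    exact dvd_zero _

/-- **Descent theorem.** -/
theorem isTorsion_of_valid (hϖ : Irreducible ϖ) (hp : p.Prime) (hpl : p ≠ l) (S : Setup l p R)
    (htr : ∀ σ, ϖ ∣ R.a σ + R.d σ - 1 - R.det σ) {κ : Cocycle R} (hκ : Valid l p S κ) :
    IsTorsion R κ :=
  goal_of_residual hϖ hp (fun _ S' h1 h2 h3 ↦ goal_of_lattice hϖ hp hpl S' h1 h2 h3) S htr κ hκ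

end FLTAgent.Mazur
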