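import Fermat.Agent.Eisenstein.Dual
import Fermat.Agent.EigenLattice.Rep
import Fermat.Agent.X0Fn.JExpansion

/-!
# The Hecke operators `T_q`, `q ≠ p`, span the Hecke algebra of level `p` modulo every prime

A form of weight two on `Γ₀(p)` whose coefficients of index prime to `p` vanish modulo `l` vanishes
modulo `l`; by duality the operators `T_q` with `q ≠ p` generate the algebra modulo `l ^ k`.
-/

set_option autoImplicit false
set_option linter.style.haveILetI false
set_option linter.unusedSectionVars false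
set_option maxHeartbeats 1000000

open UpperHalfPlane CongruenceSubgroup ModularFormClass
open scoped MatrixGroups ModularForm Manifold

namespace FLTAgent.Mazur

noncomputable section

open FLTAgent.Eisenstein FLTAgent.CuspForms

variable {p : ℕ} [hp : Fact p.Prime]

/-- The series of `Δ`. -/
def deltaS : PowerSeries ℤ := PowerSeries.X * ModularCurve.etaProd ^ 24

theorem qExpansion_dlt : qExpansion 1 ES.dlt = intIncl deltaS := by
  have hper : ES.dlt ∈ X0Fn.Per 1 := ⟨(ES.dlt_mem (Γ := ⊤)).2.1,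
    ES.top_periodic ES.dlt_mem, ES.top_bdd ES.dlt_mem⟩
  have e : (⟨ES.dlt, hper⟩ : X0Fn.Per 1) =
      ⟨X0Fn.qh 1, X0Fn.qh_mem_Per⟩ * ⟨X0Fn.eulerH, X0Fn.eulerH_mem_Per⟩ ^ 24 :=
    Subtype.ext (funext fun τ => X0Fn.dlt_eq_euler τ)
  have h2 : X0Fn.qExp 1 ⟨X0Fn.eulerH, X0Fn.eulerH_mem_Per⟩ =
      ModularCurve.etaProd.map (Int.castRingHom ℂ) :=
    X0Fn.qExp_eq_of_hasSum X0Fn.hasSum_eulerH
  show X0Fn.qExp 1 ⟨ES.dlt, hper⟩ = _
  rw [e, map_mul, map_pow, X0Fn.qExp_qh, h2, deltaS, map_mul, map_pow]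
  congr 1
  exact (PowerSeries.map_X _).symm

theorem deltaS_mem_forms : deltaS ∈ forms p 12 := by
  refine ⟨ES.dlt, IsForm.mono (M := 1) ?_ (one_dvd p), qExpansion_dlt⟩
  have h := (isForm_disc1728).smul ((1728 : ℂ)⁻¹)
  have e : (1728 : ℂ)⁻¹ • disc1728 = ES.dlt := funext fun z => by
    rw [Pi.smul_apply, disc1728_apply, smul_eq_mul, ← mul_assoc,
      inv_mul_cancel₀ (by norm_num), one_mul]
    rfl
  rwa [e] at h

theorem exists_deltaS : ∃ u : PowerSeries ℤ,
    deltaS = PowerSeries.X * u ∧ PowerSeries.constantCoeff u = 1 :=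
  ⟨_, rfl, by rw [map_pow, ModularCurve.constantCoeff_etaProd, one_pow]⟩

/-- A form whose coefficients of index prime to `p` vanish modulo `l` vanishes modulo `l`. -/
theorem dvd_coeff_of_supported (hp5 : 5 ≤ p) {l : ℕ} [hl : Fact l.Prime] {g : PowerSeries ℤ}
    (hg : g ∈ forms p 2) (h0 : (l : ℤ) ∣ PowerSeries.coeff 0 g)
    (hsupp : ∀ n, ¬ p ∣ n → (l : ℤ) ∣ PowerSeries.coeff n g) (n : ℕ) :
    (l : ℤ) ∣ PowerSeries.coeff n g := by
  set φ := PowerSeries.map (Int.castRingHom (ZMod l))
  have hφ : ∀ (x : PowerSeries ℤ) m, PowerSeries.coeff m (φ x) = 0 ↔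
      (l : ℤ) ∣ PowerSeries.coeff m x := fun x m => by
    rw [PowerSeries.coeff_map, eq_intCast, ZMod.intCast_zmod_eq_zero_iff_dvd]
  rw [← hφ]
  by_contra hne
  have hg0 : φ g ≠ 0 := fun h => hne (by rw [h, map_zero])
  obtain ⟨o, ho⟩ := ENat.ne_top_iff_exists.mp (mt PowerSeries.order_eq_top.mp hg0)
  have hco : PowerSeries.coeff o (φ g) ≠ 0 := (PowerSeries.order_eq_nat.mp ho.symm).1
  have hpo : p ≤ o := by
    refine Nat.le_of_dvd (Nat.pos_of_ne_zero fun e => hco ?_) (by_contra fun h => hco ?_)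
    · rw [e, hφ]; exact h0
    · rw [hφ]; exact hsupp o h
  obtain ⟨u, hu, hu1⟩ := exists_deltaS
  have hΔ : (φ deltaS).order = (1 : ℕ) := by
    rw [hu, map_mul, PowerSeries.map_X, PowerSeries.order_mul, PowerSeries.order_X,
      show (φ u).order = 0 from ?_, add_zero, Nat.cast_one]
    refine le_antisymm (PowerSeries.order_le 0 ?_) zero_le
    rw [PowerSeries.coeff_map, PowerSeries.coeff_zero_eq_constantCoeff_apply, hu1, map_one]
    exact one_ne_zero
  have hE : (φ e4).order = 0 := by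
    refine le_antisymm (PowerSeries.order_le 0 ?_) zero_le
    rw [PowerSeries.coeff_map, coeff_e4]
    simp
  set M := 3 * p
  let a : Fin M × Fin M → PowerSeries ℤ := fun z =>
    deltaS ^ (z.1 : ℕ) * (g ^ 6) ^ (z.2 : ℕ) * e4 ^ (3 * (2 * M - 2 - z.1 - z.2))
  let e : Fin M × Fin M → ℕ := fun z => z.1 + 6 * o * z.2
  have hord : ∀ z, (φ (a z)).order = (e z : ℕ) := fun z => by
    simp only [a, e, map_mul, map_pow, PowerSeries.order_mul, PowerSeries.order_pow, hΔ, hE, ← ho]
    simp
    ring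
  have ha : ∀ z, a z ∈ forms p ((12 * (2 * M - 2) : ℕ) : ℤ) := fun z => by
    refine congr_mem_forms (mul_mem_forms (mul_mem_forms (pow_mem_forms deltaS_mem_forms _)
      (pow_mem_forms (pow_mem_forms hg 6) _)) (pow_mem_forms e4_mem_forms _)) ?_
    obtain ⟨r, hr⟩ : ∃ r, 2 * M - 2 = z.1 + z.2 + r :=
      ⟨2 * M - 2 - z.1 - z.2, by have := z.1.2; have := z.2.2; omega⟩
    rw [show 2 * M - 2 - z.1 - z.2 = r by omega, hr]
    push_cast
    ring
  refine false_of_triangular l a ha e (fun z z' h => ?_) (fun z => ?_) (fun z m hm => ?_) ?_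
  · simp only [e] at h
    have hz := z.1.2
    have hz' := z'.1.2
    have h6 : M ≤ 6 * o := by omega
    have h1 : (z.2 : ℕ) = z'.2 := by
      rcases lt_trichotomy (z.2 : ℕ) z'.2 with hlt | heq | hgt
      · exfalso
        have := Nat.mul_le_mul_left (6 * o) (Nat.succ_le_of_lt hlt)
        rw [Nat.mul_succ] at this
        omega
      · exact heq
      · exfalso
        have := Nat.mul_le_mul_left (6 * o) (Nat.succ_le_of_lt hgt)
        rw [Nat.mul_succ] at this
        omega
    exact Prod.ext (Fin.ext (by rw [h1] at h; omega)) (Fin.ext h1)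
  · have := (PowerSeries.order_eq_nat.mp (hord z)).1
    rwa [PowerSeries.coeff_map] at this
  · have := (PowerSeries.order_eq_nat.mp (hord z)).2 m hm
    rwa [PowerSeries.coeff_map] at this
  · rw [Fintype.card_prod, Fintype.card_fin, ← Nat.cast_mul, Int.toNat_natCast, mul_assoc,
      Nat.mul_div_cancel_left _ (by norm_num)]
    have : 2 * M - 2 ≤ 6 * p := by omega
    have := Nat.mul_le_mul_right (p + 1) this
    simp only [M]
    nlinarith

/-! ### Words -/

local notation "HH" => CuspForm.heckeAlgebra p 2 (∅ : Set ℕ)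

/-- The product of the operators of a word. -/
def wordOp (p : ℕ) [NeZero p] (m : List Nat.Primes) : CuspForm.heckeAlgebra p 2 (∅ : Set ℕ) :=
  (m.map fun q : Nat.Primes => CuspForms.heckeGen p (q : ℕ) q.2).prod

/-- The operators of a word on series. -/
def wordSeries (m : List Nat.Primes) (a : PowerSeries ℤ) : PowerSeries ℤ :=
  m.foldr (fun q b => tSeries 1 (q : ℕ) b) a

/-- The span of the words avoiding `p`. -/
def wordSpan (p : ℕ) [NeZero p] : Subalgebra ℤ (CuspForm.heckeAlgebra p 2 (∅ : Set ℕ)) :=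
  Algebra.adjoin ℤ {t | ∃ q : Nat.Primes, (q : ℕ) ≠ p ∧ t = CuspForms.heckeGen p (q : ℕ) q.2}

theorem exists_words_of_mem {t : HH} (ht : t ∈ wordSpan p) :
    ∃ (n : ℕ) (c : Fin n → ℤ) (m : Fin n → List Nat.Primes),
      (∀ i, ∀ q ∈ m i, (q : ℕ) ≠ p) ∧ t = ∑ i, c i • wordOp p (m i) := by
  classical
  suffices h : t ∈ Submodule.span ℤ
      (Set.range fun m : {m : List Nat.Primes // ∀ q ∈ m, (q : ℕ) ≠ p} => wordOp p m.1) by
    obtain ⟨c, hc⟩ := Finsupp.mem_span_range_iff_exists_finsupp.mp h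
    refine ⟨c.support.card, fun i => c (c.support.equivFin.symm i),
      fun i => ((c.support.equivFin.symm i : {x // x ∈ c.support}) :
        {m : List Nat.Primes // ∀ q ∈ m, (q : ℕ) ≠ p}).1, fun i => ((c.support.equivFin.symm i : {x // x ∈ c.support}) :
        {m : List Nat.Primes // ∀ q ∈ m, (q : ℕ) ≠ p}).2, ?_⟩
    rw [← hc, Finsupp.sum, ← Finset.sum_coe_sort]
    exact (c.support.equivFin.symm.sum_comp
      fun x => c x • wordOp p (x : {m : List Nat.Primes // ∀ q ∈ m, (q : ℕ) ≠ p}).1).symm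
  rw [wordSpan, ← Subalgebra.mem_toSubmodule, Algebra.adjoin_eq_span] at ht
  refine Submodule.span_mono ?_ ht
  intro x hx
  induction hx using Submonoid.closure_induction with
  | mem x hx =>
    obtain ⟨q, hq, rfl⟩ := hx
    exact ⟨⟨[q], by simpa using hq⟩, by simp [wordOp]⟩
  | one => exact ⟨⟨[], by simp⟩, by simp [wordOp]⟩
  | mul x y _ _ hx hy =>
    obtain ⟨m, rfl⟩ := hx
    obtain ⟨m', rfl⟩ := hy
    exact ⟨⟨m.1 ++ m'.1, fun q hq => (List.mem_append.mp hq).elim (m.2 q) (m'.2 q)⟩,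
      by simp [wordOp]⟩

theorem heckeWeight_prime {q : ℕ} (hq : q.Prime) (hqp : q ≠ p) :
    CuspForms.heckeWeight p q = q := by
  rw [Eisenstein.heckeWeight_eq hq, if_neg hqp]

/-- The series of a cusp form with integral expansion. -/
theorem qCoeff_wordOp {g : CuspForm (Gamma0 p) 2} {a : PowerSeries ℤ}
    (ha : ∀ n, qCoeff ⇑g n = ((PowerSeries.coeff n a : ℤ) : ℂ)) (m : List Nat.Primes)
    (hm : ∀ q ∈ m, (q : ℕ) ≠ p) (n : ℕ) :
    qCoeff ⇑((wordOp p m : Module.End ℂ (CuspForm (Gamma0 p) 2)) g) n =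
      ((PowerSeries.coeff n (wordSeries m a) : ℤ) : ℂ) := by
  induction m generalizing n with
  | nil => simpa [wordOp, wordSeries] using ha n
  | cons q m ih =>
    have ih' := ih fun x hx => hm x (List.mem_cons_of_mem q hx)
    rw [show wordOp p (q :: m) = CuspForms.heckeGen p (q : ℕ) q.2 * wordOp p m by simp [wordOp],
      MulMemClass.coe_mul, Module.End.mul_apply, qCoeff_heckeGen,
      heckeWeight_prime q.2 (hm q (List.mem_cons_self ..))]
    rw [show wordSeries (q :: m) a = tSeries 1 (q : ℕ) (wordSeries m a) from rfl, coeff_tSeries]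
    by_cases hd : (q : ℕ) ∣ n
    · rw [if_pos hd, if_pos hd, ih', ih', mul_comm n, pow_one]
      push_cast
      rfl
    · rw [if_neg hd, if_neg hd, ih', mul_zero, add_zero, add_zero, mul_comm n]

/-- An integral linear form on the Hecke algebra as a series. -/
theorem exists_series_dual (ψ : HH →+ ℤ) :
    ∃ (g : CuspForm (Gamma0 p) 2) (a : PowerSeries ℤ), a ∈ forms p 2 ∧
      PowerSeries.coeff 0 a = 0 ∧ (∀ n, qCoeff ⇑g n = ((PowerSeries.coeff n a : ℤ) : ℂ)) ∧
      ∀ t : HH, qCoeff ⇑((t : Module.End ℂ (CuspForm (Gamma0 p) 2)) g) 1 = ((ψ t : ℤ) : ℂ) := by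
  obtain ⟨g, hg⟩ := exists_form_of_addHom (hasIntegralStructure p 2) ψ
  have key : ∀ n, ∀ t : HH, ∃ z : ℤ,
      qCoeff ⇑((t : Module.End ℂ (CuspForm (Gamma0 p) 2)) g) n = (z : ℂ) := by
    intro n
    induction n using Nat.strong_induction_on with
    | _ n ih =>
      intro t
      rcases Nat.lt_or_ge n 2 with h2 | h2
      · interval_cases n
        · exact ⟨0, by rw [qCoeff_zero_index]; simp⟩
        · exact ⟨ψ t, hg t⟩
      · obtain ⟨r, hr⟩ := Nat.minFac_dvd n
        have hq := Nat.minFac_prime (n := n) (by omega)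
        generalize n.minFac = q at hr hq
        subst hr
        have hrn : r < q * r := by
          have : 0 < r := Nat.pos_of_ne_zero fun e => by simp [e] at h2
          nlinarith [hq.two_le]
        obtain ⟨z1, hz1⟩ := ih r hrn (CuspForms.heckeGen p q hq * t)
        obtain ⟨z2, hz2⟩ := ih (r / q) ((Nat.div_le_self r q).trans_lt hrn) t
        refine ⟨z1 - (CuspForms.heckeWeight p q : ℤ) * (if q ∣ r then z2 else 0), ?_⟩
        have e := qCoeff_heckeGen q hq ((t : Module.End ℂ (CuspForm (Gamma0 p) 2)) g) r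
        rw [MulMemClass.coe_mul, Module.End.mul_apply, e] at hz1
        push_cast
        by_cases hd : q ∣ r
        · rw [if_pos hd] at hz1
          rw [if_pos hd, ← hz1, ← hz2]; ring
        · rw [if_neg hd] at hz1
          rw [if_neg hd, ← hz1]; push_cast; ring
  choose z hz using fun n => key n 1
  have hz1 : ∀ n, qCoeff ⇑g n = ((z n : ℤ) : ℂ) := fun n => by simpa using hz n
  refine ⟨g, PowerSeries.mk z, ⟨g, (isCuspidal_of_cuspForm g).toIsForm, ?_⟩, ?_,
    fun n => by rw [PowerSeries.coeff_mk]; exact hz1 n, hg⟩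
  · ext n
    rw [coeff_intIncl, PowerSeries.coeff_mk]
    exact hz1 n
  · rw [PowerSeries.coeff_mk]
    have := hz1 0
    rw [qCoeff_zero_index] at this
    exact_mod_cast this.symm

theorem exists_hom_not_dvd {l : ℕ} (t : HH) (h : ¬ ∃ u : HH, t = (l : HH) * u) :
    ∃ ψ : HH →+ ℤ, ¬ (l : ℤ) ∣ ψ t := by
  haveI : Module.Finite ℤ HH := moduleFinite_heckeAlgebra_of_structure (by norm_num)
    (hasIntegralStructure p 2) ∅
  let b := Module.Free.chooseBasis ℤ HH
  by_contra hall
  push Not at hall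
  choose z hz using fun i => hall (b.coord i).toAddMonoidHom
  refine h ⟨∑ i, z i • b i, ?_⟩
  conv_lhs => rw [← b.sum_repr t]
  rw [Finset.mul_sum]
  refine Finset.sum_congr rfl fun i _ => ?_
  rw [show b.repr t i = (l : ℤ) * z i from hz i, mul_smul, Nat.cast_smul_eq_nsmul ℤ,
    nsmul_eq_mul]

/-- A combination of words not divisible by `l` is seen by a form. -/
theorem exists_form_word {l n : ℕ} (c : Fin n → ℤ) (m : Fin n → List Nat.Primes)
    (hm : ∀ i, ∀ q ∈ m i, (q : ℕ) ≠ p)
    (h : ¬ ∃ u : HH, ∑ i, c i • wordOp p (m i) = (l : HH) * u) :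
    ∃ a ∈ forms p 2, PowerSeries.coeff 0 a = 0 ∧
      ¬ (l : ℤ) ∣ ∑ i, c i * PowerSeries.coeff 1 (wordSeries (m i) a) := by
  obtain ⟨ψ, hψ⟩ := exists_hom_not_dvd _ h
  obtain ⟨g, a, ha, ha0, hga, hgψ⟩ := exists_series_dual ψ
  refine ⟨a, ha, ha0, fun hd => hψ ?_⟩
  rw [map_sum]
  convert hd using 2 with i
  rw [map_zsmul, smul_eq_mul]
  congr 1
  have h1 := qCoeff_wordOp hga (m i) (hm i) 1
  rw [hgψ] at h1
  exact_mod_cast h1

/-- The words avoiding `p` span modulo `l`. -/
theorem exists_sub_mem_span (hp5 : 5 ≤ p) {l : ℕ} [hl : Fact l.Prime] (t : HH) :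
    ∃ t' ∈ wordSpan p, ∃ u : HH, t = t' + (l : HH) * u := by
  classical
  haveI : Module.Finite ℤ HH := moduleFinite_heckeAlgebra_of_structure (by norm_num)
    (hasIntegralStructure p 2) ∅
  let b := Module.Free.chooseBasis ℤ HH
  let ι := Module.Free.ChooseBasisIndex ℤ HH
  let red : HH →+ (ι → ZMod l) :=
    { toFun := fun x i => ((b.repr x i : ℤ) : ZMod l)
      map_zero' := by funext i; simp
      map_add' := fun x y => by funext i; simp }
  let W : Submodule (ZMod l) (ι → ZMod l) := Submodule.span (ZMod l) (red '' (wordSpan p))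
  by_cases htop : W = ⊤
  · have ht : red t ∈ Submodule.span (ZMod l) (red '' (wordSpan p : Set HH)) := by
      rw [show Submodule.span (ZMod l) (red '' (wordSpan p : Set HH)) = ⊤ from htop]; trivial
    have key : ∀ v ∈ Submodule.span (ZMod l) (red '' (wordSpan p : Set HH)),
        ∃ x ∈ wordSpan p, red x = v := by
      intro v hv
      induction hv using Submodule.span_induction with
      | mem v hv => exact hv
      | zero => exact ⟨0, zero_mem _, map_zero _⟩
      | add v w _ _ hv hw =>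
        obtain ⟨x, hx, rfl⟩ := hv
        obtain ⟨y, hy, rfl⟩ := hw
        exact ⟨x + y, add_mem hx hy, map_add _ _ _⟩
      | smul c v _ hv =>
        obtain ⟨x, hx, rfl⟩ := hv
        refine ⟨(c.val : ℕ) • x, nsmul_mem hx _, ?_⟩
        rw [map_nsmul, ← Nat.cast_smul_eq_nsmul (ZMod l), ZMod.natCast_zmod_val]
    obtain ⟨x, hx, hxt⟩ := key _ ht
    choose z hz using fun i => (ZMod.intCast_eq_intCast_iff_dvd_sub (b.repr x i) (b.repr t i) l).mp
      (congrFun hxt i)
    refine ⟨x, hx, ∑ i, z i • b i, ?_⟩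
    conv_lhs => rw [← b.sum_repr t]
    conv_rhs => rw [← b.sum_repr x, Finset.mul_sum, ← Finset.sum_add_distrib]
    refine Finset.sum_congr rfl fun i _ => ?_
    rw [show b.repr t i = b.repr x i + (l : ℤ) * z i from by linear_combination hz i, add_smul,
      mul_smul, Nat.cast_smul_eq_nsmul ℤ, nsmul_eq_mul]
  · exfalso
    obtain ⟨f, hf0, hf⟩ := Submodule.exists_le_ker_of_lt_top _ (lt_top_iff_ne_top.mpr htop)
    let ψ : HH →+ ℤ := (b.constr ℤ fun i => ((f (Pi.single i 1)).val : ℤ)).toAddMonoidHom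
    have hψ : ∀ x, ((ψ x : ℤ) : ZMod l) = f (red x) := by
      intro x
      have h1 : red x = ∑ i, ((b.repr x i : ℤ) : ZMod l) • Pi.single i (1 : ZMod l) := by
        funext j
        simp [red, Finset.sum_apply, Pi.single_apply]
      rw [h1, map_sum]
      simp only [ψ, LinearMap.toAddMonoidHom_coe, Module.Basis.constr_apply_fintype, map_smul,
        Int.cast_sum]
      refine Finset.sum_congr rfl fun i _ => ?_
      simp
    obtain ⟨g, a, ha, ha0, hga, hgψ⟩ := exists_series_dual ψ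
    have hW : ∀ x ∈ wordSpan p, (l : ℤ) ∣ ψ x := fun x hx => by
      rw [← ZMod.intCast_zmod_eq_zero_iff_dvd, hψ]
      exact hf (Submodule.subset_span ⟨x, hx, rfl⟩)
    -- coefficients of index prime to `p`
    have hsupp : ∀ n, ¬ p ∣ n → ∀ x ∈ wordSpan p, ∃ z : ℤ, (l : ℤ) ∣ z ∧
        qCoeff ⇑((x : Module.End ℂ (CuspForm (Gamma0 p) 2)) g) n = (z : ℂ) := by
      intro n
      induction n using Nat.strong_induction_on with
      | _ n ih =>
        intro hpn x hx
        rcases Nat.lt_or_ge n 2 with h2 | h2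
        · interval_cases n
          · exact absurd (dvd_zero p) hpn
          · exact ⟨ψ x, hW x hx, hgψ x⟩
        · obtain ⟨r, hr⟩ := Nat.minFac_dvd n
          have hq := Nat.minFac_prime (n := n) (by omega)
          generalize n.minFac = q at hr hq
          subst hr
          have hqp : q ≠ p := fun e => hpn (e ▸ dvd_mul_right q r)
          have hpr : ¬ p ∣ r := fun e => hpn (e.trans (dvd_mul_left r q))
          have hrn : r < q * r := by
            have : 0 < r := Nat.pos_of_ne_zero fun e => by simp [e] at h2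
            nlinarith [hq.two_le]
          have hgen : CuspForms.heckeGen p q hq * x ∈ wordSpan p :=
            mul_mem (Algebra.subset_adjoin ⟨⟨q, hq⟩, hqp, rfl⟩) hx
          obtain ⟨z1, hd1, hz1⟩ := ih r hrn hpr _ hgen
          have e := qCoeff_heckeGen q hq ((x : Module.End ℂ (CuspForm (Gamma0 p) 2)) g) r
          rw [MulMemClass.coe_mul, Module.End.mul_apply, e] at hz1
          by_cases hd : q ∣ r
          · obtain ⟨z2, hd2, hz2⟩ := ih (r / q) ((Nat.div_le_self r q).trans_lt hrn)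
              (fun e => hpr (e.trans (Nat.div_dvd_of_dvd hd))) x hx
            refine ⟨z1 - (CuspForms.heckeWeight p q : ℤ) * z2, dvd_sub hd1 (hd2.mul_left _), ?_⟩
            rw [if_pos hd] at hz1
            push_cast
            rw [← hz1, ← hz2]; ring
          · exact ⟨z1, hd1, by rw [if_neg hd] at hz1; rw [← hz1]; ring⟩
    have hdvd : ∀ n, (l : ℤ) ∣ PowerSeries.coeff n a := by
      refine dvd_coeff_of_supported hp5 ha (by rw [ha0]; exact dvd_zero _) fun n hn => ?_
      obtain ⟨z, hz, hzn⟩ := hsupp n hn 1 (one_mem _)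
      simp only [OneMemClass.coe_one, Module.End.one_apply] at hzn
      rw [hga] at hzn
      rwa [show PowerSeries.coeff n a = z from by exact_mod_cast hzn]
    -- every operator kills the form modulo `l`
    have hall : ∀ x : HH, ∀ F : CuspForm (Gamma0 p) 2,
        (∀ n, ∃ z : ℤ, (l : ℤ) ∣ z ∧ qCoeff ⇑F n = (z : ℂ)) →
        ∀ n, ∃ z : ℤ, (l : ℤ) ∣ z ∧
          qCoeff ⇑((x : Module.End ℂ (CuspForm (Gamma0 p) 2)) F) n = (z : ℂ) := by
      intro x
      induction x using EigenLattice.hecke_induction p with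
      | hgen q =>
        intro F hF n
        obtain ⟨z1, hd1, hz1⟩ := hF ((q : ℕ) * n)
        obtain ⟨z2, hd2, hz2⟩ := hF (n / q)
        rw [qCoeff_heckeGen, hz1]
        by_cases hd : (q : ℕ) ∣ n
        · exact ⟨z1 + (CuspForms.heckeWeight p q : ℤ) * z2, dvd_add hd1 (hd2.mul_left _),
            by rw [if_pos hd, hz2]; push_cast; ring⟩
        · exact ⟨z1, hd1, by rw [if_neg hd]; ring⟩
      | hint c =>
        intro F hF n
        obtain ⟨z, hd, hz⟩ := hF n
        refine ⟨c * z, hd.mul_left _, ?_⟩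
        rw [SubringClass.coe_intCast, Module.End.intCast_apply, ← qcLin_apply, map_zsmul,
          qcLin_apply, hz, zsmul_eq_mul]
        push_cast
        rfl
      | hadd s t hs ht =>
        intro F hF n
        obtain ⟨z1, hd1, hz1⟩ := hs F hF n
        obtain ⟨z2, hd2, hz2⟩ := ht F hF n
        refine ⟨z1 + z2, dvd_add hd1 hd2, ?_⟩
        rw [AddMemClass.coe_add, LinearMap.add_apply, ← qcLin_apply, map_add, qcLin_apply,
          qcLin_apply, hz1, hz2]
        push_cast
        rfl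
      | hmul s t hs ht =>
        intro F hF n
        rw [MulMemClass.coe_mul, Module.End.mul_apply]
        exact hs _ (ht F hF) n
    apply hf0
    ext i
    obtain ⟨z, hzd, hz⟩ := hall (b i) g (fun n => ⟨_, hdvd n, hga n⟩) 1
    rw [hgψ] at hz
    have hz' : (l : ℤ) ∣ ψ (b i) := by
      rwa [show ψ (b i) = z from by exact_mod_cast hz]
    have h1 : red (b i) = Pi.single i 1 := by
      funext j
      simp [red, Module.Basis.repr_self, Finsupp.single_apply, Pi.single_apply, eq_comm]
    rw [← ZMod.intCast_zmod_eq_zero_iff_dvd, hψ, h1] at hz'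
    simpa using hz'

/-- The words avoiding `p` span modulo every power of `l`. -/
theorem exists_words (hp5 : 5 ≤ p) {l : ℕ} [Fact l.Prime] (t : HH) (k : ℕ) :
    ∃ (n : ℕ) (c : Fin n → ℤ) (m : Fin n → List Nat.Primes) (u : HH),
      (∀ i, ∀ q ∈ m i, (q : ℕ) ≠ p) ∧ t = ∑ i, c i • wordOp p (m i) + (l : HH) ^ k * u := by
  suffices h : ∃ t' ∈ wordSpan p, ∃ u : HH, t = t' + (l : HH) ^ k * u by
    obtain ⟨t', ht', u, hu⟩ := h
    obtain ⟨n, c, m, hm, e⟩ := exists_words_of_mem ht'
    exact ⟨n, c, m, u, hm, e ▸ hu⟩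
  induction k with
  | zero => exact ⟨0, zero_mem _, t, by simp⟩
  | succ k ih =>
    obtain ⟨t', ht', u, hu⟩ := ih
    obtain ⟨u', hu', v, hv⟩ := exists_sub_mem_span hp5 (l := l) u
    refine ⟨t' + (l : HH) ^ k * u', add_mem ht' (mul_mem (pow_mem ?_ _) hu'), v, ?_⟩
    · exact natCast_mem _ l
    · rw [hu, hv, pow_succ]; ring

end

end FLTAgent.Mazur
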