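import Fermat.Agent.Mazur.PointUniform
import Fermat.Agent.LocalEC.Formal
import Fermat.Agent.LocalEC.Reduction

/-!
# Abscissae of a point of order `p` at a place of multiplicative reduction

If the point reduces to a nonsingular point, the abscissae of `u • P` and `2u • P` have distinct
residues; otherwise all its multiples reduce to the node.
-/

set_option autoImplicit false
set_option linter.style.haveILetI false

noncomputable section

namespace FLTAgent.Mazur

open FLTAgent.LocalEC IsLocalRing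
open WeierstrassCurve.Affine (Point)

variable {K : Type*} [Field K] [DecidableEq K] {A : ValuationSubring K}
  {W : WeierstrassCurve.Affine K} (hW : IntCoeff A W) {p : ℕ} [Fact p.Prime]

theorem nsmul_val_ne_zero {P : W.Point} (hP : addOrderOf P = p) {u : ZMod p} (hu : u ≠ 0) :
    u.val • P ≠ 0 := by
  intro h
  have hd := addOrderOf_dvd_of_nsmul_eq_zero h
  rw [hP, ← ZMod.natCast_eq_zero_iff, ZMod.natCast_zmod_val] at hd
  exact hu hd

theorem nsmul_eq_zero_of_order {P : W.Point} (hP : addOrderOf P = p) : p • P = 0 := by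
  have := addOrderOf_nsmul_eq_zero P
  rwa [hP] at this

theorem nsmul_val_mul {P : W.Point} (hP : addOrderOf P = p) (a b : ZMod p) :
    (a * b).val • P = a.val • b.val • P := by
  rw [← mul_nsmul', ← mod_addOrderOf_nsmul P (a.val * b.val), hP, ZMod.val_mul]

include hW in
/-- A point of order `p` prime to the residue characteristic has integral coordinates. -/
theorem exists_integral (hpk : A.valuation (p : K) = 1) {P : W.Point} (hP : addOrderOf P = p)
    {u : ZMod p} (hu : u ≠ 0) :
    ∃ (x y : A) (h : W.Nonsingular (x : K) y), u.val • P = Point.some _ _ h := by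
  have h0 := nsmul_val_ne_zero hP hu
  have hp : p • u.val • P = 0 := by
    rw [← mul_nsmul', mul_comm, mul_nsmul', nsmul_eq_zero_of_order hP, nsmul_zero]
  generalize u.val • P = R at h0 hp ⊢
  rcases R with _ | ⟨x, y, h⟩
  · exact absurd rfl h0
  have hx : x ∈ A := by
    by_contra hx
    exact h0 (eq_zero_of_inE1_of_nsmul hW (P := Point.some x y h) hx hpk hp)
  exact ⟨⟨x, hx⟩, ⟨y, hW.y_mem h.1 hx⟩, h, rfl⟩

variable [DecidableEq (ResidueField A)]

include hW in
/-- On the identity component the residues differ. -/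
theorem residue_xOf_ne (hp : 5 ≤ p) (hpk : A.valuation (p : K) = 1) {P : W.Point}
    (hP : addOrderOf P = p) (h0 : InE0 hW P) {u : ZMod p} (hu : u ≠ 0)
    {a b : A} (ha : (a : K) = xOf (u.val • P)) (hb : (b : K) = xOf ((2 * u).val • P)) :
    residue A a ≠ residue A b := by
  intro hab
  have h2 : (2 : ZMod p) ≠ 0 := by
    rw [show (2 : ZMod p) = ((2 : ℕ) : ZMod p) by norm_num, Ne, ZMod.natCast_eq_zero_iff]
    exact fun h ↦ by have := Nat.le_of_dvd (by norm_num) h; omega
  obtain ⟨x₁, y₁, h₁, e₁⟩ := exists_integral hW hpk hP hu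
  obtain ⟨x₂, y₂, h₂, e₂⟩ := exists_integral hW hpk hP (mul_ne_zero h2 hu)
  rw [e₁] at ha
  rw [e₂] at hb
  obtain rfl : a = x₁ := Subtype.ext ha
  obtain rfl : b = x₂ := Subtype.ext hb
  have i₁ : InE0 hW (Point.some _ _ h₁) := e₁ ▸ (e0Subgroup hW).nsmul_mem h0 _
  have i₂ : InE0 hW (Point.some _ _ h₂) := e₂ ▸ (e0Subgroup hW).nsmul_mem h0 _
  obtain ⟨_, _, n₁⟩ := i₁.resolve_left (fun h ↦ h a.2)
  obtain ⟨_, _, n₂⟩ := i₂.resolve_left (fun h ↦ h b.2)
  have hr₁ := red_some hW (h := h₁) a.2 y₁.2 n₁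
  have hr₂ := red_some hW (h := h₂) b.2 y₂.2 n₂
  have hp0 : ∀ R : W.Point, (∃ k : ℕ, R = k • P) → InE1 A R → R = 0 := by
    rintro R ⟨k, rfl⟩ hR
    refine eq_zero_of_inE1_of_nsmul hW hR hpk ?_
    rw [← mul_nsmul', mul_comm, mul_nsmul', nsmul_eq_zero_of_order hP, nsmul_zero]
  rcases WeierstrassCurve.Affine.Point.X_eq_iff (h₁ := n₁) (h₂ := n₂) |>.mp hab with e | e
  · have hE : InE1 A (Point.some _ _ h₁ - Point.some _ _ h₂) :=
      sub_inE1_of_red_eq hW i₁ i₂ (by rw [hr₁, hr₂, e])
    rw [← e₁, ← e₂] at hE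
    have hd : u.val • P - (2 * u).val • P = (-u).val • P := by
      rw [sub_eq_iff_eq_add, ← add_nsmul, ← mod_addOrderOf_nsmul P (_ + _), hP, ← ZMod.val_add]
      congr 2
      ring
    rw [hd] at hE
    exact nsmul_val_ne_zero hP (neg_ne_zero.mpr hu) (hp0 _ ⟨_, rfl⟩ hE)
  · have hE : InE1 A (Point.some _ _ h₁ + Point.some _ _ h₂) := by
      have := sub_inE1_of_red_eq hW i₁ (inE0_neg hW i₂) (by rw [red_neg hW _ i₂, hr₁, hr₂, e])
      rwa [sub_neg_eq_add] at this
    rw [← e₁, ← e₂] at hE
    have h3 : (3 : ZMod p) ≠ 0 := by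
      rw [show (3 : ZMod p) = ((3 : ℕ) : ZMod p) by norm_num, Ne, ZMod.natCast_eq_zero_iff]
      exact fun h ↦ by have := Nat.le_of_dvd (by norm_num) h; omega
    have hd : u.val • P + (2 * u).val • P = (3 * u).val • P := by
      rw [← add_nsmul, ← mod_addOrderOf_nsmul P (_ + _), hP, ← ZMod.val_add]
      congr 2
      ring
    rw [hd] at hE
    exact nsmul_val_ne_zero hP (mul_ne_zero h3 hu) (hp0 _ ⟨_, rfl⟩ hE)

include hW in
/-- Off the identity component all multiples have the residue of the node. -/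
theorem residue_xOf_eq (hpk : A.valuation (p : K) = 1)
    {P : W.Point} (hP : addOrderOf P = p) (h0 : ¬ InE0 hW P) {u : ZMod p} (hu : u ≠ 0)
    {a : A} (ha : (a : K) = xOf (u.val • P)) :
    residue A (hW.model.c₄ * a) = residue A (18 * hW.model.b₆ - hW.model.b₂ * hW.model.b₄) := by
  obtain ⟨x, y, h, e⟩ := exists_integral hW hpk hP hu
  rw [e] at ha
  obtain rfl : a = x := Subtype.ext ha
  have hns : ¬ hW.redCurve.Nonsingular (residue A a) (residue A y) := fun hn ↦ h0 <| by
    have hi : InE0 hW (u.val • P) := e ▸ Or.inr ⟨a.2, y.2, hn⟩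
    have := (e0Subgroup hW).nsmul_mem hi (u⁻¹ : ZMod p).val
    rw [← nsmul_val_mul hP, inv_mul_cancel₀ hu, ZMod.val_one, one_nsmul] at this
    exact this
  rw [hW.redCurve_nonsingular_iff h.1, not_or] at hns
  have hψ : residue A (hW.psiA a y) = 0 := by
    by_contra hne
    exact hns.1 (by rw [← hW.coe_psiA]; exact val_eq_one_of_residue_ne_zero hne)
  have htan : residue A (hW.tanA a y) = 0 := by
    by_contra hne
    exact hns.2 (by rw [← hW.coe_tanA]; exact val_eq_one_of_residue_ne_zero hne)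
  have heq : hW.model.Equation a y := by
    rw [← hW.model.map_equation A.subtype_injective]
    exact h.1
  rw [WeierstrassCurve.Affine.equation_iff] at heq
  have key : hW.model.c₄ * a - (18 * hW.model.b₆ - hW.model.b₂ * hW.model.b₄) =
      hW.psiA a y * ((12 * a + hW.model.b₂) * hW.model.a₁ - 18 * hW.psiA a y) +
        hW.tanA a y * (2 * (12 * a + hW.model.b₂)) := by
    simp only [IntCoeff.psiA, IntCoeff.tanA, WeierstrassCurve.c₄, WeierstrassCurve.b₂,
      WeierstrassCurve.b₄, WeierstrassCurve.b₆]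
    linear_combination 72 * heq
  have h1 := congrArg (residue A) key
  rwa [map_sub, map_add, map_mul (residue A) (hW.psiA a y), map_mul (residue A) (hW.tanA a y),
    hψ, htan, zero_mul, zero_mul, add_zero, sub_eq_zero] at h1

end FLTAgent.Mazur
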