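import Fermat.Agent.Mazur.PointValue
import Fermat.Agent.Mazur.PointLocal
import Fermat.Prelude.Def_EllipticCurve_ZeroComponentAt

/-!
# The point of `X₀(p)` of a stable line and the cusps it specialises to

For a curve over `ℤ` with a Galois-stable line `⟨Q⟩` of prime order `p ≥ 5`, the point of
`X₀(p)` is rational; at a prime `q ≠ p` of multiplicative reduction it reduces to `∞` if `Q` lies
on the identity component and to `0` otherwise.
-/

set_option autoImplicit false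
set_option linter.style.haveILetI false
set_option maxHeartbeats 1000000
set_option synthInstance.maxHeartbeats 400000

noncomputable section

open AlgebraicCurve ModularCurve IsLocalRing
open FLTAgent.X0Fn (XF jF)
open FLTAgent.Curves (OrdGE)
open FLTAgent.LocalEC (IntCoeff InE0)
open scoped WeierstrassCurve.Affine

namespace FLTAgent.Mazur

local notation "QA" => AlgebraicClosure ℚ
local notation "GG" => (AlgebraicClosure ℚ ≃ₐ[ℚ] AlgebraicClosure ℚ)

variable (W : WeierstrassCurve ℤ)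

theorem intCoeff_curveOver (A : ValuationSubring QA) : IntCoeff A (curveOver W QA) := by
  rw [curveOver_eq]
  exact ⟨intCast_mem A W.a₁, intCast_mem A W.a₂, intCast_mem A W.a₃, intCast_mem A W.a₄,
    intCast_mem A W.a₆⟩

variable {W}

theorem model_eq {A : ValuationSubring QA} (hW : IntCoeff A (curveOver W QA)) :
    hW.model = W.map (Int.castRingHom A) := by
  have h : ∀ n : ℤ, ((n : A) : QA) = (n : QA) := fun n ↦ map_intCast A.subtype n
  ext <;> simp [IntCoeff.model, h]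

theorem inE0_iff {A : ValuationSubring QA} (hW : IntCoeff A (curveOver W QA))
    (Q : (curveOver W QA).Point) : InE0 hW Q ↔ W.InZeroComponentAt A Q := by
  have hred : hW.redCurve = W.map (Int.castRingHom (ResidueField A)) := by
    rw [IntCoeff.redCurve, model_eq]
    show (W.map (Int.castRingHom A)).map (residue A) = _
    rw [WeierstrassCurve.map_map,
      RingHom.ext_int ((residue A).comp (Int.castRingHom A)) (Int.castRingHom (ResidueField A))]
  rcases Q with _ | ⟨x, y, h⟩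
  · exact ⟨fun _ ↦ Or.inl rfl, fun _ ↦ trivial⟩
  · rw [LocalEC.inE0_some_iff, hred]
    refine ⟨fun hh ↦ Or.inr ⟨x, y, h, rfl, hh⟩, ?_⟩
    rintro (h0 | ⟨x', y', h', e, hh⟩)
    · exact absurd h0 (WeierstrassCurve.Affine.Point.some_ne_zero _)
    · obtain ⟨rfl, rfl⟩ := WeierstrassCurve.Affine.Point.some.inj e
      exact hh

theorem residue_intCast_eq_zero {A : ValuationSubring QA} {q : ℕ} [Fact q.Prime]
    (hA : A.LiesOverPrime q) (n : ℤ) : residue A (n : A) = 0 ↔ (q : ℤ) ∣ n := by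
  haveI := FrobTrace.charP_residueField hA
  rw [map_intCast, CharP.intCast_eq_zero_iff _ q]

variable {p : ℕ} [Fact p.Prime]

set_option maxHeartbeats 2000000 in
/-- The rational point of `X₀(p)` of a stable line, its invariant and its specialisations. -/
theorem exists_point_cusp_j (hp : 5 ≤ p) (hΔ : W.Δ ≠ 0)
    (hmult : ∃ l : ℕ, l.Prime ∧ (l : ℤ) ∣ W.Δ ∧ ¬ (l : ℤ) ∣ W.c₄)
    (Q : ((W.map (Int.castRingHom ℚ))⁄QA).Point) (hQ : addOrderOf Q = p)
    (hstab : ∀ σ : GG, ∃ k : ℕ, σ • Q = k • Q) :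
    ∃ x : Place QA (modularFunctionFieldBar p),
      (∀ σ : GG, arithmeticGalois (modularFunctionFieldFull p) σ • x = x) ∧
      0 < x.ord (jF QA p -
        algebraMap QA (XF QA p) (algebraMap ℚ QA ((W.c₄ : ℚ) ^ 3 / W.Δ))) ∧
      ∀ q : ℕ, q.Prime → q ≠ p → (q : ℤ) ∣ W.Δ → ¬ (q : ℤ) ∣ W.c₄ →
        ∀ A : ValuationSubring QA, A.LiesOverPrime q →
          ∀ r, IsPlaceReductionModL A p r →
            r (cuspInf p) ≠ r (cuspZero p) ∧
            (W.InZeroComponentAt A Q → r x = r (cuspInf p)) ∧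
            (¬ W.InZeroComponentAt A Q → r x = r (cuspZero p)) := by
  classical
  obtain ⟨l, hl, hlΔ, hlc⟩ := hmult
  have hc4 : W.c₄ ≠ 0 := fun h ↦ hlc (h ▸ dvd_zero _)
  have hc6 : W.c₆ ≠ 0 := fun h ↦ hlc (by
    have hrel := W.c_relation
    rw [h, zero_pow two_ne_zero, sub_zero] at hrel
    exact (Nat.prime_iff_prime_int.mp hl).dvd_of_dvd_pow (hrel ▸ hlΔ.mul_left 1728))
  obtain ⟨ζ, hζ, hκ⟩ := exists_good_root (p := p) kappa0
  obtain ⟨x, hfix, hxj, hxz⟩ := exists_point hp kappa0 hζ hκ W hΔ hc4 hc6 Q hQ hstab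
  refine ⟨x, hfix, hxj, fun q hq hqp hqΔ hqc A hA r hr ↦ ?_⟩
  haveI : Fact q.Prime := ⟨hq⟩
  obtain ⟨hne, hred⟩ := red_point hA hqp hp kappa0 hζ hκ hr
  refine ⟨hne, ?_⟩
  set a : QA := algebraMap ℚ QA ((W.c₄ : ℚ) ^ 3 / W.Δ) with ha_def
  have hcA : ((W.c₄ : QA)) ≠ 0 := by exact_mod_cast hc4
  have hΔA : ((W.Δ : QA)) ≠ 0 := by exact_mod_cast hΔ
  have ha : a = (W.c₄ : QA) ^ 3 / (W.Δ : QA) := by
    rw [ha_def, map_div₀, map_pow, map_intCast, map_intCast]
  obtain ⟨cinv, hcinv⟩ : ∃ c : A, (W.c₄ : A) * c = 1 :=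
    ((residue_ne_zero_iff_isUnit _).mp fun h ↦ hqc ((residue_intCast_eq_zero hA _).mp h)).exists_right_inv
  have hcinv' : (cinv : QA) = (W.c₄ : QA)⁻¹ := by
    refine eq_inv_of_mul_eq_one_right ?_
    have := congrArg (Subtype.val : A → QA) hcinv
    simpa using this
  have hainv : a⁻¹ = ((cinv ^ 3 * (W.Δ : A) : A) : QA) := by
    push_cast
    rw [ha, hcinv', inv_div, inv_pow, div_eq_inv_mul]
  have hamem : a⁻¹ ∈ A := hainv ▸ (cinv ^ 3 * (W.Δ : A)).2
  have hares : residue A ⟨a⁻¹, hamem⟩ = 0 := by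
    rw [show (⟨a⁻¹, hamem⟩ : A) = cinv ^ 3 * (W.Δ : A) from Subtype.ext hainv, map_mul,
      (residue_intCast_eq_zero hA _).mpr hqΔ, mul_zero]
  have ha0 : a ≠ 0 := by rw [ha]; exact div_ne_zero (pow_ne_zero _ hcA) hΔA
  have hW := intCoeff_curveOver W A
  have hpk : A.valuation ((p : ℕ) : QA) = 1 := by
    have := LocalEC.val_eq_one_of_residue_ne_zero (a := (p : A))
      (by rw [map_natCast]; exact natCast_p_ne_zero hA hqp)
    simpa using this
  have h2 : (2 : ZMod p) ≠ 0 := by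
    rw [show (2 : ZMod p) = ((2 : ℕ) : ZMod p) by norm_num, Ne, ZMod.natCast_eq_zero_iff]
    exact fun h ↦ by have := Nat.le_of_dvd (by norm_num) h; omega
  have hint : ∀ u : ZMod p, u ≠ 0 → ∃ b : A, (b : QA) = xOf (u.val • Q) := fun u hu ↦ by
    obtain ⟨b, y, h, e⟩ := exists_integral hW hpk hQ hu
    exact ⟨b, by rw [e]; rfl⟩
  choose b hb using hint
  let d : (ZMod p)ˣ → A := fun u ↦
    b (u : ZMod p) u.ne_zero - b (2 * (u : ZMod p)) (mul_ne_zero h2 u.ne_zero)
  set V : A := ∏ u : (ZMod p)ˣ, d u ^ 2 * cinv with hV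
  obtain ⟨hzero, hinf⟩ := hred x a ha0 hamem hares hxj V fun z hz ↦ by
    refine (congrArg (fun c ↦ OrdGE x 1 (z - algebraMap QA (XF QA p) c)) ?_).mp (hxz z hz)
    rw [hV, ← card_units (p := p), ← Finset.card_univ, ← Finset.prod_const]
    rw [show ((∏ u : (ZMod p)ˣ, d u ^ 2 * cinv : A) : QA) =
      ∏ u : (ZMod p)ˣ, ((d u ^ 2 * cinv : A) : QA) from map_prod A.subtype _ _,
      ← Finset.prod_mul_distrib]
    refine Finset.prod_congr rfl fun u _ ↦ ?_
    simp only [d, gVal]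
    push_cast
    rw [hb, hb, hcinv', ha]
    field_simp
  refine ⟨fun hz ↦ hinf ?_, fun hz ↦ hzero ?_⟩
  · rw [hV, map_prod, Finset.prod_ne_zero_iff]
    intro u _
    rw [map_mul, map_pow]
    refine mul_ne_zero (pow_ne_zero _ ?_) fun h ↦ ?_
    · simp only [d, map_sub, sub_ne_zero]
      exact residue_xOf_ne hW hp hpk hQ ((inE0_iff hW Q).mpr hz) u.ne_zero (hb _ _) (hb _ _)
    · have := congrArg (residue A) hcinv
      rw [map_mul, h, mul_zero, map_one] at this
      exact zero_ne_one this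
  · rw [hV, map_prod]
    refine Finset.prod_eq_zero (Finset.mem_univ 1) ?_
    have hnz : ¬ InE0 hW Q := fun h ↦ hz ((inE0_iff hW Q).mp h)
    have h21 : 2 * ((1 : (ZMod p)ˣ) : ZMod p) ≠ 0 := mul_ne_zero h2 (Units.ne_zero _)
    have e := (residue_xOf_eq hW hpk hQ hnz (Units.ne_zero (1 : (ZMod p)ˣ))
      (hb _ (Units.ne_zero (1 : (ZMod p)ˣ)))).trans (residue_xOf_eq hW hpk hQ hnz h21 (hb _ h21)).symm
    have hc : hW.model.c₄ = (W.c₄ : A) := by
      rw [model_eq]
      exact W.map_c₄ _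
    rw [hc, map_mul, map_mul] at e
    have hc0 : residue A (W.c₄ : A) ≠ 0 := fun h ↦ hqc ((residue_intCast_eq_zero hA _).mp h)
    have e' := mul_left_cancel₀ hc0 e
    rw [map_mul, map_pow]
    simp only [d, map_sub, e', sub_self, zero_pow two_ne_zero, zero_mul]

/-- The rational point of `X₀(p)` of a stable line and its specialisations. -/
theorem exists_point_cusp (hp : 5 ≤ p) (hΔ : W.Δ ≠ 0)
    (hmult : ∃ l : ℕ, l.Prime ∧ (l : ℤ) ∣ W.Δ ∧ ¬ (l : ℤ) ∣ W.c₄)
    (Q : ((W.map (Int.castRingHom ℚ))⁄QA).Point) (hQ : addOrderOf Q = p)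
    (hstab : ∀ σ : GG, ∃ k : ℕ, σ • Q = k • Q) :
    ∃ x : Place QA (modularFunctionFieldBar p),
      (∀ σ : GG, arithmeticGalois (modularFunctionFieldFull p) σ • x = x) ∧
      ∀ q : ℕ, q.Prime → q ≠ p → (q : ℤ) ∣ W.Δ → ¬ (q : ℤ) ∣ W.c₄ →
        ∀ A : ValuationSubring QA, A.LiesOverPrime q →
          ∀ r, IsPlaceReductionModL A p r →
            r (cuspInf p) ≠ r (cuspZero p) ∧
            (W.InZeroComponentAt A Q → r x = r (cuspInf p)) ∧
            (¬ W.InZeroComponentAt A Q → r x = r (cuspZero p)) :=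
  let ⟨x, h, _, h'⟩ := exists_point_cusp_j hp hΔ hmult Q hQ hstab
  ⟨x, h, h'⟩

end FLTAgent.Mazur
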