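import Fermat.Agent.Mazur.Endgame
import Fermat.Agent.Mazur.CuspClass
import Fermat.Agent.Mazur.PointBridge

/-!
# Cusps seen by a rational point of `X₀(p)`

A rational point specialising to one cusp at two primes never specialises to the other cusp.
-/

set_option autoImplicit false
set_option linter.style.haveILetI false
set_option synthInstance.maxHeartbeats 400000
set_option maxHeartbeats 1000000

noncomputable section

open ModularCurve AlgebraicCurve IsLocalRing

namespace FLTAgent.Mazur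

local notation "QA" => AlgebraicClosure ℚ
local notation "GG" => (AlgebraicClosure ℚ ≃ₐ[ℚ] AlgebraicClosure ℚ)

variable {p : ℕ} [Fact p.Prime]

/-- Inertia at `p` is unipotent on the `l`-power torsion of `J₀(p)`. -/
def UnipotentAt (p : ℕ) [Fact p.Prime] : Prop :=
  ∀ l : ℕ, l.Prime → l ≠ p → ∀ Ap : ValuationSubring QA, Ap.LiesOverPrime p →
    ∀ σ ∈ Ap.inertiaSubgroupIn ℚ, ∀ (k : ℕ) (x : JZero p), l ^ k • x = 0 →
      σ • (σ • x - x) = σ • x - x

/-- The specialisations of two places agree at every place of `ℚ̄` over `q`. -/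
def SameRed (q : ℕ) (u v : Place QA (modularFunctionFieldBar p)) : Prop :=
  ∀ A : ValuationSubring QA, A.LiesOverPrime q → ∀ r, IsPlaceReductionModL A p r → r u = r v

theorem smul_mk_sub {u v : Place QA (modularFunctionFieldBar p)}
    (hu : ∀ σ : GG, arithmeticGalois (modularFunctionFieldFull p) σ • u = u)
    (hv : ∀ σ : GG, arithmeticGalois (modularFunctionFieldFull p) σ • v = v)
    (D : Divisor.degZero (K := QA) (F := modularFunctionFieldBar p))
    (hD : (D : Divisor QA (modularFunctionFieldBar p)) =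
      Finsupp.single u 1 - Finsupp.single v 1) (σ : GG) :
    σ • (Pic0.mk D : JZero p) = Pic0.mk D := by
  rw [galois_smul_pic0_def, SemilinearAut.pic0_smul_mk]
  refine congrArg Pic0.mk (Subtype.ext ?_)
  simp only [SemilinearAut.coe_degZeroSMulHom, hD]
  show DistribSMul.toAddMonoidHom (Divisor QA (modularFunctionFieldBar p))
    (arithmeticGalois (modularFunctionFieldFull p) σ) (Finsupp.single u 1 - Finsupp.single v 1) = _
  rw [map_sub]
  simp only [DistribSMul.toAddMonoidHom_apply, SemilinearAut.smul_single, hu σ, hv σ]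

/-- A rational place congruent to one cusp at `2` and `3` is never congruent to the other. -/
theorem cusp_separation (hp' : p ∉ ({2, 3, 5, 7, 13} : Finset ℕ)) (hbad : UnipotentAt p)
    {x c₁ c₂ : Place QA (modularFunctionFieldBar p)}
    (hx : ∀ σ : GG, arithmeticGalois (modularFunctionFieldFull p) σ • x = x)
    (hc : (c₁ = cuspInf p ∧ c₂ = cuspZero p) ∨ (c₁ = cuspZero p ∧ c₂ = cuspInf p))
    (h2 : SameRed 2 x c₁) (h3 : SameRed 3 x c₁) {ℓ : ℕ} (hℓ : ℓ.Prime) (hℓp : ℓ ≠ p)
    {A : ValuationSubring QA} (hA : A.LiesOverPrime ℓ)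
    (hxc : ∀ r, IsPlaceReductionModL A p r → r x = r c₂) : False := by
  haveI : NeZero p := ⟨(Fact.out : p.Prime).ne_zero⟩
  haveI : Curves.IsFunctionField QA (modularFunctionFieldBar p) :=
    Specialization.instIsFunctionFieldX0Bar p
  simp only [Finset.mem_insert, Finset.mem_singleton, not_or] at hp'
  obtain ⟨l, a, j, e, m, hl, hlp, hm, hja, hjp, hje, he⟩ :=
    exists_eisenstein_prime (p := p) Fact.out (by simp [hp'])
  haveI : Fact l.Prime := ⟨hl⟩
  obtain ⟨Ap, hAp⟩ := Frobenius.exists_liesOverPrime p Fact.out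
  have hfix : ∀ u, (u = cuspInf p ∨ u = cuspZero p) →
      ∀ σ : GG, arithmeticGalois (modularFunctionFieldFull p) σ • u = u := by
    rintro u (rfl | rfl) σ
    exacts [smul_cuspInf σ, smul_cuspZero σ]
  have hc₁ : c₁ = cuspInf p ∨ c₁ = cuspZero p := hc.imp And.left And.left
  have hc₂ : c₂ = cuspInf p ∨ c₂ = cuspZero p := hc.symm.imp And.right And.right
  let Dy : Divisor.degZero (K := QA) (F := modularFunctionFieldBar p) :=
    ⟨Finsupp.single x 1 - Finsupp.single c₁ 1,
      Divisor.mem_degZero.2 (by simp [map_sub, Curves.deg_eq_one])⟩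
  let Dc : Divisor.degZero (K := QA) (F := modularFunctionFieldBar p) :=
    ⟨Finsupp.single c₂ 1 - Finsupp.single c₁ 1,
      Divisor.mem_degZero.2 (by simp [map_sub, Curves.deg_eq_one])⟩
  set y₀ : JZero p := Pic0.mk Dy
  set c₀ : JZero p := Pic0.mk Dc
  have hc₀ : c₀ = cuspClass p ∨ c₀ = -cuspClass p := by
    rcases hc with ⟨e1, e2⟩ | ⟨e1, e2⟩
    · left
      exact congrArg Pic0.mk (Subtype.ext (by simp [Dc, e1, e2]))
    · right
      rw [cuspClass]
      refine (congrArg Pic0.mk ?_).trans (QuotientAddGroup.mk_neg _ _)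
      exact Subtype.ext (by simp [Dc, e1, e2])
  have hred : ∀ {q : ℕ} (hq : q.Prime) (hqp : q ≠ p) {B : ValuationSubring QA}
      (hB : B.LiesOverPrime q) (u : Place QA (modularFunctionFieldBar p)) (w)
      (Du Dw : Divisor.degZero (K := QA) (F := modularFunctionFieldBar p)),
      (Du : Divisor QA (modularFunctionFieldBar p)) =
        Finsupp.single u 1 - Finsupp.single c₁ 1 →
      (Dw : Divisor QA (modularFunctionFieldBar p)) =
        Finsupp.single w 1 - Finsupp.single c₁ 1 →
      (∀ r', IsPlaceReductionModL B p r' → r' u = r' w) →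
      reductionModL B p (Pic0.mk Du) = reductionModL B p (Pic0.mk Dw) := by
    intro q hq hqp B hB u w Du Dw hu hw huw
    have hi : ReductionInputsModL B p := (Kronecker.goodReductionAt p q hq
      (fun h => hqp ((Nat.prime_dvd_prime_iff_eq hq Fact.out).1 h)) B hB).1
    rw [reductionModL_mk hi, reductionModL_mk hi]
    refine congrArg Pic0.mk (Subtype.ext ?_)
    simp only [coe_reductionDegZeroAlong, hu, hw]
    rw [← Finsupp.mapDomain.addMonoidHom_apply, ← Finsupp.mapDomain.addMonoidHom_apply, map_sub,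
      map_sub]
    simp only [Finsupp.mapDomain.addMonoidHom_apply, Finsupp.mapDomain_single,
      huw _ (isPlaceReductionModL_placeReductionModL hi)]
  have hzero : ∀ {q : ℕ}, q.Prime → q ≠ p → ∀ {B : ValuationSubring QA}, B.LiesOverPrime q →
      SameRed q x c₁ → reductionModL B p y₀ = 0 := fun {q} hq hqp {B} hB h => by
    let D0 : Divisor.degZero (K := QA) (F := modularFunctionFieldBar p) :=
      ⟨Finsupp.single c₁ 1 - Finsupp.single c₁ 1, Divisor.mem_degZero.2 (by simp)⟩
    rw [show y₀ = Pic0.mk Dy from rfl, hred hq hqp hB x c₁ Dy D0 rfl rfl (h B hB),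
      show D0 = 0 from Subtype.ext (sub_self _)]
    exact (congrArg _ (QuotientAddGroup.mk_zero _)).trans (map_zero _)
  obtain ⟨q, hq, hql, hqp, hxq⟩ :
      ∃ q : ℕ, q.Prime ∧ q ≠ l ∧ q ≠ p ∧ SameRed q x c₁ := by
    by_cases h : l = 2
    · exact ⟨3, Nat.prime_three, by omega, fun e => hp'.2.1 e.symm, h3⟩
    · exact ⟨2, Nat.prime_two, fun e => h e.symm, fun e => hp'.1 e.symm, h2⟩
  obtain ⟨Aq, hAq⟩ := Frobenius.exists_liesOverPrime q hq
  have hzc : ∀ σ : GG, σ • c₀ = c₀ := smul_mk_sub (hfix c₂ hc₂) (hfix c₁ hc₁) Dc rfl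
  have hzy : ∀ σ : GG, σ • y₀ = y₀ := smul_mk_sub hx (hfix c₁ hc₁) Dy rfl
  refine Tate.false_of_descent p l hlp hAp (hbad l hl hlp Ap hAp) (y := m • y₀) (c := m • c₀)
    (a := a) (fun σ => ?_) (fun σ => ?_) ?_ hq hql hqp hAq
    (by rw [map_nsmul, hzero hq hqp hAq hxq, nsmul_zero]) hℓ hℓp hA
    (by rw [map_nsmul, map_nsmul, hred hℓ hℓp hA x c₂ Dy Dc rfl rfl hxc]) fun Al hAl => ?_
  · rw [← EigenReps.nsmul_galois_smul, hzy σ]
  · rw [← EigenReps.nsmul_galois_smul, hzc σ]
  · rw [← mul_nsmul', ← hm]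
    rcases hc₀ with h | h <;> simp [h, nsmul_cuspClass p, neg_nsmul]
  · have hne := reductionModL_cuspClass_ne_zero hlp hm hja hjp hje he hAl
    rcases hc₀ with h | h
    · rwa [h]
    · rwa [h, neg_nsmul, map_neg, neg_ne_zero]

end FLTAgent.Mazur
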