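import Fermat.Agent.BadRed.Symmetry
import Fermat.Agent.BadRed.Torsion
import Fermat.Agent.GoodModel.Final
import Fermat.Agent.Specialization.Inputs
import Fermat.Agent.Mazur.Separation

/-!
# Inertia at `p` acts unipotently on the prime-to-`p` torsion of `J₀(p)`
-/

set_option autoImplicit false
set_option linter.style.haveILetI false
set_option synthInstance.maxHeartbeats 400000
set_option maxHeartbeats 1000000

noncomputable section

open ModularCurve AlgebraicCurve IsLocalRing

namespace FLTAgent.Mazur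

open FLTAgent.Specialization FLTAgent.Curves

local notation "QA" => AlgebraicClosure ℚ

/-- The model of level one is smooth at every prime `p ≥ 5`. -/
theorem smooth_level_one {p : ℕ} [Fact p.Prime] (hp : 5 ≤ p) {A : ValuationSubring QA}
    (hA : A.LiesOverPrime p) [IsAlgClosed (ResidueField A)]
    [IsFunctionField (ResidueField A) (modularFunctionFieldFullC (ResidueField A) 1)]
    (h1 : ((1 : ℕ) : ResidueField A) ≠ 0) :
    (modularModel (π := residue A) residue_surjective 1 h1).Smooth := by
  obtain ⟨N₂, N', -, h23, hN', haux, ⟨d, hd, hdl⟩, -, hN₂⟩ :=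
    exists_levels (Fact.out : p.Prime) (N := 1) (Nat.Prime.not_dvd_one Fact.out)
  obtain rfl := hN₂ hp
  haveI : NeZero N' := ⟨fun h => hN' (h ▸ dvd_zero p)⟩
  have hk' : (N' : ResidueField A) ≠ 0 := natCast_ne_zero_residue hA hN'
  haveI := isFunctionField_full (ResidueField A) N' rfl hk'
  exact smooth_of_dvd residue_surjective h1 h23 hk' hd (natCast_ne_zero_residue hA hdl)
    (GoodModel.goodLevel hA N' haux hN')

theorem smul_smul_level (p : ℕ) [Fact p.Prime] (hp : 5 ≤ p) {L : ℕ} [NeZero L] (hL : 1 * p = L)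
    {A : ValuationSubring QA} (hA : A.LiesOverPrime p) {σ : QA ≃ₐ[ℚ] QA}
    (hσ : σ ∈ A.inertiaSubgroupIn ℚ) {n : ℕ} (hn : ¬ p ∣ n) {x : JZero L} (hx : n • x = 0) :
    σ • (σ • x - x) = σ • x - x := by
  subst hL
  haveI : NeZero p := ⟨(Fact.out : p.Prime).ne_zero⟩
  haveI : IsAlgClosed (ResidueField A) := FrobTrace.isAlgClosed_residueField A
  haveI := FrobTrace.charP_residueField hA
  have hq : ¬ p ∣ 1 := Nat.Prime.not_dvd_one Fact.out
  have h1 : ((1 : ℕ) : ResidueField A) ≠ 0 := natCast_ne_zero_residue hA hq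
  haveI := isFunctionField_full (ResidueField A) 1 rfl h1
  have hgood : (BadRed.sheetAt hq hA).Good :=
    BadRed.modularSheet_good hq residue_surjective (rankOne_residue hA) (smooth_level_one hp hA h1)
  obtain ⟨g, hg, rfl⟩ := hσ
  have key := BadRed.Sheet.Sym.smul_smul_torsion hgood (BadRed.symAt hq hA g)
    (BadRed.symAt_inertia hq hA hg) (natCast_ne_zero_residue hA hn)
    (x := x) (Pic0.mem_torsion.2 (by rw [← hx]; simp))
  rw [smul_sub]
  exact key

/-- **Inertia at `p` is unipotent** on the prime-to-`p` torsion of `J₀(p)`. -/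
theorem unipotentAt (p : ℕ) [Fact p.Prime] (hp : 5 ≤ p) : UnipotentAt p := by
  intro l hl hlp A hA σ hσ k x hx
  haveI : NeZero p := ⟨(Fact.out : p.Prime).ne_zero⟩
  exact smul_smul_level p hp (one_mul p) hA hσ
    (fun h => hlp ((Nat.prime_dvd_prime_iff_eq Fact.out hl).1
      ((Fact.out : p.Prime).dvd_of_dvd_pow h)).symm) hx

end FLTAgent.Mazur
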