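import Fermat.Agent.Mazur.Endgame
import Fermat.Agent.Mazur.CuspClass
import Fermat.Agent.Mazur.ImmersionSturm
import Fermat.Agent.Mazur.Unipotent
import Fermat.Agent.Mazur.Separation

/-!
# Hecke combinations of a rational class divisible by high powers of `l`

Over an Eisenstein prime `l` some combination of Hecke words, nonzero modulo `l`, carries a given
rational class into the `l ^ k`-th multiples of rational classes, up to a bounded power of `l`.
-/

set_option autoImplicit false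
set_option linter.style.haveILetI false
set_option linter.unusedSectionVars false
set_option synthInstance.maxHeartbeats 400000
set_option maxHeartbeats 1000000

noncomputable section

open CongruenceSubgroup TensorProduct AlgebraicCurve IsLocalRing
open scoped MatrixGroups

namespace FLTAgent.Mazur.Tate

open ModularCurve (JZero reductionModL heckeOperatorBar)

variable (p l : ℕ) [Fact p.Prime] [NeZero p] [Fact l.Prime]

local notation "QA" => AlgebraicClosure ℚ
local notation "GG" => (AlgebraicClosure ℚ ≃ₐ[ℚ] AlgebraicClosure ℚ)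
local notation "HH" => CuspForm.heckeAlgebra p 2 (∅ : Set ℕ)
local notation "TT" => ℤ_[l] ⊗[ℤ] (CuspForm.heckeAlgebra p 2 (∅ : Set ℕ))

/-- A word of Hecke operators acting on classes. -/
def wordAct : List Nat.Primes → (JZero p →+ JZero p)
  | [] => AddMonoidHom.id _
  | q :: m => (heckeOperatorBar p q).toAddMonoidHom.comp (wordAct m)

omit [Fact p.Prime] [Fact l.Prime] in
theorem wordAct_apply (m : List Nat.Primes) (z : JZero p) :
    wordAct p m z = m.foldr (fun q w => heckeOperatorBar p q w) z := by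
  induction m with
  | nil => rfl
  | cons q m ih => exact congrArg (heckeOperatorBar p q) ih

omit [Fact l.Prime] in
theorem smul_wordAct (m : List Nat.Primes) (σ : GG) (z : JZero p) :
    σ • wordAct p m z = wordAct p m (σ • z) := by
  induction m with
  | nil => rfl
  | cons q m ih =>
    haveI : NeZero (q : ℕ) := ⟨q.2.ne_zero⟩
    show σ • heckeOperatorBar p q (wordAct p m z) = heckeOperatorBar p q (wordAct p m (σ • z))
    rw [← ih, ModularCurve.heckeOperatorBar_apply, ModularCurve.heckeOperatorBar_apply]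
    exact EigenLattice.smul_heckeOperatorAlong p (q : ℕ) σ _

theorem lev_wordOp (m : List Nat.Primes) (k : ℕ) (v : Lat p l) :
    lev p l k (hecke p l (wordOp p m) v) = wordAct p m (lev p l k v) := by
  induction m with
  | nil => simp [wordOp, wordAct]
  | cons q m ih =>
    rw [show wordOp p (q :: m) = CuspForms.heckeGen p (q : ℕ) q.2 * wordOp p m by simp [wordOp],
      map_mul, Module.End.mul_apply, lev_heckeGen, ih]
    rfl

/-- A combination of words. -/
def combAct {n : ℕ} (c : Fin n → ℤ) (m : Fin n → List Nat.Primes) : JZero p →+ JZero p :=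
  ∑ i, c i • wordAct p (m i)

omit [Fact l.Prime] in
theorem smul_combAct {n : ℕ} (c : Fin n → ℤ) (m : Fin n → List Nat.Primes) (σ : GG) (z : JZero p) :
    σ • combAct p c m z = combAct p c m (σ • z) := by
  rw [combAct, AddMonoidHom.finsetSum_apply, AddMonoidHom.finsetSum_apply,
    ← DistribSMul.toAddMonoidHom_apply (JZero p) σ, map_sum]
  refine Finset.sum_congr rfl fun i _ => ?_
  show DistribSMul.toAddMonoidHom (JZero p) σ (c i • wordAct p (m i) z) =
    c i • wordAct p (m i) (σ • z)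
  rw [map_zsmul, DistribSMul.toAddMonoidHom_apply, smul_wordAct]

theorem lev_combAct {n : ℕ} (c : Fin n → ℤ) (m : Fin n → List Nat.Primes) (k : ℕ) (v : Lat p l) :
    lev p l k (hecke p l (∑ i, c i • wordOp p (m i)) v) = combAct p c m (lev p l k v) := by
  rw [combAct, AddMonoidHom.finsetSum_apply, map_sum, LinearMap.sum_apply, map_sum]
  refine Finset.sum_congr rfl fun i _ => ?_
  rw [map_zsmul, LinearMap.smul_apply, map_zsmul, lev_wordOp]
  rfl

omit [Fact p.Prime] in
/-- An element of the `l`-adic algebra is an integral one modulo each power of `l`. -/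
theorem exists_tmul_approx (x : TT) (k : ℕ) :
    ∃ (t : HH) (z : TT), x = (1 : ℤ_[l]) ⊗ₜ[ℤ] t + ((l : ℤ_[l]) ^ k) • z := by
  induction x using TensorProduct.induction_on with
  | zero => exact ⟨0, 0, by rw [tmul_zero, smul_zero, add_zero]⟩
  | add a b ha hb =>
    obtain ⟨t, z, rfl⟩ := ha
    obtain ⟨t', z', rfl⟩ := hb
    exact ⟨t + t', z + z', by rw [tmul_add, smul_add]; abel⟩
  | tmul c s =>
    obtain ⟨d, hd⟩ : (l : ℤ_[l]) ^ k ∣ c - ((PadicInt.toZModPow k c).val : ℕ) :=
      (toZModPow_eq_zero_iff l).1 (by rw [map_sub, map_natCast, ZMod.natCast_zmod_val, sub_self])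
    refine ⟨((PadicInt.toZModPow k c).val : ℤ) • s, d ⊗ₜ[ℤ] s, ?_⟩
    conv_lhs => rw [sub_eq_iff_eq_add'.1 hd]
    rw [add_tmul, smul_tmul', smul_eq_mul, ← smul_tmul, zsmul_one]
    push_cast
    rfl

/-- Over a prime `l` with a rational `l`-power torsion class surviving reduction at `l`, some
combination of Hecke words nonzero modulo `l` carries every rational class into `l ^ k`-th
multiples of rational classes, up to a fixed power of `l`. -/
theorem exists_words_divisible (hp5 : 5 ≤ p) (hlp : l ≠ p) {A : ValuationSubring QA}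
    (hA : A.LiesOverPrime l) {c : JZero p} (hc : ∀ σ : GG, σ • c = c) {a : ℕ}
    (hca : l ^ a • c = 0) (hcl : reductionModL A p c ≠ 0) {z : JZero p}
    (hz : ∀ σ : GG, σ • z = z) :
    ∃ N : ℕ, ∀ k : ℕ, ∃ (n : ℕ) (d : Fin n → ℤ) (m : Fin n → List Nat.Primes) (y : JZero p),
      (∀ i, ∀ q ∈ m i, (q : ℕ) ≠ p) ∧ (∀ σ : GG, σ • y = y) ∧
      l ^ k • y = l ^ N • ∑ i, d i • (m i).foldr (fun q w => heckeOperatorBar p q w) z ∧
      ¬ ∃ u : HH, ∑ i, d i • wordOp p (m i) = (l : HH) * u := by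
  classical
  obtain ⟨Ap, hAp⟩ := Frobenius.exists_liesOverPrime p (Fact.out : p.Prime)
  obtain ⟨φl, hφl⟩ := Frobenius.exists_isFrobeniusAt A l Fact.out hA
  obtain ⟨φp, hφp⟩ := Frobenius.exists_isFrobeniusAt Ap p Fact.out hAp
  obtain ⟨κ, hκ⟩ := exists_kummer p l hz
  have hpn : ∀ {q : ℕ}, q.Prime → q ≠ p → ¬ q ∣ p := fun hq hqp h =>
    hqp ((Nat.prime_dvd_prime_iff_eq hq Fact.out).1 h)
  have hln : ∀ {q : ℕ}, q.Prime → q ≠ l → ∀ k, ¬ q ∣ l ^ k := fun hq hql k h =>
    hql ((Nat.prime_dvd_prime_iff_eq hq Fact.out).1 (hq.dvd_of_dvd_pow h))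
  let D := tateLattice p l hA hlp hφl hAp hφp (unipotentAt p hp5 l Fact.out hlp Ap hAp)
  obtain ⟨S, N, w, -, -, hkill, hw⟩ := D.exists_coboundary_kill Fact.out hlp.symm κ
    (fun σ τ => sub_eq_zero.1 <| eq_zero_of_lev p l fun k => by
      show lev p l k (κ (σ * τ) - (κ σ + gal p l σ (κ τ))) = 0
      rw [map_sub, map_add, lev_gal, hκ, hκ, hκ, mul_smul, smul_sub]
      abel)
    (fun n => by
      obtain ⟨L, hL, hfix⟩ := EigenReps.exists_fixing_class p (divTower p l z n)
      refine ⟨L.fixingSubgroup, L.fixingSubgroup_isOpen, fun σ hσ => ?_⟩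
      refine eq_smul_of_lev_eq_zero p l ?_
      rw [hκ, hfix σ ((IntermediateField.mem_fixingSubgroup_iff L σ).1 hσ), sub_self])
    (fun q hq hqp hql σ hσ => eq_zero_of_lev p l fun k => by
      refine (Kronecker.goodReductionAt p q hq (hpn hq hqp) _ (someplace_lies hq)).2 (l ^ k)
        (hln hq hql k) _ (nsmul_lev p l k _) ?_
      rw [hκ, map_sub, sub_eq_zero]
      exact Kronecker.reductionModL_smul_of_mem_inertia σ hσ _)
    (fun σ hσ k => eps_mem p l hA hlp k _ (by
      rw [hκ, map_sub, sub_eq_zero]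
      exact Kronecker.reductionModL_smul_of_mem_inertia σ hσ _))
  obtain ⟨v, hv⟩ := exists_lev_eq p l hca
  have hvK : v ∉ kerRed p l hA hlp := fun h => hcl (by
    have h' := h a
    rwa [lev_eps_of_xd p l hA hlp fun σ => lev_xd_of_fixed p l (fun τ => by rw [hv, hc τ]) σ,
      hv] at h')
  obtain ⟨x₀, hx₀, hx₀S⟩ := hkill ⟨v, hvK⟩
  obtain ⟨r, hr⟩ : ∃ r : ℕ, ¬ (l : TT) ^ r ∣ x₀ := by
    by_contra hall
    push Not at hall
    exact hx₀ (eq_zero_of_forall_natCast_pow_dvd hall)
  obtain ⟨x, hxl, hxS⟩ : ∃ x : TT, ¬ (l : TT) ∣ x ∧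
      ∀ s ∈ S, latticeHom l (hecke p l) x s = 0 := by
    clear hx₀
    induction r generalizing x₀ with
    | zero => exact absurd (by rw [pow_zero]; exact one_dvd _) hr
    | succ r ih =>
      by_cases hd : (l : TT) ∣ x₀
      · obtain ⟨x₁, rfl⟩ := hd
        refine ih x₁ (fun s hs => ?_) fun h => hr ?_
        · have := hx₀S s hs
          rw [map_mul, map_natCast, Module.End.mul_apply, Module.End.natCast_apply] at this
          funext i
          have h2 := congrFun this i
          rw [Pi.smul_apply, Pi.zero_apply, nsmul_eq_mul] at h2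
          exact (mul_eq_zero.1 h2).resolve_left (Nat.cast_ne_zero.2 (Fact.out : l.Prime).ne_zero)
        · rw [pow_succ']; exact mul_dvd_mul_left _ h
      · exact ⟨x₀, hd, hx₀S⟩
  refine ⟨N, fun k => ?_⟩
  obtain ⟨t, z₁, hx⟩ := exists_tmul_approx p l x (k + 1)
  obtain ⟨n, d, m, u, hm, ht⟩ := exists_words (p := p) hp5 (l := l) t (k + 1)
  set t' := ∑ i, d i • wordOp p (m i) with ht'
  obtain ⟨z₂, hx'⟩ : ∃ z₂ : TT, x = (1 : ℤ_[l]) ⊗ₜ[ℤ] t' + (l : TT) ^ (k + 1) * z₂ := by
    refine ⟨(1 : ℤ_[l]) ⊗ₜ[ℤ] u + z₁, ?_⟩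
    rw [hx, ht, tmul_add, mul_add, add_assoc]
    congr 1
    congr 1
    · rw [← map_natCast (Algebra.TensorProduct.includeRight : HH →ₐ[ℤ] TT), ← map_pow]
      show (1 : ℤ_[l]) ⊗ₜ[ℤ] _ = ((1 : ℤ_[l]) ⊗ₜ[ℤ] _) * ((1 : ℤ_[l]) ⊗ₜ[ℤ] u)
      rw [Algebra.TensorProduct.tmul_mul_tmul, one_mul]
    · rw [natCast_pow_mul_eq_smul']
  have hlev : ∀ w', lev p l k (hecke p l t' w') =
      lev p l k (latticeHom l (hecke p l) x w') := fun w' => by
    rw [hx', natCast_pow_mul_eq_smul', map_add, LinearMap.add_apply, latticeHom_one_tmul, map_smul,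
      LinearMap.smul_apply, map_add, pow_succ, mul_smul, lev_smul_pow, add_zero]
  refine ⟨n, d, m, l ^ N • combAct p d m (divTower p l z k) -
    lev p l k (latticeHom l (hecke p l) x w), hm, fun σ => ?_, ?_, ?_⟩
  · have h1 : latticeHom l (hecke p l) x (((l : ℤ_[l]) ^ N) • κ σ - (gal p l σ w - w)) = 0 :=
      hxS _ (hw σ)
    have h2 := congrArg (lev p l k) h1
    rw [map_sub, map_sub, map_smul, map_sub, latticeHom_gal, map_sub, ← Nat.cast_pow,
      Nat.cast_smul_eq_nsmul, map_nsmul, lev_gal, map_zero, ← hlev (κ σ),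
      lev_combAct, hκ, map_sub, ← smul_combAct] at h2
    rw [← sub_eq_zero, ← h2, smul_sub, ← EigenReps.nsmul_galois_smul p (l ^ N) σ, nsmul_sub]
    abel
  · rw [nsmul_sub, nsmul_lev, sub_zero, smul_comm, ← map_nsmul (combAct p d m),
      pow_nsmul_divTower, combAct, AddMonoidHom.finsetSum_apply]
    congr 1
    refine Finset.sum_congr rfl fun i _ => ?_
    rw [← wordAct_apply]
    rfl
  · rintro ⟨u', hu'⟩
    refine hxl ?_
    rw [hx', ht', hu', pow_succ', mul_assoc]
    refine dvd_add ⟨(1 : ℤ_[l]) ⊗ₜ[ℤ] u', ?_⟩ (dvd_mul_right _ _)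
    rw [← map_natCast (Algebra.TensorProduct.includeRight : HH →ₐ[ℤ] TT)]
    show _ = ((1 : ℤ_[l]) ⊗ₜ[ℤ] _) * _
    rw [Algebra.TensorProduct.tmul_mul_tmul, one_mul]

end FLTAgent.Mazur.Tate

namespace FLTAgent.Mazur

open ModularCurve (JZero heckeOperatorBar)

local notation "QA" => AlgebraicClosure ℚ
local notation "GG" => (AlgebraicClosure ℚ ≃ₐ[ℚ] AlgebraicClosure ℚ)

/-- The previous statement at a prime given by `exists_eisenstein_prime`. -/
theorem exists_words_divisible_eisenstein {p l : ℕ} [Fact p.Prime] [NeZero p] [Fact l.Prime]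
    (hp5 : 5 ≤ p) (hlp : l ≠ p) {a j e m : ℕ} (hm : p - 1 = l ^ a * m) (hja : j < a)
    (hjp : l ^ j < p) (hje : l ^ j * e = 24) (he : ¬ l ∣ e) {z : JZero p}
    (hz : ∀ σ : GG, σ • z = z) :
    ∃ N : ℕ, ∀ k : ℕ, ∃ (n : ℕ) (d : Fin n → ℤ) (w : Fin n → List Nat.Primes) (y : JZero p),
      (∀ i, ∀ q ∈ w i, (q : ℕ) ≠ p) ∧ (∀ σ : GG, σ • y = y) ∧
      l ^ k • y = l ^ N • ∑ i, d i • (w i).foldr (fun q x => heckeOperatorBar p q x) z ∧
      ¬ ∃ u : CuspForm.heckeAlgebra p 2 (∅ : Set ℕ),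
        ∑ i, d i • wordOp p (w i) = (l : CuspForm.heckeAlgebra p 2 (∅ : Set ℕ)) * u := by
  obtain ⟨A, hA⟩ := Frobenius.exists_liesOverPrime l Fact.out
  refine Tate.exists_words_divisible p l hp5 hlp hA (c := m • cuspClass p) (a := a) (fun σ => ?_) ?_
    (reductionModL_cuspClass_ne_zero hlp hm hja hjp hje he hA) hz
  · rw [← EigenReps.nsmul_galois_smul]
    refine congrArg _ (smul_mk_sub smul_cuspZero smul_cuspInf _ rfl σ)
  · rw [← mul_nsmul', ← hm, nsmul_cuspClass]

end FLTAgent.Mazur
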