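import Fermat.Agent.Mazur.Instance
import Fermat.Agent.Divisible.Main

/-!
# The endgame of the descent

A rational class which reduces to zero at a prime `r ≠ l` reduces, at every other good prime, to a
class whose `l`-part dies in the Eisenstein part of the reduction at `l`.
-/

set_option autoImplicit false
set_option linter.style.haveILetI false
set_option linter.unusedSectionVars false
set_option synthInstance.maxHeartbeats 400000
set_option maxHeartbeats 1000000

noncomputable section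

open CongruenceSubgroup TensorProduct AlgebraicCurve IsLocalRing
open scoped MatrixGroups

namespace FLTAgent.Mazur.Tate

open ModularCurve (JZero reductionModL ReductionInputsModL modularFunctionFieldFullC JZeroC)

variable (p l : ℕ) [Fact p.Prime] [NeZero p] [Fact l.Prime]

local notation "QA" => AlgebraicClosure ℚ
local notation "GG" => (AlgebraicClosure ℚ ≃ₐ[ℚ] AlgebraicClosure ℚ)
local notation "HH" => CuspForm.heckeAlgebra p 2 (∅ : Set ℕ)
local notation "TT" => ℤ_[l] ⊗[ℤ] (CuspForm.heckeAlgebra p 2 (∅ : Set ℕ))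

theorem lev_zero (v : Lat p l) : lev p l 0 v = 0 := by simpa using nsmul_lev p l 0 v

theorem lev_add_pow (k j : ℕ) (v : Lat p l) :
    lev p l (k + j) ((l : ℤ_[l]) ^ j • v) = lev p l k v := by
  rw [← Nat.cast_pow, Nat.cast_smul_eq_nsmul, map_nsmul, nsmul_pow_lev]

/-- Vectors all of whose classes reduce to zero. -/
def kerAll (A : ValuationSubring QA) : Submodule ℤ_[l] (Lat p l) where
  carrier := {w | ∀ k, reductionModL A p (lev p l k w) = 0}
  add_mem' := fun {a b} ha hb k => by rw [map_add, map_add, ha k, hb k, add_zero]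
  zero_mem' := fun k => by rw [map_zero, map_zero]
  smul_mem' := fun c w hw k => by rw [lev_smul, map_nsmul, hw k, nsmul_zero]

theorem kerAll_sat {A : ValuationSubring QA} {w : Lat p l} :
    ∀ n : ℕ, ((l : ℤ_[l]) ^ n) • w ∈ kerAll p l A → w ∈ kerAll p l A := fun n => by
  induction n with
  | zero => rw [pow_zero, one_smul]; exact id
  | succ n ih =>
    intro h
    refine ih fun k => ?_
    have := h (k + 1)
    rwa [pow_succ', mul_smul, lev_nsmul_succ] at this

omit [Fact p.Prime] [NeZero p] in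
/-- An endomorphism injective modulo a saturated submodule is surjective up to bounded error. -/
theorem exists_pow_smul_sub_mem {M : Type} [AddCommGroup M] [Module ℤ_[l] M]
    [Module.Finite ℤ_[l] M] (P : Submodule ℤ_[l] M) (g : M →ₗ[ℤ_[l]] M)
    (hsat : ∀ (n : ℕ) (x : M), ((l : ℤ_[l]) ^ n) • x ∈ P → x ∈ P)
    (hg : ∀ x, g x ∈ P ↔ x ∈ P) (d : M) :
    ∃ (b : ℕ) (x : M), ((l : ℤ_[l]) ^ b) • d - g x ∈ P := by
  have hpow : ∀ {c : ℤ_[l]}, c ≠ 0 → ∀ x : M, c • x ∈ P →
      ((l : ℤ_[l]) ^ c.valuation) • x ∈ P := fun {c} hc x hx => by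
    rw [PadicInt.unitCoeff_spec hc, mul_smul] at hx
    have h := P.smul_mem ((PadicInt.unitCoeff hc)⁻¹ : ℤ_[l]ˣ).val hx
    rwa [smul_smul, Units.inv_mul, one_smul] at h
  let gb : (M ⧸ P) →ₗ[ℤ_[l]] M ⧸ P := P.mapQ P g fun x hx => (hg x).2 hx
  haveI : Module.IsTorsionFree ℤ_[l] (M ⧸ P) :=
    Module.isTorsionFree_iff_smul_eq_zero.2 fun c x h => by
      obtain ⟨x, rfl⟩ := Submodule.Quotient.mk_surjective P x
      rcases eq_or_ne c 0 with hc | hc
      · exact Or.inl hc
      · rw [← Submodule.Quotient.mk_smul, Submodule.Quotient.mk_eq_zero] at h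
        exact Or.inr ((Submodule.Quotient.mk_eq_zero P).2 (hsat _ x (hpow hc x h)))
  haveI : Module.Free ℤ_[l] (M ⧸ P) := Module.free_of_finite_type_torsion_free'
  have hinj : Function.Injective gb := by
    refine (injective_iff_map_eq_zero gb).2 fun x hx => ?_
    obtain ⟨x, rfl⟩ := Submodule.Quotient.mk_surjective P x
    rw [Submodule.mapQ_apply, Submodule.Quotient.mk_eq_zero] at hx
    exact (Submodule.Quotient.mk_eq_zero P).2 ((hg x).1 hx)
  have h0 : Module.finrank ℤ_[l] ((M ⧸ P) ⧸ LinearMap.range gb) = 0 := by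
    have h1 := Submodule.finrank_quotient_add_finrank (LinearMap.range gb)
    rw [LinearMap.finrank_range_of_inj hinj] at h1
    omega
  obtain ⟨c, hc⟩ := Submodule.annihilator_top_inter_nonZeroDivisors
    (Module.finrank_eq_zero_iff_isTorsion.1 h0)
  have hc0 : c ≠ 0 := nonZeroDivisors.ne_zero hc.2
  have h2 := Submodule.mem_annihilator.1 hc.1
    (Submodule.Quotient.mk (p := LinearMap.range gb) (Submodule.Quotient.mk (p := P) d))
    Submodule.mem_top
  rw [← Submodule.Quotient.mk_smul, Submodule.Quotient.mk_eq_zero] at h2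
  obtain ⟨x, hx⟩ := h2
  obtain ⟨x, rfl⟩ := Submodule.Quotient.mk_surjective P x
  rw [Submodule.mapQ_apply, ← Submodule.Quotient.mk_smul, Submodule.Quotient.eq] at hx
  refine ⟨c.valuation, ((PadicInt.unitCoeff hc0)⁻¹ : ℤ_[l]ˣ).val • x, ?_⟩
  have h3 := P.smul_mem (-((PadicInt.unitCoeff hc0)⁻¹ : ℤ_[l]ˣ).val) hx
  rw [neg_smul, ← smul_neg, neg_sub, smul_sub, smul_smul] at h3
  rw [map_smul]
  conv at h3 => arg 2; arg 1; arg 1; arg 2; rw [PadicInt.unitCoeff_spec hc0]
  rwa [← mul_assoc, Units.inv_mul, one_mul] at h3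

/-- A class in the Galois-fixed `l^a`-torsion is fixed by the Eisenstein idempotent. -/
theorem lev_xd_of_fixed {a : ℕ} {v : Lat p l}
    (hfix : ∀ σ : GG, σ • lev p l a v = lev p l a v) (σ : GG) :
    lev p l a (latticeHom l (hecke p l) (xd p l σ) v) = 0 := by
  have hL := EigenReps.isLift_liftOp p {l, p} l (Finset.mem_insert_self _ _) (mem_pairSet p l)
    (n := EigenReps.shift p {l, p} l + a) (Nat.le_add_left a _) σ
  rw [xd, map_sub, map_sub, map_one, AlgHom.commutes, LinearMap.sub_apply, LinearMap.sub_apply,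
    Module.algebraMap_end_apply, Module.End.one_apply, map_sub, map_sub, tr, lev_trace, trApprox,
    lev_toFull, hL.2, lev_chi_smul p l a σ hL.1,
    show (levT p l a v : JZero p) = lev p l a v from rfl, hfix, hfix]
  abel

theorem exists_lev_eq {a : ℕ} {z : JZero p} (hz : l ^ a • z = 0) :
    ∃ v : Lat p l, lev p l a v = z := by
  set c := EigenLattice.torsCoord (N := p) Kronecker.complexEmb (l ^ a)
    ⟨z, (EigenReps.mem_torsion_iff_nsmul p).2 hz⟩ with hc
  refine ⟨fun i => ((c i).val : ℤ_[l]), ?_⟩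
  have h : levT p l a (fun i => ((c i).val : ℤ_[l])) =
      ⟨z, (EigenReps.mem_torsion_iff_nsmul p).2 hz⟩ := by
    refine (EigenLattice.torsCoord (N := p) Kronecker.complexEmb (l ^ a)).injective
      (funext fun i => ?_)
    rw [torsCoord_levT, redVec_apply, map_natCast, ZMod.natCast_zmod_val, hc]
  exact congrArg Subtype.val h

section Step

variable {r : ℕ} [Fact r.Prime] {A : ValuationSubring QA} (hA : A.LiesOverPrime r) (hrp : r ≠ p)
  {φ : GG} (hφ : A.IsFrobeniusAt φ r) (S : Submodule ℤ_[l] (Lat p l))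
  (hS : ∀ σ, ∀ s ∈ S, gal p l σ s ∈ S)

include hA hrp hφ hS in
/-- A tower fixed modulo the stable submodule reduces into it. -/
theorem exists_frobenius_step (u : ℕ → JZero p) (hu : ∀ k, l • u (k + 1) = u k)
    {d : Lat p l} (hd : d ∈ S) (hud : ∀ k, φ • u k - u k = lev p l k d)
    (h0 : ∃ n, l ^ n • reductionModL A p (u 0) = 0) :
    ∃ b, ∃ s ∈ S, ∀ k, reductionModL A p (u k) = reductionModL A p (lev p l (k + b) s) := by
  have hrp' : ¬ r ∣ p := fun h => hrp ((Nat.prime_dvd_prime_iff_eq Fact.out Fact.out).1 h)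
  have hin : ReductionInputsModL A p :=
    (Kronecker.goodReductionAt p r Fact.out hrp' A hA).1
  let ψ : ResidueField A ≃+* ResidueField A :=
    Kronecker.residueAut A ⟨φ, hφ.mem_decompositionSubgroup⟩
  have hψ : ∀ z, ψ z = z ^ r := fun z => hφ.smul_residue_eq z
  set Ψ := Kronecker.specialAut p ψ
  have hred : ∀ z : JZero p, reductionModL A p (φ • z) = Ψ • reductionModL A p z := fun z =>
    Kronecker.reductionModL_smul_of_frobenius hin hφ ψ hψ z
  let ΨH : JZeroC (ResidueField A) p →+ JZeroC (ResidueField A) p :=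
    DistribSMul.toAddMonoidHom (JZeroC (ResidueField A) p) Ψ
  have hΨ0 : Ψ • (0 : JZeroC (ResidueField A) p) = 0 := map_zero ΨH
  have hΨsub : ∀ a b : JZeroC (ResidueField A) p, Ψ • (a - b) = Ψ • a - Ψ • b := map_sub ΨH
  have hΨn : ∀ (m : ℕ) (a : JZeroC (ResidueField A) p), Ψ • (m • a) = m • (Ψ • a) :=
    map_nsmul ΨH
  have hfin := Divisible.finite_fixed p hrp' A hA ψ hψ 1 one_pos
  have htower : ∀ (v : ℕ → JZeroC (ResidueField A) p), (∀ k, l • v (k + 1) = v k) →
      (∀ k, Ψ • v k = v k) → (∃ n, l ^ n • v 0 = 0) → ∀ k, v k = 0 := by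
    intro v hv hfix ⟨n, hn⟩ k
    have hv' : ∀ k, l ^ k • v k = v 0 := fun k => by
      induction k with
      | zero => rw [pow_zero, one_nsmul]
      | succ k ih => rw [pow_succ', mul_nsmul, hv, ih]
    have hfix' : ∀ k, v k ∈ {x : JZeroC (ResidueField A) p | Ψ ^ 1 • x = x} := fun k => by
      rw [Set.mem_setOf_eq, pow_one]; exact hfix k
    -- shift so that the sequence starts at zero
    have h1 := eq_zero_of_finite_tower l (hfin.image fun x => l ^ n • x)
      (fun j => l ^ n • v j)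
      (fun j => by rw [smul_comm, hv])
      (fun j => by rw [smul_comm, hv' j, hn])
      (fun j => ⟨v j, hfix' j, rfl⟩) (k + n)
    have h2 : ∀ m k, v k = l ^ m • v (k + m) := fun m k => by
      induction m with
      | zero => rw [pow_zero, one_nsmul, add_zero]
      | succ m ih => rw [pow_succ, mul_nsmul', ← Nat.add_assoc, hv]; exact ih
    rw [h2 n k, h1]
  let g : S →ₗ[ℤ_[l]] S := LinearMap.restrict (gal p l φ - 1) fun s hs =>
    sub_mem (hS φ s hs) hs
  have hg : ∀ s : S, (g s : Lat p l) = gal p l φ s - s := fun s => rfl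
  haveI : Module.Finite ℤ_[l] S := Module.Finite.of_fg (IsNoetherian.noetherian S)
  have hgP : ∀ y : S, g y ∈ (kerAll p l A).comap S.subtype ↔
      y ∈ (kerAll p l A).comap S.subtype := fun y => by
    rw [Submodule.mem_comap, Submodule.mem_comap, S.subtype_apply, S.subtype_apply, hg]
    constructor
    · intro h
      refine fun k => htower (fun j => reductionModL A p (lev p l j (y : Lat p l))) (fun j => ?_)
        (fun j => ?_) ⟨0, ?_⟩ k
      · show l • reductionModL A p _ = reductionModL A p _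
        rw [← map_nsmul, nsmul_lev_succ]
      · have := h j
        rw [map_sub, map_sub, lev_gal, hred, sub_eq_zero] at this
        exact this
      · show l ^ 0 • reductionModL A p _ = 0
        rw [lev_zero, map_zero, nsmul_zero]
    · intro h k
      rw [map_sub, map_sub, lev_gal, hred, h k, hΨ0, sub_zero]
  obtain ⟨b, x, hx⟩ := exists_pow_smul_sub_mem l ((kerAll p l A).comap S.subtype) g
    (fun n y hy => kerAll_sat p l n hy) hgP ⟨d, hd⟩
  have hx' : ((l : ℤ_[l]) ^ b) • d - (gal p l φ x - x) ∈ kerAll p l A := hx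
  refine ⟨b, x, x.2, fun k => ?_⟩
  have hv : ∀ j, l ^ b • reductionModL A p (u j) - reductionModL A p (lev p l j x) = 0 := by
    refine htower _ (fun j => ?_) (fun j => ?_) ?_
    · rw [nsmul_sub, smul_comm, ← map_nsmul _ l (u _), hu,
        ← map_nsmul _ l (lev p l (j + 1) _), nsmul_lev_succ]
    · have h1 := hx' j
      rw [← Nat.cast_pow, Nat.cast_smul_eq_nsmul, map_sub, map_nsmul, ← hud, map_sub, map_sub,
        map_nsmul, lev_gal, map_sub, map_sub, hred, hred, nsmul_sub] at h1
      rw [hΨsub, hΨn, ← sub_eq_zero, ← h1]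
      abel
    · obtain ⟨n, hn⟩ := h0
      refine ⟨n, ?_⟩
      rw [lev_zero, map_zero, sub_zero, smul_comm, hn, nsmul_zero]
  have hub : ∀ j, l ^ j • u (k + j) = u k := fun j => by
    induction j with
    | zero => rw [pow_zero, one_nsmul, add_zero]
    | succ j ih => rw [pow_succ', mul_nsmul, ← Nat.add_assoc, hu, ih]
  rw [← hub b, map_nsmul, sub_eq_zero.1 (hv (k + b))]

end Step

/-- A tower of `l`-divisions. -/
def divTower (y : JZero p) : ℕ → JZero p
  | 0 => y
  | k + 1 => (Divisible.exists_nsmul_eq p (Fact.out : l.Prime).ne_zero (divTower y k)).choose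

theorem nsmul_divTower (y : JZero p) (k : ℕ) :
    l • divTower p l y (k + 1) = divTower p l y k :=
  (Divisible.exists_nsmul_eq p (Fact.out : l.Prime).ne_zero (divTower p l y k)).choose_spec

theorem pow_nsmul_divTower (y : JZero p) (k : ℕ) : l ^ k • divTower p l y k = y := by
  induction k with
  | zero => rw [pow_zero, one_nsmul]; rfl
  | succ k ih => rw [pow_succ', mul_nsmul, nsmul_divTower, ih]

theorem exists_kummer {y : JZero p} (hy : ∀ σ : GG, σ • y = y) : ∃ κ : GG → Lat p l,
    ∀ σ k, lev p l k (κ σ) = σ • divTower p l y k - divTower p l y k := by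
  choose κ hκ using fun σ : GG => exists_of_compatible p l
    (fun k => σ • divTower p l y k - divTower p l y k) (sub_eq_zero.2 (hy σ)) fun k => by
      rw [nsmul_sub, smul_comm, nsmul_divTower]
  exact ⟨κ, hκ⟩

/-- No rational class reduces to zero at `r ≠ l` and to a class of `l`-power order which survives
the reduction at `l`. -/
theorem false_of_descent (hlp : l ≠ p) {Ap : ValuationSubring QA} (hAp : Ap.LiesOverPrime p)
    (hbad : ∀ σ ∈ Ap.inertiaSubgroupIn ℚ, ∀ (k : ℕ) (x : JZero p), l ^ k • x = 0 →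
      σ • (σ • x - x) = σ • x - x)
    {y c : JZero p} (hy : ∀ σ : GG, σ • y = y) (hc : ∀ σ : GG, σ • c = c) {a : ℕ}
    (hca : l ^ a • c = 0)
    {r : ℕ} (hr : r.Prime) (hrl : r ≠ l) (hrp : r ≠ p) {Ar : ValuationSubring QA}
    (hAr : Ar.LiesOverPrime r) (hyr : reductionModL Ar p y = 0)
    {ℓ : ℕ} (hℓ : ℓ.Prime) (hℓp : ℓ ≠ p) {A : ValuationSubring QA} (hA : A.LiesOverPrime ℓ)
    (hyℓ : reductionModL A p y = reductionModL A p c)
    (hcl : ∀ Al : ValuationSubring QA, Al.LiesOverPrime l → reductionModL Al p c ≠ 0) : False := by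
  haveI : Fact r.Prime := ⟨hr⟩
  haveI : Fact ℓ.Prime := ⟨hℓ⟩
  obtain ⟨Al, hAl, hAl'⟩ : ∃ Al : ValuationSubring QA, Al.LiesOverPrime l ∧ (ℓ = l → Al = A) := by
    by_cases h : ℓ = l
    · exact ⟨A, h ▸ hA, fun _ => rfl⟩
    · obtain ⟨Al, hAl⟩ := Frobenius.exists_liesOverPrime l Fact.out
      exact ⟨Al, hAl, fun e => absurd e h⟩
  obtain ⟨φl, hφl⟩ := Frobenius.exists_isFrobeniusAt Al l Fact.out hAl
  obtain ⟨φp, hφp⟩ := Frobenius.exists_isFrobeniusAt Ap p Fact.out hAp
  obtain ⟨φr, hφr⟩ := Frobenius.exists_isFrobeniusAt Ar r hr hAr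
  obtain ⟨φA, hφA⟩ := Frobenius.exists_isFrobeniusAt A ℓ hℓ hA
  obtain ⟨κ, hκ⟩ := exists_kummer p l hy
  have hpn : ∀ {q : ℕ}, q.Prime → q ≠ p → ¬ q ∣ p := fun hq hqp h =>
    hqp ((Nat.prime_dvd_prime_iff_eq hq Fact.out).1 h)
  have hln : ∀ {q : ℕ}, q.Prime → q ≠ l → ∀ k, ¬ q ∣ l ^ k := fun hq hql k h =>
    hql ((Nat.prime_dvd_prime_iff_eq hq Fact.out).1 (hq.dvd_of_dvd_pow h))
  let D := tateLattice p l hAl hlp hφl hAp hφp hbad
  obtain ⟨S, N, w, hS, hSK, hw⟩ := D.exists_coboundary Fact.out hlp.symm κ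
    (fun σ τ => sub_eq_zero.1 <| eq_zero_of_lev p l fun k => by
      show lev p l k (κ (σ * τ) - (κ σ + gal p l σ (κ τ))) = 0
      rw [map_sub, map_add, lev_gal, hκ, hκ, hκ, mul_smul, smul_sub]
      abel)
    (fun n => by
      obtain ⟨L, hL, hfix⟩ := EigenReps.exists_fixing_class p (divTower p l y n)
      refine ⟨L.fixingSubgroup, L.fixingSubgroup_isOpen, fun σ hσ => ?_⟩
      refine eq_smul_of_lev_eq_zero p l ?_
      rw [hκ, hfix σ ((IntermediateField.mem_fixingSubgroup_iff L σ).1 hσ), sub_self])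
    (fun q hq hqp hql σ hσ => eq_zero_of_lev p l fun k => by
      refine (Kronecker.goodReductionAt p q hq (hpn hq hqp) _ (someplace_lies hq)).2 (l ^ k)
        (hln hq hql k) _ (nsmul_lev p l k _) ?_
      rw [hκ, map_sub, sub_eq_zero]
      exact Kronecker.reductionModL_smul_of_mem_inertia σ hσ _)
    (fun σ hσ k => eps_mem p l hAl hlp k _ (by
      rw [hκ, map_sub, sub_eq_zero]
      exact Kronecker.reductionModL_smul_of_mem_inertia σ hσ _))
  let u : ℕ → JZero p := fun k => l ^ N • divTower p l y k - lev p l k w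
  have hu : ∀ k, l • u (k + 1) = u k := fun k => by
    show l • (l ^ N • divTower p l y (k + 1) - lev p l (k + 1) w) = _
    rw [nsmul_sub, smul_comm, nsmul_divTower, nsmul_lev_succ]
  have hud : ∀ (σ : GG) (k : ℕ), σ • u k - u k =
      lev p l k (((l : ℤ_[l]) ^ N) • κ σ - (gal p l σ w - w)) := fun σ k => by
    rw [map_sub, map_sub, lev_gal, ← Nat.cast_pow, Nat.cast_smul_eq_nsmul, map_nsmul, hκ]
    show σ • (l ^ N • divTower p l y k - lev p l k w) - (l ^ N • divTower p l y k - lev p l k w) = _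
    rw [smul_sub, nsmul_sub, ← EigenReps.nsmul_galois_smul p (l ^ N) σ (divTower p l y k)]
    abel
  have hu0 : u 0 = l ^ N • y := by
    show l ^ N • divTower p l y 0 - lev p l 0 w = _
    rw [lev_zero, sub_zero]
    rfl
  have huN : u N = y - lev p l N w := by
    show l ^ N • divTower p l y N - lev p l N w = _
    rw [pow_nsmul_divTower]
  obtain ⟨b₁, s₁, hs₁, e₁⟩ := exists_frobenius_step p l hAr hrp hφr S hS u hu (hw φr)
    (hud φr) ⟨0, by rw [hu0, map_nsmul, hyr, nsmul_zero, nsmul_zero]⟩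
  obtain ⟨b₂, s₂, hs₂, e₂⟩ := exists_frobenius_step p l hA hℓp hφA S hS u hu (hw φA)
    (hud φA) ⟨a, by rw [hu0, map_nsmul, hyℓ, smul_comm, ← map_nsmul _ (l ^ a), hca, map_zero,
      nsmul_zero]⟩
  have h1 : lev p l N w + lev p l (N + b₁) s₁ = 0 := by
    refine (Kronecker.goodReductionAt p r hr (hpn hr hrp) Ar hAr).2 (l ^ (N + b₁))
      (hln hr hrl _) _ ?_ ?_
    · rw [nsmul_add, nsmul_lev, pow_add, mul_nsmul, nsmul_lev, nsmul_zero, add_zero]
    · rw [map_add, ← e₁ N, huN, map_sub, hyr]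
      abel
  set K' := N + b₁ + b₂
  set s : Lat p l := ((l : ℤ_[l]) ^ b₁) • s₂ - ((l : ℤ_[l]) ^ b₂) • s₁ with hs
  have hlev : lev p l K' s = lev p l (N + b₂) s₂ - lev p l (N + b₁) s₁ := by
    rw [hs, map_sub, lev_add_pow, show K' = N + b₂ + b₁ by omega, lev_add_pow]
  have h2 : reductionModL A p c = reductionModL A p (lev p l K' s) := by
    have := e₂ N
    rw [huN, map_sub, hyℓ, eq_neg_of_add_eq_zero_left h1, map_neg, sub_neg_eq_add] at this
    rw [hlev, map_sub, ← this]
    abel
  have h3 : reductionModL Al p c = reductionModL Al p (lev p l K' s) := by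
    by_cases h : ℓ = l
    · rw [hAl' h]; exact h2
    · have e : c - lev p l K' s = 0 := by
        refine (Kronecker.goodReductionAt p ℓ hℓ (hpn hℓ hℓp) A hA).2 (l ^ (a + K'))
          (hln hℓ h _) _ ?_ ?_
        · rw [nsmul_sub, pow_add, mul_nsmul, hca, nsmul_zero, mul_nsmul', nsmul_lev, nsmul_zero,
            sub_zero]
        · rw [map_sub, h2, sub_self]
      rw [sub_eq_zero.1 e]
  obtain ⟨v, hv⟩ := exists_lev_eq p l hca
  have hfix : lev p l a (latticeHom l (hecke p l) (eps p l hAl hlp) v) = c :=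
    (lev_eps_of_xd p l hAl hlp fun σ => lev_xd_of_fixed p l (fun τ => by rw [hv, hc τ]) σ).trans hv
  have hz : reductionModL Al p
      (lev p l (K' + a) (((l : ℤ_[l]) ^ K') • v - ((l : ℤ_[l]) ^ a) • s)) = 0 := by
    rw [map_sub, lev_add_pow, show K' + a = a + K' from Nat.add_comm _ _, lev_add_pow, hv, map_sub,
      h3, sub_self]
  have hz' := eps_mem p l hAl hlp (K' + a) _ hz
  rw [map_sub, map_smul, map_smul, map_sub, map_sub, lev_add_pow,
    show K' + a = a + K' from Nat.add_comm _ _, lev_add_pow, hfix,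
    hSK (Submodule.sub_mem _ (S.smul_mem _ hs₂) (S.smul_mem _ hs₁) : s ∈ S) K', sub_zero] at hz'
  exact hcl Al hAl hz'

end FLTAgent.Mazur.Tate
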