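import Fermat.Agent.Mazur.Residual

/-!
# The linear form cutting out the reachable residual classes
-/

set_option autoImplicit false
set_option linter.overlappingInstances false
set_option linter.unusedSectionVars false

noncomputable section

namespace FLTAgent.Mazur

open scoped Pointwise

local notation "QQb" => AlgebraicClosure ℚ
local notation "GG" => (AlgebraicClosure ℚ ≃ₐ[ℚ] AlgebraicClosure ℚ)

variable {l p : ℕ} [Fact l.Prime] {O : Type} [CommRing O] [IsDomain O] [IsDiscreteValuationRing O]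
  [Algebra ℤ_[l] O] [Module.Finite ℤ_[l] O] [Module.Free ℤ_[l] O] {ϖ : O} {R : Rep O ϖ}

theorem isUnit_of_not_dvd (hϖ : Irreducible ϖ) {x : O} (hx : ¬ ϖ ∣ x) : IsUnit x := by
  rw [← IsLocalRing.notMem_maximalIdeal, hϖ.maximalIdeal_eq, Ideal.mem_span_singleton]
  exact hx

/-- If inertia at `p` acted trivially the representation would have no ramified quotient. -/
theorem exists_inertia_ne_one (hϖ : Irreducible ϖ) (hp : p.Prime) (S : Setup l p R)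
    (ha : ∀ σ, ϖ ∣ R.a σ - 1) (hd : ∀ σ, ϖ ∣ R.d σ - 1) (hc : ∀ σ, ϖ ∣ R.c σ) :
    ∃ s ∈ S.Ap.inertiaSubgroupIn ℚ, ¬ (R.a s = 1 ∧ R.b s = 0 ∧ R.c s = 0 ∧ R.d s = 1) := by
  by_contra hno
  push Not at hno
  have key : ∀ n : ℕ, ∀ σ, ϖ ^ (n + 1) ∣ R.c σ ∧ ϖ ^ (n + 1) ∣ R.d σ - 1 := by
    intro n
    induction n with
    | zero => exact fun σ ↦ by rw [zero_add, pow_one]; exact ⟨hc σ, hd σ⟩
    | succ n ih =>
      have hV : ∃ V : Subgroup GG, IsOpen (V : Set GG) ∧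
          ∀ σ ∈ V, ϖ ^ (n + 1 + 1) ∣ R.c σ ∧ ϖ ^ (n + 1 + 1) ∣ R.d σ - 1 := by
        obtain ⟨V, hV, h⟩ := R.cont (n + 1 + 1)
        exact ⟨V, hV, fun σ hσ ↦ ⟨(h σ hσ).2.2.1, (h σ hσ).2.2.2⟩⟩
      obtain ⟨V, hV, hVd⟩ := hV
      have hcn : ∀ σ, ϖ ^ (n + 1 + 1) ∣ R.c σ := by
        refine dvd_of_additive S hp _ R.c (fun σ τ ↦ ?_) ⟨V, hV, fun σ hσ ↦ (hVd σ hσ).1⟩
          (fun q h1 h2 h3 σ hσ ↦ by rw [(S.unram q h1 h2 h3 σ hσ).2.2.1]; exact dvd_zero _)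
          (fun σ hσ ↦ ?_)
          (fun σ hσ ↦ by
            rw [S.decomp_c σ (Places.inertia_le_decomposition _ hσ)]; exact dvd_zero _)
        · rw [R.c_mul, show R.c σ * R.a τ + R.d σ * R.c τ - (R.c σ + R.c τ) =
            R.c σ * (R.a τ - 1) + R.c τ * (R.d σ - 1) by ring, pow_succ]
          exact (mul_dvd_mul (ih σ).1 (ha τ)).add (mul_dvd_mul (ih τ).1 (hd σ))
        · obtain ⟨h1, h2, h3, h4⟩ := hno σ hσ |> fun h ↦ (show R.a σ = 1 ∧ R.b σ = 0 ∧ R.c σ = 0 ∧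
            R.d σ = 1 from h)
          rw [h3]; exact dvd_zero _
      refine fun σ ↦ ⟨hcn σ, ?_⟩
      revert σ
      refine dvd_of_additive S hp _ (fun σ ↦ R.d σ - 1) (fun σ τ ↦ ?_)
        ⟨V, hV, fun σ hσ ↦ (hVd σ hσ).2⟩
        (fun q h1 h2 h3 σ hσ ↦ by
          simp only [(S.unram q h1 h2 h3 σ hσ).2.2.2, sub_self]; exact dvd_zero _)
        (fun σ hσ ↦ ?_) (fun σ hσ ↦ by simp only [S.inertia_d σ hσ, sub_self]; exact dvd_zero _)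
      · simp only [R.d_mul]
        rw [show R.c σ * R.b τ + R.d σ * R.d τ - 1 - (R.d σ - 1 + (R.d τ - 1)) =
          R.c σ * R.b τ + (R.d σ - 1) * (R.d τ - 1) by ring]
        refine ((hcn σ).mul_right _).add ?_
        rw [pow_succ]
        exact mul_dvd_mul (ih σ).2 (hd τ)
      · simp only [(hno σ hσ).2.2.2, sub_self]; exact dvd_zero _
  have h1 : R.d S.φl - 1 = 0 :=
    eq_zero_of_forall_dvd hϖ fun n ↦ (pow_dvd_pow ϖ n.le_succ).trans (key n _).2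
  exact S.φl_sq (by rw [sub_eq_zero.mp h1, one_pow])

theorem InSpan.dvd_of_dvd (hϖ : Irreducible ϖ) {ζ π μ : QQb} {σ1 σ2 : GG}
    (hP : kum (l ^ 1) ζ π σ1 ≠ 0) (he1 : expChar (l ^ 1) ζ σ1 = 1)
    (hM1 : kum (l ^ 1) ζ μ σ1 = 0)
    (h2 : ((∀ σ, expChar (l ^ 1) ζ σ = 1) ∧ kum (l ^ 1) ζ μ σ2 ≠ 0) ∨
      ((∀ σ, kum (l ^ 1) ζ μ σ = 0) ∧ expChar (l ^ 1) ζ σ2 ≠ 1))
    {c : GG → O} (hc : InSpan (l := l) ζ π μ ϖ c) (d1 : ϖ ∣ c σ1) (d2 : ϖ ∣ c σ2) (σ : GG) :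
    ϖ ∣ c σ := by
  haveI : Fact (l ^ 1).Prime := ⟨by rw [pow_one]; exact Fact.out⟩
  refine dvd_of_forall_residual (l := l) hϖ fun g hg ↦ ?_
  obtain ⟨i, s, d, e⟩ := hc g hg
  have e1 := e σ1
  rw [hg.eq_zero d1, he1, hM1, sub_self, zero_mul, mul_zero, add_zero, add_zero] at e1
  have hi : i = 0 := (mul_eq_zero.mp e1.symm).resolve_right hP
  have e2 := e σ2
  rw [hg.eq_zero d2, hi, zero_mul, zero_add] at e2
  rw [e σ, hi, zero_mul, zero_add]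
  rcases h2 with ⟨he, hM⟩ | ⟨hM, he⟩
  · rw [he, sub_self, zero_mul, add_zero] at e2 ⊢
    rw [(mul_eq_zero.mp e2.symm).resolve_right hM, zero_mul]
  · rw [hM, mul_zero, zero_add] at e2 ⊢
    rw [(mul_eq_zero.mp e2.symm).resolve_left (sub_ne_zero.mpr he), mul_zero]

/-- **The residual step.** -/
theorem exists_form (hϖ : Irreducible ϖ) (hp : p.Prime) (hpl : p ≠ l) (S : Setup l p R)
    (htr : ∀ σ, ϖ ∣ R.a σ + R.d σ - 1 - R.det σ) (hc : ∀ σ, ϖ ∣ R.c σ)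
    (hns : ¬ ∃ x, ∀ σ, ϖ ∣ R.b σ + (R.a σ - R.d σ) * x) :
    ∃ L : Cocycle R → O, (∀ κ ε y, L (κ.subMul ε y) = L κ - y * L ε) ∧
      (∀ κ, Valid l p S κ → ϖ ∣ L κ → Reach R κ) ∧
      ((∀ κ, L κ = 0) ∨
        ((∀ σ, ϖ ∣ R.det σ - 1) ∧ ∃ σ ∈ S.Al.inertiaSubgroupIn ℚ, R.det σ ≠ 1)) := by
  have hl : l.Prime := Fact.out
  haveI : Fact (l ^ 1).Prime := ⟨by rw [pow_one]; exact hl⟩
  haveI : Fact (1 < l ^ 1) := ⟨by rw [pow_one]; exact hl.one_lt⟩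
  haveI : NeZero ((l : ℕ) : QQb) := ⟨Nat.cast_ne_zero.mpr hl.ne_zero⟩
  have hprime : Prime ϖ := hϖ.prime
  have hlϖ : ϖ ∣ (l : O) := irreducible_dvd_natCast hϖ
  obtain ⟨ζ, hζ⟩ := HasEnoughRootsOfUnity.exists_primitiveRoot QQb (l ^ 1)
  obtain ⟨π, hπ⟩ := IsAlgClosed.exists_pow_nat_eq (p : QQb) (pow_pos hl.pos 1)
  obtain ⟨hd, ha⟩ := residual_diagonal hϖ hp hpl S htr hc hζ
  have hpm : ¬ p ∣ l ^ 1 := fun h ↦ hpl ((Nat.prime_dvd_prime_iff_eq hp hl).mp (hp.dvd_of_dvd_pow h))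
  obtain ⟨σ1, hσ1, hP⟩ := exists_kum_ne_zero hp S.liesp Fact.out hζ hπ
  have he1 : expChar (l ^ 1) ζ σ1 = 1 := zpowZMod_injective hζ (by
    rw [← isExp_expChar hζ, ZMod.val_one, pow_one]
    exact map_eq_self_of_unit_pow S.Ap hp S.liesp hpm
      (valuation_root_of_unity S.Ap (NeZero.ne (l ^ 1)) hζ.pow_eq_one) hσ1
      (by rw [hζ.pow_eq_one, map_one]))
  have hχ1 : R.det σ1 = 1 := S.det_eq_one hσ1
  have ha1 : ϖ ∣ R.a σ1 - 1 := by have := ha σ1; rwa [hχ1] at this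
  have hbV : ∃ V : Subgroup GG, IsOpen (V : Set GG) ∧ ∀ σ ∈ V, ϖ ∣ R.b σ := by
    obtain ⟨V, hV, h⟩ := R.cont 1
    exact ⟨V, hV, fun σ hσ ↦ by simpa using (h σ hσ).2.1⟩
  -- residual quotient coordinate vanishes as soon as it does on inertia at `p`
  have hv0 : ∀ κ, Valid l p S κ → (∀ σ ∈ S.Ap.inertiaSubgroupIn ℚ, ϖ ∣ κ.v σ) →
      ∀ σ, ϖ ∣ κ.v σ := by
    intro κ hκ hI
    refine dvd_of_additive S hp ϖ κ.v (fun σ τ ↦ ?_) ?_
      (fun q h1 h2 h3 σ hσ ↦ by rw [(hκ.unram q h1 h2 h3 σ hσ).2]; exact dvd_zero _) hI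
      (fun σ hσ ↦ by rw [hκ.inertia_l σ hσ]; exact dvd_zero _)
    · rw [κ.v_mul, show κ.v σ + (R.c σ * κ.u τ + R.d σ * κ.v τ) - (κ.v σ + κ.v τ) =
        R.c σ * κ.u τ + (R.d σ - 1) * κ.v τ by ring]
      exact ((hc σ).mul_right _).add ((hd σ).mul_right _)
    · obtain ⟨V, hV, h⟩ := κ.cont 1
      exact ⟨V, hV, fun σ hσ ↦ by simpa using (h σ hσ).2⟩
  have hbS : ∀ μ : QQb, μ ^ l ^ 1 = -1 → InSpan (l := l) ζ π μ ϖ R.b := fun μ hμ ↦
    inSpan_of_cocycle hϖ hp S hζ hπ hμ (fun σ τ ↦ by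
      rw [R.b_mul, show R.a σ * R.b τ + R.b σ * R.d τ - (R.b σ + R.det σ * R.b τ) =
        (R.a σ - R.det σ) * R.b τ + R.b σ * (R.d τ - 1) by ring]
      exact ((ha σ).mul_right _).add ((hd τ).mul_left _))
      hbV (fun q h1 h2 h3 σ hσ ↦ by rw [(S.unram q h1 h2 h3 σ hσ).2.1]; exact dvd_zero _)
      (valZero_b S hϖ)
  have huS : ∀ μ : QQb, μ ^ l ^ 1 = -1 → ∀ κ, Valid l p S κ → (∀ σ, ϖ ∣ κ.v σ) →
      InSpan (l := l) ζ π μ ϖ κ.u := fun μ hμ κ hκ hv ↦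
    inSpan_of_cocycle hϖ hp S hζ hπ hμ (fun σ τ ↦ by
      rw [κ.u_mul, show κ.u σ + (R.a σ * κ.u τ + R.b σ * κ.v τ) - (κ.u σ + R.det σ * κ.u τ) =
        (R.a σ - R.det σ) * κ.u τ + R.b σ * κ.v τ by ring]
      exact ((ha σ).mul_right _).add ((hv τ).mul_left _))
      (by
        obtain ⟨V, hV, h⟩ := κ.cont 1
        exact ⟨V, hV, fun σ hσ ↦ by simpa using (h σ hσ).1⟩)
      (fun q h1 h2 h3 σ hσ ↦ by rw [(hκ.unram q h1 h2 h3 σ hσ).1]; exact dvd_zero _)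
      (valZero_u S hϖ κ hκ.inertia_l)
  obtain ⟨B⟩ := S.exists_pbasis
  -- when `b` is a unit at `σ1` the common line is residually the first one
  have hv1 : ¬ ϖ ∣ R.b σ1 → ∀ κ, Valid l p S κ → ∀ σ, ϖ ∣ κ.v σ := by
    intro hb1 κ hκ
    refine hv0 κ hκ fun σ hσ ↦ ?_
    have hline := B.v_eq_zero hϖ hp hpl hσ1 (fun h ↦ hb1 (by rw [h.2.1]; exact dvd_zero _)) κ hσ
    have hx2 : ϖ ∣ B.x2 := (hprime.dvd_or_dvd (show ϖ ∣ R.b σ1 * B.x2 by
      rw [show R.b σ1 * B.x2 = -((R.a σ1 - 1) * B.x1) by linear_combination (B.kill σ1 hσ1).1]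
      exact (ha1.mul_right _).neg_right)).resolve_left hb1
    refine (hprime.dvd_or_dvd (show ϖ ∣ B.x1 * κ.v σ by
      rw [show B.x1 * κ.v σ = B.x2 * κ.u σ by linear_combination hline]
      exact hx2.mul_right _)).resolve_left fun hx1 ↦ ?_
    exact hϖ.not_isUnit (isUnit_of_dvd_one (B.det_one ▸ (hx1.mul_right _).sub (hx2.mul_right _)))
  by_cases hl2 : l = 2
  · -- the prime two
    obtain ⟨μ, hμ⟩ := IsAlgClosed.exists_pow_nat_eq (-1 : QQb) (pow_pos hl.pos 1)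
    have hm : l ^ 1 = 2 := by rw [pow_one, hl2]
    obtain ⟨σ2, hσ2, hM⟩ := exists_kum_ne_zero_two (A := S.Al) (hl2 ▸ S.liesl) hm hζ hμ
    have hμ4 : μ ^ 4 = 1 := by
      calc μ ^ 4 = (μ ^ (l ^ 1)) ^ 2 := by rw [← pow_mul, hm]
        _ = 1 := by rw [hμ]; ring
    have heall : ∀ σ, expChar (l ^ 1) ζ σ = 1 := fun σ ↦ by
      have hne : expChar (l ^ 1) ζ σ ≠ 0 := fun h0 ↦ by
        have := isExp_expChar hζ σ
        rw [h0, ZMod.val_zero, pow_zero, map_eq_one_iff σ σ.injective] at this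
        exact hζ.ne_one Fact.out this
      have hv := ZMod.val_lt (expChar (l ^ 1) ζ σ)
      have h0 : (expChar (l ^ 1) ζ σ).val ≠ 0 := fun e ↦ hne ((ZMod.val_eq_zero _).mp e)
      refine ZMod.val_injective _ ?_
      rw [ZMod.val_one]
      omega
    have hM1 : kum (l ^ 1) ζ μ σ1 = 0 := zpowZMod_injective hζ (by
      have hμ0 : μ ≠ 0 := fun e ↦ by rw [e, zero_pow (by norm_num : 4 ≠ 0)] at hμ4; exact zero_ne_one hμ4
      refine mul_right_cancel₀ hμ0 ?_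
      rw [← kum_spec_rat hζ (r := (-1 : ℚ)) (by norm_num) (by rw [hμ]; push_cast; rfl) σ1,
        ZMod.val_zero, pow_zero, one_mul]
      exact map_eq_self_of_unit_pow S.Ap hp S.liesp hpm
        (valuation_root_of_unity S.Ap (m := 4) (by norm_num) hμ4) hσ1
        (by rw [hμ, map_neg, map_one]))
    have hχall : ∀ σ, ϖ ∣ R.det σ - 1 := fun σ ↦ by
      have h := S.cyclo.dvd_expChar hζ σ
      rw [heall σ, ZMod.val_one, Nat.cast_one, pow_one] at h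
      exact hlϖ.trans h
    have hall : ∀ σ, ϖ ∣ R.a σ - 1 := fun σ ↦ by
      have := (ha σ).add (hχall σ)
      rwa [sub_add_sub_cancel] at this
    have hdet2 : ∃ σ ∈ S.Al.inertiaSubgroupIn ℚ, R.det σ ≠ 1 := ⟨σ2, hσ2, fun h1 ↦ by
      have hprim : IsPrimitiveRoot μ (2 ^ (1 + 1)) :=
        IsPrimitiveRoot.iff_orderOf.mpr (orderOf_eq_prime_pow (p := 2) (fun e ↦ by
          rw [pow_one, ← hm, hμ] at e; norm_num at e) (by norm_num; exact hμ4))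
      subst hl2
      have h := S.cyclo.dvd_expChar hprim σ2
      rw [h1] at h
      have h' : ((2 : ℕ) : ℤ) ^ (1 + 1) ∣ 1 - ((expChar (2 ^ (1 + 1)) μ σ2).val : ℤ) :=
        intCast_dvd_of_dvd (O := O) (by push_cast at h ⊢; exact h)
      have hlt := ZMod.val_lt (expChar (2 ^ (1 + 1)) μ σ2)
      have hv : (expChar (2 ^ (1 + 1)) μ σ2).val = 1 := by
        generalize (expChar (2 ^ (1 + 1)) μ σ2).val = v at h' hlt ⊢
        norm_num at h' hlt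
        omega
      have hfix : σ2 μ = μ := by rw [isExp_expChar hprim σ2, hv, pow_one]
      refine hM (zpowZMod_injective hζ (mul_right_cancel₀ (hprim.ne_zero (by norm_num)) ?_))
      rw [← kum_spec_rat hζ (r := (-1 : ℚ)) (by norm_num) (by rw [hμ]; push_cast; rfl) σ2, hfix,
        ZMod.val_zero, pow_zero, one_mul]⟩
    by_cases hb1 : ϖ ∣ R.b σ1
    · -- `b` is unramified at `p`
      have hb2 : ¬ ϖ ∣ R.b σ2 := fun h ↦ hns ⟨0, fun σ ↦ by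
        rw [mul_zero, add_zero]
        exact (hbS μ hμ).dvd_of_dvd hϖ hP he1 hM1 (Or.inl ⟨heall, hM⟩) hb1 h σ⟩
      obtain ⟨bi, hbi⟩ := (isUnit_of_not_dvd hϖ hb2).exists_right_inv
      obtain ⟨s, hs, hne⟩ := exists_inertia_ne_one hϖ hp S hall hd hc
      refine ⟨fun κ ↦ B.y2 * κ.u σ1 - B.y1 * κ.v σ1,
        fun κ ε y ↦ by simp only [Cocycle.subMul]; ring, fun κ hκ hL ↦ ?_, Or.inr ⟨hχall, hdet2⟩⟩
      have hline := fun σ hσ ↦ B.v_eq_zero hϖ hp hpl hs hne κ (σ := σ) hσ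
      have hIp : ∀ σ ∈ S.Ap.inertiaSubgroupIn ℚ, ϖ ∣ κ.u σ ∧ ϖ ∣ κ.v σ := fun σ hσ ↦ by
        have hw : ϖ ∣ B.y2 * κ.u σ - B.y1 * κ.v σ := dvd_of_forall_residual hϖ fun g hg ↦ by
          obtain ⟨i, hi⟩ := B.exists_eq_mul hϖ hp hpl κ hline hζ hπ g
          have e := hi σ1 hσ1
          rw [hg.eq_zero hL] at e
          rw [hi σ hσ, (mul_eq_zero.mp e.symm).resolve_right hP, zero_mul]
        have hl' := hline σ hσ
        refine ⟨?_, ?_⟩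
        · rw [show κ.u σ = B.x1 * (B.y2 * κ.u σ - B.y1 * κ.v σ) by
            linear_combination B.y1 * hl' - κ.u σ * B.det_one]
          exact hw.mul_left _
        · rw [show κ.v σ = B.x2 * (B.y2 * κ.u σ - B.y1 * κ.v σ) by
            linear_combination B.y2 * hl' - κ.v σ * B.det_one]
          exact hw.mul_left _
      have hv := hv0 κ hκ fun σ hσ ↦ (hIp σ hσ).2
      refine ⟨0, κ.u σ2 * bi, fun σ ↦ ⟨?_, ?_⟩⟩
      · rw [mul_zero, zero_add, mul_comm (R.b σ)]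
        refine ((huS μ hμ κ hκ hv).sub_mul (hbS μ hμ) _).dvd_of_dvd hϖ hP he1 hM1
          (Or.inl ⟨heall, hM⟩) ((hIp σ1 hσ1).1.sub (hb1.mul_left _)) ?_ σ
        rw [show κ.u σ2 - κ.u σ2 * bi * R.b σ2 = 0 by linear_combination -κ.u σ2 * hbi]
        exact dvd_zero _
      · exact (hv σ).sub (((hc σ).mul_right _).add ((hd σ).mul_right _))
    · obtain ⟨bi, hbi⟩ := (isUnit_of_not_dvd hϖ hb1).exists_right_inv
      refine ⟨fun κ ↦ R.b σ1 * κ.u σ2 - R.b σ2 * κ.u σ1,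
        fun κ ε y ↦ by simp only [Cocycle.subMul]; ring, fun κ hκ hL ↦ ?_, Or.inr ⟨hχall, hdet2⟩⟩
      have hv := hv1 hb1 κ hκ
      refine ⟨0, κ.u σ1 * bi, fun σ ↦ ⟨?_, ?_⟩⟩
      · rw [mul_zero, zero_add, mul_comm (R.b σ)]
        refine ((huS μ hμ κ hκ hv).sub_mul (hbS μ hμ) _).dvd_of_dvd hϖ hP he1 hM1
          (Or.inl ⟨heall, hM⟩) ?_ ?_ σ
        · rw [show κ.u σ1 - κ.u σ1 * bi * R.b σ1 = 0 by linear_combination -κ.u σ1 * hbi]
          exact dvd_zero _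
        · rw [show κ.u σ2 - κ.u σ1 * bi * R.b σ2 =
            bi * (R.b σ1 * κ.u σ2 - R.b σ2 * κ.u σ1) by linear_combination -κ.u σ2 * hbi]
          exact hL.mul_left _
      · exact (hv σ).sub (((hc σ).mul_right _).add ((hd σ).mul_right _))
  · -- odd primes
    have hμ : (-1 : QQb) ^ l ^ 1 = -1 := by rw [pow_one]; exact (hl.odd_of_ne_two hl2).neg_one_pow
    have hM : ∀ σ, kum (l ^ 1) ζ (-1) σ = 0 := fun σ ↦ zpowZMod_injective hζ (by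
      refine mul_right_cancel₀ (neg_ne_zero.mpr (one_ne_zero (α := QQb))) ?_
      rw [← kum_spec_rat hζ (r := (-1 : ℚ)) (by norm_num) (by rw [hμ]; push_cast; rfl) σ,
        ZMod.val_zero, pow_zero, one_mul, map_neg, map_one])
    obtain ⟨σ2, -, hσ2⟩ := exists_expChar_ne_one S hp hpl hl2 hζ
    have he2 : expChar (l ^ 1) ζ σ2 ≠ 1 := fun h ↦ hσ2 (by
      rw [isExp_expChar hζ σ2, h, ZMod.val_one, pow_one])
    have hχ2 : ¬ ϖ ∣ R.det σ2 - 1 := fun h ↦ by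
      refine he2 ?_
      have h1 := h.sub (hlϖ.trans (pow_one (l : O) ▸ S.cyclo.dvd_expChar hζ σ2))
      rw [sub_sub_sub_cancel_left] at h1
      have h4 : (l : ℤ) ∣ ((expChar (l ^ 1) ζ σ2).val : ℤ) - 1 :=
        natCast_dvd_of_irreducible_dvd hϖ (by push_cast; exact h1)
      have h5 : ((((expChar (l ^ 1) ζ σ2).val : ℤ) - 1 : ℤ) : ZMod (l ^ 1)) = 0 :=
        (ZMod.intCast_zmod_eq_zero_iff_dvd _ _).mpr (by rw [Nat.cast_pow, pow_one]; exact h4)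
      rw [Int.cast_sub, Int.cast_natCast, ZMod.natCast_zmod_val, Int.cast_one, sub_eq_zero] at h5
      exact h5
    obtain ⟨ci, hci⟩ := (isUnit_of_not_dvd hϖ hχ2).exists_right_inv
    have hb1 : ¬ ϖ ∣ R.b σ1 := fun h ↦ by
      refine hns ⟨-(R.b σ2 * ci), fun σ ↦ ?_⟩
      have := ((hbS _ hμ).sub_mul (inSpan_cyclo S.cyclo hζ (R.b σ2 * ci)) 1).dvd_of_dvd hϖ hP
        he1 (hM σ1) (Or.inr ⟨hM, he2⟩) (by rw [hχ1]; simpa using h) (by
          rw [show R.b σ2 - 1 * ((R.det σ2 - 1) * (R.b σ2 * ci)) = 0 by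
            linear_combination -R.b σ2 * hci]
          exact dvd_zero _) σ
      rw [show R.b σ + (R.a σ - R.d σ) * -(R.b σ2 * ci) =
        (R.b σ - 1 * ((R.det σ - 1) * (R.b σ2 * ci))) -
          ((R.a σ - R.det σ) - (R.d σ - 1)) * (R.b σ2 * ci) by ring]
      exact this.sub (((ha σ).sub (hd σ)).mul_right _)
    obtain ⟨bi, hbi⟩ := (isUnit_of_not_dvd hϖ hb1).exists_right_inv
    refine ⟨fun _ ↦ 0, fun _ _ _ ↦ by ring, fun κ hκ _ ↦ ?_, Or.inl fun _ ↦ rfl⟩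
    have hv := hv1 hb1 κ hκ
    set x2 := κ.u σ1 * bi
    set x1 := (κ.u σ2 - x2 * R.b σ2) * ci
    refine ⟨x1, x2, fun σ ↦ ⟨?_, (hv σ).sub (((hc σ).mul_right _).add ((hd σ).mul_right _))⟩⟩
    have := (((huS _ hμ κ hκ hv).sub_mul (hbS _ hμ) x2).sub_mul
      (inSpan_cyclo S.cyclo hζ x1) 1).dvd_of_dvd hϖ hP he1 (hM σ1) (Or.inr ⟨hM, he2⟩)
      (by
        rw [hχ1, show κ.u σ1 - x2 * R.b σ1 - 1 * ((1 - 1) * x1) = 0 by
          linear_combination -κ.u σ1 * hbi]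
        exact dvd_zero _)
      (by
        rw [show κ.u σ2 - x2 * R.b σ2 - 1 * ((R.det σ2 - 1) * x1) = 0 by
          linear_combination -(κ.u σ2 - x2 * R.b σ2) * hci]
        exact dvd_zero _) σ
    rw [show κ.u σ - ((R.a σ - 1) * x1 + R.b σ * x2) =
      (κ.u σ - x2 * R.b σ - 1 * ((R.det σ - 1) * x1)) - (R.a σ - R.det σ) * x1 by ring]
    exact this.sub ((ha σ).mul_right _)

end FLTAgent.Mazur
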