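import Fermat.Agent.Mazur.ModuleDescent
import Mathlib.Algebra.Module.Torsion.Basic

/-!
# From a lattice with a reduction kernel to the descent theorem

A lattice inside pairs in a module over a finite `ℚ_l`-algebra, with Galois acting through two by
two matrices over the algebra, and a saturated submodule `K` playing the kernel of reduction at
`l`. A bounded cocycle is a coboundary up to a stable submodule contained in `K`.
-/

set_option autoImplicit false
set_option linter.overlappingInstances false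
set_option linter.unusedSectionVars false
set_option linter.style.haveILetI false
set_option maxHeartbeats 1000000

noncomputable section

namespace FLTAgent.Mazur

open Matrix

local notation "QQb" => AlgebraicClosure ℚ
local notation "GG" => (AlgebraicClosure ℚ ≃ₐ[ℚ] AlgebraicClosure ℚ)

variable {l p : ℕ} [Fact l.Prime]

/-- The data of a lattice in pairs in a module. -/
structure Frame (l p : ℕ) [Fact l.Prime] (B E Λ : Type) [CommRing B] [Algebra ℚ_[l] B]
    [Algebra ℤ_[l] B] [AddCommGroup E] [Module B E] [Module ℚ_[l] E] [Module ℤ_[l] E]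
    [AddCommGroup Λ] [Module ℤ_[l] Λ] where
  /-- the action on the lattice -/
  ρ : GG → Module.End ℤ_[l] Λ
  /-- the embedding -/
  ψ : Λ →ₗ[ℤ_[l]] (Fin 2 → E)
  ψ_inj : Function.Injective ψ
  ψ_span : ∀ v, ∃ (N : ℕ) (w : Λ), ψ w = (l : ℚ_[l]) ^ N • v
  /-- matrices -/
  M : GG → Matrix (Fin 2) (Fin 2) B
  M_ψ : ∀ σ w, ψ (ρ σ w) = pairAct (M σ) (ψ w)
  M_one : M 1 = 1
  M_mul : ∀ σ τ, M (σ * τ) = M σ * M τ
  bdd : Bdd l M
  cont : Tends0 l (fun σ ↦ M σ - 1)
  /-- the cyclotomic character -/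
  χ : GG → ℤ_[l]
  cyclo : ∀ (n : ℕ) (σ : GG) (k : ℕ), (∀ ζ : QQb, ζ ^ l ^ n = 1 → σ ζ = ζ ^ k) →
    (l : ℤ_[l]) ^ n ∣ χ σ - k
  χ_mul : ∀ σ τ, χ (σ * τ) = χ σ * χ τ
  /-- the trace -/
  t : GG → B
  rel : ∀ σ, M σ * M σ - t σ • M σ +
    algebraMap ℤ_[l] B (χ σ) • (1 : Matrix (Fin 2) (Fin 2) B) = 0
  t_int : ∀ σ, IsIntegral ℤ_[l] (t σ)
  /-- the place over `l` -/
  Al : ValuationSubring (AlgebraicClosure ℚ)
  /-- the place over `p` -/
  Ap : ValuationSubring (AlgebraicClosure ℚ)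
  liesl : Al.LiesOverPrime l
  liesp : Ap.LiesOverPrime p
  /-- places over the other primes -/
  place : ℕ → ValuationSubring (AlgebraicClosure ℚ)
  liesq : ∀ q : ℕ, q.Prime → (place q).LiesOverPrime q
  unram : ∀ q : ℕ, q.Prime → q ≠ p → q ≠ l → ∀ σ ∈ (place q).inertiaSubgroupIn ℚ, M σ = 1
  unip : ∀ σ ∈ Ap.inertiaSubgroupIn ℚ, (M σ - 1) * (M σ - 1) = 0
  /-- the kernel of reduction -/
  K : Submodule ℤ_[l] Λ
  K_sat : ∀ w, (l : ℤ_[l]) • w ∈ K → w ∈ K
  K_smul : ∀ (b : B), ∀ w ∈ K, ∃ (N : ℕ) (w' : Λ), w' ∈ K ∧ ψ w' = (l : ℚ_[l]) ^ N • (b • ψ w)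
  htr : ∀ σ, ∃ (j : ℕ) (y : B), IsIntegral ℤ_[l] y ∧
    ∀ w, ∃ (N : ℕ) (w' : Λ), w' ∈ K ∧
      ψ w' = (l : ℚ_[l]) ^ N • (((t σ - 1 - algebraMap ℤ_[l] B (χ σ)) ^ j - (l : B) * y) • ψ w)
  inertia : ∀ σ ∈ Al.inertiaSubgroupIn ℚ, ∀ w, ρ σ w - w ∈ K
  /-- a Frobenius element -/
  φl : GG
  φl_mem : φl ∈ Al.decompositionSubgroup ℚ
  φl_stable : ∀ w ∈ K, ρ φl w ∈ K
  frob : ∀ w, ρ φl (ρ φl w) - w ∈ K → w ∈ K
  /-- an element at `p` -/
  φp : GG
  φp_mem : φp ∈ Ap.decompositionSubgroup ℚ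
  φp_sq : χ φp ^ 2 ≠ 1

variable {B E Λ : Type} [CommRing B] [Algebra ℚ_[l] B] [Algebra ℤ_[l] B]
  [IsScalarTower ℤ_[l] ℚ_[l] B] [Module.Finite ℚ_[l] B] [AddCommGroup E] [Module B E]
  [Module ℚ_[l] E] [Module ℤ_[l] E] [IsScalarTower ℚ_[l] B E] [IsScalarTower ℤ_[l] ℚ_[l] E]
  [IsScalarTower ℤ_[l] B E] [Module.Finite B E] [AddCommGroup Λ] [Module ℤ_[l] Λ]
  [Module.Finite ℤ_[l] Λ]

namespace Frame

variable (D : Frame l p B E Λ)

theorem natCast_pow_smul (N : ℕ) (v : Fin 2 → E) :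
    (l : ℚ_[l]) ^ N • v = ((l : ℤ_[l]) ^ N) • v := by
  rw [← IsScalarTower.algebraMap_smul ℚ_[l] ((l : ℤ_[l]) ^ N) v, map_pow, map_natCast]

theorem smul_smul_comm' (c : ℚ_[l]) (b : B) (v : Fin 2 → E) : b • c • v = c • b • v := by
  funext i
  show b • c • v i = c • b • v i
  rw [← IsScalarTower.algebraMap_smul B c (v i), smul_smul, mul_comm, ← smul_smul,
    IsScalarTower.algebraMap_smul]

/-- The span of the kernel. -/
def ZE : Submodule B (Fin 2 → E) where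
  carrier := {v | ∃ (N : ℕ) (w : Λ), w ∈ D.K ∧ D.ψ w = (l : ℚ_[l]) ^ N • v}
  add_mem' := by
    rintro a b ⟨N, w, hw, e⟩ ⟨N', w', hw', e'⟩
    refine ⟨N + N', ((l : ℤ_[l]) ^ N') • w + ((l : ℤ_[l]) ^ N) • w',
      add_mem (D.K.smul_mem _ hw) (D.K.smul_mem _ hw'), ?_⟩
    rw [map_add, map_smul, map_smul, e, e', ← natCast_pow_smul, ← natCast_pow_smul, smul_smul,
      smul_smul, ← pow_add, ← pow_add, add_comm N' N, smul_add]
  zero_mem' := ⟨0, 0, zero_mem _, by rw [map_zero, smul_zero]⟩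
  smul_mem' := by
    rintro b v ⟨N, w, hw, e⟩
    obtain ⟨N', w', hw', e'⟩ := D.K_smul b w hw
    exact ⟨N' + N, w', hw', by rw [e', e, smul_smul_comm', smul_smul, pow_add]⟩

theorem ψ_mem_ZE {w : Λ} (hw : w ∈ D.K) : D.ψ w ∈ D.ZE := ⟨0, w, hw, by rw [pow_zero, one_smul]⟩

theorem mem_K_of_ψ {w : Λ} (h : D.ψ w ∈ D.ZE) : w ∈ D.K := by
  obtain ⟨N, w', hw', e⟩ := h
  rw [natCast_pow_smul, ← map_smul] at e
  rw [D.ψ_inj e] at hw'
  clear e
  induction N with
  | zero => rwa [pow_zero, one_smul] at hw'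
  | succ N ih =>
    rw [pow_succ', mul_smul] at hw'
    exact ih (D.K_sat _ hw')

/-- Elements with both slots in the span of the kernel. -/
def E0 : Submodule B E :=
  D.ZE.comap (LinearMap.single B (fun _ : Fin 2 ↦ E) 0) ⊓
    D.ZE.comap (LinearMap.single B (fun _ : Fin 2 ↦ E) 1)

theorem pair_mem_ZE {v : Fin 2 → E} (h : ∀ i, v i ∈ D.E0) : v ∈ D.ZE := by
  have e : v = Pi.single 0 (v 0) + Pi.single 1 (v 1) := by
    funext i; fin_cases i <;> simp
  rw [e]
  exact add_mem (h 0).1 (h 1).2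

theorem inertia_ZE {σ : GG} (hσ : σ ∈ D.Al.inertiaSubgroupIn ℚ) (v : Fin 2 → E) :
    pairAct (D.M σ) v - v ∈ D.ZE := by
  obtain ⟨N, w, e⟩ := D.ψ_span v
  refine ⟨N, _, D.inertia σ hσ w, ?_⟩
  rw [map_sub, D.M_ψ, e, smul_sub]
  congr 1
  exact LinearMap.map_smul_of_tower _ _ _

theorem φl_ZE {v : Fin 2 → E} (hv : v ∈ D.ZE) : pairAct (D.M D.φl) v ∈ D.ZE := by
  obtain ⟨N, w, hw, e⟩ := hv
  refine ⟨N, _, D.φl_stable w hw, ?_⟩
  rw [D.M_ψ, e]
  exact LinearMap.map_smul_of_tower _ _ _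

theorem frob_ZE {v : Fin 2 → E}
    (h : pairAct (D.M D.φl) (pairAct (D.M D.φl) v) - v ∈ D.ZE) : v ∈ D.ZE := by
  obtain ⟨N, w, e⟩ := D.ψ_span v
  refine ⟨N, w, D.frob w (D.mem_K_of_ψ ?_), e⟩
  rw [map_sub, D.M_ψ, D.M_ψ, e]
  obtain ⟨N', w', hw', e'⟩ := h
  have hh := D.ZE.smul_mem (algebraMap ℚ_[l] B ((l : ℚ_[l]) ^ N))
    (⟨N', w', hw', e'⟩ : pairAct (D.M D.φl) (pairAct (D.M D.φl) v) - v ∈ D.ZE)
  rw [algebraMap_smul, smul_sub] at hh
  rwa [LinearMap.map_smul_of_tower, LinearMap.map_smul_of_tower]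

open Module in
/-- A bounded cocycle is a coboundary up to a stable submodule whose slots lie in the part of the
module inside the kernel. -/
theorem exists_coboundary_slots (hp : p.Prime) (hpl : p ≠ l) (κ : GG → Λ)
    (hκ : ∀ σ τ, κ (σ * τ) = κ σ + D.ρ σ (κ τ))
    (hcont : ∀ n : ℕ, ∃ V : Subgroup GG, IsOpen (V : Set GG) ∧
      ∀ σ ∈ V, ∃ y, κ σ = ((l : ℤ_[l]) ^ n) • y)
    (hu : ∀ q : ℕ, q.Prime → q ≠ p → q ≠ l → ∀ σ ∈ (D.place q).inertiaSubgroupIn ℚ, κ σ = 0)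
    (hI : ∀ σ ∈ D.Al.inertiaSubgroupIn ℚ, κ σ ∈ D.K) :
    ∃ (S : Submodule ℤ_[l] Λ) (N : ℕ) (w : Λ), (∀ σ, ∀ s ∈ S, D.ρ σ s ∈ S) ∧ S ≤ D.K ∧
      (∀ s ∈ S, ∀ i, D.ψ s i ∈ D.E0) ∧
      ∀ σ, ((l : ℤ_[l]) ^ N) • κ σ - (D.ρ σ w - w) ∈ S := by
  classical
  haveI : Module.Finite ℚ_[l] E := Module.Finite.trans B E
  let E' := E ⧸ D.E0
  let B' := B ⧸ Module.annihilator B E'
  letI : Module B' E' := Module.quotientAnnihilator
  have hcomp : ∀ (b : B) (η : E'), (Ideal.Quotient.mk (Module.annihilator B E') b) • η = b • η :=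
    fun _ _ ↦ rfl
  haveI : IsScalarTower B B' E' := ⟨fun b c η ↦ by
    obtain ⟨c, rfl⟩ := Ideal.Quotient.mk_surjective c
    rw [hcomp, smul_smul]
    rfl⟩
  haveI : IsScalarTower ℚ_[l] B' E' := ⟨fun r c η ↦ by
    obtain ⟨c, rfl⟩ := Ideal.Quotient.mk_surjective c
    rw [hcomp]
    show (r • c) • η = r • c • η
    exact smul_assoc r c η⟩
  haveI : IsScalarTower ℤ_[l] B' E' := ⟨fun r c η ↦ by
    obtain ⟨c, rfl⟩ := Ideal.Quotient.mk_surjective c
    rw [hcomp]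
    show (r • c) • η = r • c • η
    exact smul_assoc r c η⟩
  haveI : Module.Finite B' E' := Module.Finite.of_restrictScalars_finite B B' E'
  let f := Ideal.Quotient.mk (Module.annihilator B E')
  let qv : (Fin 2 → E) →ₗ[B] (Fin 2 → E') :=
    LinearMap.pi fun i ↦ (Submodule.mkQ D.E0).comp (LinearMap.proj i)
  have hqv : ∀ v, qv v = fun i ↦ Submodule.Quotient.mk (v i) := fun v ↦ rfl
  have hqv_surj : ∀ z, ∃ v, qv v = z := fun z ↦ by
    choose v hv using fun i ↦ Submodule.Quotient.mk_surjective D.E0 (z i)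
    exact ⟨v, funext hv⟩
  have hqact : ∀ (X : Matrix (Fin 2) (Fin 2) B) (v : Fin 2 → E),
      qv (pairAct X v) = pairAct (X.map f) (qv v) := fun X v ↦ funext fun i ↦ by
    simp only [hqv, pairAct_apply, Matrix.map_apply, f, hcomp]
    rfl
  let ZE' : Submodule B' (Fin 2 → E') :=
    { carrier := qv '' D.ZE
      add_mem' := by
        rintro _ _ ⟨a, ha, rfl⟩ ⟨b, hb, rfl⟩; exact ⟨a + b, add_mem ha hb, map_add _ _ _⟩
      zero_mem' := ⟨0, zero_mem _, map_zero _⟩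
      smul_mem' := by
        rintro c _ ⟨a, ha, rfl⟩
        obtain ⟨b, rfl⟩ := Ideal.Quotient.mk_surjective c
        exact ⟨b • a, D.ZE.smul_mem b ha, by
          rw [map_smul]; funext i; exact (hcomp b _).symm⟩ }
  have hZE' : ∀ v, qv v ∈ ZE' ↔ v ∈ D.ZE := fun v ↦ by
    refine ⟨?_, fun h ↦ ⟨v, h, rfl⟩⟩
    rintro ⟨a, ha, e⟩
    have hd : v - a ∈ D.ZE := D.pair_mem_ZE fun i ↦ by
      have := congrFun e i
      rw [hqv, hqv] at this
      exact (Submodule.Quotient.eq _).1 this.symm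
    simpa using add_mem hd ha
  -- the quotient representation
  let Z : Submodule B' (Fin 2 → B') :=
    { carrier := {z | ∀ η : E', (fun i ↦ z i • η) ∈ ZE'}
      add_mem' := fun {a b} ha hb η ↦ by
        have e : (fun i ↦ (a + b) i • η) = (fun i ↦ a i • η) + (fun i ↦ b i • η) :=
          funext fun i ↦ add_smul _ _ _
        rw [e]; exact add_mem (ha η) (hb η)
      zero_mem' := fun η ↦ by
        have e : (fun i ↦ (0 : Fin 2 → B') i • η) = 0 := funext fun i ↦ zero_smul _ _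
        rw [e]; exact zero_mem _
      smul_mem' := fun c z hz η ↦ by
        have e : (fun i ↦ (c • z) i • η) = c • fun i ↦ z i • η := funext fun i ↦ mul_smul _ _ _
        rw [e]; exact ZE'.smul_mem c (hz η) }
  have hZact : ∀ (X : Matrix (Fin 2) (Fin 2) B') (z : Fin 2 → B') (η : E'),
      (fun i ↦ (X *ᵥ z) i • η) = pairAct X (fun i ↦ z i • η) := fun X z η ↦ funext fun i ↦ by
    simp [pairAct_apply, Matrix.mulVec, dotProduct, Fin.sum_univ_two, add_smul, mul_smul]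
  have hsingle : ∀ (i : Fin 2) (η : E), qv (Pi.single i η) = Pi.single i (Submodule.Quotient.mk η) :=
    fun i η ↦ funext fun j ↦ by
      rw [hqv]
      by_cases hji : j = i
      · subst hji; simp
      · simp [hji]
  let R : RankTwo l p B' :=
    { M := fun σ ↦ (D.M σ).map f
      M_one := by rw [D.M_one]; exact Matrix.map_one _ (map_zero _) (map_one _)
      M_mul := fun σ τ ↦ by rw [D.M_mul, Matrix.map_mul]
      bdd := D.bdd.map (Ideal.Quotient.mkₐ ℤ_[l] _).toLinearMap.mapMatrix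
      cont := (D.cont.map (Ideal.Quotient.mkₐ ℤ_[l] (Module.annihilator B E')).toLinearMap.mapMatrix).congr
        fun σ ↦ by
          show (D.M σ - 1).map f = _
          rw [Matrix.map_sub _ (map_sub f), Matrix.map_one _ (map_zero _) (map_one _)]
      χ := D.χ
      cyclo := D.cyclo
      χ_mul := D.χ_mul
      t := fun σ ↦ f (D.t σ)
      rel := fun σ ↦ by
        have h := congrArg (fun X ↦ f.mapMatrix X) (D.rel σ)
        simp only [map_add, map_sub, map_mul, map_zero, RingHom.mapMatrix_apply] at h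
        rw [Matrix.map_smul' _ _ _ (map_mul f), Matrix.map_smul' _ _ _ (map_mul f),
          Matrix.map_one _ (map_zero _) (map_one _)] at h
        exact h
      t_int := fun σ ↦ (D.t_int σ).map (Ideal.Quotient.mkₐ ℤ_[l] _)
      htr := fun σ ↦ by
        obtain ⟨j, y, hy, hK⟩ := D.htr σ
        refine ⟨j, f y, hy.map (Ideal.Quotient.mkₐ ℤ_[l] _), ?_⟩
        set b := (D.t σ - 1 - algebraMap ℤ_[l] B (D.χ σ)) ^ j - (l : B) * y
        have hb : f b = 0 := by
          rw [Ideal.Quotient.eq_zero_iff_mem, Module.mem_annihilator]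
          intro η
          obtain ⟨η, rfl⟩ := Submodule.Quotient.mk_surjective _ η
          rw [← Submodule.Quotient.mk_smul, Submodule.Quotient.mk_eq_zero]
          have hbv : ∀ v, b • v ∈ D.ZE := fun v ↦ by
            obtain ⟨N, w, e⟩ := D.ψ_span v
            obtain ⟨N', w', hw', e'⟩ := hK w
            exact ⟨N' + N, w', hw', by rw [e', e, smul_smul_comm', smul_smul, pow_add]⟩
          constructor <;>
          · rw [SetLike.mem_coe, Submodule.mem_comap, map_smul]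
            exact hbv _
        have := hb
        simp only [b, map_sub, map_pow, map_one, map_mul, map_natCast, sub_eq_zero] at this
        exact this
      Al := D.Al
      Ap := D.Ap
      liesl := D.liesl
      liesp := D.liesp
      place := D.place
      liesq := D.liesq
      unram := fun q h1 h2 h3 σ hσ ↦ by
        rw [D.unram q h1 h2 h3 σ hσ]; exact Matrix.map_one _ (map_zero _) (map_one _)
      unip := fun σ hσ ↦ by
        have h := congrArg (fun X ↦ f.mapMatrix X) (D.unip σ hσ)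
        simp only [map_sub, map_mul, map_one, map_zero, RingHom.mapMatrix_apply] at h
        exact h
      Z := Z
      Z_ann := fun s hs ↦ by
        obtain ⟨b, rfl⟩ := Ideal.Quotient.mk_surjective s
        rw [Ideal.Quotient.eq_zero_iff_mem, Module.mem_annihilator]
        intro η
        obtain ⟨η, rfl⟩ := Submodule.Quotient.mk_surjective _ η
        rw [← Submodule.Quotient.mk_smul, Submodule.Quotient.mk_eq_zero]
        have key : ∀ i : Fin 2, Pi.single i (b • η) ∈ D.ZE := fun i ↦ (hZE' _).1 (by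
          have h := hs (Pi.single i 1) (Submodule.Quotient.mk η)
          rw [hsingle]
          convert h using 1
          funext j
          rw [Pi.smul_apply, smul_eq_mul]
          by_cases hji : j = i
          · subst hji; simp [hcomp, Submodule.Quotient.mk_smul]
          · simp [hji])
        exact ⟨key 0, key 1⟩
      inertia := fun σ hσ z η ↦ by
        have e : (fun i ↦ ((D.M σ).map f *ᵥ z - z) i • η) =
            pairAct ((D.M σ).map f) (fun i ↦ z i • η) - fun i ↦ z i • η := by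
          rw [← hZact]; funext i; exact sub_smul _ _ _
        rw [e]
        obtain ⟨v, hv⟩ := hqv_surj (fun i ↦ z i • η)
        rw [← hv, ← hqact, ← map_sub]
        exact (hZE' _).2 (D.inertia_ZE hσ v)
      φl := D.φl
      φl_mem := D.φl_mem
      φl_stable := fun z hz η ↦ by
        rw [hZact]
        obtain ⟨v, hv⟩ := hqv_surj (fun i ↦ z i • η)
        rw [← hv, ← hqact]
        exact (hZE' _).2 (D.φl_ZE ((hZE' _).1 (hv ▸ hz η)))
      frob := fun z hz η ↦ by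
        have h := hz η
        have e : (fun i ↦ (((D.M D.φl).map f *ᵥ ((D.M D.φl).map f *ᵥ z)) - z) i • η) =
            pairAct ((D.M D.φl).map f) (pairAct ((D.M D.φl).map f) (fun i ↦ z i • η)) -
              fun i ↦ z i • η := by
          rw [← hZact, ← hZact]; funext i; exact sub_smul _ _ _
        rw [e] at h
        obtain ⟨v, hv⟩ := hqv_surj (fun i ↦ z i • η)
        rw [← hv, ← hqact, ← hqact, ← map_sub] at h
        rw [← hv]
        exact (hZE' _).2 (D.frob_ZE ((hZE' _).1 h))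
      φp := D.φp
      φp_mem := D.φp_mem
      φp_sq := D.φp_sq }
  -- the cocycle
  let qψ : Λ →ₗ[ℤ_[l]] (Fin 2 → E') := (qv.restrictScalars ℤ_[l]).comp D.ψ
  have hqψ : ∀ w, qψ w = qv (D.ψ w) := fun w ↦ rfl
  obtain ⟨A, hA⟩ := R.exists_coboundary_module hp hpl (fun σ ↦ qψ (κ σ))
    (fun σ τ ↦ by
      rw [hκ, map_add, hqψ (D.ρ σ _), D.M_ψ, hqact]; rfl)
    (Bdd.map (f := κ) ⟨⊤, Module.Finite.fg_top, fun _ ↦ Submodule.mem_top⟩ qψ)
    (Tends0.map (f := κ) ⟨⊤, Module.Finite.fg_top, fun n ↦ by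
      obtain ⟨V, hV, hV'⟩ := hcont n
      exact ⟨V, hV, fun σ hσ ↦ by
        obtain ⟨y, hy⟩ := hV' σ hσ
        exact ⟨y, Submodule.mem_top, hy⟩⟩⟩ qψ)
    (fun q h1 h2 h3 σ hσ ↦ by rw [hu q h1 h2 h3 σ hσ, map_zero])
    (fun σ₀ h₀ h₁ σ hσ ↦ R.pairAct_proj_eq_zero hp hpl h₀ h₁ ZE'
      (fun z ↦ by
        obtain ⟨v, rfl⟩ := hqv_surj z
        show pairAct ((D.M σ₀).map f) (qv v) - qv v ∈ ZE'
        rw [← hqact, ← map_sub]
        exact (hZE' _).2 (D.inertia_ZE h₀ v))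
      (fun η h0 h1 ↦ by
        obtain ⟨η, rfl⟩ := Submodule.Quotient.mk_surjective _ η
        rw [← hsingle, hZE'] at h0 h1
        exact (Submodule.Quotient.mk_eq_zero _).2 ⟨h0, h1⟩)
      ((hZE' _).2 (D.ψ_mem_ZE (hI σ hσ))))
  obtain ⟨v, hv⟩ := hqv_surj A
  obtain ⟨N, w, hw⟩ := D.ψ_span v
  refine ⟨LinearMap.ker qψ, N, w, fun σ s hs ↦ ?_, fun s hs ↦ ?_, fun s hs i ↦ ?_, fun σ ↦ ?_⟩
  · rw [LinearMap.mem_ker, hqψ] at hs ⊢
    rw [D.M_ψ, hqact, hs, map_zero]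
  · rw [LinearMap.mem_ker, hqψ] at hs
    exact D.mem_K_of_ψ (D.pair_mem_ZE fun i ↦ by
      have := congrFun hs i
      rw [hqv] at this
      exact (Submodule.Quotient.mk_eq_zero _).1 this)
  · rw [LinearMap.mem_ker, hqψ] at hs
    have := congrFun hs i
    rw [hqv] at this
    exact (Submodule.Quotient.mk_eq_zero _).1 this
  · rw [LinearMap.mem_ker, map_sub, map_smul, map_sub, hqψ (D.ρ σ w), D.M_ψ, hqact, hqψ w, hw,
      LinearMap.map_smul_of_tower, LinearMap.map_smul_of_tower, hv, hA σ, ← smul_sub,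
      ← IsScalarTower.algebraMap_smul ℚ_[l] ((l : ℤ_[l]) ^ N), map_pow, map_natCast]
    exact sub_self _

/-- A bounded cocycle is a coboundary up to a stable submodule inside the kernel. -/
theorem exists_coboundary (hp : p.Prime) (hpl : p ≠ l) (κ : GG → Λ)
    (hκ : ∀ σ τ, κ (σ * τ) = κ σ + D.ρ σ (κ τ))
    (hcont : ∀ n : ℕ, ∃ V : Subgroup GG, IsOpen (V : Set GG) ∧
      ∀ σ ∈ V, ∃ y, κ σ = ((l : ℤ_[l]) ^ n) • y)
    (hu : ∀ q : ℕ, q.Prime → q ≠ p → q ≠ l → ∀ σ ∈ (D.place q).inertiaSubgroupIn ℚ, κ σ = 0)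
    (hI : ∀ σ ∈ D.Al.inertiaSubgroupIn ℚ, κ σ ∈ D.K) :
    ∃ (S : Submodule ℤ_[l] Λ) (N : ℕ) (w : Λ), (∀ σ, ∀ s ∈ S, D.ρ σ s ∈ S) ∧ S ≤ D.K ∧
      ∀ σ, ((l : ℤ_[l]) ^ N) • κ σ - (D.ρ σ w - w) ∈ S := by
  obtain ⟨S, N, w, h1, h2, -, h3⟩ := D.exists_coboundary_slots hp hpl κ hκ hcont hu hI
  exact ⟨S, N, w, h1, h2, h3⟩

end Frame

end FLTAgent.Mazur
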