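import Fermat.Agent.S10
import Fermat.Agent.S11
import Fermat.Agent.S13
import Fermat.Agent.Mazur.FreyLarge

/-!
# Mazur's theorem for the Frey curve, given the finite generation of the rational classes
-/

set_option autoImplicit false

noncomputable section

open WeierstrassCurve WeierstrassCurve.Affine WeierstrassCurve.Affine.Point

namespace FLTAgent.Mazur

/-- The mod `p` representation of the Frey curve is irreducible, given finite generation. -/
theorem frey_irreducible_of_fg (P : FreyPackage)
    (hfg : ∀ (N : ℕ) [NeZero N], N.Prime → 5 ≤ N →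
      AddGroup.FG ↥(FixedPoints.addSubgroup
        ((AlgebraicClosure ℚ) ≃ₐ[ℚ] (AlgebraicClosure ℚ)) (ModularCurve.JZero N))) :
    GaloisRepIsIrreducible (K := AlgebraicClosure ℚ) ℚ P.freyCurve P.p := by
  haveI : NeZero P.p := ⟨P.hp0⟩
  by_contra hred
  have hline := Fermat.Agent.S13.result P hred
  have hp5 := P.hp5
  have hpp := P.pp
  rcases Nat.lt_or_ge P.p 17 with h | h
  · by_cases h11 : P.p = 11
    · exact Fermat.Agent.S11.result P h11 hline
    · refine Fermat.Agent.S10.result P ?_ hline
      generalize P.p = n at *
      interval_cases n <;> first | omega | (norm_num at hpp)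
  · exact frey_no_cofixed_large_of_fg P h (hfg P.p P.pp P.hp5) hline

end FLTAgent.Mazur
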