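import Fermat.Agent.CuspForms.HeckeDual
import Fermat.Agent.CuspForms.Translates
import Fermat.Agent.CuspForms.LevelOne
import Fermat.Agent.PeriodHecke.Freeness

/-!
# At prime level the operators away from the level generate with finite index

A form whose first coefficients vanish along that subalgebra is supported on multiples of `p`,
hence comes from level one, hence vanishes.
-/

set_option autoImplicit false
set_option linter.style.haveILetI false

open UpperHalfPlane CongruenceSubgroup Filter
open scoped MatrixGroups ModularForm Manifold Topology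

noncomputable section

namespace FLTAgent.Mazur

open ModularFormClass (qCoeff)
open CuspForms (heckeGen qCoeff_heckeGen mulHalfPlane)

variable (p : ℕ) [Fact p.Prime]

local notation "S2" => CuspForm (Gamma0 p) 2
local notation "HH" => CuspForm.heckeAlgebra p 2 (∅ : Set ℕ)

/-- The operators away from the level. -/
def awayAlg : Subalgebra ℤ HH :=
  Algebra.adjoin ℤ {t | ∃ q : Nat.Primes, (q : ℕ) ≠ p ∧ t = heckeGen p q q.2}

theorem heckeGen_mem_awayAlg {q : ℕ} (hq : q.Prime) (hqp : q ≠ p) :
    heckeGen p q hq ∈ awayAlg p :=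
  Algebra.subset_adjoin ⟨⟨q, hq⟩, hqp, rfl⟩

theorem qCoeff_eq_zero_of_awayAlg {f : S2}
    (h : ∀ t ∈ awayAlg p, qCoeff ⇑((t : Module.End ℂ S2) f) 1 = 0) {n : ℕ} (hn : ¬ p ∣ n) :
    qCoeff f n = 0 := by
  suffices H : ∀ n, ¬ p ∣ n → ∀ t ∈ awayAlg p, qCoeff ⇑((t : Module.End ℂ S2) f) n = 0 by
    simpa using H n hn 1 (one_mem _)
  intro n
  induction n using Nat.strong_induction_on with
  | _ n ih =>
    intro hpn t ht
    rcases Nat.lt_or_ge n 2 with hn2 | hn2
    · interval_cases n
      · exact absurd (dvd_zero p) hpn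
      · exact h t ht
    · have hq := Nat.minFac_prime (n := n) (by omega)
      have hqp : n.minFac ≠ p := fun e => hpn (e ▸ Nat.minFac_dvd n)
      obtain ⟨m, hm⟩ := Nat.minFac_dvd n
      have hpm : ¬ p ∣ m := fun e => hpn (hm.symm ▸ e.trans (dvd_mul_left m n.minFac))
      have hm0 : 0 < m := Nat.pos_of_ne_zero fun e => hpm (e ▸ dvd_zero p)
      have hmn : m < n := by nlinarith [hq.two_le]
      have key := qCoeff_heckeGen n.minFac hq ((t : Module.End ℂ S2) f) m
      rw [← hm] at key
      have h1 := ih m hmn hpm _ (mul_mem (heckeGen_mem_awayAlg p hq hqp) ht)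
      rw [MulMemClass.coe_mul, Module.End.mul_apply, key] at h1
      by_cases hd : n.minFac ∣ m
      · have hpd : ¬ p ∣ m / n.minFac := fun e => hpm (e.trans (Nat.div_dvd_of_dvd hd))
        rw [if_pos hd, ih (m / n.minFac) (lt_of_le_of_lt (Nat.div_le_self _ _) hmn) hpd t ht] at h1
        simpa using h1
      · rw [if_neg hd] at h1
        simpa using h1

/-- A cusp form supported on multiples of the prime level vanishes. -/
theorem eq_zero_of_supported (f : S2) (h : ∀ n, ¬ p ∣ n → qCoeff f n = 0) : f = 0 := by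
  haveI : NeZero p := ⟨(Fact.out : p.Prime).ne_zero⟩
  have hp0 : (p : ℂ) ≠ 0 := Nat.cast_ne_zero.2 (NeZero.ne p)
  have hF := CuspForms.isForm_of_modularForm (f : ModularForm (Gamma0 p) 2)
  have hper : ∀ z w : ℍ, (w : ℂ) = z + (p : ℂ)⁻¹ → f w = f z := fun z w hzw => by
    have hz : HasSum (fun m => (qExpansion 1 ⇑f).coeff m • Function.Periodic.qParam 1 z ^ m) (f z) :=
      z.hasSum_qExpansion one_pos hF.periodic hF.holo hF.bdd_infty
    have hw : HasSum (fun m => (qExpansion 1 ⇑f).coeff m • Function.Periodic.qParam 1 w ^ m) (f w) :=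
      w.hasSum_qExpansion one_pos hF.periodic hF.holo hF.bdd_infty
    refine hw.unique ?_
    convert hz using 1
    funext m
    by_cases hm : p ∣ m
    · obtain ⟨k, rfl⟩ := hm
      congr 1
      simp only [Function.Periodic.qParam, ← Complex.exp_nat_mul, hzw]
      rw [show ((p * k : ℕ) : ℂ) * (2 * Real.pi * Complex.I * (z + (p : ℂ)⁻¹) / (1 : ℝ)) =
        ((p * k : ℕ) : ℂ) * (2 * Real.pi * Complex.I * z / (1 : ℝ)) +
          (k : ℕ) * (2 * Real.pi * Complex.I) by
        push_cast; field_simp, Complex.exp_add, Complex.exp_nat_mul_two_pi_mul_I, mul_one]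
    · have h0 := h m hm
      unfold qCoeff at h0
      simp [h0]
  let dz : ℍ → ℍ := fun τ => UpperHalfPlane.mk ((τ : ℂ) / p) (by
    rw [Complex.div_natCast_im]
    exact div_pos τ.im_pos (Nat.cast_pos.2 (NeZero.pos p)))
  have hdz : ∀ τ, ((dz τ : ℍ) : ℂ) = (τ : ℂ) / p := fun _ => rfl
  let g : ℍ → ℂ := fun τ => f (dz τ)
  have hdet : 0 < (Matrix.GeneralLinearGroup.mkOfDetNeZero !![(1 : ℝ), 0; 0, (p : ℝ)]
      (by simp [NeZero.ne p]) : GL (Fin 2) ℝ).det.val := by
    simp [Matrix.GeneralLinearGroup.mkOfDetNeZero, NeZero.pos p]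
  have hdzsmul : dz = fun τ : ℍ => (Matrix.GeneralLinearGroup.mkOfDetNeZero
      !![(1 : ℝ), 0; 0, (p : ℝ)] (by simp [NeZero.ne p]) : GL (Fin 2) ℝ) • τ := funext fun τ => by
    ext
    rw [hdz, UpperHalfPlane.coe_smul_of_det_pos hdet]
    simp [UpperHalfPlane.num, UpperHalfPlane.denom, Matrix.GeneralLinearGroup.mkOfDetNeZero]
  have hhol : MDiff g := by
    show MDiff (⇑f ∘ dz)
    rw [hdzsmul]
    exact hF.holo.comp (UpperHalfPlane.mdifferentiable_smul hdet)
  have hbdd : IsBoundedAtImInfty g := by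
    have hb : IsBoundedAtImInfty ⇑f := ModularFormClass.bdd_at_infty f
    refine hb.comp_tendsto ?_
    rw [atImInfty, tendsto_comap_iff, show UpperHalfPlane.im ∘ dz = fun τ => (p : ℝ)⁻¹ * τ.im from
      funext fun τ => by
        show ((τ : ℂ) / p).im = _
        rw [Complex.div_natCast_im, div_eq_inv_mul, UpperHalfPlane.coe_im]]
    exact Tendsto.const_mul_atTop (inv_pos.2 (Nat.cast_pos.2 (NeZero.pos p))) tendsto_comap
  have hT : g ∣[(2 : ℤ)] ModularGroup.T = g := funext fun τ => by
    rw [ModularForm.SL_slash_apply, CuspForms.denom_SL]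
    simp only [ModularGroup.coe_T, Matrix.of_apply, Matrix.cons_val', Matrix.cons_val_zero,
      Matrix.cons_val_one, Matrix.empty_val', Matrix.cons_val_fin_one, Int.cast_zero, zero_mul,
      zero_add, Int.cast_one, one_zpow, mul_one]
    refine hper _ _ ?_
    rw [hdz, hdz, UpperHalfPlane.modular_T_smul, UpperHalfPlane.coe_vadd]
    push_cast
    ring
  let U : SL(2, ℤ) := ⟨!![1, 0; 1, 1], by simp⟩
  let V : SL(2, ℤ) := ⟨!![1, 0; (p : ℤ), 1], by simp⟩
  have hV : V ∈ Gamma0 p := by rw [Gamma0_mem]; simp [V]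
  have hU : g ∣[(2 : ℤ)] U = g := funext fun τ => by
    have h1 := congrFun (hF.slash V hV) (dz τ)
    rw [ModularForm.SL_slash_apply, CuspForms.denom_SL] at h1 ⊢
    have e : dz (U • τ) = V • dz τ := by
      ext
      rw [hdz, UpperHalfPlane.coe_specialLinearGroup_apply,
        UpperHalfPlane.coe_specialLinearGroup_apply, hdz]
      have hd : (τ : ℂ) + 1 ≠ 0 := fun e => by simpa [τ.im_pos.ne'] using congrArg Complex.im e
      simp [U, V]
      field_simp
    show f (dz (U • τ)) * _ = f (dz τ)
    rw [e]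
    refine Eq.trans ?_ h1
    congr 2
    rw [hdz]
    simp [U, V]
    field_simp
  have hall : ∀ γ : SL(2, ℤ), g ∣[(2 : ℤ)] γ = g := fun γ => by
    have hmem : γ ∈ Subgroup.closure {ModularGroup.S, ModularGroup.T} := by
      simp [SpecialLinearGroup.SL2Z_generators]
    have hinv : ∀ x : SL(2, ℤ), g ∣[(2 : ℤ)] x = g → g ∣[(2 : ℤ)] x⁻¹ = g := fun x hx => by
      conv_lhs => rw [← hx]
      rw [← SlashAction.slash_mul, mul_inv_cancel, SlashAction.slash_one]
    induction hmem using Subgroup.closure_induction with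
    | mem x hx =>
      rcases hx with rfl | rfl
      · rw [show ModularGroup.S = ModularGroup.T⁻¹ * U * ModularGroup.T⁻¹ by
          apply Subtype.ext
          rw [Matrix.SpecialLinearGroup.coe_mul, Matrix.SpecialLinearGroup.coe_mul,
            ModularGroup.coe_S, ModularGroup.coe_T_inv]
          ext i j
          fin_cases i <;> fin_cases j <;> simp [U, Matrix.mul_apply, Fin.sum_univ_two],
          SlashAction.slash_mul, SlashAction.slash_mul, hinv _ hT, hU,
          hinv _ hT]
      · exact hT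
    | one => exact SlashAction.slash_one _ _
    | mul x y _ _ hx hy => rw [SlashAction.slash_mul, hx, hy]
    | inv x _ hx => exact hinv x hx
  have hform : CuspForms.IsForm 1 2 g :=
    ⟨hhol, fun γ _ => hall γ, fun γ => (hall γ).symm ▸ hbdd⟩
  have hg0 : g = 0 := by
    have h0 : hform.toLevelOne = 0 :=
      rank_zero_iff_forall_zero.mp ModularForm.levelOne_weight_two_rank_zero _
    have := congrArg (fun g : ModularForm 𝒮ℒ 2 => (g : ℍ → ℂ)) h0
    simpa using this
  ext τ
  have h1 := congrFun hg0 (mulHalfPlane p τ)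
  have h2 : dz (mulHalfPlane p τ) = τ := by
    ext
    rw [hdz, CuspForms.coe_mulHalfPlane]
    field_simp
  show f τ = 0
  simpa [g, h2] using h1

/-- A nonzero multiple of every operator lies in the algebra away from the level. -/
theorem exists_index_awayAlg : ∃ m : ℤ, m ≠ 0 ∧ ∀ t : HH, m • t ∈ awayAlg p := by
  haveI : NeZero p := ⟨(Fact.out : p.Prime).ne_zero⟩
  let M := (awayAlg p).toSubmodule
  haveI : Module.Finite ℤ M := Module.Finite.of_fg (IsNoetherian.noetherian M)
  haveI : Module.Free ℤ M := Module.free_of_finite_type_torsion_free'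
  let b := Module.Free.chooseBasis ℤ M
  let Φ : S2 →ₗ[ℂ] (Module.Free.ChooseBasisIndex ℤ M → ℂ) :=
    LinearMap.pi fun i =>
      (PeriodHecke.qCoeffOne p).comp ((b i : HH) : Module.End ℂ S2)
  have hΦ : Function.Injective Φ := by
    refine (injective_iff_map_eq_zero Φ).2 fun f hf => eq_zero_of_supported p f fun n hn =>
      qCoeff_eq_zero_of_awayAlg p (fun t ht => ?_) hn
    have h1 : ∀ i, qCoeff ⇑(((b i : HH) : Module.End ℂ S2) f) 1 = 0 := fun i => congrFun hf i
    let ev : M →ₗ[ℤ] ℂ :=
      (AddMonoidHom.mk' (fun s : M => PeriodHecke.qCoeffOne p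
        (((s : HH) : Module.End ℂ S2) f)) fun x y => by simp).toIntLinearMap
    have h2 : ev = 0 := b.ext fun i => h1 i
    exact LinearMap.congr_fun h2 ⟨t, ht⟩
  have hrank : Module.finrank ℤ HH ≤ Module.finrank ℤ M := by
    rw [PeriodHecke.finrank_hecke, Module.finrank_eq_card_chooseBasisIndex ℤ M]
    exact (LinearMap.finrank_le_finrank_of_injective hΦ).trans_eq (Module.finrank_pi ℂ)
  have h0 : Module.finrank ℤ (HH ⧸ M) = 0 := by
    have := Submodule.finrank_quotient_add_finrank M
    omega
  have htor : Module.IsTorsion ℤ (HH ⧸ M) := Module.finrank_eq_zero_iff_isTorsion.1 h0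
  obtain ⟨a, ha⟩ := Submodule.annihilator_top_inter_nonZeroDivisors htor
  refine ⟨a, nonZeroDivisors.ne_zero ha.2, fun t => ?_⟩
  have h1 := Submodule.mem_annihilator.1 ha.1 (Submodule.Quotient.mk (p := M) t) Submodule.mem_top
  rw [← Submodule.Quotient.mk_smul, Submodule.Quotient.mk_eq_zero] at h1
  exact h1

end FLTAgent.Mazur
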