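import Fermat.Agent.Mazur.Frame
import Mathlib.RingTheory.TensorProduct.Free
import Mathlib.RingTheory.TensorProduct.Finite

/-!
# A lattice with an action of a Hecke algebra, in coordinates

If the lattice sits with finite index inside pairs of functionals on the algebra, Galois acts
through two by two matrices over the algebra tensored with `ℚ_l`, and the descent theorem applies.
-/

set_option autoImplicit false
set_option linter.overlappingInstances false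
set_option linter.unusedSectionVars false
set_option linter.style.haveILetI false
set_option maxHeartbeats 1000000
set_option synthInstance.maxHeartbeats 100000

noncomputable section

namespace FLTAgent.Mazur

open TensorProduct

local notation "QQb" => AlgebraicClosure ℚ
local notation "GG" => (AlgebraicClosure ℚ ≃ₐ[ℚ] AlgebraicClosure ℚ)

section Funcs

variable (l : ℕ) [Fact l.Prime] (T : Type) [CommRing T]

/-- Rational functionals on the algebra. -/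
abbrev FuncQ : Type := T →ₗ[ℤ] ℚ_[l]

/-- Translation of functionals. -/
def funcAct : T →+* Module.End ℚ_[l] (FuncQ l T) where
  toFun t :=
    { toFun := fun η ↦ η ∘ₗ LinearMap.mulRight ℤ t
      map_add' := fun _ _ ↦ rfl
      map_smul' := fun _ _ ↦ rfl }
  map_one' := LinearMap.ext fun η ↦ LinearMap.ext fun s ↦ by simp
  map_mul' t t' := LinearMap.ext fun η ↦ LinearMap.ext fun s ↦ by
    simp [mul_comm t t', mul_assoc]
  map_zero' := LinearMap.ext fun η ↦ LinearMap.ext fun s ↦ by simp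
  map_add' t t' := LinearMap.ext fun η ↦ LinearMap.ext fun s ↦ by simp [mul_add]

theorem funcAct_apply (t : T) (η : FuncQ l T) (s : T) : funcAct l T t η s = η (s * t) := rfl

/-- The action of the rational algebra. -/
def funcHom : ℚ_[l] ⊗[ℤ] T →ₐ[ℚ_[l]] Module.End ℚ_[l] (FuncQ l T) :=
  Algebra.TensorProduct.lift (Algebra.ofId ℚ_[l] _) (funcAct l T).toIntAlgHom fun c t ↦
    show Commute _ _ from Algebra.commutes c _

instance instModuleFuncQ : Module (ℚ_[l] ⊗[ℤ] T) (FuncQ l T) :=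
  Module.compHom (FuncQ l T) (funcHom l T).toRingHom

theorem tmul_smul_apply (c : ℚ_[l]) (t : T) (η : FuncQ l T) (s : T) :
    ((c ⊗ₜ[ℤ] t) • η) s = c * η (s * t) := by
  show funcHom l T (c ⊗ₜ[ℤ] t) η s = _
  simp [funcHom, Algebra.TensorProduct.lift_tmul, Algebra.ofId_apply,
    Module.algebraMap_end_apply, funcAct_apply]

instance instTowerFuncQ : IsScalarTower ℚ_[l] (ℚ_[l] ⊗[ℤ] T) (FuncQ l T) :=
  ⟨fun c b η ↦ by
    show funcHom l T (c • b) η = c • funcHom l T b η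
    rw [map_smul, LinearMap.smul_apply]⟩

instance instTowerFuncZQ : IsScalarTower ℤ_[l] ℚ_[l] (FuncQ l T) :=
  ⟨fun a c η ↦ LinearMap.ext fun s ↦ smul_assoc a c (η s)⟩

instance instTowerFuncZB : IsScalarTower ℤ_[l] (ℚ_[l] ⊗[ℤ] T) (FuncQ l T) :=
  IsScalarTower.of_algebraMap_smul fun a η ↦ by
    rw [IsScalarTower.algebraMap_apply ℤ_[l] ℚ_[l] (ℚ_[l] ⊗[ℤ] T)]
    have h1 : (algebraMap ℚ_[l] (ℚ_[l] ⊗[ℤ] T) ((algebraMap ℤ_[l] ℚ_[l]) a)) • η =
        (algebraMap ℤ_[l] ℚ_[l]) a • η :=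
      algebraMap_smul (M := FuncQ l T) (ℚ_[l] ⊗[ℤ] T) _ η
    exact h1.trans (algebraMap_smul (M := FuncQ l T) ℚ_[l] a η)

/-- The inclusion of integral functionals. -/
def funcIncl : (T →ₗ[ℤ] ℤ_[l]) →ₗ[ℤ_[l]] FuncQ l T where
  toFun η := (PadicInt.Coe.ringHom (p := l)).toIntAlgHom.toLinearMap ∘ₗ η
  map_add' η η' := LinearMap.ext fun s ↦ by simp
  map_smul' a η := LinearMap.ext fun s ↦ by
    show ((a • η s : ℤ_[l]) : ℚ_[l]) = a • ((η s : ℤ_[l]) : ℚ_[l])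
    rw [Algebra.smul_def, Algebra.smul_def, PadicInt.coe_mul]
    rfl

theorem funcIncl_apply (η : T →ₗ[ℤ] ℤ_[l]) (s : T) : funcIncl l T η s = (η s : ℚ_[l]) := rfl

variable [Module.Free ℤ T] [Module.Finite ℤ T]

instance instFiniteFuncQ : Module.Finite (ℚ_[l] ⊗[ℤ] T) (FuncQ l T) :=
  haveI : Module.Finite ℚ_[l] (FuncQ l T) :=
    Module.Finite.equiv ((Module.Free.chooseBasis ℤ T).constr ℚ_[l] (M' := ℚ_[l]))
  Module.Finite.of_restrictScalars_finite ℚ_[l] _ _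

theorem eq_zero_of_forall_smul {b : ℚ_[l] ⊗[ℤ] T} (h : ∀ η : FuncQ l T, b • η = 0) : b = 0 := by
  classical
  let e := Module.Free.chooseBasis ℤ T
  let eB := Algebra.TensorProduct.basis ℚ_[l] e
  refine eB.ext_elem fun k ↦ ?_
  rw [map_zero, Finsupp.zero_apply]
  have h1 := LinearMap.congr_fun (h (e.constr ℚ_[l] (Pi.single k (1 : ℚ_[l])))) 1
  rw [← eB.sum_repr b, Finset.sum_smul, LinearMap.sum_apply, LinearMap.zero_apply] at h1
  rw [← h1, Finset.sum_eq_single k]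
  · rw [Algebra.TensorProduct.basis_apply, smul_assoc, LinearMap.smul_apply, tmul_smul_apply,
      one_mul, one_mul, Module.Basis.constr_basis, Pi.single_eq_same, smul_eq_mul, mul_one]
  · intro m _ hm
    rw [Algebra.TensorProduct.basis_apply, smul_assoc, LinearMap.smul_apply, tmul_smul_apply,
      one_mul, one_mul, Module.Basis.constr_basis, Pi.single_eq_of_ne hm, smul_zero]
  · intro hk; exact absurd (Finset.mem_univ k) hk

theorem eq_of_forall_pairAct {X Y : Matrix (Fin 2) (Fin 2) (ℚ_[l] ⊗[ℤ] T)}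
    (h : ∀ v : Fin 2 → FuncQ l T, pairAct X v = pairAct Y v) : X = Y := by
  ext i j
  refine sub_eq_zero.1 (eq_zero_of_forall_smul l T fun η ↦ ?_)
  have h1 := congrFun (h (Pi.single j η)) i
  fin_cases j <;> simp [pairAct_apply] at h1 <;> simp [sub_smul, h1]

end Funcs

/-- Scalars of the integral algebra inside the rational one. -/
def intHom (l : ℕ) [Fact l.Prime] (T : Type) [CommRing T] :
    ℤ_[l] ⊗[ℤ] T →ₐ[ℤ_[l]] ℚ_[l] ⊗[ℤ] T :=
  Algebra.TensorProduct.lift (Algebra.ofId ℤ_[l] _)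
    (Algebra.TensorProduct.includeRight : T →ₐ[ℤ] ℚ_[l] ⊗[ℤ] T) fun _ _ ↦ Commute.all _ _

/-- The scalars act on the lattice. -/
def latticeHom (l : ℕ) [Fact l.Prime] {T Λ : Type} [CommRing T] [AddCommGroup Λ] [Module ℤ_[l] Λ]
    (α : T →+* Module.End ℤ_[l] Λ) : ℤ_[l] ⊗[ℤ] T →ₐ[ℤ_[l]] Module.End ℤ_[l] Λ :=
  Algebra.TensorProduct.lift (Algebra.ofId ℤ_[l] _) α.toIntAlgHom fun c _ ↦
    show Commute _ _ from Algebra.commutes c _

/-- A lattice with commuting Galois and Hecke actions in coordinates. -/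
structure HeckeLattice (l p : ℕ) [Fact l.Prime] (T Λ : Type) [CommRing T] [AddCommGroup Λ]
    [Module ℤ_[l] Λ] where
  /-- the Galois action -/
  ρ : GG →* Module.End ℤ_[l] Λ
  /-- the Hecke action -/
  α : T →+* Module.End ℤ_[l] Λ
  comm : ∀ σ t w, α t (ρ σ w) = ρ σ (α t w)
  /-- coordinates -/
  ψ : Λ →ₗ[ℤ_[l]] (Fin 2 → (T →ₗ[ℤ] ℤ_[l]))
  ψ_inj : Function.Injective ψ
  ψ_α : ∀ s w i t, ψ (α s w) i t = ψ w i (t * s)
  /-- the exponent of the index -/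
  a : ℕ
  ψ_span : ∀ v, ∃ w, ψ w = ((l : ℤ_[l]) ^ a) • v
  cont : ∀ n : ℕ, ∃ V : Subgroup GG, IsOpen (V : Set GG) ∧
    ∀ σ ∈ V, ∀ w, ∃ y, ρ σ w - w = ((l : ℤ_[l]) ^ n) • y
  /-- the cyclotomic character -/
  χ : GG → ℤ_[l]
  cyclo : ∀ (n : ℕ) (σ : GG) (k : ℕ), (∀ ζ : QQb, ζ ^ l ^ n = 1 → σ ζ = ζ ^ k) →
    (l : ℤ_[l]) ^ n ∣ χ σ - k
  χ_mul : ∀ σ τ, χ (σ * τ) = χ σ * χ τ
  /-- the trace -/
  t : GG → ℤ_[l] ⊗[ℤ] T
  rel : ∀ σ w, ρ σ (ρ σ w) - latticeHom l α (t σ) (ρ σ w) + χ σ • w = 0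
  /-- the place over `l` -/
  Al : ValuationSubring (AlgebraicClosure ℚ)
  /-- the place over `p` -/
  Ap : ValuationSubring (AlgebraicClosure ℚ)
  liesl : Al.LiesOverPrime l
  liesp : Ap.LiesOverPrime p
  /-- places over the other primes -/
  place : ℕ → ValuationSubring (AlgebraicClosure ℚ)
  liesq : ∀ q : ℕ, q.Prime → (place q).LiesOverPrime q
  unram : ∀ q : ℕ, q.Prime → q ≠ p → q ≠ l → ∀ σ ∈ (place q).inertiaSubgroupIn ℚ, ∀ w, ρ σ w = w
  unip : ∀ σ ∈ Ap.inertiaSubgroupIn ℚ, ∀ w, ρ σ (ρ σ w - w) = ρ σ w - w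
  /-- the kernel of reduction -/
  K : Submodule ℤ_[l] Λ
  K_sat : ∀ w, (l : ℤ_[l]) • w ∈ K → w ∈ K
  K_α : ∀ (s : T), ∀ w ∈ K, α s w ∈ K
  htr : ∀ σ, ∃ (j : ℕ) (y : ℤ_[l] ⊗[ℤ] T),
    ∀ w, latticeHom l α ((t σ - 1 - algebraMap ℤ_[l] _ (χ σ)) ^ j - (l : ℤ_[l] ⊗[ℤ] T) * y) w ∈ K
  inertia : ∀ σ ∈ Al.inertiaSubgroupIn ℚ, ∀ w, ρ σ w - w ∈ K
  /-- a Frobenius element -/
  φl : GG
  φl_mem : φl ∈ Al.decompositionSubgroup ℚ
  φl_stable : ∀ w ∈ K, ρ φl w ∈ K
  frob : ∀ w, ρ φl (ρ φl w) - w ∈ K → w ∈ K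
  /-- an element at `p` -/
  φp : GG
  φp_mem : φp ∈ Ap.decompositionSubgroup ℚ
  φp_sq : χ φp ^ 2 ≠ 1

namespace HeckeLattice

variable {l p : ℕ} [Fact l.Prime] {T Λ : Type} [CommRing T] [Module.Free ℤ T] [Module.Finite ℤ T]
  [AddCommGroup Λ] [Module ℤ_[l] Λ] [Module.Finite ℤ_[l] Λ] (D : HeckeLattice l p T Λ)

local notation "BB" => (ℚ_[l] ⊗[ℤ] T)

/-- Rational coordinates. -/
def ψQ : Λ →ₗ[ℤ_[l]] (Fin 2 → FuncQ l T) :=
  LinearMap.pi fun i ↦ (funcIncl l T).comp ((LinearMap.proj i).comp D.ψ)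

theorem ψQ_apply (w : Λ) (i : Fin 2) (t : T) : D.ψQ w i t = (D.ψ w i t : ℚ_[l]) := rfl

theorem ψQ_inj : Function.Injective D.ψQ := fun w w' h ↦ D.ψ_inj <| funext fun i ↦
  LinearMap.ext fun t ↦ PadicInt.ext (LinearMap.congr_fun (congrFun h i) t)

theorem intHom_tmul (c : ℤ_[l]) (s : T) :
    intHom l T (c ⊗ₜ[ℤ] s) = (c : ℚ_[l]) ⊗ₜ[ℤ] s := by
  simp [intHom, Algebra.TensorProduct.lift_tmul, Algebra.ofId_apply,
    IsScalarTower.algebraMap_apply ℤ_[l] ℚ_[l] (ℚ_[l] ⊗[ℤ] T),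
    Algebra.TensorProduct.algebraMap_apply]

theorem ψQ_latHom (x : ℤ_[l] ⊗[ℤ] T) (w : Λ) :
    D.ψQ (latticeHom l D.α x w) = intHom l T x • D.ψQ w := by
  induction x using TensorProduct.induction_on with
  | zero =>
    rw [map_zero, map_zero, LinearMap.zero_apply, map_zero]
    exact (zero_smul (ℚ_[l] ⊗[ℤ] T) (D.ψQ w)).symm
  | add x y hx hy => rw [map_add, map_add, LinearMap.add_apply, map_add, hx, hy, add_smul]
  | tmul c s =>
    funext i
    refine LinearMap.ext fun t ↦ ?_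
    rw [Pi.smul_apply, intHom_tmul, tmul_smul_apply, ψQ_apply, ψQ_apply]
    rw [latticeHom, Algebra.TensorProduct.lift_tmul, Algebra.ofId_apply, Module.End.mul_apply,
      Module.algebraMap_end_apply, map_smul]
    show ((c • D.ψ (D.α s w)) i t : ℚ_[l]) = _
    rw [Pi.smul_apply, LinearMap.smul_apply, D.ψ_α, smul_eq_mul, PadicInt.coe_mul]

open Module in
/-- A bounded cocycle is a coboundary up to a stable submodule inside the kernel, killed by a
nonzero operator as soon as the kernel is not everything. -/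
theorem exists_coboundary_kill (hp : p.Prime) (hpl : p ≠ l) (κ : GG → Λ)
    (hκ : ∀ σ τ, κ (σ * τ) = κ σ + D.ρ σ (κ τ))
    (hcont : ∀ n : ℕ, ∃ V : Subgroup GG, IsOpen (V : Set GG) ∧
      ∀ σ ∈ V, ∃ y, κ σ = ((l : ℤ_[l]) ^ n) • y)
    (hu : ∀ q : ℕ, q.Prime → q ≠ p → q ≠ l → ∀ σ ∈ (D.place q).inertiaSubgroupIn ℚ, κ σ = 0)
    (hI : ∀ σ ∈ D.Al.inertiaSubgroupIn ℚ, κ σ ∈ D.K) :
    ∃ (S : Submodule ℤ_[l] Λ) (N : ℕ) (w : Λ), (∀ σ, ∀ s ∈ S, D.ρ σ s ∈ S) ∧ S ≤ D.K ∧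
      ((∃ v, v ∉ D.K) → ∃ x : ℤ_[l] ⊗[ℤ] T, x ≠ 0 ∧ ∀ s ∈ S, latticeHom l D.α x s = 0) ∧
      ∀ σ, ((l : ℤ_[l]) ^ N) • κ σ - (D.ρ σ w - w) ∈ S := by
  classical
  have hl0 : (l : ℚ_[l]) ≠ 0 := Nat.cast_ne_zero.2 (Fact.out : l.Prime).ne_zero
  let e := Module.Free.chooseBasis ℤ T
  let δ : Module.Free.ChooseBasisIndex ℤ T → (T →ₗ[ℤ] ℤ_[l]) :=
    fun k ↦ e.constr ℤ (Pi.single k (1 : ℤ_[l]))
  have hδ : ∀ k m, δ k (e m) = if m = k then 1 else 0 := fun k m ↦ by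
    simp [δ, Pi.single_apply]
  have hexp : ∀ η : T →ₗ[ℤ] ℤ_[l], ∀ t, η t = ∑ m, η (e m) * δ m t := fun η t ↦ by
    have : η = ∑ m, η (e m) • δ m := e.ext fun i ↦ by
      simp [LinearMap.sum_apply, hδ, smul_eq_mul]
    conv_lhs => rw [this]
    simp [LinearMap.sum_apply, smul_eq_mul]
  choose wb hwb using fun pk : Fin 2 × Module.Free.ChooseBasisIndex ℤ T ↦
    D.ψ_span (Pi.single pk.1 (δ pk.2))
  have hw_eq : ∀ w, ((l : ℤ_[l]) ^ D.a) • w = ∑ j, ∑ k, D.ψ w j (e k) • wb (j, k) := fun w ↦ by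
    refine D.ψ_inj (funext fun i ↦ LinearMap.ext fun t ↦ ?_)
    simp only [map_smul, map_sum, hwb, Finset.sum_apply, LinearMap.sum_apply, Pi.smul_apply,
      LinearMap.smul_apply, smul_eq_mul]
    rw [hexp (D.ψ w i) t, Finset.mul_sum, Fin.sum_univ_two]
    fin_cases i <;> simp [mul_left_comm, mul_comm]
  have hα_wb : ∀ s j k, D.α s (wb (j, k)) = ∑ m, δ k (e m * s) • wb (j, m) := fun s j k ↦ by
    refine D.ψ_inj (funext fun i ↦ LinearMap.ext fun t ↦ ?_)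
    rw [D.ψ_α]
    simp only [map_smul, map_sum, hwb, Finset.sum_apply, LinearMap.sum_apply, Pi.smul_apply,
      LinearMap.smul_apply, smul_eq_mul]
    by_cases hij : i = j
    · subst hij
      simp only [Pi.single_eq_same]
      have h := hexp (δ k ∘ₗ LinearMap.mulRight ℤ s) t
      simp only [LinearMap.comp_apply, LinearMap.mulRight_apply] at h
      rw [h, Finset.mul_sum]
      exact Finset.sum_congr rfl fun m _ ↦ by ring
    · simp [Pi.single_eq_of_ne hij]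
  -- the matrices, linearly in the images of the adapted vectors
  let Θ : (Fin 2 × Module.Free.ChooseBasisIndex ℤ T → Λ) →ₗ[ℤ_[l]] Matrix (Fin 2) (Fin 2) BB :=
    { toFun := fun W ↦ Matrix.of fun i j ↦
        ∑ k, ((((l : ℚ_[l]) ^ D.a)⁻¹ * (D.ψ (W (j, k)) i 1 : ℚ_[l])) ⊗ₜ[ℤ] e k)
      map_add' := fun W W' ↦ by
        ext i j
        simp [Matrix.add_apply, mul_add, TensorProduct.add_tmul, Finset.sum_add_distrib]
      map_smul' := fun c W ↦ by
        ext i j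
        simp only [Matrix.of_apply, Matrix.smul_apply, Pi.smul_apply, RingHom.id_apply, map_smul,
          LinearMap.smul_apply, smul_eq_mul, PadicInt.coe_mul, Finset.smul_sum, smul_tmul']
        refine Finset.sum_congr rfl fun k _ ↦ ?_
        congr 1
        rw [Algebra.smul_def, PadicInt.algebraMap_apply]
        ring }
  let M : GG → Matrix (Fin 2) (Fin 2) BB := fun σ ↦ Θ fun jk ↦ D.ρ σ (wb jk)
  have hψQ_span : ∀ v : Fin 2 → FuncQ l T, ∃ (N : ℕ) (w : Λ),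
      D.ψQ w = (l : ℚ_[l]) ^ N • v := fun v ↦ by
    have hN : ∀ pk : Fin 2 × Module.Free.ChooseBasisIndex ℤ T, ∃ N : ℕ,
        ‖(l : ℚ_[l]) ^ N * v pk.1 (e pk.2)‖ ≤ 1 := fun pk ↦ by
      obtain ⟨N, hN⟩ := exists_natCast_pow_mul_mem (l := l) (K := ℚ_[l]) (v pk.1 (e pk.2))
      obtain ⟨z, hz⟩ := IsIntegrallyClosed.isIntegral_iff.1 hN
      exact ⟨N, hz ▸ z.2⟩
    choose Nf hNf using hN
    let N := Finset.univ.sup Nf
    have hle : ∀ pk : Fin 2 × Module.Free.ChooseBasisIndex ℤ T,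
        ‖(l : ℚ_[l]) ^ N * v pk.1 (e pk.2)‖ ≤ 1 := fun pk ↦ by
      obtain ⟨d, hd⟩ := Nat.exists_eq_add_of_le (Finset.le_sup (f := Nf) (Finset.mem_univ pk))
      rw [show N = Nf pk + d from hd, pow_add, mul_right_comm, norm_mul, norm_pow]
      refine mul_le_one₀ (hNf pk) (by positivity) (pow_le_one₀ (norm_nonneg _) ?_)
      exact (PadicInt.coe_natCast (p := l) l) ▸ (l : ℤ_[l]).2
    let g : Fin 2 → Module.Free.ChooseBasisIndex ℤ T → ℤ_[l] := fun i k ↦ ⟨_, hle (i, k)⟩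
    have hg : ∀ i k, (g i k : ℚ_[l]) = (l : ℚ_[l]) ^ N * v i (e k) := fun _ _ ↦ rfl
    obtain ⟨w, hw⟩ := D.ψ_span fun i ↦ e.constr ℤ (g i)
    refine ⟨D.a + N, w, funext fun i ↦ e.ext fun k ↦ ?_⟩
    have hwk : D.ψ w i (e k) = ((l : ℤ_[l]) ^ D.a) * g i k := by
      rw [hw, Pi.smul_apply, LinearMap.smul_apply, smul_eq_mul, Module.Basis.constr_basis]
    rw [ψQ_apply, hwk, PadicInt.coe_mul, PadicInt.coe_pow, PadicInt.coe_natCast, hg, Pi.smul_apply,
      LinearMap.smul_apply, smul_eq_mul, pow_add, mul_assoc]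
  have hMψ : ∀ σ w, D.ψQ (D.ρ σ w) = pairAct (M σ) (D.ψQ w) := fun σ w ↦ by
    funext i
    refine LinearMap.ext fun t ↦ mul_left_cancel₀ (pow_ne_zero D.a hl0) ?_
    have h1 : ((l : ℤ_[l]) ^ D.a) * D.ψ (D.ρ σ w) i t =
        ∑ j, ∑ k, D.ψ w j (e k) * ∑ m, δ k (e m * t) * D.ψ (D.ρ σ (wb (j, m))) i 1 := by
      have h2 : ∀ j k, D.ψ (D.ρ σ (wb (j, k))) i t =
          ∑ m, δ k (e m * t) * D.ψ (D.ρ σ (wb (j, m))) i 1 := fun j k ↦ by
        have h3 := D.ψ_α t (D.ρ σ (wb (j, k))) i 1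
        rw [one_mul, D.comm, hα_wb] at h3
        rw [← h3]
        simp [map_sum, map_smul, Finset.sum_apply, LinearMap.sum_apply, smul_eq_mul]
      have h4 := congrArg (fun z ↦ D.ψ (D.ρ σ z) i t) (hw_eq w)
      simp only [map_sum, map_smul, Finset.sum_apply, LinearMap.sum_apply, Pi.smul_apply,
        LinearMap.smul_apply, smul_eq_mul] at h4
      rw [h4]
      exact Finset.sum_congr rfl fun j _ ↦ Finset.sum_congr rfl fun k _ ↦ by rw [h2]
    have h5 := congrArg (fun z : ℤ_[l] ↦ (z : ℚ_[l])) h1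
    simp only [PadicInt.coe_mul, PadicInt.coe_pow, PadicInt.coe_natCast] at h5
    rw [ψQ_apply, h5]
    have hcoeM : ∀ j, (M σ i j • D.ψQ w j) t =
        ∑ m, ((l : ℚ_[l]) ^ D.a)⁻¹ * (D.ψ (D.ρ σ (wb (j, m))) i 1 : ℚ_[l]) *
          (D.ψ w j (t * e m) : ℚ_[l]) := fun j ↦ by
      show ((∑ k, (((l : ℚ_[l]) ^ D.a)⁻¹ * (D.ψ (D.ρ σ (wb (j, k))) i 1 : ℚ_[l])) ⊗ₜ[ℤ] e k) •
        D.ψQ w j) t = _
      rw [Finset.sum_smul, LinearMap.sum_apply]
      exact Finset.sum_congr rfl fun m _ ↦ by rw [tmul_smul_apply, ψQ_apply]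
    rw [pairAct_apply, LinearMap.add_apply, hcoeM, hcoeM, mul_add, Fin.sum_univ_two]
    have hj : ∀ j : Fin 2, (((∑ k, D.ψ w j (e k) *
        ∑ m, δ k (e m * t) * D.ψ (D.ρ σ (wb (j, m))) i 1 : ℤ_[l])) : ℚ_[l]) =
          (l : ℚ_[l]) ^ D.a * ∑ m, ((l : ℚ_[l]) ^ D.a)⁻¹ *
            (D.ψ (D.ρ σ (wb (j, m))) i 1 : ℚ_[l]) * (D.ψ w j (t * e m) : ℚ_[l]) := fun j ↦ by
      rw [Finset.mul_sum]
      simp only [Finset.mul_sum]
      refine (congrArg (fun z : ℤ_[l] ↦ (z : ℚ_[l])) (Finset.sum_comm (γ := _) ..)).trans ?_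
      refine (map_sum (PadicInt.Coe.ringHom (p := l)) _ _).trans ?_
      refine Finset.sum_congr rfl fun m _ ↦ ?_
      rw [← mul_assoc, ← mul_assoc, mul_inv_cancel₀ (pow_ne_zero D.a hl0), one_mul,
        hexp (D.ψ w j) (t * e m), ← PadicInt.coe_mul, Finset.mul_sum]
      refine congrArg (fun z : ℤ_[l] ↦ (z : ℚ_[l])) ?_
      exact Finset.sum_congr rfl fun k _ ↦ by rw [mul_comm t]; ring
    rw [PadicInt.coe_add, hj, hj]
  have hact : ∀ σ v, ∃ (N : ℕ) (w : Λ), (l : ℚ_[l]) ^ N • pairAct (M σ) v = D.ψQ (D.ρ σ w) ∧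
      (l : ℚ_[l]) ^ N • v = D.ψQ w := fun σ v ↦ by
    obtain ⟨N, w, hw⟩ := hψQ_span v
    exact ⟨N, w, by rw [hMψ, hw]; exact (LinearMap.map_smul_of_tower _ _ _).symm, hw.symm⟩
  have hM_one : M 1 = 1 := eq_of_forall_pairAct l T fun v ↦ by
    obtain ⟨N, w, h1, h2⟩ := hact 1 v
    rw [map_one, Module.End.one_apply, ← h2] at h1
    rw [pairAct_one, smul_right_injective _ (pow_ne_zero N hl0) h1]
  have hM_mul : ∀ σ τ, M (σ * τ) = M σ * M τ := fun σ τ ↦ eq_of_forall_pairAct l T fun v ↦ by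
    obtain ⟨N, w, h1, h2⟩ := hact (σ * τ) v
    refine smul_right_injective _ (pow_ne_zero N hl0) ?_
    show (l : ℚ_[l]) ^ N • _ = (l : ℚ_[l]) ^ N • _
    rw [h1, map_mul, Module.End.mul_apply, hMψ, hMψ, ← h2, pairAct_mul,
      ← LinearMap.map_smul_of_tower, ← LinearMap.map_smul_of_tower]
  have hclear : ∀ b : BB, ∃ (N : ℕ) (x : ℤ_[l] ⊗[ℤ] T), intHom l T x = (l : ℚ_[l]) ^ N • b := by
    intro b
    induction b using TensorProduct.induction_on with
    | zero => exact ⟨0, 0, by rw [map_zero, smul_zero]⟩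
    | tmul c s =>
      obtain ⟨N, hN⟩ := exists_natCast_pow_mul_mem (l := l) (K := ℚ_[l]) c
      obtain ⟨z, hz⟩ := IsIntegrallyClosed.isIntegral_iff.1 hN
      exact ⟨N, z ⊗ₜ[ℤ] s, by rw [intHom_tmul, smul_tmul', smul_eq_mul, ← hz]; rfl⟩
    | add b b' hb hb' =>
      obtain ⟨N, x, hx⟩ := hb
      obtain ⟨N', x', hx'⟩ := hb'
      refine ⟨N + N', ((l : ℤ_[l]) ^ N') • x + ((l : ℤ_[l]) ^ N) • x', ?_⟩
      rw [map_add, map_smul, map_smul, hx, hx', smul_add,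
        ← IsScalarTower.algebraMap_smul ℚ_[l] ((l : ℤ_[l]) ^ N'),
        ← IsScalarTower.algebraMap_smul ℚ_[l] ((l : ℤ_[l]) ^ N), map_pow, map_pow,
        map_natCast, smul_smul, smul_smul, ← pow_add, ← pow_add, add_comm N' N]
  let F : Frame l p BB (FuncQ l T) Λ :=
    { ρ := D.ρ
      ψ := D.ψQ
      ψ_inj := D.ψQ_inj
      ψ_span := hψQ_span
      M := M
      M_ψ := hMψ
      M_one := hM_one
      M_mul := hM_mul
      bdd := (Bdd.map (f := fun σ jk ↦ D.ρ σ (wb jk))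
        ⟨⊤, Module.Finite.fg_top, fun _ ↦ Submodule.mem_top⟩ Θ).congr fun σ ↦ rfl
      cont := by
        refine (Tends0.map (f := fun σ jk ↦ D.ρ σ (wb jk) - wb jk)
          ⟨⊤, Module.Finite.fg_top, fun n ↦ ?_⟩ Θ).congr fun σ ↦ ?_
        · obtain ⟨V, hV, hV'⟩ := D.cont n
          refine ⟨V, hV, fun σ hσ ↦ ?_⟩
          choose y hy using fun jk ↦ hV' σ hσ (wb jk)
          exact ⟨y, Submodule.mem_top, funext hy⟩
        · show _ = M σ - 1
          rw [← hM_one]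
          show _ = Θ _ - Θ _
          rw [← map_sub]
          congr 1
          funext jk
          rw [Pi.sub_apply, map_one, Module.End.one_apply]
      χ := D.χ
      cyclo := D.cyclo
      χ_mul := D.χ_mul
      t := fun σ ↦ intHom l T (D.t σ)
      rel := fun σ ↦ eq_of_forall_pairAct l T fun v ↦ by
        obtain ⟨N, w, h1, h2⟩ := hact σ v
        rw [pairAct_zero]
        refine smul_right_injective _ (pow_ne_zero N hl0) ?_
        show (l : ℚ_[l]) ^ N • _ = (l : ℚ_[l]) ^ N • _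
        have h := congrArg D.ψQ (D.rel σ w)
        rw [map_add, map_sub, hMψ, hMψ, ψQ_latHom, hMψ, map_smul, map_zero, ← h2] at h
        rw [smul_zero, pairAct_add, pairAct_sub, pairAct_smul, pairAct_smul, pairAct_mul,
          pairAct_one, smul_add, smul_sub]
        rw [← IsScalarTower.algebraMap_smul BB (D.χ σ)] at h
        simp only [LinearMap.map_smul_of_tower] at h
        rw [smul_comm ((l : ℚ_[l]) ^ N) (intHom l T (D.t σ)),
          smul_comm ((l : ℚ_[l]) ^ N) (algebraMap ℤ_[l] BB (D.χ σ))]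
        exact h
      t_int := fun σ ↦ (Algebra.IsIntegral.isIntegral (R := ℤ_[l]) (D.t σ)).map (intHom l T)
      Al := D.Al
      Ap := D.Ap
      liesl := D.liesl
      liesp := D.liesp
      place := D.place
      liesq := D.liesq
      unram := fun q h1 h2 h3 σ hσ ↦ eq_of_forall_pairAct l T fun v ↦ by
        obtain ⟨N, w, e1, e2⟩ := hact σ v
        rw [D.unram q h1 h2 h3 σ hσ, ← e2] at e1
        rw [pairAct_one, smul_right_injective _ (pow_ne_zero N hl0) e1]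
      unip := fun σ hσ ↦ eq_of_forall_pairAct l T fun v ↦ by
        obtain ⟨N, w, e1, e2⟩ := hact σ v
        refine smul_right_injective _ (pow_ne_zero N hl0) ?_
        show (l : ℚ_[l]) ^ N • _ = (l : ℚ_[l]) ^ N • _
        rw [pairAct_zero, smul_zero, pairAct_mul, ← LinearMap.map_smul_of_tower,
          ← LinearMap.map_smul_of_tower, e2]
        simp only [pairAct_sub, pairAct_one]
        rw [← hMψ, ← map_sub, ← hMψ, ← map_sub, D.unip σ hσ w, sub_self, map_zero]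
      K := D.K
      K_sat := D.K_sat
      K_smul := fun b w hw ↦ by
        obtain ⟨N, x, hx⟩ := hclear b
        refine ⟨N, latticeHom l D.α x w, ?_, by rw [ψQ_latHom, hx, smul_assoc]⟩
        clear hx
        induction x using TensorProduct.induction_on with
        | zero => rw [map_zero, LinearMap.zero_apply]; exact zero_mem _
        | add x y hx hy => rw [map_add, LinearMap.add_apply]; exact add_mem hx hy
        | tmul c s =>
          rw [latticeHom, Algebra.TensorProduct.lift_tmul, Algebra.ofId_apply, Module.End.mul_apply,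
            Module.algebraMap_end_apply]
          exact D.K.smul_mem _ (D.K_α s w hw)
      htr := fun σ ↦ by
        obtain ⟨j, y, hy⟩ := D.htr σ
        refine ⟨j, intHom l T y,
          (Algebra.IsIntegral.isIntegral (R := ℤ_[l]) y).map (intHom l T), fun w ↦
          ⟨0, _, hy w, ?_⟩⟩
        rw [pow_zero, one_smul, ψQ_latHom, map_sub, map_pow, map_sub, map_sub, map_one,
          AlgHom.commutes, map_mul, map_natCast]
      inertia := D.inertia
      φl := D.φl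
      φl_mem := D.φl_mem
      φl_stable := D.φl_stable
      frob := D.frob
      φp := D.φp
      φp_mem := D.φp_mem
      φp_sq := D.φp_sq }
  obtain ⟨S, N, w, h1, h2, hslot, h3⟩ := F.exists_coboundary_slots hp hpl κ hκ hcont hu hI
  refine ⟨S, N, w, h1, h2, fun ⟨v, hv⟩ ↦ ?_, h3⟩
  obtain ⟨η₀, hη₀⟩ : ∃ η, η ∉ F.E0 := by
    by_contra hall
    push Not at hall
    exact hv (F.mem_K_of_ψ (F.pair_mem_ZE fun i ↦ hall _))
  obtain ⟨φ, hφ0, hφ⟩ := Submodule.exists_le_ker_of_lt_top (F.E0.restrictScalars ℚ_[l])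
    (lt_top_iff_ne_top.2 fun h ↦ hη₀ (h ▸ Submodule.mem_top :
      η₀ ∈ F.E0.restrictScalars ℚ_[l]))
  let c : Module.Free.ChooseBasisIndex ℤ T → ℚ_[l] := fun k ↦
    φ (funcIncl l T (e.constr ℤ (Pi.single k (1 : ℤ_[l]))))
  have hφc : ∀ η : FuncQ l T, φ η = ∑ k, c k * η (e k) := fun η ↦ by
    have h : η = ∑ k, η (e k) • funcIncl l T (e.constr ℤ (Pi.single k (1 : ℤ_[l]))) :=
      e.ext fun m ↦ by
        simp only [LinearMap.sum_apply, LinearMap.smul_apply, funcIncl_apply,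
          Module.Basis.constr_basis, smul_eq_mul, Pi.single_apply]
        rw [Finset.sum_eq_single m (fun k _ hk ↦ by rw [if_neg fun h ↦ hk h.symm]; simp)
          (fun h ↦ absurd (Finset.mem_univ m) h)]
        simp
    conv_lhs => rw [h]
    simp only [map_sum, map_smul, smul_eq_mul, c, mul_comm]
  set b : BB := ∑ k, c k ⊗ₜ[ℤ] e k
  have hb : ∀ (η : FuncQ l T) (t : T), (b • η) t = φ (((1 : ℚ_[l]) ⊗ₜ[ℤ] t) • η) := fun η t ↦ by
    rw [hφc, Finset.sum_smul, LinearMap.sum_apply]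
    refine Finset.sum_congr rfl fun k _ ↦ ?_
    rw [tmul_smul_apply, tmul_smul_apply, one_mul, mul_comm t]
  have hb0 : b ≠ 0 := fun h ↦ hφ0 (LinearMap.ext fun η ↦ by
    have e1 := hb η 1
    rw [h, show (0 : BB) • η = 0 from zero_smul BB η, ← Algebra.TensorProduct.one_def,
      show (1 : BB) • η = η from one_smul BB η] at e1
    exact e1.symm)
  have hbE : ∀ η ∈ F.E0, b • η = 0 := fun η hη ↦ LinearMap.ext fun t ↦ by
    rw [hb]
    exact hφ (F.E0.smul_mem ((1 : ℚ_[l]) ⊗ₜ[ℤ] t) hη)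
  obtain ⟨M', x, hx⟩ := hclear b
  refine ⟨x, fun h ↦ hb0 ?_, fun s hs ↦ D.ψQ_inj ?_⟩
  · rw [h, map_zero] at hx
    exact (smul_eq_zero.1 hx.symm).resolve_left (pow_ne_zero _ hl0)
  · rw [ψQ_latHom, map_zero, hx]
    funext i
    rw [Pi.smul_apply, smul_assoc, hbE _ (hslot s hs i), smul_zero, Pi.zero_apply]

/-- A bounded cocycle is a coboundary up to a stable submodule inside the kernel. -/
theorem exists_coboundary (hp : p.Prime) (hpl : p ≠ l) (κ : GG → Λ)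
    (hκ : ∀ σ τ, κ (σ * τ) = κ σ + D.ρ σ (κ τ))
    (hcont : ∀ n : ℕ, ∃ V : Subgroup GG, IsOpen (V : Set GG) ∧
      ∀ σ ∈ V, ∃ y, κ σ = ((l : ℤ_[l]) ^ n) • y)
    (hu : ∀ q : ℕ, q.Prime → q ≠ p → q ≠ l → ∀ σ ∈ (D.place q).inertiaSubgroupIn ℚ, κ σ = 0)
    (hI : ∀ σ ∈ D.Al.inertiaSubgroupIn ℚ, κ σ ∈ D.K) :
    ∃ (S : Submodule ℤ_[l] Λ) (N : ℕ) (w : Λ), (∀ σ, ∀ s ∈ S, D.ρ σ s ∈ S) ∧ S ≤ D.K ∧
      ∀ σ, ((l : ℤ_[l]) ^ N) • κ σ - (D.ρ σ w - w) ∈ S := by
  obtain ⟨S, N, w, h1, h2, -, h3⟩ := D.exists_coboundary_kill hp hpl κ hκ hcont hu hI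
  exact ⟨S, N, w, h1, h2, h3⟩

end HeckeLattice

end FLTAgent.Mazur
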