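import Fermat.Agent.Mazur.Coeff
import Mathlib.RingTheory.DedekindDomain.IntegralClosure
import Mathlib.RingTheory.DiscreteValuationRing.TFAE

/-!
# Idempotents in algebras finite over `ℤ_l`

Every element of a finite free `ℤ_l`-algebra is a unit on one factor and topologically nilpotent on
the other. In particular a finite free domain is local.
-/

set_option autoImplicit false
set_option linter.overlappingInstances false
set_option linter.unusedSectionVars false

noncomputable section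

namespace FLTAgent.Mazur

section Monoid

variable {M : Type*} [Monoid M]

theorem exists_idempotent_pow [Finite M] (x : M) :
    ∃ N : ℕ, 1 ≤ N ∧ x ^ N * x ^ N = x ^ N := by
  obtain ⟨i, j, hij, h⟩ : ∃ i j : ℕ, i < j ∧ x ^ i = x ^ j := by
    obtain ⟨i, j, hne, h⟩ := Finite.exists_ne_map_eq_of_infinite fun n : ℕ ↦ x ^ n
    rcases hne.lt_or_gt with h' | h'
    · exact ⟨i, j, h', h⟩
    · exact ⟨j, i, h', h.symm⟩
  set P := j - i
  have step : ∀ m, i ≤ m → ∀ k : ℕ, x ^ (m + k * P) = x ^ m := by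
    intro m hm k
    induction k with
    | zero => simp
    | succ k ih =>
      rw [show m + (k + 1) * P = (m + k * P - i) + j by
        have : j = i + P := by omega
        rw [add_mul, one_mul]; omega, pow_add, ← h, ← pow_add,
        show m + k * P - i + i = m + k * P by omega, ih]
  refine ⟨(i + 1) * P, Nat.one_le_iff_ne_zero.mpr (by simp [P]; omega), ?_⟩
  rw [← pow_add]
  exact step _ (le_trans (Nat.le_succ i) (Nat.le_mul_of_pos_right _ (by omega))) (i + 1)

theorem idempotent_pow_unique (x : M) {a b : ℕ} (ha : 1 ≤ a) (hb : 1 ≤ b)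
    (ha' : x ^ a * x ^ a = x ^ a) (hb' : x ^ b * x ^ b = x ^ b) : x ^ a = x ^ b := by
  have h : ∀ {y : M} (k : ℕ), 1 ≤ k → y * y = y → y ^ k = y := fun {y} k hk hy ↦ by
    induction k, hk using Nat.le_induction with
    | base => rw [pow_one]
    | succ n _ ih => rw [pow_succ, ih, hy]
  calc x ^ a = (x ^ a) ^ b := (h b hb ha').symm
    _ = (x ^ b) ^ a := by rw [← pow_mul, ← pow_mul, mul_comm]
    _ = x ^ b := h a ha hb'

end Monoid

variable {l : ℕ} [Fact l.Prime] {R : Type} [CommRing R] [Algebra ℤ_[l] R]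
  [Module.Finite ℤ_[l] R] [Module.Free ℤ_[l] R]

local notation "ι" => Module.Free.ChooseBasisIndex ℤ_[l] R
local notation "bas" => Module.Free.chooseBasis ℤ_[l] R

theorem natCast_pow_mul_eq_smul' (k : ℕ) (y : R) :
    (l : R) ^ k * y = ((l : ℤ_[l]) ^ k) • y := by
  rw [Algebra.smul_def, map_pow, map_natCast]

theorem dvd_of_coord_dvd {n : ℕ} {x : R}
    (h : ∀ i, PadicInt.toZModPow n ((bas).repr x i) = 0) : (l : R) ^ n ∣ x := by
  have hc : ∀ i, (l : ℤ_[l]) ^ n ∣ (bas).repr x i := fun i ↦ by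
    have h1 := h i
    rwa [← RingHom.mem_ker, PadicInt.ker_toZModPow, Ideal.mem_span_singleton] at h1
  choose t ht using hc
  refine ⟨∑ i, t i • bas i, ?_⟩
  rw [natCast_pow_mul_eq_smul', Finset.smul_sum]
  conv_lhs => rw [← (bas).sum_repr x]
  exact Finset.sum_congr rfl fun i _ ↦ by rw [ht i, mul_smul]

theorem coord_eq_zero_of_dvd {n : ℕ} {x : R} (h : (l : R) ^ n ∣ x) (i : ι) :
    PadicInt.toZModPow n ((bas).repr x i) = 0 := by
  obtain ⟨y, rfl⟩ := h
  rw [natCast_pow_mul_eq_smul', map_smul, Finsupp.smul_apply, smul_eq_mul, map_mul,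
    toZModPow_natCast_pow, zero_mul]

theorem finite_quotient_natCast_pow (n : ℕ) : Finite (R ⧸ Ideal.span {(l : R) ^ n}) := by
  classical
  haveI : NeZero (l ^ n) := ⟨pow_ne_zero _ (Fact.out : l.Prime).ne_zero⟩
  let f : (R ⧸ Ideal.span {(l : R) ^ n}) → ι → ZMod (l ^ n) := fun q i ↦
    PadicInt.toZModPow n ((bas).repr q.out i)
  refine Finite.of_injective f fun a b h ↦ ?_
  rw [← Ideal.Quotient.mk_out a, ← Ideal.Quotient.mk_out b, Ideal.Quotient.eq, Ideal.mem_span_singleton]
  refine dvd_of_coord_dvd fun i ↦ ?_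
  rw [map_sub, Finsupp.sub_apply, map_sub, sub_eq_zero]
  exact congrFun h i

theorem eq_zero_of_forall_natCast_pow_dvd {x : R} (h : ∀ n : ℕ, (l : R) ^ n ∣ x) : x = 0 := by
  refine (bas).repr.injective (Finsupp.ext fun i ↦ PadicInt.ext_of_toZModPow.mp fun n ↦ ?_)
  rw [coord_eq_zero_of_dvd (h n) i, map_zero, Finsupp.zero_apply, map_zero]

/-- `l`-adic completeness. -/
theorem exists_limit_natCast (f : ℕ → R) (hf : ∀ n, (l : R) ^ n ∣ f (n + 1) - f n) :
    ∃ x, ∀ n, (l : R) ^ n ∣ x - f n := by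
  have hc : ∀ i, ∀ k, (l : ℤ_[l]) ^ k ∣ (bas).repr (f (k + 1)) i - (bas).repr (f k) i := by
    intro i k
    obtain ⟨y, hy⟩ := hf k
    refine ⟨(bas).repr y i, ?_⟩
    rw [natCast_pow_mul_eq_smul'] at hy
    rw [← Finsupp.sub_apply, ← map_sub, hy, map_smul, Finsupp.smul_apply, smul_eq_mul]
  have hlim : ∀ i, ∃ z : ℤ_[l], ∀ k, (l : ℤ_[l]) ^ k ∣ z - (bas).repr (f k) i := fun i ↦ by
    obtain ⟨z, hz⟩ := IsPrecomplete.prec (I := IsLocalRing.maximalIdeal ℤ_[l]) inferInstance
      (f := fun k => (bas).repr (f k) i) (fun {m n} hmn ↦ by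
        rw [SModEq.sub_mem, smul_eq_mul, Ideal.mul_top, PadicInt.maximalIdeal_eq_span_p,
          Ideal.span_singleton_pow, Ideal.mem_span_singleton, ← neg_sub, dvd_neg]
        exact pow_dvd_sub_of_le (f := fun k => (bas).repr (f k) i) (hc i) hmn)
    refine ⟨z, fun k ↦ ?_⟩
    have h := hz k
    rw [SModEq.sub_mem, smul_eq_mul, Ideal.mul_top, PadicInt.maximalIdeal_eq_span_p,
      Ideal.span_singleton_pow, Ideal.mem_span_singleton] at h
    rwa [← dvd_neg, neg_sub] at h
  choose z hz using hlim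
  refine ⟨∑ i, z i • bas i, fun n ↦ dvd_of_coord_dvd fun i ↦ ?_⟩
  rw [map_sub, Finsupp.sub_apply, (bas).repr_sum_self z, ← RingHom.mem_ker,
    PadicInt.ker_toZModPow, Ideal.mem_span_singleton]
  exact hz i n

variable (l) in
/-- An element is a unit on `e R` and topologically nilpotent on `(1 - e) R`. -/
theorem exists_idempotent (x : R) : ∃ e : R, e * e = e ∧
    ∀ k : ℕ, ∃ N : ℕ, 1 ≤ N ∧ (l : R) ^ k ∣ e - x ^ N := by
  have hN : ∀ k : ℕ, ∃ N : ℕ, 1 ≤ N ∧ (l : R) ^ k ∣ x ^ N * x ^ N - x ^ N := fun k ↦ by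
    haveI := finite_quotient_natCast_pow (l := l) (R := R) k
    obtain ⟨N, hN1, hN⟩ := exists_idempotent_pow (Ideal.Quotient.mk (Ideal.span {(l : R) ^ k}) x)
    refine ⟨N, hN1, ?_⟩
    rwa [← map_pow, ← map_mul, Ideal.Quotient.eq, Ideal.mem_span_singleton] at hN
  choose N hN1 hN using hN
  have hcompat : ∀ k, (l : R) ^ k ∣ x ^ N (k + 1) - x ^ N k := fun k ↦ by
    rw [← Ideal.mem_span_singleton, ← Ideal.Quotient.eq, map_pow, map_pow]
    refine idempotent_pow_unique _ (hN1 _) (hN1 _) ?_ ?_ <;>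
      rw [← map_pow, ← map_mul, Ideal.Quotient.eq, Ideal.mem_span_singleton]
    · exact (pow_dvd_pow _ k.le_succ).trans (hN (k + 1))
    · exact hN k
  obtain ⟨e, he⟩ := exists_limit_natCast (l := l) (fun k ↦ x ^ N k) hcompat
  refine ⟨e, sub_eq_zero.mp (eq_zero_of_forall_natCast_pow_dvd (l := l) fun k ↦ ?_),
    fun k ↦ ⟨N k, hN1 k, he k⟩⟩
  rw [show e * e - e = (e - x ^ N k) * (e + x ^ N k) - (e - x ^ N k) +
    (x ^ N k * x ^ N k - x ^ N k) by ring]
  exact (((he k).mul_right _).sub (he k)).add (hN k)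

variable [IsDomain R]

variable (l) in
/-- In a domain every element is a unit or topologically nilpotent. -/
theorem isUnit_or_pow_dvd (x : R) : IsUnit x ∨ ∃ N : ℕ, (l : R) ∣ x ^ N := by
  obtain ⟨e, he, h⟩ := exists_idempotent l x
  obtain ⟨N, hN1, hN⟩ := h 1
  rw [pow_one] at hN
  rcases mul_eq_zero.mp (show e * (e - 1) = 0 by linear_combination he) with h0 | h1
  · exact Or.inr ⟨N, by rwa [h0, zero_sub, dvd_neg] at hN⟩
  · refine Or.inl ?_
    rw [sub_eq_zero.mp h1] at hN
    obtain ⟨c, hc⟩ := hN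
    -- `1 - l c` is a unit by completeness
    obtain ⟨s, hs⟩ := exists_limit_natCast (l := l) (R := R)
      (fun k ↦ ∑ i ∈ Finset.range k, ((l : R) * c) ^ i) fun k ↦ by
        rw [Finset.sum_range_succ, add_sub_cancel_left, mul_pow]; exact dvd_mul_right _ _
    refine isUnit_of_dvd_one (dvd_trans (dvd_pow_self x (by omega : N ≠ 0)) ⟨s, ?_⟩)
    refine (sub_eq_zero.mp (eq_zero_of_forall_natCast_pow_dvd (l := l) fun k ↦ ?_)).symm
    have hg := mul_neg_geom_sum ((l : R) * c) k
    rw [show x ^ N * s - 1 = (1 - (l : R) * c) * (s - ∑ i ∈ Finset.range k, ((l : R) * c) ^ i) -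
      ((l : R) * c) ^ k by
        rw [show x ^ N = 1 - (l : R) * c by linear_combination -hc]; linear_combination hg]
    exact ((hs k).mul_left _).sub (by rw [mul_pow]; exact dvd_mul_right _ _)

variable (l) in
include l in
theorem isLocalRing_of_finite : IsLocalRing R := by
  refine IsLocalRing.of_nonunits_add fun a b ha hb hab ↦ ?_
  obtain ⟨N, hN⟩ := (isUnit_or_pow_dvd l a).resolve_left ha
  obtain ⟨M, hM⟩ := (isUnit_or_pow_dvd l b).resolve_left hb
  have hd : (l : R) ∣ (a + b) ^ (N + M) := by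
    rw [add_pow]
    refine Finset.dvd_sum fun i _ ↦ ?_
    rcases le_or_gt N i with h | h
    · exact ((hN.trans (pow_dvd_pow a h)).mul_right _).mul_right _
    · exact ((hM.trans (pow_dvd_pow b (by omega))).mul_left _).mul_right _
  exact natCast_prime_not_isUnit (isUnit_of_dvd_unit hd (hab.pow _))

variable (l) in
include l in
theorem isDiscreteValuationRing_of_finite [IsDedekindDomain R] : IsDiscreteValuationRing R := by
  haveI := isLocalRing_of_finite l (R := R)
  have hf : ¬ IsField R := fun h ↦ natCast_prime_not_isUnit (l := l) (O := R)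
    (by obtain ⟨b, hb⟩ := h.mul_inv_cancel (natCast_prime_ne_zero (l := l) (O := R))
        exact IsUnit.of_mul_eq_one b hb)
  exact ((IsDiscreteValuationRing.TFAE R hf).out 0 2 : IsDiscreteValuationRing R ↔ IsDedekindDomain R).mpr inferInstance

end FLTAgent.Mazur
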