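import Fermat.Agent.Mazur.PointPlace
import Fermat.Agent.TorsionHom.Orders
import Fermat.Agent.Eisenstein.Series

/-!
# Functions regular outside `∞` as holomorphic functions, and weight two functions of level one

A function in the function field of `X₀(p)` without poles outside `∞` is given by a holomorphic
invariant function; a weakly holomorphic function of weight two and level one has no constant term.
-/

set_option autoImplicit false
set_option linter.unusedSectionVars false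
set_option maxHeartbeats 1000000

noncomputable section

open UpperHalfPlane CongruenceSubgroup Filter Complex Function AlgebraicCurve
open scoped MatrixGroups Manifold Topology ModularForm

namespace FLTAgent.Mazur

open FLTAgent.X0Fn
open FLTAgent.TorsionHom (psiPoint psiCusp)
open FLTAgent.Curves (OrdGE)
open FLTAgent.ES (jfun dlt e4 e6)

local notation "QA" => AlgebraicClosure ℚ

/-! ### Constant terms -/

section ConstTerm

variable {h : ℝ} [Fact (0 < h)]

theorem expL_coeff_eq (f : PerL h) {m : ℕ} (hm : (f : ℍ → ℂ) * qh h ^ m ∈ Per h) :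
    (expL h f).coeff 0 = PowerSeries.coeff m (qExp h ⟨_, hm⟩) := by
  rw [expL_eq f hm, HahnSeries.coeff_single_mul, one_mul, sub_neg_eq_add, zero_add,
    HahnSeries.ofPowerSeries_apply_coeff]

theorem coeff_zero_eq_integral (f : PerL h) :
    (expL h f).coeff 0 =
      1 / h * ∫ u in (0 : ℝ)..h, (f : ℍ → ℂ) (ofComplex ((u : ℂ) + Complex.I)) := by
  obtain ⟨m, hm⟩ := f.2
  rw [expL_coeff_eq f hm]
  show (qExpansion h ((f : ℍ → ℂ) * qh h ^ m)).coeff m = _
  rw [qExpansion_coeff_eq_intervalIntegral hpos hm.2.1 hm.1 hm.2.2 m one_pos]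
  congr 1
  refine intervalIntegral.integral_congr fun u _ => ?_
  have e : (⟨(u : ℂ) + ((1 : ℝ) : ℂ) * Complex.I, by simp⟩ : ℍ) =
      ofComplex ((u : ℂ) + Complex.I) := by
    rw [ofComplex_apply_of_im_pos (show 0 < ((u : ℂ) + Complex.I).im by simp)]
    exact UpperHalfPlane.ext (by simp)
  have hq : qh h (ofComplex ((u : ℂ) + Complex.I)) =
      Periodic.qParam h ((u : ℂ) + ((1 : ℝ) : ℂ) * Complex.I) := by
    rw [qh, ofComplex_apply_of_im_pos (show 0 < ((u : ℂ) + Complex.I).im by simp)]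
    simp
  simp only [Pi.mul_apply, Pi.pow_apply, UpperHalfPlane.coe_I, e, hq]
  have hne := Periodic.qParam_ne_zero (h := h) ((u : ℂ) + ((1 : ℝ) : ℂ) * Complex.I)
  field_simp

end ConstTerm

/-! ### Level one -/

theorem continuous_line : Continuous fun u : ℝ => ofComplex ((u : ℂ) + Complex.I) := by
  rw [UpperHalfPlane.isOpenEmbedding_coe.isEmbedding.continuous_iff]
  refine (Complex.continuous_ofReal.add (continuous_const (y := Complex.I))).congr fun u => ?_
  rw [comp_apply, ofComplex_apply_of_im_pos (show 0 < ((u : ℂ) + Complex.I).im by simp)]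
  rfl

/-- `E₄² E₆ / Δ`. -/
def djf : ℍ → ℂ := fun τ => e4 τ ^ 2 * e6 τ / dlt τ

theorem mdiff_djf : MDiff djf := by
  rw [UpperHalfPlane.mdifferentiable_iff]
  exact (((UpperHalfPlane.mdifferentiable_iff.mp (ES.e4_mem (Γ := ⊤)).2.1).pow 2).mul
    (UpperHalfPlane.mdifferentiable_iff.mp (ES.e6_mem (Γ := ⊤)).2.1)).div
    (UpperHalfPlane.mdifferentiable_iff.mp (ES.dlt_mem (Γ := ⊤)).2.1) (fun z _ => ES.dlt_ne_zero _)

theorem djf_smul (γ : SL(2, ℤ)) (τ : ℍ) : djf (γ • τ) = denom γ τ ^ (2 : ℤ) * djf τ := by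
  unfold djf
  rw [ES.top_apply_smul ES.e4_mem, ES.top_apply_smul ES.e6_mem, ES.top_apply_smul ES.dlt_mem]
  have := denom_ne_zero (γ : GL (Fin 2) ℝ) τ
  have := ES.dlt_ne_zero τ
  field_simp

theorem e6_mem_Per : e6 ∈ Per 1 :=
  ⟨(ES.e6_mem (Γ := ⊤)).2.1, ES.top_periodic ES.e6_mem, ES.top_bdd ES.e6_mem⟩

theorem djf_mul_qh (τ : ℍ) : djf τ * qh 1 τ = e4 τ ^ 2 * e6 τ / eulerH τ ^ 24 := by
  rw [djf, dlt_eq_euler]
  have := qh_ne_zero (h := 1) τ
  have := eulerH_ne_zero τ
  field_simp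

theorem tendsto_eulerH : Tendsto (fun τ : ℍ => eulerH τ ^ 24) atImInfty (𝓝 1) := by
  refine ModularForm.tendsto_atImInfty_tprod_one_sub_eta_q_pow.congr fun τ => ?_
  have h := dlt_eq_euler τ
  rw [dlt, ModularForm.discriminant_eq_q_prod, qh] at h
  exact mul_left_cancel₀ (Periodic.qParam_ne_zero _) h

theorem djq_mem_Per : djf * qh 1 ∈ Per 1 := by
  refine ⟨mdiff_djf.mul mdiff_qh, fun z => ?_, ?_⟩
  · have h1 := e4_mem_Per.2.1 z
    have h2 := eulerH_mem_Per.2.1 z
    have h3 := e6_mem_Per.2.1 z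
    simp only [comp_apply, Pi.mul_apply, djf_mul_qh] at h1 h2 h3 ⊢
    rw [h1, h2, h3]
  · have e : djf * qh 1 = (fun τ => e4 τ ^ 2 * (eulerH τ ^ 24)⁻¹) * e6 := funext fun τ => by
      rw [Pi.mul_apply, djf_mul_qh, Pi.mul_apply, div_eq_mul_inv]
      ring
    rw [e]
    have hb : IsBoundedAtImInfty fun τ => e4 τ ^ 2 * (eulerH τ ^ 24)⁻¹ :=
      ((ES.e4_tendsto.pow 2).mul (tendsto_eulerH.inv₀ one_ne_zero)).isBigO_one ℝ
    exact hb.mul e6_mem_Per.2.2

theorem coeff_zero_djq : PowerSeries.coeff 0 (qExp 1 ⟨djf * qh 1, djq_mem_Per⟩) = 1 := by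
  have e : (⟨djf * qh 1, djq_mem_Per⟩ : Per 1) * ⟨eulerH, eulerH_mem_Per⟩ ^ 24 =
      ⟨e4, e4_mem_Per⟩ ^ 2 * ⟨e6, e6_mem_Per⟩ := Subtype.ext (funext fun τ => by
    show djf τ * qh 1 τ * eulerH τ ^ 24 = e4 τ ^ 2 * e6 τ
    rw [djf_mul_qh, div_mul_cancel₀ _ (eulerH_ne_zero τ)])
  have h := congrArg (fun f => PowerSeries.constantCoeff (qExp 1 f)) e
  simp only [map_mul, map_pow] at h
  have h1 : PowerSeries.constantCoeff (qExp 1 ⟨eulerH, eulerH_mem_Per⟩) = 1 := by
    rw [qExp_eq_of_hasSum hasSum_eulerH, ← PowerSeries.coeff_zero_eq_constantCoeff_apply,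
      PowerSeries.coeff_map, PowerSeries.coeff_zero_eq_constantCoeff_apply,
      ModularCurve.constantCoeff_etaProd, map_one]
  have h2 : PowerSeries.constantCoeff (qExp 1 ⟨e4, e4_mem_Per⟩) = 1 := by
    show PowerSeries.constantCoeff (qExpansion 1 (ModularForm.E₄ : ℍ → ℂ)) = 1
    rw [Eisenstein.qExpansion_E4, ← PowerSeries.coeff_zero_eq_constantCoeff_apply,
      CuspForms.coeff_intIncl, Eisenstein.coeff_e4]
    simp
  have h3 : PowerSeries.constantCoeff (qExp 1 ⟨e6, e6_mem_Per⟩) = 1 := by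
    show PowerSeries.constantCoeff (qExpansion 1 (ModularForm.E₆ : ℍ → ℂ)) = 1
    rw [Eisenstein.qExpansion_E6, ← PowerSeries.coeff_zero_eq_constantCoeff_apply,
      CuspForms.coeff_intIncl, Eisenstein.coeff_e6]
    simp
  rw [h1, h2, h3, one_pow, mul_one, one_pow, mul_one] at h
  rw [PowerSeries.coeff_zero_eq_constantCoeff_apply]
  exact h

theorem integral_jfun_pow_djf (m n : ℕ) :
    ∫ u in (0 : ℝ)..n,
      (fun τ => jfun τ ^ m * djf τ) (ofComplex ((u : ℂ) + Complex.I)) = 0 := by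
  set d : ℍ → ℂ := fun τ => ((m + 1 : ℕ) : ℂ) * jfun τ ^ m *
    (-(2 * Real.pi * Complex.I) * djf τ)
  have hd : ∀ u : ℝ, HasDerivAt
      (fun u : ℝ => (jfun (ofComplex ((u : ℂ) + Complex.I))) ^ (m + 1))
      (d (ofComplex ((u : ℂ) + Complex.I))) u := by
    intro u
    set τ := ofComplex ((u : ℂ) + Complex.I) with hτ
    have hτc : (τ : ℂ) = (u : ℂ) + Complex.I := by
      rw [hτ, ofComplex_apply_of_im_pos (show 0 < ((u : ℂ) + Complex.I).im by simp)]
    have h1 := (ES.hasDerivAt_jfun τ).pow (m + 1)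
    rw [hτc] at h1
    have h2 : HasDerivAt (fun z : ℂ => z + Complex.I) 1 (u : ℂ) :=
      (hasDerivAt_id _).add_const _
    have h3 := (h1.comp (u : ℂ) h2).comp_ofReal
    refine h3.congr_deriv ?_
    simp only [d, djf, comp_apply, ← hτ, Nat.add_sub_cancel]
    ring
  have hcont : Continuous fun u : ℝ => d (ofComplex ((u : ℂ) + Complex.I)) := by
    have hm : Continuous d :=
      ((continuous_const.mul (ES.continuous_jfun.pow m)).mul
        (continuous_const.mul mdiff_djf.continuous))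
    exact hm.comp continuous_line
  have hI := intervalIntegral.integral_eq_sub_of_hasDerivAt (fun u _ => hd u)
    (hcont.intervalIntegrable 0 (n : ℝ))
  have hper : jfun (ofComplex (((n : ℝ) : ℂ) + Complex.I)) =
      jfun (ofComplex (((0 : ℝ) : ℂ) + Complex.I)) := by
    rw [← ES.jfun_smul (ModularGroup.T ^ (n : ℤ)) (ofComplex (((0 : ℝ) : ℂ) + Complex.I))]
    congr 1
    apply UpperHalfPlane.ext
    rw [UpperHalfPlane.modular_T_zpow_smul, UpperHalfPlane.coe_vadd,
      ofComplex_apply_of_im_pos (show 0 < (((n : ℝ) : ℂ) + Complex.I).im by simp),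
      ofComplex_apply_of_im_pos (show 0 < (((0 : ℝ) : ℂ) + Complex.I).im by simp)]
    simp
  rw [hper, sub_self] at hI
  have e : ∀ u : ℝ, (fun τ => jfun τ ^ m * djf τ) (ofComplex ((u : ℂ) + Complex.I)) =
      (((m + 1 : ℕ) : ℂ) * -(2 * Real.pi * Complex.I))⁻¹ *
        d (ofComplex ((u : ℂ) + Complex.I)) := fun u => by
    have h1 : ((m + 1 : ℕ) : ℂ) ≠ 0 := Nat.cast_ne_zero.2 (Nat.succ_ne_zero m)
    have h2 : (Real.pi : ℂ) ≠ 0 := Complex.ofReal_ne_zero.2 Real.pi_ne_zero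
    simp only [d]
    field_simp
  simp only [e]
  rw [intervalIntegral.integral_const_mul, hI, mul_zero]

/-- A weight two function of level one with at most a pole at infinity integrates to zero. -/
theorem integral_levelOne_two {F : ℍ → ℂ} (hol : MDiff F)
    (hinv : ∀ (γ : SL(2, ℤ)) τ, F (γ • τ) = denom γ τ ^ (2 : ℤ) * F τ) {m : ℕ}
    (hm : F * qh 1 ^ m ∈ Per 1) (n : ℕ) :
    ∫ u in (0 : ℝ)..n, F (ofComplex ((u : ℂ) + Complex.I)) = 0 := by
  induction m generalizing F with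
  | zero =>
    rw [pow_zero, mul_one] at hm
    have hF0 : F = 0 := Eisenstein.levelOne_two_eq_zero
      (CuspForms.IsForm.levelOne_mk hol hm.2.2 hinv)
    simp [hF0]
  | succ m ih =>
    set c := PowerSeries.coeff 0 (qExp 1 ⟨_, hm⟩) with hc
    set K : ℍ → ℂ := algebraMap ℂ (ℍ → ℂ) c * (jfun ^ m * djf)
    have hj : K * qh 1 ^ (m + 1) ∈ Per 1 := by
      have : K * qh 1 ^ (m + 1) =
          algebraMap ℂ (ℍ → ℂ) c * ((jfun * qh 1) ^ m * (djf * qh 1)) := by
        simp only [K]; ring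
      rw [this]
      exact mul_mem (Subalgebra.algebraMap_mem _ _)
        (mul_mem (pow_mem jq_mem_Per _) djq_mem_Per)
    set g : ℍ → ℂ := F - K
    have hgq : g * qh 1 ^ (m + 1) ∈ Per 1 := by
      simp only [g]; rw [sub_mul]; exact sub_mem hm hj
    have h0 : PowerSeries.coeff 0 (qExp 1 ⟨_, hgq⟩) = 0 := by
      have e : (⟨_, hgq⟩ : Per 1) = ⟨_, hm⟩ -
          algebraMap ℂ _ c * (⟨_, jq_mem_Per⟩ ^ m * ⟨_, djq_mem_Per⟩) := by
        apply Subtype.ext
        funext τ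
        simp [g, K, mul_pow, pow_succ]
        ring
      rw [e, map_sub, map_mul, map_mul, map_pow, AlgHom.commutes, qExp_jq, map_sub, ← hc]
      have hd := coeff_zero_djq
      rw [PowerSeries.coeff_zero_eq_constantCoeff_apply] at hd
      have hJ : PowerSeries.constantCoeff jNumC = 1 := by
        rw [jNumC, ← PowerSeries.coeff_zero_eq_constantCoeff_apply, PowerSeries.coeff_map,
          PowerSeries.coeff_zero_eq_constantCoeff_apply, ModularCurve.constantCoeff_jNum, map_one]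
      simp [PowerSeries.coeff_zero_eq_constantCoeff_apply, hJ, hd]
    set u : PerL 1 := ⟨g * qh 1 ^ m, 1, by rwa [pow_one, mul_assoc, ← pow_succ]⟩ with hu
    have hu1 : (g * qh 1 ^ m : ℍ → ℂ) ∈ Per 1 := by
      refine mem_Per_of_coeff u fun k hk => ?_
      have hu2 : (u : ℍ → ℂ) * qh 1 ^ 1 ∈ Per 1 := by
        rw [pow_one, hu, mul_assoc, ← pow_succ]; exact hgq
      have e : (⟨_, hu2⟩ : Per 1) = ⟨_, hgq⟩ :=
        Subtype.ext (by show g * qh 1 ^ m * qh 1 ^ 1 = _; rw [mul_assoc, ← pow_add])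
      rw [expL_eq u hu2, HahnSeries.coeff_single_mul, one_mul, e]
      push_cast
      rcases lt_or_ge (k - -1) 0 with h | h
      · exact ModularCurve.ofPowerSeries_coeff_of_neg _ h
      · rw [show k - -1 = ((0 : ℕ) : ℤ) by omega, HahnSeries.ofPowerSeries_apply_coeff, h0]
    have hKh : MDiff K := by
      simp only [K]
      exact mdifferentiable_const.mul ((ES.mdiff_jfun.pow m).mul mdiff_djf)
    have hgh : MDiff g := hol.sub hKh
    have hgi := ih hgh (fun γ τ => by
      simp only [g, K, Pi.sub_apply, Pi.mul_apply, Pi.pow_apply, hinv, djf_smul, ES.jfun_smul,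
        Pi.algebraMap_apply, Algebra.algebraMap_self, RingHom.id_apply]
      ring) hu1
    have hint : ∀ G : ℍ → ℂ, MDiff G →
        Continuous fun u : ℝ => G (ofComplex ((u : ℂ) + Complex.I)) := fun G hG => by
      exact hG.continuous.comp continuous_line
    have e : ∀ u : ℝ, F (ofComplex ((u : ℂ) + Complex.I)) =
        g (ofComplex ((u : ℂ) + Complex.I)) + c * (fun τ => jfun τ ^ m * djf τ)
          (ofComplex ((u : ℂ) + Complex.I)) := fun u => by
      simp [g, K]
    have hc1 : Continuous fun u : ℝ =>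
        c * (fun τ => jfun τ ^ m * djf τ) (ofComplex ((u : ℂ) + Complex.I)) :=
      continuous_const.mul (hint _ ((ES.mdiff_jfun.pow m).mul mdiff_djf))
    rw [intervalIntegral.integral_congr (fun u _ => e u),
      intervalIntegral.integral_add ((hint g hgh).intervalIntegrable _ _)
        (hc1.intervalIntegrable _ _), hgi, intervalIntegral.integral_const_mul,
      integral_jfun_pow_djf, mul_zero, add_zero]

/-! ### Regular functions -/

theorem exists_holo_div {a b : ℂ → ℂ} {U : Set ℂ} (hU : IsOpen U) (ha : AnalyticOnNhd ℂ a U)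
    (hb : AnalyticOnNhd ℂ b U) (htop : ∀ z ∈ U, analyticOrderAt b z ≠ ⊤)
    (hle : ∀ z ∈ U, analyticOrderAt b z ≤ analyticOrderAt a z) :
    ∃ R : ℂ → ℂ, DifferentiableOn ℂ R U ∧ ∀ z ∈ U, R z * b z = a z := by
  refine ⟨fun z => limUnder (𝓝[≠] z) fun w => a w / b w, ?_⟩
  have key : ∀ z₀ ∈ U, ∃ φ : ℂ → ℂ, AnalyticAt ℂ φ z₀ ∧
      (∀ᶠ z in 𝓝 z₀, (limUnder (𝓝[≠] z) fun w => a w / b w) = φ z) ∧
      a z₀ = φ z₀ * b z₀ := by
    intro z₀ hz₀
    obtain ⟨k, hk⟩ := ENat.ne_top_iff_exists.1 (htop z₀ hz₀)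
    obtain ⟨β, hβ, hβ0, hbe⟩ := (hb z₀ hz₀).analyticOrderAt_eq_natCast.1 hk.symm
    obtain ⟨α, hα, hae⟩ := (natCast_le_analyticOrderAt (ha z₀ hz₀)).1 (hk ▸ hle z₀ hz₀)
    have hφ : AnalyticAt ℂ (fun z => α z / β z) z₀ := hα.div hβ hβ0
    refine ⟨fun z => α z / β z, hφ, ?_, ?_⟩
    · have h1 : ∀ᶠ z in 𝓝 z₀, ∀ᶠ w in 𝓝 z, a w = (w - z₀) ^ k • α w ∧ b w = (w - z₀) ^ k • β w ∧
          β w ≠ 0 ∧ AnalyticAt ℂ (fun z => α z / β z) w :=
        (hae.and (hbe.and ((hβ.continuousAt.eventually_ne hβ0).and hφ.eventually_analyticAt))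
          ).eventually_nhds
      filter_upwards [h1] with z hz
      refine Tendsto.limUnder_eq ?_
      refine Tendsto.congr' ?_ ((hz.self_of_nhds).2.2.2.continuousAt.tendsto.mono_left
        nhdsWithin_le_nhds)
      have hne : ∀ᶠ w in 𝓝[≠] z, w ≠ z₀ := by
        rcases eq_or_ne z z₀ with rfl | hne
        · exact eventually_mem_nhdsWithin
        · exact (eventually_ne_nhds hne).filter_mono nhdsWithin_le_nhds
      filter_upwards [hz.filter_mono nhdsWithin_le_nhds, hne] with w hw hw0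
      rw [hw.1, hw.2.1, smul_eq_mul, smul_eq_mul,
        mul_div_mul_left _ _ (pow_ne_zero _ (sub_ne_zero.2 hw0))]
    · rw [hae.self_of_nhds, hbe.self_of_nhds, smul_eq_mul, smul_eq_mul, ← mul_assoc,
        mul_comm (α z₀ / β z₀), mul_assoc, div_mul_cancel₀ _ hβ0]
  refine ⟨fun z hz => ?_, fun z hz => ?_⟩
  · obtain ⟨φ, hφ, he, -⟩ := key z hz
    exact (hφ.differentiableAt.congr_of_eventuallyEq he).differentiableWithinAt
  · obtain ⟨φ, -, he, h0⟩ := key z hz
    show (limUnder (𝓝[≠] z) fun w => a w / b w) * b z = a z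
    rw [show (limUnder (𝓝[≠] z) fun w => a w / b w) = φ z from he.self_of_nhds]
    exact h0.symm

variable {p : ℕ} [Fact p.Prime] (κ : QA →+* ℂ)

theorem order_ofPowerSeries_nonneg (P : PowerSeries ℂ) :
    0 ≤ (HahnSeries.ofPowerSeries ℤ ℂ P).order := by
  by_contra h
  push Not at h
  have h1 := ModularCurve.ofPowerSeries_coeff_of_neg (R := ℂ) P h
  rw [HahnSeries.coeff_order_eq_zero] at h1
  rw [h1] at h
  simp at h

/-- Regular outside `∞`: no negative order at any point. -/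
theorem order_pointEmb_nonneg {f : XF QA p}
    (hreg : ∀ v : Place QA (XF QA p), v ≠ cuspInf p → OrdGE v 0 f) (τ : ℍ)
    (q : Cos p) : 0 ≤ (pointEmb κ τ q f).order := by
  haveI := (X0Fn.isFunctionField_and_finrank (N := p) κ).1
  rcases eq_or_ne f 0 with rfl | hf
  · simp
  by_cases h : ∀ g : XF QA p, (pointEmb κ τ q g).order = 0
  · exact (h f).ge
  push Not at h
  obtain ⟨g, hg⟩ := h
  obtain ⟨t, ht⟩ : ∃ t, 0 < (pointEmb κ τ q t).order := by
    rcases lt_or_gt_of_ne hg with h | h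
    · exact ⟨g⁻¹, by rw [map_inv₀, Curves.lord_inv]; omega⟩
    · exact ⟨g, h⟩
  obtain ⟨v, c, hc, hord⟩ := Curves.exists_place (pointEmb κ τ q)
    (fun a => pointEmb_algebraMap κ τ q a) ht
  have hj : 0 ≤ (pointEmb κ τ q (jF QA p)).order := by
    rw [jF, pointEmb_incA, pointHom_apply]
    exact order_ofPowerSeries_nonneg _
  have hvj : v ≠ cuspInf p := fun e => by
    rw [hord, e, ord_jF_cuspInf] at hj
    omega
  rw [hord]
  exact mul_nonneg hc.le ((hreg v hvj).le_ord hf)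

theorem tendsto_qh_zero : Tendsto (qh 1) atImInfty (𝓝 0) :=
  UpperHalfPlane.qParam_tendsto_atImInfty one_pos

theorem tendsto_jq : Tendsto (jfun * qh 1) atImInfty (𝓝 1) := by
  have h := (ES.e4_tendsto.pow 3).div tendsto_eulerH one_ne_zero
  rw [one_pow, div_one] at h
  exact h.congr fun τ => (jfun_mul_qh τ).symm

theorem tendsto_poly_jq (P : Polynomial ℂ) :
    Tendsto (fun τ => P.eval (jfun τ) * qh 1 τ ^ P.natDegree) atImInfty (𝓝 P.leadingCoeff) := by
  have e : ∀ τ, P.eval (jfun τ) * qh 1 τ ^ P.natDegree = ∑ i ∈ Finset.range (P.natDegree + 1),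
      P.coeff i * (jfun τ * qh 1 τ) ^ i * qh 1 τ ^ (P.natDegree - i) := fun τ => by
    rw [Polynomial.eval_eq_sum_range, Finset.sum_mul]
    refine Finset.sum_congr rfl fun i hi => ?_
    have hle : i ≤ P.natDegree := Nat.lt_succ_iff.1 (Finset.mem_range.1 hi)
    obtain ⟨r, hr⟩ := Nat.exists_eq_add_of_le hle
    rw [hr, Nat.add_sub_cancel_left, pow_add, mul_pow]
    ring
  simp only [e]
  have hlim : P.leadingCoeff = ∑ i ∈ Finset.range (P.natDegree + 1),
      P.coeff i * (1 : ℂ) ^ i * (0 : ℂ) ^ (P.natDegree - i) := by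
    rw [Finset.sum_eq_single P.natDegree]
    · simp
    · intro i hi hne
      have : i < P.natDegree := lt_of_le_of_ne (Nat.lt_succ_iff.1 (Finset.mem_range.1 hi)) hne
      rw [zero_pow (Nat.sub_ne_zero_of_lt this), mul_zero]
    · simp
  rw [hlim]
  exact tendsto_finsetSum _ fun i _ =>
    (tendsto_const_nhds.mul (tendsto_jq.pow i)).mul (tendsto_qh_zero.pow _)

/-- The holomorphic function of a regular function. -/
theorem exists_W0_of_regular {f : XF QA p}
    (hreg : ∀ v : Place QA (XF QA p), v ≠ cuspInf p → OrdGE v 0 f) :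
    ∃ R : W0 p, expW p R = iota (N := p) κ (f : LaurentSeries QA) ∧
      ∀ k : ℤ, k < 0 → (psiCusp (ModularGroup.S : Cos p) R).coeff k = 0 := by
  classical
  obtain ⟨A, B, hB, hAB⟩ := (TorsionHom.mem_ratField κ).1 (TorsionHom.XF_le_ratField κ f.2)
  obtain ⟨P, A', hP, hA'⟩ := TorsionHom.exists_poly_den κ A hB
  set jW := toW κ (jA QA p)
  set b : W0 p := Polynomial.aeval jW P
  have hJ : iota (N := p) κ (f : LaurentSeries QA) * expW p b = expW p A' := by
    refine mul_left_cancel₀ (fun e => hB (expW_injective (e.trans (map_zero _).symm)) :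
      expW p B ≠ 0) ?_
    rw [← map_mul _ B A', ← hA', map_mul, ← hAB]
    ring
  have hbv : ∀ τ, (b : ℍ → ℂ) τ = P.eval (jfun τ) := fun τ => by
    show ((Polynomial.aeval jW P : W0 p) : ℍ → ℂ) τ = _
    rw [Polynomial.aeval_subalgebra_coe]
    have : ((Polynomial.aeval (jW : ℍ → ℂ) P) : ℍ → ℂ) τ =
        Polynomial.aeval ((jW : ℍ → ℂ) τ) P :=
      (Polynomial.aeval_algHom_apply (Pi.evalAlgHom ℂ (fun _ : ℍ => ℂ) τ) _ _).symm
    rw [this, toW_jA, Polynomial.coe_aeval_eq_eval]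
  have hev : ∀ᶠ τ in atImInfty, P.eval (jfun τ) * qh 1 τ ^ P.natDegree ≠ 0 :=
    (tendsto_poly_jq P).eventually_ne (Polynomial.leadingCoeff_ne_zero.2 hP)
  have hb0 : b ≠ 0 := fun e => by
    obtain ⟨τ, hτ⟩ := hev.exists
    exact hτ (by rw [← hbv, e]; simp)
  set bH : Hol := ⟨(b : ℍ → ℂ), b.2.1⟩
  have hbH : bH ≠ 0 := fun e => hb0 (Subtype.ext (congrArg Subtype.val e :))
  set q₁ : Cos p := ((1 : SL(2, ℤ)) : Cos p)
  -- orders
  have hord : ∀ τ : ℍ, analyticOrderAt ((b : ℍ → ℂ) ∘ ofComplex) τ ≤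
      analyticOrderAt ((A' : ℍ → ℂ) ∘ ofComplex) τ := fun τ => by
    set aH : Hol := ⟨(A' : ℍ → ℂ), A'.2.1⟩
    by_cases ha : aH = 0
    · have : ((A' : ℍ → ℂ) ∘ ofComplex) = fun _ => 0 := funext fun z => by
        have := congrArg (fun x : Hol => (x : ℍ → ℂ) (ofComplex z)) ha
        exact this
      rw [this, analyticOrderAt_eq_top.2 (Eventually.of_forall fun _ => rfl)]
      exact le_top
    have hA0 : A' ≠ 0 := fun e => ha (Subtype.ext (by
      show (A' : ℍ → ℂ) = 0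
      rw [e]; rfl))
    have h1 := TorsionHom.emb_mul κ _ _ (TorsionHom.pointEmb_incA' κ τ q₁) hJ
    have hpb : psiPoint τ q₁ b ≠ 0 :=
      (map_ne_zero_iff _ (TorsionHom.psiPoint_injective τ q₁)).2 hb0
    have hpf : pointEmb κ τ q₁ f ≠ 0 := fun e => by
      rw [e, zero_mul] at h1
      exact (map_ne_zero_iff _ (TorsionHom.psiPoint_injective τ q₁)).2 hA0 h1.symm
    have h2 := congrArg HahnSeries.order h1
    rw [Curves.lord_mul hpf hpb, TorsionHom.psiPoint_order τ q₁ hb0,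
      TorsionHom.psiPoint_order τ q₁ hA0, trans_one, trans_one] at h2
    have h3 := order_pointEmb_nonneg κ hreg τ q₁
    have hnat : ∀ {F : W0 p}, F ≠ 0 → analyticOrderAt ((F : ℍ → ℂ) ∘ ofComplex) τ =
        (analyticOrderNatAt ((F : ℍ → ℂ) ∘ ofComplex) τ : ℕ∞) := fun {F} hF => by
      refine (Nat.cast_analyticOrderNatAt fun e => hF ?_).symm
      apply Subtype.ext
      obtain ⟨k, a, hk⟩ : ∃ k a, HasLead (τ : ℂ) ((F : ℍ → ℂ) ∘ ofComplex) k a :=
        exists_hasLead F.2.1 (fun e => hF (Subtype.ext e)) τ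
      obtain ⟨ha', ψ, hψ, hψa, he⟩ := hk
      exact absurd e (by
        rw [(analyticAt_of_hol F.2.1 τ.im_pos).analyticOrderAt_eq_natCast.2
          ⟨ψ, hψ, hψa ▸ ha', by simpa [smul_eq_mul] using he⟩]
        exact ENat.natCast_ne_top k)
    rw [hnat hb0, hnat hA0]
    exact_mod_cast (show (analyticOrderNatAt ((b : ℍ → ℂ) ∘ ofComplex) τ : ℤ) ≤
      analyticOrderNatAt ((A' : ℍ → ℂ) ∘ ofComplex) τ by omega)
  have htop : ∀ τ : ℍ, analyticOrderAt ((b : ℍ → ℂ) ∘ ofComplex) τ ≠ ⊤ := fun τ h => by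
    obtain ⟨k, a, ha', ψ, hψ, hψa, he⟩ := exists_hasLead b.2.1
      (fun e => hb0 (Subtype.ext e)) τ
    rw [(analyticAt_of_hol b.2.1 τ.im_pos).analyticOrderAt_eq_natCast.2
          ⟨ψ, hψ, hψa ▸ ha', by simpa [smul_eq_mul] using he⟩] at h
    exact ENat.natCast_ne_top k h
  obtain ⟨R₀, hR₀, hR₀m⟩ := exists_holo_div isOpen_upperHalfPlaneSet
    (fun z hz => analyticAt_of_hol A'.2.1 hz) (fun z hz => analyticAt_of_hol b.2.1 hz)
    (fun z hz => htop ⟨z, hz⟩) (fun z hz => hord ⟨z, hz⟩)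
  set R : ℍ → ℂ := fun τ => R₀ τ
  have hRd : MDiff R := by
    rw [UpperHalfPlane.mdifferentiable_iff]
    refine hR₀.congr fun z hz => ?_
    simp [R, comp_apply, ofComplex_apply_of_im_pos hz]
  have hRm : ∀ τ, R τ * (b : ℍ → ℂ) τ = (A' : ℍ → ℂ) τ := fun τ => by
    simpa [R] using hR₀m τ τ.im_pos
  -- cancellation
  have hcancel : ∀ {u v : ℍ → ℂ}, MDiff u → MDiff v →
      (∀ τ, u τ * (b : ℍ → ℂ) τ = v τ * (b : ℍ → ℂ) τ) → u = v := fun {u v} hu hv he => by
    have : (⟨u, hu⟩ : Hol) * bH = ⟨v, hv⟩ * bH := Subtype.ext (funext he)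
    exact congrArg Subtype.val (mul_right_cancel₀ hbH this)
  have hbinv : ∀ (g : SL(2, ℤ)) τ, (b : ℍ → ℂ) (g • τ) = (b : ℍ → ℂ) τ := fun g τ => by
    rw [hbv, hbv, ES.jfun_smul]
  have hinv : ∀ γ ∈ Gamma0 p, ∀ τ, R (γ • τ) = R τ := fun γ hγ => congrFun <|
    hcancel (comp_smul_mdiff hRd γ) hRd fun τ => by
      rw [hRm τ, ← hbinv γ τ, hRm, A'.2.2.1 γ hγ]
  have hPerL : ∀ g : SL(2, ℤ), (fun τ => R (g • τ)) ∈ PerL (p : ℝ) := fun g => by
    obtain ⟨m, hm⟩ := A'.2.2.2 g
    have hper : Periodic ((fun τ => R (g • τ)) ∘ ofComplex) (p : ℝ) := by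
      have hA := periodic_of_mem (A'.2.2.2 g)
      intro z
      by_cases hz : 0 < z.im
      · have hz1 : 0 < (z + ((p : ℝ) : ℂ)).im := by simpa using hz
        have hT : ∀ τ : ℍ, R (g • ModularGroup.T ^ (p : ℤ) • τ) = R (g • τ) := congrFun <|
          hcancel (comp_smul_mdiff (comp_smul_mdiff hRd g) _) (comp_smul_mdiff hRd g) fun τ => by
            have h1 := hRm (g • ModularGroup.T ^ (p : ℤ) • τ)
            have h2 := hRm (g • τ)
            rw [hbinv, hbinv] at h1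
            rw [hbinv] at h2
            have e1 : (ModularGroup.T ^ (p : ℤ) • τ) = ofComplex ((τ : ℂ) + ((p : ℝ) : ℂ)) := by
              apply UpperHalfPlane.ext
              rw [UpperHalfPlane.modular_T_zpow_smul, UpperHalfPlane.coe_vadd,
                ofComplex_apply_of_im_pos
                  (show 0 < ((τ : ℂ) + ((p : ℝ) : ℂ)).im by simpa using τ.im_pos)]
              simp [add_comm]
            have h3 := hA (τ : ℂ)
            simp only [comp_apply, ← e1, ofComplex_apply] at h3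
            rw [h1, h2, h3]
        have := hT ⟨z, hz⟩
        simp only [comp_apply, ofComplex_apply_of_im_pos hz, ofComplex_apply_of_im_pos hz1]
        rw [← this]
        congr 2
        apply UpperHalfPlane.ext
        rw [UpperHalfPlane.modular_T_zpow_smul, UpperHalfPlane.coe_vadd]
        simp [add_comm]
      · have hz1 : (z + ((p : ℝ) : ℂ)).im ≤ 0 := by simpa using not_lt.1 hz
        simp only [comp_apply, ofComplex_apply_of_im_nonpos hz1,
          ofComplex_apply_of_im_nonpos (not_lt.1 hz)]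
    refine ⟨m, (comp_smul_mdiff hRd g).mul (mdiff_qh.pow m), fun z => ?_, ?_⟩
    · have h1 := hper z
      have h2 := periodic_qh (h := (p : ℝ)) z
      simp only [comp_apply, Pi.mul_apply, Pi.pow_apply] at h1 h2 ⊢
      rw [h1, h2]
    · have hlim := ((tendsto_qh_zero.pow P.natDegree).mul
        ((tendsto_poly_jq P).inv₀ (Polynomial.leadingCoeff_ne_zero.2 hP)))
      have hb1 : IsBoundedAtImInfty (fun τ =>
          qh 1 τ ^ P.natDegree * (P.eval (jfun τ) * qh 1 τ ^ P.natDegree)⁻¹) := hlim.isBigO_one ℝ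
      have hb2 : IsBoundedAtImInfty (fun τ => (A' : ℍ → ℂ) (g • τ) * qh (p : ℝ) τ ^ m *
          (qh 1 τ ^ P.natDegree * (P.eval (jfun τ) * qh 1 τ ^ P.natDegree)⁻¹)) :=
        hm.2.2.mul hb1
      refine hb2.congr' ?_ EventuallyEq.rfl
      filter_upwards [hev] with τ hτ
      have hne : P.eval (jfun τ) ≠ 0 := fun e => hτ (by rw [e, zero_mul])
      have h1 := hRm (g • τ)
      rw [hbinv, hbv] at h1
      have hq1 := qh_ne_zero (h := 1) τ
      simp only [Pi.mul_apply, Pi.pow_apply]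
      rw [← h1]
      field_simp
  set RW : W0 p := ⟨R, hRd, hinv, hPerL⟩
  have hRW : RW * b = A' := Subtype.ext (funext hRm)
  have hexp : expW p RW = iota (N := p) κ (f : LaurentSeries QA) := by
    refine mul_right_cancel₀ (fun e => hb0 (expW_injective (e.trans (map_zero _).symm)) :
      expW p b ≠ 0) ?_
    rw [hJ, ← map_mul, hRW]
  refine ⟨RW, hexp, fun k hk => ?_⟩
  have hS := TorsionHom.emb_mul κ _ _
    (TorsionHom.cuspEmb_incA' κ (ModularGroup.S : Cos p)) hJ
  rw [← hRW, map_mul] at hS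
  have e := mul_right_cancel₀
    ((map_ne_zero_iff _ (TorsionHom.psiCusp_injective (ModularGroup.S : Cos p))).2 hb0) hS
  rw [← e]
  obtain ⟨c, hc, hordS⟩ := exists_ord_cuspZero (p := p) κ
  rcases eq_or_ne f 0 with rfl | hf
  · simp
  refine HahnSeries.coeff_eq_zero_of_lt_order (lt_of_lt_of_le hk ?_)
  rw [hordS]
  exact mul_nonneg hc.le ((hreg (cuspZero p) (Ne.symm cuspInf_ne_cuspZero)).le_ord hf)

end FLTAgent.Mazur
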