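import Fermat.Agent.Mazur.PointEmb
import Fermat.Prelude.Def_ModularCurve_ModularUnit

/-!
# The modular unit `Δ(τ)/Δ(pτ)` on `X₀(p)`
-/

set_option autoImplicit false
set_option linter.style.haveILetI false
set_option maxHeartbeats 1000000
set_option synthInstance.maxHeartbeats 400000

noncomputable section

open UpperHalfPlane hiding I I_re I_im
open Filter Topology Complex Function CongruenceSubgroup ModularCurve AlgebraicCurve
open FLTAgent.X0Fn (Cos W0 expW expL PerL XF iota trans jF cuspEmb pointEmb taylorAt affMap)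
open FLTAgent.ModEq (qp HasExp substHom deltaSer deltaInvSer)
open FLTAgent.ES (dlt)
open scoped MatrixGroups Manifold

namespace FLTAgent.Mazur

local notation "QA" => AlgebraicClosure ℚ

variable {p : ℕ} [Fact p.Prime]

theorem hasExp_dlt_level : HasExp p dlt (qExpand ℂ p (deltaSer ℂ)) :=
  GoodModel.hasExp_refine ModEq.hasExp_discriminant p p (one_mul p)

theorem dlt_T_zpow (k : ℤ) (τ : ℍ) : dlt (ModularGroup.T ^ k • τ) = dlt τ := by
  rw [FLTAgent.ES.top_apply_smul FLTAgent.ES.dlt_mem, ModularGroup.denom_apply,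
    ModularGroup.coe_T_zpow]
  simp

theorem dlt_S (τ : ℍ) : dlt (ModularGroup.S • τ) = (τ : ℂ) ^ 12 * dlt τ := by
  rw [FLTAgent.ES.top_apply_smul FLTAgent.ES.dlt_mem, ModularGroup.denom_apply, ModularGroup.coe_S]
  simp

theorem qp_affMap {a e : ℕ} (ha : a ≠ 0) (he : e ≠ 0) (hN : e ∣ p) (b : ℤ) (τ : ℍ) :
    qp 1 (affMap a e b τ) =
      Complex.exp (2 * Real.pi * Complex.I * b / e) * qp p τ ^ (a * (p / e)) := by
  have h := X0Fn.qh_affMap (N := p) ha he hN b τ
  simpa [qp, X0Fn.qh] using h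

theorem tendsto_affMap {a e : ℕ} (ha : a ≠ 0) (he : e ≠ 0) (b : ℤ) :
    Tendsto (affMap a e b) atImInfty atImInfty := by
  rw [atImInfty, tendsto_comap_iff]
  refine tendsto_atTop.mpr fun r ↦ ?_
  have hev : ∀ᶠ τ : ℍ in atImInfty, r * e / a ≤ τ.im :=
    tendsto_comap.eventually (eventually_ge_atTop (r * e / a))
  filter_upwards [hev] with τ hτ
  show r ≤ (affMap a e b τ).im
  rw [← UpperHalfPlane.coe_im, X0Fn.coe_affMap ha he, Complex.div_natCast_im]
  have h1 : (0 : ℝ) < a := by exact_mod_cast Nat.pos_of_ne_zero ha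
  have h2 : (0 : ℝ) < e := by exact_mod_cast Nat.pos_of_ne_zero he
  simp only [Complex.add_im, Complex.mul_im, Complex.natCast_re, Complex.natCast_im, zero_mul,
    add_zero, Complex.intCast_im, UpperHalfPlane.coe_im]
  rw [le_div_iff₀ h2]
  rw [div_le_iff₀ h1] at hτ
  linarith

variable (p) in
/-- `Δ(τ)/Δ(pτ)`. -/
def unitF : ℍ → ℂ := fun τ ↦ dlt τ * (dlt (affMap p 1 0 τ))⁻¹

theorem mdiff_unitF : MDiff (unitF p) := by
  have h1 := (FLTAgent.ES.dlt_mem (Γ := ⊤)).2.1
  have h2 := h1.comp (X0Fn.mdiff_affMap (a := p) (Fact.out : p.Prime).ne_zero one_ne_zero 0)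
  rw [UpperHalfPlane.mdifferentiable_iff] at h2 ⊢
  exact (UpperHalfPlane.mdifferentiable_iff.mp h1).mul
    (h2.inv fun z _ ↦ FLTAgent.ES.dlt_ne_zero _)

theorem unitF_smul {γ : SL(2, ℤ)} (hγ : γ ∈ Gamma0 p) (τ : ℍ) : unitF p (γ • τ) = unitF p τ := by
  rw [Gamma0_mem, ZMod.intCast_zmod_eq_zero_iff_dvd] at hγ
  obtain ⟨c, hc⟩ := hγ
  set γ' : SL(2, ℤ) := ⟨!![γ 0 0, p * γ 0 1; c, γ 1 1], by
    rw [Matrix.det_fin_two_of]
    have := GoodModel.det_eq γ
    rw [hc] at this
    linear_combination this⟩ with hγ'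
  have hp0 : (p : ℕ) ≠ 0 := (Fact.out : p.Prime).ne_zero
  have key : affMap p 1 0 (γ • τ) = γ' • affMap p 1 0 τ := by
    apply UpperHalfPlane.ext
    rw [X0Fn.coe_affMap hp0 one_ne_zero, UpperHalfPlane.coe_specialLinearGroup_apply,
      UpperHalfPlane.coe_specialLinearGroup_apply, X0Fn.coe_affMap hp0 one_ne_zero]
    simp only [hγ']
    simp [hc]
    ring
  have hden : UpperHalfPlane.denom γ' (affMap p 1 0 τ : ℂ) = UpperHalfPlane.denom γ (τ : ℂ) := by
    rw [ModularGroup.denom_apply, ModularGroup.denom_apply, X0Fn.coe_affMap hp0 one_ne_zero]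
    simp only [hγ']
    simp [hc]
    ring
  simp only [unitF, key, FLTAgent.ES.top_apply_smul FLTAgent.ES.dlt_mem, hden]
  have := UpperHalfPlane.denom_ne_zero (γ : GL (Fin 2) ℝ) τ
  field_simp

theorem unitF_periodic (g : SL(2, ℤ)) (τ : ℍ) :
    unitF p (g • ((p : ℝ) +ᵥ τ)) = unitF p (g • τ) := by
  rw [smul_vadd, ← mul_smul]
  have h : g * ModularGroup.T ^ (p : ℤ) * g⁻¹ ∈ Gamma0 p := by
    rw [Gamma0_mem]
    simp only [Matrix.SpecialLinearGroup.coe_mul, Matrix.SpecialLinearGroup.coe_inv,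
      ModularGroup.coe_T_zpow, Matrix.adjugate_fin_two, Matrix.mul_apply, Fin.sum_univ_two]
    simp
    ring
  have e := unitF_smul h (g • τ)
  rw [← mul_smul, inv_mul_cancel_right] at e
  exact e

theorem unitF_S (k : ℤ) (τ : ℍ) :
    unitF p (ModularGroup.S • ModularGroup.T ^ k • τ) =
      (p : ℂ) ^ 12 * dlt τ * (dlt (affMap 1 p k τ))⁻¹ := by
  have hp0 : (p : ℕ) ≠ 0 := (Fact.out : p.Prime).ne_zero
  set z := ModularGroup.T ^ k • τ with hz
  have hzc : (z : ℂ) = τ + k := by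
    rw [hz, UpperHalfPlane.modular_T_zpow_smul]
    simp [add_comm]
  have h3 : ((1 : ℕ) : ℂ) * (τ : ℂ) + k = z := by rw [hzc]; push_cast; ring
  have key : affMap p 1 0 (ModularGroup.S • z) = ModularGroup.S • affMap 1 p k τ := by
    apply UpperHalfPlane.ext
    rw [X0Fn.coe_affMap hp0 one_ne_zero, UpperHalfPlane.modular_S_smul,
      UpperHalfPlane.modular_S_smul]
    simp only [UpperHalfPlane.coe_mk]
    rw [X0Fn.coe_affMap one_ne_zero hp0, h3]
    have := UpperHalfPlane.ne_zero z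
    have : (p : ℂ) ≠ 0 := Nat.cast_ne_zero.mpr hp0
    field_simp
    simp
  simp only [unitF, key, dlt_S, X0Fn.coe_affMap one_ne_zero hp0]
  rw [h3, show dlt z = dlt τ from dlt_T_zpow k τ]
  have h1 := UpperHalfPlane.ne_zero z
  have h2 : (p : ℂ) ≠ 0 := Nat.cast_ne_zero.mpr hp0
  field_simp

theorem hasExp_unitF :
    HasExp p (unitF p) (qExpand ℂ p (deltaSer ℂ * qExpand ℂ p (deltaInvSer ℂ))) := by
  have hp0 : (p : ℕ) ≠ 0 := (Fact.out : p.Prime).ne_zero
  haveI : NeZero (p * p) := ⟨mul_ne_zero hp0 hp0⟩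
  have h2 := ModEq.hasExp_discriminant_inv.comp_affine (n := p) (p * p) 1 (affMap p 1 0) (fun τ ↦ by
    rw [qp_affMap hp0 one_ne_zero (one_dvd p), Nat.div_one]
    simp) (tendsto_affMap hp0 one_ne_zero 0)
  rw [ModEq.substHom_one] at h2
  have h := hasExp_dlt_level.mul h2
  rw [map_mul, qExpand_qExpand]
  exact h.congr (Eventually.of_forall fun τ ↦ rfl)

/-- The series of `Δ(τ)/Δ(τ/p)` up to a root of unity. -/
def unitSeriesS (u : ℂˣ) : LaurentSeries ℂ :=
  HahnSeries.C ((p : ℂ) ^ 12) * (qExpand ℂ p (deltaSer ℂ) * substHom u 1 (deltaInvSer ℂ))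

theorem exists_hasExp_S (k : ℤ) :
    ∃ u : ℂˣ, HasExp p (fun τ ↦ unitF p (ModularGroup.S • ModularGroup.T ^ k • τ))
      (unitSeriesS (p := p) u) := by
  have hp0 : (p : ℕ) ≠ 0 := (Fact.out : p.Prime).ne_zero
  refine ⟨Units.mk0 _ (Complex.exp_ne_zero (2 * Real.pi * Complex.I * k / p)), ?_⟩
  have h2 := ModEq.hasExp_discriminant_inv.comp_affine (n := p) 1
    (Units.mk0 _ (Complex.exp_ne_zero (2 * Real.pi * Complex.I * k / p))) (affMap 1 p k) (fun τ ↦ by
    rw [qp_affMap one_ne_zero hp0 dvd_rfl, Nat.div_self (Nat.pos_of_ne_zero hp0)]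
    simp) (tendsto_affMap one_ne_zero hp0 k)
  refine ((HasExp.const ((p : ℂ) ^ 12)).mul (hasExp_dlt_level.mul h2)).congr
    (Eventually.of_forall fun τ ↦ ?_)
  rw [unitF_S]
  simp [mul_assoc]
  exact Or.inl (Or.inl rfl)

theorem unitF_cases (g : SL(2, ℤ)) :
    (∀ τ, unitF p (g • τ) = unitF p τ) ∨
      ∃ k : ℤ, ∀ τ, unitF p (g • τ) = unitF p (ModularGroup.S • ModularGroup.T ^ k • τ) := by
  rcases coset_cases (p := p) ((g⁻¹ : SL(2, ℤ)) : Cos p) with h | ⟨k, hk⟩
  · refine Or.inl fun τ ↦ unitF_smul ?_ τ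
    have := QuotientGroup.eq.mp h
    rwa [inv_inv, mul_one] at this
  · refine Or.inr ⟨-(k : ℤ), fun τ ↦ ?_⟩
    rw [MulAction.Quotient.smul_mk, smul_eq_mul] at hk
    have hγ := QuotientGroup.eq.mp hk
    rw [inv_inv] at hγ
    have hS : ∀ z : ℍ, ModularGroup.S⁻¹ • z = ModularGroup.S • z := fun z ↦ by
      rw [inv_smul_eq_iff]
      apply UpperHalfPlane.ext
      rw [UpperHalfPlane.modular_S_smul, UpperHalfPlane.modular_S_smul]
      simp only [UpperHalfPlane.coe_mk]
      have := UpperHalfPlane.ne_zero z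
      field_simp
    have e := unitF_smul hγ (ModularGroup.S⁻¹ • (ModularGroup.T ^ k)⁻¹ • τ)
    rw [mul_smul, mul_smul, smul_inv_smul, smul_inv_smul, hS] at e
    rw [e, zpow_neg, zpow_natCast]

theorem unitF_mem : unitF p ∈ W0 p := by
  have hmd := mdiff_unitF (p := p)
  refine ⟨hmd, fun γ hγ τ ↦ unitF_smul hγ τ, fun g ↦ ?_⟩
  rcases unitF_cases (p := p) g with h | ⟨k, hk⟩
  · exact mem_PerL_of_hasExp (X0Fn.comp_smul_mdiff hmd g) (fun τ ↦ unitF_periodic g τ)
      ((hasExp_unitF (p := p)).congr (Eventually.of_forall fun τ ↦ (h τ).symm))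
  · obtain ⟨u, hu⟩ := exists_hasExp_S (p := p) k
    exact mem_PerL_of_hasExp (X0Fn.comp_smul_mdiff hmd g) (fun τ ↦ unitF_periodic g τ)
      (hu.congr (Eventually.of_forall fun τ ↦ (hk τ).symm))

theorem order_qExpand {R : Type*} [CommRing R] (x : LaurentSeries R) :
    (qExpand R p x).order = (p : ℤ) * x.order := by
  rcases eq_or_ne x 0 with rfl | hx
  · simp
  have hp : (0 : ℤ) < p := by exact_mod_cast (Fact.out : p.Prime).pos
  have h0 : (qExpand R p x).coeff ((p : ℤ) * x.order) ≠ 0 := by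
    rw [qExpand_coeff_mul]
    exact HahnSeries.coeff_order_eq_zero.not.mpr hx
  refine le_antisymm (HahnSeries.order_le_of_coeff_ne_zero h0) ?_
  by_contra hlt
  have h2 := HahnSeries.coeff_order_eq_zero.not.mpr (HahnSeries.ne_zero_of_coeff_ne_zero h0)
  by_cases hd : (p : ℤ) ∣ (qExpand R p x).order
  · obtain ⟨k, hk⟩ := hd
    rw [hk, qExpand_coeff_mul] at h2
    have := HahnSeries.order_le_of_coeff_ne_zero h2
    nlinarith [not_le.mp hlt]
  · exact h2 (qExpand_coeff_of_not_dvd p _ hd)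

theorem order_substHom_one {R : Type*} [CommRing R] (u : Rˣ) (x : LaurentSeries R) :
    (substHom u 1 x).order = x.order := by
  have hc : ∀ k : ℤ, (substHom u 1 x).coeff k = ((u ^ k : Rˣ) : R) * x.coeff k := fun k ↦ by
    have := ModEq.substHom_coeff_mul u 1 x k
    simpa using this
  rcases eq_or_ne x 0 with rfl | hx
  · simp
  have h0 : (substHom u 1 x).coeff x.order ≠ 0 := by
    rw [hc, ne_eq, Units.mul_right_eq_zero]
    exact HahnSeries.coeff_order_eq_zero.not.mpr hx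
  refine le_antisymm (HahnSeries.order_le_of_coeff_ne_zero h0) ?_
  by_contra hlt
  refine HahnSeries.coeff_order_eq_zero.not.mpr (HahnSeries.ne_zero_of_coeff_ne_zero h0) ?_
  rw [hc, HahnSeries.coeff_eq_zero_of_lt_order (not_le.mp hlt), mul_zero]

theorem order_unitSeriesS (u : ℂˣ) : (unitSeriesS (p := p) u).order = (p : ℤ) - 1 := by
  have hp0 : (p : ℕ) ≠ 0 := (Fact.out : p.Prime).ne_zero
  have hs : ∀ (k : ℤ) (P : PowerSeries ℤ), PowerSeries.constantCoeff P = 1 →
      (HahnSeries.single k (1 : ℂ) *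
        HahnSeries.ofPowerSeries ℤ ℂ (P.map (Int.castRingHom ℂ))).order = k := fun k P hP ↦ by
    refine X0Fn.order_single_mul_ofPowerSeries one_ne_zero ?_ k
    rw [← PowerSeries.coeff_zero_eq_constantCoeff_apply, PowerSeries.coeff_map,
      PowerSeries.coeff_zero_eq_constantCoeff_apply, hP]
    simp
  have h1 : (deltaSer ℂ).order = 1 := hs 1 _ constantCoeff_dedekindEtaUnit
  have hne : deltaSer ℂ * deltaInvSer ℂ = 1 := ModEq.deltaSer_mul_inv ℂ
  have hn1 : deltaSer ℂ ≠ 0 := left_ne_zero_of_mul_eq_one hne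
  have hn2 : deltaInvSer ℂ ≠ 0 := right_ne_zero_of_mul_eq_one hne
  have h2 : (deltaInvSer ℂ).order = -1 := by
    have := congrArg HahnSeries.order hne
    rw [HahnSeries.order_mul hn1 hn2, h1, HahnSeries.order_one] at this
    omega
  have h3 : (qExpand ℂ p (deltaSer ℂ)).order = (p : ℤ) := by
    exact (order_qExpand (deltaSer ℂ)).trans (by rw [h1, mul_one])
  have hC : (HahnSeries.C ((p : ℂ) ^ 12) : LaurentSeries ℂ) ≠ 0 :=
    HahnSeries.C_ne_zero (pow_ne_zero _ (Nat.cast_ne_zero.mpr hp0))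
  have hq : qExpand ℂ p (deltaSer ℂ) ≠ 0 := (map_ne_zero_iff _ (qExpand_injective p)).mpr hn1
  have hsu : substHom u 1 (deltaInvSer ℂ) ≠ 0 :=
    (map_ne_zero_iff _ (ModEq.substHom_injective u 1)).mpr hn2
  rw [unitSeriesS, HahnSeries.order_mul hC (mul_ne_zero hq hsu), HahnSeries.order_mul hq hsu,
    HahnSeries.order_C, h3, order_substHom_one, h2]
  ring

/-- The modular unit: its expansion and its divisor. -/
theorem exists_unit :
    ∃ f : modularFunctionFieldBar p,
      (f : LaurentSeries QA) = coeffEmb QA (modularUnitSeries p) ∧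
      f ≠ 0 ∧ (cuspInf p).ord f = 1 - (p : ℤ) ∧ (cuspZero p).ord f = (p : ℤ) - 1 ∧
      ∀ v, v ≠ cuspInf p → v ≠ cuspZero p → v.ord f = 0 := by
  classical
  set κ := kappa0
  set W : W0 p := ⟨unitF p, unitF_mem⟩ with hWdef
  set z := coeffEmb QA (modularUnitSeries p) with hz
  have hW : iota (N := p) κ z = expW p W := by
    refine HasExp.unique ?_ (hasExp_expL ⟨_, X0Fn.W0_le_PerL W.2⟩)
    rw [hz, X0Fn.iota_coeffEmb]
    have e : coeffMap (algebraMap ℚ ℂ) (modularUnitSeries p) =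
        deltaSer ℂ * qExpand ℂ p (deltaInvSer ℂ) := by
      have hd : deltaSeries = deltaSer ℚ := rfl
      have hi : (deltaSeriesN p)⁻¹ = qExpand ℚ p (deltaInvSer ℚ) := by
        refine inv_eq_of_mul_eq_one_right ?_
        rw [deltaSeriesN, hd, ← map_mul, ModEq.deltaSer_mul_inv, map_one]
      rw [modularUnitSeries, hi, hd, map_mul, coeffMap_qExpand, ModEq.coeffMap_deltaSer,
        ModEq.coeffMap_deltaInvSer]
    rw [e]
    exact hasExp_unitF
  have hmem : z ∈ XF QA p := by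
    refine TorsionHom.mem_XF_of_W0 κ (A := W) (B := 1) (fun h ↦ one_ne_zero (congrFun
      (congrArg (fun f : W0 p => (f : ℍ → ℂ)) h) UpperHalfPlane.I)) ?_
    rw [map_one, mul_one, hW]
  set f : XF QA p := ⟨z, hmem⟩ with hf
  have hf0 : f ≠ 0 := fun h ↦ by
    have h1 : z = 0 := congrArg Subtype.val h
    rw [hz, map_eq_zero] at h1
    exact modularUnitSeries_ne_zero p h1
  have hci : (cuspInf p).ord f = 1 - (p : ℤ) := by
    rw [ord_cuspInf]
    show z.order = _
    rw [hz, ← order_modularUnitSeries p]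
    have h0 := HahnSeries.coeff_order_eq_zero.not.mpr (modularUnitSeries_ne_zero p)
    refine le_antisymm (HahnSeries.order_le_of_coeff_ne_zero ?_) ?_
    · rw [coeffEmb_coeff, map_ne_zero]
      exact h0
    · by_contra hlt
      refine HahnSeries.coeff_order_eq_zero.not.mpr
        ((map_ne_zero (coeffEmb QA)).mpr (modularUnitSeries_ne_zero p)) ?_
      rw [coeffEmb_coeff, HahnSeries.coeff_eq_zero_of_lt_order (not_le.mp hlt), map_zero]
  have hc0 : (cuspZero p).ord f = (p : ℤ) - 1 := by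
    obtain ⟨c, hc, hord⟩ := exists_ord_cuspZero (p := p) κ
    have hc1 : c = 1 := by
      have h := hord (jF QA p)
      rw [X0Fn.cuspEmb_jF, X0Fn.order_iota_jq, ord_jF_cuspZero, mul_neg, neg_inj] at h
      have hp0 : (p : ℤ) ≠ 0 := by exact_mod_cast (Fact.out : p.Prime).ne_zero
      exact mul_right_cancel₀ hp0 (h.symm.trans (one_mul _).symm)
    have h := hord f
    rw [hc1, one_mul, cuspEmb_eq κ f hW] at h
    obtain ⟨u, hu⟩ := exists_hasExp_S (p := p) 0
    have e := (hasExp_expL (N := p) ⟨trans (ModularGroup.S : Cos p) W,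
      X0Fn.trans_mem_PerL _ W⟩).unique (hu.congr (Eventually.of_forall fun τ ↦ by
        rw [show ((⟨trans (ModularGroup.S : Cos p) W, X0Fn.trans_mem_PerL _ W⟩ : PerL (p : ℝ)) :
          ℍ → ℂ) τ = (W : ℍ → ℂ) (ModularGroup.S⁻¹ • τ) from X0Fn.trans_mk W _ τ]
        show unitF p _ = unitF p _
        congr 1
        rw [zpow_zero, one_smul, eq_inv_smul_iff]
        apply UpperHalfPlane.ext
        rw [UpperHalfPlane.modular_S_smul, UpperHalfPlane.modular_S_smul]
        simp only [UpperHalfPlane.coe_mk]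
        have := UpperHalfPlane.ne_zero τ
        field_simp))
    rw [← h, e, order_unitSeriesS]
  refine ⟨f, rfl, hf0, hci, hc0, fun v hv1 hv2 ↦ ?_⟩
  have hv : 0 ≤ v.ord (jF QA p) := by
    by_contra hlt
    rcases (ord_jF_neg_iff v).mp (not_le.mp hlt) with h | h
    · exact hv1 h
    · exact hv2 h
  obtain ⟨τ, q, c, hc, hord⟩ := exists_emb κ v hv
  have h := hord f
  rw [pointEmb_eq κ f hW τ] at h
  have hne : PowerSeries.constantCoeff
      (taylorAt τ ⟨trans q W, X0Fn.trans_mem_Hol q W⟩) ≠ 0 := by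
    have e : taylorAt τ ⟨trans q W, X0Fn.trans_mem_Hol q W⟩ =
        X0Fn.tay τ (trans q W ∘ ofComplex) := rfl
    rw [e, ← PowerSeries.coeff_zero_eq_constantCoeff_apply, X0Fn.tay, PowerSeries.coeff_mk]
    simp only [iteratedDeriv_zero, Nat.factorial_zero, Nat.cast_one, div_one, comp_apply,
      ofComplex_apply]
    exact mul_ne_zero (FLTAgent.ES.dlt_ne_zero _) (inv_ne_zero (FLTAgent.ES.dlt_ne_zero _))
  have h0 : (HahnSeries.ofPowerSeries ℤ ℂ
      (taylorAt τ ⟨trans q W, X0Fn.trans_mem_Hol q W⟩)).order = 0 := by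
    have := X0Fn.order_single_mul_ofPowerSeries (one_ne_zero (α := ℂ)) hne 0
    simpa using this
  rw [h0] at h
  exact (mul_eq_zero.mp h.symm).resolve_left hc.ne'

/-- The divisor of the modular unit. -/
theorem exists_unit_divOf [Curves.IsFunctionField QA (modularFunctionFieldBar p)] :
    ∃ f : modularFunctionFieldBar p,
      (f : LaurentSeries QA) = coeffEmb QA (modularUnitSeries p) ∧ f ≠ 0 ∧
      Curves.divOf QA f =
        ((p : ℤ) - 1) • (Finsupp.single (cuspZero p) 1 - Finsupp.single (cuspInf p) 1) := by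
  classical
  obtain ⟨f, hf, hf0, hi, h0, h⟩ := exists_unit (p := p)
  refine ⟨f, hf, hf0, Finsupp.ext fun v ↦ ?_⟩
  rw [Curves.divOf_apply, Finsupp.smul_apply, Finsupp.sub_apply, Finsupp.single_apply,
    Finsupp.single_apply, smul_eq_mul]
  have hne := cuspInf_ne_cuspZero (p := p)
  by_cases h1 : v = cuspInf p
  · subst h1
    rw [if_neg hne.symm, if_pos rfl, hi]
    ring
  by_cases h2 : v = cuspZero p
  · subst h2
    rw [if_pos rfl, if_neg hne, h0]
    ring
  rw [if_neg (Ne.symm h2), if_neg (Ne.symm h1), h v h1 h2]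
  ring

end FLTAgent.Mazur
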