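import Fermat.Agent.Mazur.PointBridge
import Fermat.Agent.Mazur.PointUnit
import Fermat.Agent.ModEq.JExp

/-!
# The residue disc of the cusp `∞` on `X₀(p)`

Values of integral functions without poles in a residue disc are congruent over the disc; the
disc of `∞` is recognised by the modular unit.
-/

set_option autoImplicit false
set_option linter.style.haveILetI false
set_option maxHeartbeats 1000000
set_option synthInstance.maxHeartbeats 400000

noncomputable section

open AlgebraicCurve ModularCurve IsLocalRing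
open FLTAgent.X0Fn (XF jF)
open FLTAgent.Curves (OrdGE IsFunctionField divOf divOf_apply)
open FLTAgent.ModEq (deltaSer deltaInvSer GeOrd)

namespace FLTAgent.Mazur

local notation "QA" => AlgebraicClosure ℚ

section Values

variable {p : ℕ} [Fact p.Prime] {q : ℕ} [Fact q.Prime] {A : ValuationSubring QA}
  (hA : A.LiesOverPrime q) (hqp : q ≠ p)
  {r : Place QA (modularFunctionFieldBar p) →
    Place (ResidueField A) (modularFunctionFieldFullC (ResidueField A) p)}

local notation "kA" => ResidueField A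
local notation "Fk" => modularFunctionFieldFullC (ResidueField A) p

theorem coeffMap_C_series {R S : Type*} [CommRing R] [CommRing S] (f : R →+* S) (c : R) :
    coeffMap f (HahnSeries.C c) = (HahnSeries.C (f c) : LaurentSeries S) :=
  ModEq.coeffMap_C f c

theorem algebraMap_eq_C {K : Type*} [Field K] (c : K) :
    algebraMap K (LaurentSeries K) c = HahnSeries.C c := by
  rw [HahnSeries.C_apply, ← algebraMap_laurentSeries_eq_single]

theorem coe_const (c : QA) :
    ((algebraMap QA (XF QA p) c : XF QA p) : LaurentSeries QA) = HahnSeries.C c := by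
  rw [HahnSeries.C_apply, ← algebraMap_laurentSeries_eq_single]
  rfl

theorem coe_const_red (c : kA) :
    ((algebraMap kA Fk c : Fk) : LaurentSeries kA) = HahnSeries.C c := by
  rw [HahnSeries.C_apply, ← algebraMap_laurentSeries_eq_single]
  rfl

include hA hqp in
theorem exists_red {f : XF QA p} (y : LaurentSeries A)
    (hy : coeffMap A.subtype y = (f : LaurentSeries QA)) :
    ∃ g : Fk, coeffMap (residue A) y = (g : LaurentSeries kA) := by
  haveI : IsAlgClosed kA := FrobTrace.isAlgClosed_residueField A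
  exact ⟨⟨_, Specialization.res_mem_full residue_surjective p (natCast_p_ne_zero hA hqp)
    (f := ⟨coeffMap A.subtype y, hy ▸ f.2⟩) (Specialization.laurentReduction_res (hy ▸ f.2))⟩, rfl⟩

/-- An integral function without poles in a disc reduces to a function without pole there, and
vanishing there if it vanishes at a place of the disc. -/
theorem ordGE_red (hr : IsPlaceReductionModL A p r) {f : XF QA p} {g : Fk} (y : LaurentSeries A)
    (hf : coeffMap A.subtype y = (f : LaurentSeries QA))
    (hg : coeffMap (residue A) y = (g : LaurentSeries kA))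
    {Q : Place kA Fk} (hnp : ∀ w, r w = Q → OrdGE w 0 f) :
    OrdGE Q 0 g ∧ ∀ v, r v = Q → OrdGE v 1 f → OrdGE Q 1 g := by
  classical
  by_cases hg0 : g = 0
  · exact ⟨Or.inl hg0, fun _ _ _ ↦ Or.inl hg0⟩
  have hf0 : f ≠ 0 := by
    rintro rfl
    apply hg0
    have hy0 : y = 0 := ModEq.coeffMap_injective A.subtype Subtype.val_injective
      (hf.trans (map_zero _).symm)
    rw [hy0, map_zero] at hg
    exact Subtype.ext hg.symm
  have h := mapDomain_eq hr y hf hg hg0 Q
  rw [mapDomain_apply_sum] at h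
  have hnn : ∀ w ∈ (divOf QA f).support, (0 : ℤ) ≤ if r w = Q then divOf QA f w else 0 := by
    intro w _
    split_ifs with hw
    · rw [divOf_apply]; exact (hnp w hw).le_ord hf0
    · exact le_rfl
  refine ⟨Curves.ordGE_of_le (h ▸ Finset.sum_nonneg hnn), fun v hv hv1 ↦ Curves.ordGE_of_le ?_⟩
  have h1 := hv1.le_ord hf0
  rw [← h]
  refine le_trans ?_ (Finset.single_le_sum hnn (a := v) ?_)
  · rw [if_pos hv, divOf_apply]; exact h1
  · rw [Finsupp.mem_support_iff, divOf_apply]; omega

include hA hqp in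
/-- The value of an integral function without pole in the disc is integral and reduces to the
value of the reduction. -/
theorem value_red (hr : IsPlaceReductionModL A p r) {f : XF QA p} {g : Fk} (y : LaurentSeries A)
    (hf : coeffMap A.subtype y = (f : LaurentSeries QA))
    (hg : coeffMap (residue A) y = (g : LaurentSeries kA)) {v : Place QA (XF QA p)}
    (hnp : ∀ w, r w = r v → OrdGE w 0 f) {c : QA}
    (hv : OrdGE v 1 (f - algebraMap QA (XF QA p) c)) :
    ∃ hc : c ∈ A, OrdGE (r v) 1 (g - algebraMap kA Fk (residue A ⟨c, hc⟩)) := by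
  haveI : IsAlgClosed kA := FrobTrace.isAlgClosed_residueField A
  haveI := Specialization.isFunctionField_full kA p rfl (natCast_p_ne_zero hA hqp)
  have hc : c ∈ A := by
    by_contra hc
    have hc0 : c ≠ 0 := fun h ↦ hc (h ▸ zero_mem A)
    have hci : c⁻¹ ∈ A := (A.mem_or_inv_mem c).resolve_left hc
    set b : A := ⟨c⁻¹, hci⟩
    have hb : residue A b = 0 := by
      by_contra hb
      obtain ⟨b', hb'⟩ := ((residue_ne_zero_iff_isUnit b).mp hb).exists_right_inv
      have h1 : c⁻¹ * (b' : QA) = 1 := by simpa using congrArg (Subtype.val : A → QA) hb'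
      exact hc (by rw [← inv_inv c, ← eq_inv_of_mul_eq_one_right h1]; exact b'.2)
    set f' : XF QA p := algebraMap QA (XF QA p) c⁻¹ * (f - algebraMap QA (XF QA p) c) with hf'
    have h0 := (ordGE_red hr (f := f') (g := (-1 : Fk)) (Q := r v)
      (HahnSeries.C b * y - 1) ?_ ?_ ?_).2 v rfl ?_
    · have h1 := h0.le_ord (neg_ne_zero.mpr one_ne_zero)
      rw [Curves.ord_neg, AlgebraicCurve.Place.ord_one] at h1
      omega
    · rw [hf', mul_sub, ← map_mul (algebraMap QA (XF QA p)), inv_mul_cancel₀ hc0, map_one,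
        map_sub, map_mul, coeffMap_C_series, hf, map_one]
      push_cast
      rw [← map_inv₀, algebraMap_eq_C]
      rfl
    · rw [map_sub, map_mul, coeffMap_C_series, hb, map_zero, zero_mul, map_one, zero_sub]
      push_cast
      rfl
    · intro w hw
      have := (Curves.ordGE_algebraMap w c⁻¹).mul
        ((hnp w hw).sub (Curves.ordGE_algebraMap w c))
      rw [hf']
      simpa using this
    · rw [hf']
      simpa using (Curves.ordGE_algebraMap v c⁻¹).mul hv
  refine ⟨hc, (ordGE_red hr (f := f - algebraMap QA (XF QA p) c) (Q := r v)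
    (y - HahnSeries.C (⟨c, hc⟩ : A)) ?_ ?_ fun w hw ↦ (hnp w hw).sub
      (Curves.ordGE_algebraMap w c)).2 v rfl hv⟩
  · rw [map_sub, hf, coeffMap_C_series]
    push_cast
    rw [algebraMap_eq_C]
    rfl
  · rw [map_sub, hg, coeffMap_C_series]
    push_cast
    rw [algebraMap_eq_C]

include hA hqp in
/-- Values over a disc are congruent. -/
theorem value_congr (hr : IsPlaceReductionModL A p r) {f : XF QA p} (y : LaurentSeries A)
    (hf : coeffMap A.subtype y = (f : LaurentSeries QA)) {v w : Place QA (XF QA p)}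
    (hvw : r w = r v) (hnp : ∀ u, r u = r v → OrdGE u 0 f) {c d : QA}
    (hv : OrdGE v 1 (f - algebraMap QA (XF QA p) c))
    (hw : OrdGE w 1 (f - algebraMap QA (XF QA p) d)) :
    ∃ (hc : c ∈ A) (hd : d ∈ A), residue A ⟨c, hc⟩ = residue A ⟨d, hd⟩ := by
  haveI : IsAlgClosed kA := FrobTrace.isAlgClosed_residueField A
  haveI := Specialization.isFunctionField_full kA p rfl (natCast_p_ne_zero hA hqp)
  obtain ⟨g, hg⟩ := exists_red hA hqp y hf
  obtain ⟨hc, h1⟩ := value_red hA hqp hr y hf hg hnp hv
  obtain ⟨hd, h2⟩ := value_red hA hqp hr y hf hg (fun u hu ↦ hnp u (hu.trans hvw)) hw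
  rw [hvw] at h2
  refine ⟨hc, hd, ?_⟩
  by_contra hne
  have h3 := h2.sub h1
  rw [sub_sub_sub_cancel_left, ← map_sub] at h3
  have := h3.le_ord ((map_ne_zero _).mpr (sub_ne_zero.mpr hne))
  rw [Curves.ord_algebraMap] at this
  omega

include hA hqp in
theorem red_cusp_ne (hp : 5 ≤ p) (hr : IsPlaceReductionModL A p r) :
    r (cuspInf p) ≠ r (cuspZero p) := by
  obtain ⟨ζ, hζ, hκ⟩ := exists_good_root (p := p) kappa0
  exact (red_point hA hqp hp kappa0 hζ hκ hr).1

end Values

/-! ### The modular unit -/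

section Unit

variable {p : ℕ} [Fact p.Prime]

/-- The series of `Δ(τ)/Δ(pτ)`. -/
def uS (R : Type*) [CommRing R] (p : ℕ) [NeZero p] : LaurentSeries R :=
  deltaSer R * qExpand R p (deltaInvSer R)

/-- The series of `Δ(pτ)/Δ(τ)`. -/
def uIS (R : Type*) [CommRing R] (p : ℕ) [NeZero p] : LaurentSeries R :=
  deltaInvSer R * qExpand R p (deltaSer R)

theorem coeffMap_uS {R S : Type*} [CommRing R] [CommRing S] (f : R →+* S) (p : ℕ) [NeZero p] :
    coeffMap f (uS R p) = uS S p := by
  rw [uS, uS, map_mul, coeffMap_qExpand, ModEq.coeffMap_deltaSer, ModEq.coeffMap_deltaInvSer]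

theorem coeffMap_uIS {R S : Type*} [CommRing R] [CommRing S] (f : R →+* S) (p : ℕ) [NeZero p] :
    coeffMap f (uIS R p) = uIS S p := by
  rw [uIS, uIS, map_mul, coeffMap_qExpand, ModEq.coeffMap_deltaSer, ModEq.coeffMap_deltaInvSer]

theorem uS_mul_uIS (R : Type*) [CommRing R] (p : ℕ) [NeZero p] : uS R p * uIS R p = 1 := by
  rw [uS, uIS, mul_mul_mul_comm, ModEq.deltaSer_mul_inv, ← map_mul,
    mul_comm (deltaInvSer R), ModEq.deltaSer_mul_inv, map_one, mul_one]

variable (p) in
/-- The modular unit. -/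
def uF : XF QA p := (exists_unit (p := p)).choose

theorem uF_ne_zero : uF p ≠ 0 := (exists_unit (p := p)).choose_spec.2.1

theorem coe_uF : ((uF p : XF QA p) : LaurentSeries QA) = uS QA p := by
  rw [show ((uF p : XF QA p) : LaurentSeries QA) = coeffEmb QA (modularUnitSeries p) from
    (exists_unit (p := p)).choose_spec.1]
  have hd : deltaSeries = deltaSer ℚ := rfl
  have hi : (deltaSeriesN p)⁻¹ = qExpand ℚ p (deltaInvSer ℚ) := by
    refine inv_eq_of_mul_eq_one_right ?_
    rw [deltaSeriesN, hd, ← map_mul, ModEq.deltaSer_mul_inv, map_one]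
  rw [modularUnitSeries, hi, hd, coeffEmb, map_mul, coeffMap_qExpand, ModEq.coeffMap_deltaSer,
    ModEq.coeffMap_deltaInvSer]
  rfl

theorem coe_uF_inv : (((uF p)⁻¹ : XF QA p) : LaurentSeries QA) = uIS QA p := by
  push_cast
  rw [coe_uF]
  exact inv_eq_of_mul_eq_one_right (uS_mul_uIS QA p)

theorem ord_uF_inf : (cuspInf p).ord (uF p) = 1 - (p : ℤ) :=
  (exists_unit (p := p)).choose_spec.2.2.1

theorem ord_uF_zero : (cuspZero p).ord (uF p) = (p : ℤ) - 1 :=
  (exists_unit (p := p)).choose_spec.2.2.2.1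

theorem ord_uF_of_ne {v : Place QA (XF QA p)} (h1 : v ≠ cuspInf p) (h2 : v ≠ cuspZero p) :
    v.ord (uF p) = 0 :=
  (exists_unit (p := p)).choose_spec.2.2.2.2 v h1 h2

theorem ordGE_uF {v : Place QA (XF QA p)} (h : v ≠ cuspInf p) : OrdGE v 0 (uF p) := by
  refine Curves.ordGE_of_le ?_
  by_cases h0 : v = cuspZero p
  · rw [h0, ord_uF_zero]
    have := (Fact.out : p.Prime).one_lt
    omega
  · rw [ord_uF_of_ne h h0]

theorem ordGE_uF_inv {v : Place QA (XF QA p)} (h : v ≠ cuspZero p) : OrdGE v 0 (uF p)⁻¹ := by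
  refine Curves.ordGE_of_le ?_
  rw [v.ord_inv]
  by_cases h0 : v = cuspInf p
  · rw [h0, ord_uF_inf]
    have := (Fact.out : p.Prime).one_lt
    omega
  · rw [ord_uF_of_ne h0 h, neg_zero]

theorem geOrd_uIS : GeOrd (uIS QA p) 1 := fun k hk ↦ by
  refine HahnSeries.coeff_eq_zero_of_lt_order ?_
  rw [← coe_uF_inv, ← ord_cuspInf, Place.ord_inv, ord_uF_inf]
  have := (Fact.out : p.Prime).one_lt
  omega

theorem ordGE_uF_inv_inf : OrdGE (cuspInf p) 1 (uF p)⁻¹ := by
  refine Curves.ordGE_of_le ?_
  rw [Place.ord_inv, ord_uF_inf]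
  have := (Fact.out : p.Prime).one_lt
  omega

theorem ordGE_uF_zero : OrdGE (cuspZero p) 1 (uF p) := by
  refine Curves.ordGE_of_le ?_
  rw [ord_uF_zero]
  have := (Fact.out : p.Prime).one_lt
  omega

variable {q : ℕ} [Fact q.Prime] {A : ValuationSubring QA}
  (hA : A.LiesOverPrime q) (hqp : q ≠ p) (hp : 5 ≤ p)
  {r : Place QA (modularFunctionFieldBar p) →
    Place (ResidueField A) (modularFunctionFieldFullC (ResidueField A) p)}

include hA hqp hp in
/-- In the disc of `∞` the inverse of the unit is topologically nilpotent. -/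
theorem uF_inv_value_disc (hr : IsPlaceReductionModL A p r) {v : Place QA (XF QA p)}
    (hv : r v = r (cuspInf p)) {b : QA}
    (hb : OrdGE v 1 ((uF p)⁻¹ - algebraMap QA (XF QA p) b)) :
    ∃ hb' : b ∈ A, residue A ⟨b, hb'⟩ = 0 := by
  obtain ⟨hc, hd, e⟩ := value_congr hA hqp hr (f := (uF p)⁻¹) (v := cuspInf p) (w := v)
    (uIS A p) (by rw [coeffMap_uIS, coe_uF_inv]) hv (fun u hu ↦ ordGE_uF_inv fun h ↦
      red_cusp_ne hA hqp hp hr (by rw [← hu, h]))
    (c := 0) (by rw [map_zero, sub_zero]; exact ordGE_uF_inv_inf) hb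
  exact ⟨hd, e.symm.trans (map_zero _)⟩

include hA hqp in
/-- Off the disc of `∞` the unit is integral. -/
theorem uF_value_off (hr : IsPlaceReductionModL A p r) {v : Place QA (XF QA p)}
    (hv : r v ≠ r (cuspInf p)) {c : QA}
    (hc : OrdGE v 1 (uF p - algebraMap QA (XF QA p) c)) : c ∈ A := by
  obtain ⟨g, hg⟩ := exists_red hA hqp (f := uF p) (uS A p) (by rw [coeffMap_uS, coe_uF])
  exact (value_red hA hqp hr (uS A p) (by rw [coeffMap_uS, coe_uF]) hg
    (fun w hw ↦ ordGE_uF fun h ↦ hv (by rw [← hw, h])) hc).1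

end Unit

end FLTAgent.Mazur
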