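import Fermat.Agent.Mazur.ImmersionDisc
import Fermat.Agent.BadRed.Modular
import Fermat.Agent.Kronecker.Congruence

/-!
# The Hecke correspondences respect the residue disc of `∞`

For a prime `ℓ ≠ p` the correspondence `T_ℓ` fixes each cusp up to the multiplicity `ℓ + 1` and
carries the disc of `∞` to itself and its complement to itself.
-/

set_option autoImplicit false
set_option linter.style.haveILetI false
set_option linter.unusedSectionVars false
set_option maxHeartbeats 1000000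
set_option synthInstance.maxHeartbeats 400000

noncomputable section

open AlgebraicCurve ModularCurve IsLocalRing
open FLTAgent.X0Fn (XF jF)
open FLTAgent.Curves (OrdGE IsFunctionField divOf divOf_apply)
open FLTAgent.ModEq (substHom GeOrd evalAt)

namespace FLTAgent.Mazur

local notation "QA" => AlgebraicClosure ℚ

/-! ### Substitutions -/

section Series

variable {R : Type*} [CommRing R]

theorem geOrd_substHom (u : Rˣ) (m : ℕ) [NeZero m] {x : LaurentSeries R} {a : ℤ}
    (h : GeOrd x a) : GeOrd (substHom u m x) ((m : ℤ) * a) := by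
  intro k hk
  by_cases hd : (m : ℤ) ∣ k
  · obtain ⟨c, rfl⟩ := hd
    rw [ModEq.substHom_coeff_mul, h c (lt_of_mul_lt_mul_left hk (Int.natCast_nonneg m)), mul_zero]
  · exact ModEq.substHom_coeff_of_not_dvd u m x hd

theorem coeff_zero_substHom (u : Rˣ) (m : ℕ) [NeZero m] (x : LaurentSeries R) :
    (substHom u m x).coeff 0 = x.coeff 0 := by
  have := ModEq.substHom_coeff_mul u m x 0
  simpa using this

theorem geOrd_prod {ι : Type*} (s : Finset ι) (x : ι → LaurentSeries R) (a : ι → ℤ)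
    (h : ∀ i ∈ s, GeOrd (x i) (a i)) :
    GeOrd (∏ i ∈ s, x i) (∑ i ∈ s, a i) ∧
      (∏ i ∈ s, x i).coeff (∑ i ∈ s, a i) = ∏ i ∈ s, (x i).coeff (a i) := by
  classical
  induction s using Finset.induction with
  | empty => exact ⟨ModEq.geOrd_one, by simp⟩
  | insert i s hi ih =>
    rw [Finset.prod_insert hi, Finset.sum_insert hi, Finset.prod_insert hi]
    obtain ⟨h1, h2⟩ := ih fun j hj ↦ h j (Finset.mem_insert_of_mem hj)
    have h0 := h i (Finset.mem_insert_self i s)
    exact ⟨h0.mul h1, by rw [h0.coeff_mul_add h1, h2]⟩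

theorem geOrd_qExpand_iff (m : ℕ) [NeZero m] {x : LaurentSeries R} {a : ℤ}
    (h : GeOrd (qExpand R m x) ((m : ℤ) * a)) : GeOrd x a := fun k hk ↦ by
  rw [← qExpand_coeff_mul m x k]
  exact h _ (mul_lt_mul_of_pos_left hk (by exact_mod_cast Nat.pos_of_ne_zero (NeZero.ne m)))

end Series

variable (p : ℕ) [Fact p.Prime] (ℓ : ℕ) [Fact ℓ.Prime]

instance instNeZeroMulPrimes : NeZero (p * ℓ) :=
  ⟨Nat.mul_ne_zero (Fact.out : p.Prime).ne_zero (Fact.out : ℓ.Prime).ne_zero⟩

/-- `T_ℓ` on divisors of `X₀(p)`. -/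
def tOp : Divisor QA (XF QA p) →+ Divisor QA (XF QA p) :=
  haveI : HasPrincipalDivisors QA (modularFunctionFieldBar (p * ℓ)) := Curves.hasPrincipalDivisors
  heckeDivBar (L := QA) (N := p) (ℓ := ℓ)
    (Kronecker.isIntegralAlong (heckeAlphaBar QA p ℓ))
    (Kronecker.isIntegralAlong (heckeBetaBar QA p ℓ))

/-- `T_ℓ` on functions. -/
def tFun (f : XF QA p) : XF QA p :=
  Kronecker.normAlpha p ℓ (heckeBetaBar QA p ℓ f)

variable {p ℓ}

theorem tOp_eq [HasPrincipalDivisors QA (modularFunctionFieldBar (p * ℓ))] :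
    tOp p ℓ = Divisor.correspondence (heckeBetaBar QA p ℓ) (heckeAlphaBar QA p ℓ)
      (Kronecker.isIntegralAlong _) (Kronecker.isIntegralAlong _) := rfl

theorem tFun_ne_zero {f : XF QA p} (hf : f ≠ 0) : tFun p ℓ f ≠ 0 := by
  letI := algebraAlong (heckeAlphaBar QA p ℓ)
  haveI : Module.Finite (modularFunctionFieldBar p) (modularFunctionFieldBar (p * ℓ)) :=
    Kronecker.finiteAlong _
  exact Algebra.norm_ne_zero_iff.mpr ((map_ne_zero _).mpr hf)

theorem tOp_divOf {f : XF QA p} (hf : f ≠ 0) (v : Place QA (XF QA p)) :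
    tOp p ℓ (divOf QA f) v = v.ord (tFun p ℓ f) := by
  haveI : HasPrincipalDivisors QA (modularFunctionFieldBar (p * ℓ)) := Curves.hasPrincipalDivisors
  exact Kronecker.heckeDivBar_apply_of_ord _ _ hf (fun P ↦ divOf_apply f P) v

theorem exists_place_of_tOp_pos {v1 v2 : Place QA (XF QA p)}
    (h : tOp p ℓ (Finsupp.single v2 1) v1 ≠ 0) :
    ∃ w : Place QA (modularFunctionFieldBar (p * ℓ)),
      w.restrictAlong (heckeBetaBar QA p ℓ) (Kronecker.isIntegralAlong _) = v2 ∧
      w.restrictAlong (heckeAlphaBar QA p ℓ) (Kronecker.isIntegralAlong _) = v1 := by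
  classical
  haveI : HasPrincipalDivisors QA (modularFunctionFieldBar (p * ℓ)) := Curves.hasPrincipalDivisors
  rw [tOp_eq, Divisor.correspondence_apply, Divisor.pullbackAlong_single, map_sum,
    Finsupp.finsetSum_apply] at h
  obtain ⟨w, hw, hne⟩ := Finset.exists_ne_zero_of_sum_ne_zero h
  rw [Divisor.pushforwardAlong_single, Finsupp.single_apply, ite_ne_right_iff] at hne
  exact ⟨w, Place.mem_fiberAlong.mp hw, hne.1⟩

theorem tOp_single_nonneg (v2 v1 : Place QA (XF QA p)) :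
    0 ≤ tOp p ℓ (Finsupp.single v2 1) v1 := by
  classical
  haveI : HasPrincipalDivisors QA (modularFunctionFieldBar (p * ℓ)) := Curves.hasPrincipalDivisors
  rw [tOp_eq, Divisor.correspondence_apply, Divisor.pullbackAlong_single, map_sum,
    Finsupp.finsetSum_apply]
  refine Finset.sum_nonneg fun w _ ↦ ?_
  rw [Divisor.pushforwardAlong_single, Finsupp.single_apply]
  split_ifs
  · positivity
  · exact le_rfl

theorem tOp_apply_eq_sum (D : Divisor QA (XF QA p)) (v : Place QA (XF QA p)) :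
    tOp p ℓ D v = ∑ w ∈ D.support, D w * tOp p ℓ (Finsupp.single w 1) v := by
  conv_lhs => rw [← Finsupp.sum_single D, Finsupp.sum, map_sum, Finsupp.finsetSum_apply]
  refine Finset.sum_congr rfl fun w _ ↦ ?_
  rw [show Finsupp.single w (D w) = D w • Finsupp.single w (1 : ℤ) by simp, map_zsmul,
    Finsupp.smul_apply, smul_eq_mul]

theorem tOp_nonneg {D : Divisor QA (XF QA p)} (hD : ∀ w, 0 ≤ D w) (v : Place QA (XF QA p)) :
    0 ≤ tOp p ℓ D v := by
  rw [tOp_apply_eq_sum]
  exact Finset.sum_nonneg fun w _ ↦ mul_nonneg (hD w) (tOp_single_nonneg w v)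

theorem tOp_mono {D E : Divisor QA (XF QA p)} (h : ∀ w, D w ≤ E w) (v : Place QA (XF QA p)) :
    tOp p ℓ D v ≤ tOp p ℓ E v := by
  have := tOp_nonneg (ℓ := ℓ) (D := E - D)
    (fun w ↦ by rw [Finsupp.sub_apply]; linarith [h w]) v
  rw [map_sub, Finsupp.sub_apply] at this
  linarith

variable (hℓp : ¬ ℓ ∣ p)

include hℓp in
theorem degree_tOp (D : Divisor QA (XF QA p)) :
    Divisor.degree (tOp p ℓ D) = ((ℓ + 1 : ℕ) : ℤ) * Divisor.degree D := by
  haveI : HasPrincipalDivisors QA (modularFunctionFieldBar (p * ℓ)) := Curves.hasPrincipalDivisors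
  rw [tOp_eq,
    Divisor.degree_correspondence _ _ _ _ (Kronecker.fundamentalIdentityAlong _ _)]
  exact congrArg (fun n : ℕ ↦ (n : ℤ) * Divisor.degree D) (BadRed.finrankAlong_beta (M := p) hℓp)

/-- The level `p` cusps are the places carrying a pole of `j`. -/
theorem tOp_cusp {v1 v2 : Place QA (XF QA p)}
    (h : tOp p ℓ (Finsupp.single v2 1) v1 ≠ 0) (hv2 : v2.ord (jF QA p) < 0) :
    v1.ord (jF QA p) < 0 := by
  obtain ⟨w, hw2, hw1⟩ := exists_place_of_tOp_pos h
  by_contra hv1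
  set a := heckeAlphaBar QA p ℓ (Kronecker.jEl p)
  set b := heckeBetaBar QA p ℓ (Kronecker.jEl p)
  have hj : Kronecker.jEl p = jF QA p := Subtype.ext ((Kronecker.coe_jEl p).trans coe_jF.symm)
  have ha : a ∈ w.toValuationSubring := by
    refine Curves.ordGE_zero_iff_mem.mp (Curves.ordGE_of_le ?_)
    rw [Place.ord_restrictAlong _ (Kronecker.isIntegralAlong _) w, hw1, hj]
    exact mul_nonneg (Int.natCast_nonneg _) (not_lt.mp hv1)
  have hb : b ∉ w.toValuationSubring := by
    rw [Curves.not_mem_iff_ord_neg, Place.ord_restrictAlong _ (Kronecker.isIntegralAlong _) w,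
      hw2, hj]
    have : 0 < Place.ramificationIndexAlong (heckeBetaBar QA p ℓ) w := by
      letI := algebraAlong (heckeBetaBar QA p ℓ)
      haveI := isScalarTower_along (heckeBetaBar QA p ℓ)
      haveI := isIntegral_along _ (Kronecker.isIntegralAlong (heckeBetaBar QA p ℓ))
      exact Place.ramificationIndex_pos (F := modularFunctionFieldBar p) w
    nlinarith
  refine hb ?_
  set O := w.toValuationSubring
  have hint : IsIntegral O b := by
    refine ⟨(ModEq.modularPolynomialData ℓ).Φ.map (evalAt (⟨a, ha⟩ : O)),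
      (ModEq.modularPolynomialData ℓ).monic.map _, ?_⟩
    rw [Polynomial.eval₂_map, show (algebraMap O _).comp (evalAt (⟨a, ha⟩ : O)) = evalAt a from
      ModEq.comp_evalAt (algebraMap O (modularFunctionFieldBar (p * ℓ))) ⟨a, ha⟩,
      ← Polynomial.eval_map]
    exact BadRed.modularRel (M := p) (q := ℓ)
  obtain ⟨z, hz⟩ := IsIntegrallyClosed.isIntegral_iff.mp hint
  exact hz ▸ z.2

/-! ### The norm of an integral series -/

/-- The substitutions of `T_ℓ` on integral series. -/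
def conjA {A : ValuationSubring QA} (u : Aˣ) : Option (Fin ℓ) → (LaurentSeries A →+* LaurentSeries A)
  | none => substHom 1 (ℓ * (p * ℓ))
  | some b => substHom (u ^ ((b : ℕ) * p)) p

/-- The dilation of a substitution. -/
def conjLen (p : ℕ) {ℓ : ℕ} : Option (Fin ℓ) → ℕ
  | none => ℓ * (p * ℓ)
  | some _ => p

theorem sum_conjLen : ∑ i : Option (Fin ℓ), ((conjLen p i : ℕ) : ℤ) =
    ((p * ℓ : ℕ) : ℤ) * (ℓ + 1 : ℕ) := by
  rw [Fintype.sum_option]
  simp [conjLen]
  ring

theorem geOrd_conjA {A : ValuationSubring QA} (u : Aˣ) (i : Option (Fin ℓ))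
    {x : LaurentSeries A} {a : ℤ} (h : GeOrd x a) :
    GeOrd (conjA (p := p) (ℓ := ℓ) u i x) ((conjLen p i : ℕ) * a) := by
  haveI : NeZero (ℓ * (p * ℓ)) :=
    ⟨Nat.mul_ne_zero (Fact.out : ℓ.Prime).ne_zero (NeZero.ne (p * ℓ))⟩
  cases i <;> exact geOrd_substHom _ _ h

theorem coeff_zero_conjA {A : ValuationSubring QA} (u : Aˣ) (i : Option (Fin ℓ))
    (x : LaurentSeries A) : (conjA (p := p) (ℓ := ℓ) u i x).coeff 0 = x.coeff 0 := by
  haveI : NeZero (ℓ * (p * ℓ)) :=
    ⟨Nat.mul_ne_zero (Fact.out : ℓ.Prime).ne_zero (NeZero.ne (p * ℓ))⟩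
  cases i <;> exact coeff_zero_substHom _ _ _

include hℓp in
/-- The norm of an integral series is the product of its substitutions. -/
theorem exists_tFun_series (A : ValuationSubring QA) :
    ∃ u : Aˣ, IsPrimitiveRoot u (p * ℓ) ∧
      ∀ (f : XF QA p) (y : LaurentSeries A), coeffMap A.subtype y = (f : LaurentSeries QA) →
        ∃ g : LaurentSeries A, coeffMap A.subtype g = (tFun p ℓ f : LaurentSeries QA) ∧
          qExpand A (p * ℓ) g = ∏ i : Option (Fin ℓ), conjA (p := p) (ℓ := ℓ) u i y := by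
  classical
  haveI : NeZero (ℓ * (p * ℓ)) :=
    ⟨Nat.mul_ne_zero (Fact.out : ℓ.Prime).ne_zero (NeZero.ne (p * ℓ))⟩
  obtain ⟨ζ, hζ⟩ := ModEq.exists_isPrimitiveRoot_units (K := QA) (p * ℓ)
    (Nat.cast_ne_zero.2 (NeZero.ne (p * ℓ)))
  have hζ1 : (ζ : QA) ^ (p * ℓ) = 1 := by
    rw [← Units.val_pow_eq_pow_val, hζ.pow_eq_one, Units.val_one]
  have hζA : (ζ : QA) ∈ A := Kronecker.mem_of_pow_eq_one A (NeZero.ne _) hζ1
  have hζA' : (⟨(ζ : QA), hζA⟩ : A) ^ (p * ℓ) = 1 := Subtype.ext hζ1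
  let u : Aˣ := Units.ofPowEqOne _ _ hζA' (NeZero.ne _)
  have hu : Units.map A.subtype.toMonoidHom u = ζ := Units.ext rfl
  refine ⟨u, IsPrimitiveRoot.of_map_of_injective (hu.symm ▸ hζ :
    IsPrimitiveRoot (Units.map A.subtype.toMonoidHom u) (p * ℓ))
    (Units.map_injective Subtype.val_injective), fun f y hy ↦ ?_⟩
  set R : LaurentSeries A := ∏ i, conjA (p := p) (ℓ := ℓ) u i y with hR
  set G : LaurentSeries QA := (tFun p ℓ f : LaurentSeries QA)
  have hG : coeffMap A.subtype R = qExpand QA (p * ℓ) G := by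
    rw [hR, map_prod]
    refine Eq.trans ?_ (Kronecker.qExpand_normAlpha hℓp hζ f).symm
    refine Finset.prod_congr rfl fun i _ ↦ ?_
    cases i with
    | none =>
      show coeffMap A.subtype (substHom 1 (ℓ * (p * ℓ)) y) = qExpand QA (ℓ * (p * ℓ)) _
      rw [ModEq.coeffMap_substHom, map_one, ModEq.substHom_one, hy]
    | some b =>
      show coeffMap A.subtype (substHom (u ^ ((b : ℕ) * p)) p y) =
        substHom (ζ ^ ((b : ℕ) * p)) p _
      rw [ModEq.coeffMap_substHom, map_pow, hu, hy]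
  have hmem : ∀ n : ℤ, G.coeff n ∈ A := fun n ↦ by
    have h := congrArg (fun z : LaurentSeries QA => z.coeff (((p * ℓ : ℕ) : ℤ) * n)) hG
    simp only [qExpand_coeff_mul, coeffMap_coeff] at h
    rw [← h]
    exact (R.coeff _).2
  let g : LaurentSeries A :=
    { coeff := fun n => ⟨G.coeff n, hmem n⟩
      isPWO_support' := G.isPWO_support.mono fun n hn h0 => hn (Subtype.ext h0) }
  have hg : coeffMap A.subtype g = G := by ext n; rfl
  refine ⟨g, hg, ModEq.coeffMap_injective A.subtype Subtype.val_injective ?_⟩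
  rw [coeffMap_qExpand, hg, hG]

theorem geOrd_coeffMap {R S : Type*} [CommRing R] [CommRing S] (φ : R →+* S)
    {x : LaurentSeries R} {a : ℤ} (h : GeOrd x a) : GeOrd (coeffMap φ x) a := fun k hk ↦ by
  rw [coeffMap_coeff, h k hk, map_zero]

theorem ordGE_cuspInf {f : XF QA p} {n : ℤ} (h : GeOrd (f : LaurentSeries QA) n) :
    OrdGE (cuspInf p) n f := by
  by_cases hf : f = 0
  · exact Or.inl hf
  refine Curves.ordGE_of_le ?_
  rw [ord_cuspInf]
  by_contra hlt
  exact HahnSeries.coeff_order_eq_zero.not.mpr (fun h0 ↦ hf (Subtype.ext h0))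
    (h _ (not_le.mp hlt))

include hℓp in
theorem ord_tFun_uF_inv :
    ((ℓ + 1 : ℕ) : ℤ) * ((p : ℤ) - 1) ≤ (cuspInf p).ord (tFun p ℓ (uF p)⁻¹) := by
  classical
  obtain ⟨u, -, hu⟩ := exists_tFun_series hℓp (⊤ : ValuationSubring QA)
  obtain ⟨g, hg, hgR⟩ := hu (uF p)⁻¹ (uIS _ p) (by rw [coeffMap_uIS, coe_uF_inv])
  have h1 : GeOrd (uIS (⊤ : ValuationSubring QA) p) ((p : ℤ) - 1) := fun k hk ↦ Subtype.ext (by
    have : (uIS QA p).coeff k = 0 := by
      refine HahnSeries.coeff_eq_zero_of_lt_order ?_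
      rw [← coe_uF_inv, ← ord_cuspInf, Place.ord_inv, ord_uF_inf]
      omega
    rw [← coeffMap_uIS (⊤ : ValuationSubring QA).subtype, coeffMap_coeff] at this
    exact this)
  have h2 := (geOrd_prod Finset.univ (fun i ↦ conjA (p := p) (ℓ := ℓ) u i (uIS _ p)) _
    (fun i _ ↦ geOrd_conjA (p := p) (ℓ := ℓ) u i h1)).1
  rw [← hgR, ← Finset.sum_mul, sum_conjLen, mul_assoc] at h2
  refine (ordGE_cuspInf ?_).le_ord (tFun_ne_zero (inv_ne_zero uF_ne_zero))
  rw [← hg]
  exact geOrd_coeffMap _ (geOrd_qExpand_iff (p * ℓ) h2)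

include hℓp in
/-- `T_ℓ` multiplies the two cusps by `ℓ + 1`. -/
theorem tOp_cusps : tOp p ℓ (Finsupp.single (cuspInf p) 1) =
      Finsupp.single (cuspInf p) ((ℓ + 1 : ℕ) : ℤ) ∧
    tOp p ℓ (Finsupp.single (cuspZero p) 1) =
      Finsupp.single (cuspZero p) ((ℓ + 1 : ℕ) : ℤ) := by
  classical
  haveI := Specialization.instIsFunctionFieldX0Bar p
  set Ti := tOp p ℓ (Finsupp.single (cuspInf p) 1) with hTi
  set T0 := tOp p ℓ (Finsupp.single (cuspZero p) 1) with hT0
  have hne := cuspInf_ne_cuspZero (p := p)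
  have hshape : ∀ c : Place QA (XF QA p), c.ord (jF QA p) < 0 →
      tOp p ℓ (Finsupp.single c 1) =
        Finsupp.single (cuspInf p) (tOp p ℓ (Finsupp.single c 1) (cuspInf p)) +
          Finsupp.single (cuspZero p) (tOp p ℓ (Finsupp.single c 1) (cuspZero p)) := by
    intro c hc
    ext v
    rw [Finsupp.add_apply, Finsupp.single_apply, Finsupp.single_apply]
    by_cases h1 : v = cuspInf p
    · subst h1; rw [if_pos rfl, if_neg hne.symm, add_zero]
    by_cases h2 : v = cuspZero p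
    · subst h2; rw [if_pos rfl, if_neg hne, zero_add]
    rw [if_neg (Ne.symm h1), if_neg (Ne.symm h2), add_zero]
    by_contra hv
    rcases (ord_jF_neg_iff v).mp (tOp_cusp hv hc) with h | h
    · exact h1 h
    · exact h2 h
  have hdeg : ∀ c : Place QA (XF QA p), c.ord (jF QA p) < 0 →
      tOp p ℓ (Finsupp.single c 1) (cuspInf p) + tOp p ℓ (Finsupp.single c 1) (cuspZero p) =
        ((ℓ + 1 : ℕ) : ℤ) := by
    intro c hc
    have h := degree_tOp hℓp (Finsupp.single c 1)
    rw [hshape c hc, map_add, Divisor.degree_single, Divisor.degree_single,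
      Divisor.degree_single] at h
    simpa [Curves.deg_eq_one] using h
  have hci := (ord_jF_neg_iff (cuspInf p)).mpr (Or.inl rfl)
  have hc0 := (ord_jF_neg_iff (cuspZero p)).mpr (Or.inr rfl)
  have hN := ord_tFun_uF_inv hℓp
  have hdiv : divOf QA (uF p)⁻¹ = ((p : ℤ) - 1) •
      (Finsupp.single (cuspInf p) 1 - Finsupp.single (cuspZero p) (1 : ℤ)) := by
    ext v
    rw [divOf_apply, Place.ord_inv, Finsupp.smul_apply, Finsupp.sub_apply, Finsupp.single_apply,
      Finsupp.single_apply, smul_eq_mul]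
    by_cases h1 : v = cuspInf p
    · subst h1; rw [if_pos rfl, if_neg hne.symm, ord_uF_inf]; ring
    by_cases h2 : v = cuspZero p
    · subst h2; rw [if_pos rfl, if_neg hne, ord_uF_zero]; ring
    rw [if_neg (Ne.symm h1), if_neg (Ne.symm h2), ord_uF_of_ne h1 h2]; ring
  rw [← tOp_divOf (inv_ne_zero uF_ne_zero), hdiv, map_zsmul, map_sub, Finsupp.smul_apply,
    Finsupp.sub_apply, smul_eq_mul, ← hTi, ← hT0, mul_comm _ ((p : ℤ) - 1)] at hN
  have hp1 : (0 : ℤ) < (p : ℤ) - 1 := by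
    have := (Fact.out : p.Prime).one_lt
    omega
  have hN' := le_of_mul_le_mul_left hN hp1
  have hi := hdeg _ hci
  have h0 := hdeg _ hc0
  rw [← hTi] at hi
  rw [← hT0] at h0
  have a1 : 0 ≤ T0 (cuspInf p) := tOp_single_nonneg _ _
  have a2 : 0 ≤ Ti (cuspZero p) := tOp_single_nonneg _ _
  have b1 : T0 (cuspInf p) = 0 := by omega
  have b2 : Ti (cuspZero p) = 0 := by omega
  constructor
  · rw [hTi, hshape _ hci, ← hTi, b2, Finsupp.single_zero, add_zero]
    congr 1
    omega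
  · rw [hT0, hshape _ hc0, ← hT0, b1, Finsupp.single_zero, zero_add]
    congr 1
    omega

/-! ### The disc -/

variable {q : ℕ} [Fact q.Prime] {A : ValuationSubring QA}
  (hA : A.LiesOverPrime q) (hqp : q ≠ p) (hp : 5 ≤ p)
  {r : Place QA (modularFunctionFieldBar p) →
    Place (ResidueField A) (modularFunctionFieldFullC (ResidueField A) p)}

include hℓp in
theorem ordGE_tFun_of_le {f : XF QA p} (hf : f ≠ 0) {c : Place QA (XF QA p)} {m : ℤ}
    (hle : ∀ v, v ≠ c → 0 ≤ v.ord f) (hm : -m ≤ c.ord f)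
    (hc : tOp p ℓ (Finsupp.single c 1) = Finsupp.single c ((ℓ + 1 : ℕ) : ℤ))
    {v1 : Place QA (XF QA p)} (h1 : v1 ≠ c) :
    OrdGE v1 0 (tFun p ℓ f) ∧ ∀ v2, v2 ≠ c → 1 ≤ v2.ord f →
      tOp p ℓ (Finsupp.single v2 1) v1 ≠ 0 → OrdGE v1 1 (tFun p ℓ f) := by
  classical
  haveI := Specialization.instIsFunctionFieldX0Bar p
  set E : Divisor QA (XF QA p) := divOf QA f + m • Finsupp.single c 1 with hE
  have hEw : ∀ w, E w = w.ord f + if w = c then m else 0 := fun w ↦ by
    simp [hE, divOf_apply, Finsupp.single_apply, eq_comm]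
  have hE0 : ∀ w, 0 ≤ E w := fun w ↦ by
    rw [hEw]
    split_ifs with h
    · subst h; linarith
    · simpa using hle w h
  have hT : tOp p ℓ E v1 = v1.ord (tFun p ℓ f) := by
    rw [hE, map_add, map_zsmul, hc, Finsupp.add_apply, tOp_divOf hf, Finsupp.smul_apply,
      Finsupp.single_apply, if_neg (Ne.symm h1), smul_zero, add_zero]
  refine ⟨Curves.ordGE_of_le (hT ▸ tOp_nonneg hE0 v1), fun v2 h2 hv2 hne ↦
    Curves.ordGE_of_le ?_⟩
  rw [← hT]
  refine le_trans ?_ (tOp_mono (D := Finsupp.single v2 1) (fun w ↦ ?_) v1)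
  · have := tOp_single_nonneg (ℓ := ℓ) v2 v1
    omega
  · rw [Finsupp.single_apply]
    split_ifs with h
    · subst h
      rw [hEw, if_neg h2]
      simpa using hv2
    · exact hE0 w

include hℓp hA hqp hp in
/-- `T_ℓ` keeps the disc of `∞`. -/
theorem tOp_disc (hr : IsPlaceReductionModL A p r) {v1 v2 : Place QA (XF QA p)}
    (h : tOp p ℓ (Finsupp.single v2 1) v1 ≠ 0) (hv2 : r v2 = r (cuspInf p)) :
    r v1 = r (cuspInf p) := by
  classical
  haveI := Specialization.instIsFunctionFieldX0Bar p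
  haveI : IsAlgClosed (ResidueField A) := FrobTrace.isAlgClosed_residueField A
  haveI := Specialization.isFunctionField_full (ResidueField A) p rfl (natCast_p_ne_zero hA hqp)
  obtain ⟨hTi, -⟩ := tOp_cusps hℓp
  by_contra hv1
  have h1 : v1 ≠ cuspInf p := fun e ↦ hv1 (by rw [e])
  by_cases h2 : v2 = cuspInf p
  · rw [h2, hTi, Finsupp.single_apply, if_neg (Ne.symm h1)] at h
    exact h rfl
  obtain ⟨b, hb⟩ := Curves.exists_residue v2
    (ordGE_uF_inv (v := v2) fun e ↦ red_cusp_ne hA hqp hp hr (by rw [← hv2, e]))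
  obtain ⟨hbA, hb0⟩ := uF_inv_value_disc hA hqp hp hr hv2 hb
  set f : XF QA p := 1 - algebraMap QA (XF QA p) b * uF p with hf
  have hp1 := (Fact.out : p.Prime).one_lt
  have hf0 : f ≠ 0 := by
    rw [hf, sub_ne_zero]
    intro e
    have := congrArg (cuspInf p).ord e
    rw [Place.ord_one] at this
    rcases eq_or_ne b 0 with hb' | hb'
    · rw [hb', map_zero, zero_mul] at e
      exact one_ne_zero e
    rw [(cuspInf p).ord_mul ((map_ne_zero _).mpr hb') uF_ne_zero, Curves.ord_algebraMap,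
      ord_uF_inf] at this
    omega
  have hle : ∀ v, v ≠ cuspInf p → 0 ≤ v.ord f := fun v hv ↦ by
    have := (Curves.ordGE_one v).sub ((Curves.ordGE_algebraMap v b).mul (ordGE_uF hv))
    exact this.le_ord hf0
  have hm : -((p : ℤ) - 1) ≤ (cuspInf p).ord f := by
    have h0 : OrdGE (cuspInf p) (1 - (p : ℤ)) (uF p) := Curves.ordGE_of_le (by rw [ord_uF_inf])
    have := ((Curves.ordGE_one (cuspInf p)).mono (show 1 - (p : ℤ) ≤ 0 by omega)).sub
      (((Curves.ordGE_algebraMap (cuspInf p) b).mul h0).mono (by omega))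
    exact le_trans (by omega) (this.le_ord hf0)
  have hv2f : 1 ≤ v2.ord f := by
    refine OrdGE.le_ord ?_ hf0
    have e : f = uF p * ((uF p)⁻¹ - algebraMap QA (XF QA p) b) := by
      rw [hf, mul_sub, mul_inv_cancel₀ uF_ne_zero, mul_comm]
    rw [e]
    have := (ordGE_uF h2).mul hb
    rwa [zero_add] at this
  obtain ⟨u, -, hu⟩ := exists_tFun_series hℓp A
  set y : LaurentSeries A := 1 - HahnSeries.C (⟨b, hbA⟩ : A) * uS A p with hy
  have hyf : coeffMap A.subtype y = (f : LaurentSeries QA) := by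
    rw [hy, map_sub, map_mul, map_one, coeffMap_C_series, coeffMap_uS, hf]
    push_cast
    rw [coe_uF, algebraMap_eq_C]
    rfl
  obtain ⟨g, hg, hgR⟩ := hu f y hyf
  have hyr : coeffMap (residue A) y = 1 := by
    rw [hy, map_sub, map_mul, map_one, coeffMap_C_series, hb0, map_zero, zero_mul, sub_zero]
  have hgr : coeffMap (residue A) g = 1 := by
    refine qExpand_injective (R := ResidueField A) (p * ℓ) ?_
    rw [← coeffMap_qExpand, hgR, map_prod, map_one]
    refine Finset.prod_eq_one fun i _ ↦ ?_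
    haveI : NeZero (ℓ * (p * ℓ)) :=
      ⟨Nat.mul_ne_zero (Fact.out : ℓ.Prime).ne_zero (NeZero.ne (p * ℓ))⟩
    cases i <;> simp only [conjA, ModEq.coeffMap_substHom, hyr, map_one]
  have hnp : ∀ w, r w = r v1 → OrdGE w 0 (tFun p ℓ f) := fun w hw ↦
    (ordGE_tFun_of_le hℓp hf0 hle hm hTi fun e ↦ hv1 (by rw [← hw, e])).1
  have := (ordGE_red hr (g := 1) g hg (hgr.trans (by push_cast; rfl)) hnp).2 v1 rfl
    ((ordGE_tFun_of_le hℓp hf0 hle hm hTi h1).2 v2 h2 hv2f h)
  have := this.le_ord one_ne_zero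
  rw [Place.ord_one] at this
  omega

include hℓp hA hqp hp in
/-- `T_ℓ` keeps the complement of the disc of `∞`. -/
theorem tOp_off (hr : IsPlaceReductionModL A p r) {v1 v2 : Place QA (XF QA p)}
    (h : tOp p ℓ (Finsupp.single v2 1) v1 ≠ 0) (hv2 : r v2 ≠ r (cuspInf p)) :
    r v1 ≠ r (cuspInf p) := by
  classical
  haveI := Specialization.instIsFunctionFieldX0Bar p
  haveI : IsAlgClosed (ResidueField A) := FrobTrace.isAlgClosed_residueField A
  haveI := Specialization.isFunctionField_full (ResidueField A) p rfl (natCast_p_ne_zero hA hqp)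
  obtain ⟨-, hT0⟩ := tOp_cusps hℓp
  intro hv1
  have h1 : v1 ≠ cuspZero p := fun e ↦ red_cusp_ne hA hqp hp hr (by rw [← hv1, e])
  have h2i : v2 ≠ cuspInf p := fun e ↦ hv2 (by rw [e])
  by_cases h2 : v2 = cuspZero p
  · rw [h2, hT0, Finsupp.single_apply, if_neg (Ne.symm h1)] at h
    exact h rfl
  obtain ⟨c, hc⟩ := Curves.exists_residue v2 (ordGE_uF h2i)
  have hcA := uF_value_off hA hqp hr hv2 hc
  have hc0 : c ≠ 0 := by
    rintro rfl
    rw [map_zero, sub_zero] at hc
    have := hc.le_ord uF_ne_zero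
    rw [ord_uF_of_ne h2i h2] at this
    omega
  set f : XF QA p := algebraMap QA (XF QA p) c * (uF p)⁻¹ - 1 with hf
  have hp1 := (Fact.out : p.Prime).one_lt
  have hf0 : f ≠ 0 := by
    rw [hf, sub_ne_zero]
    intro e
    have := congrArg (cuspInf p).ord e
    rw [Place.ord_one, (cuspInf p).ord_mul ((map_ne_zero _).mpr hc0) (inv_ne_zero uF_ne_zero),
      Curves.ord_algebraMap, Place.ord_inv, ord_uF_inf] at this
    omega
  have hle : ∀ v, v ≠ cuspZero p → 0 ≤ v.ord f := fun v hv ↦ by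
    have := ((Curves.ordGE_algebraMap v c).mul (ordGE_uF_inv hv)).sub
      ((Curves.ordGE_one v).mono (by omega))
    exact this.le_ord hf0
  have hm : -((p : ℤ) - 1) ≤ (cuspZero p).ord f := by
    have h0 : OrdGE (cuspZero p) (1 - (p : ℤ)) (uF p)⁻¹ :=
      Curves.ordGE_of_le (by rw [Place.ord_inv, ord_uF_zero]; omega)
    have := (((Curves.ordGE_algebraMap (cuspZero p) c).mul h0).mono
      (show 1 - (p : ℤ) ≤ 0 + (1 - (p : ℤ)) by omega)).sub
      ((Curves.ordGE_one (cuspZero p)).mono (show 1 - (p : ℤ) ≤ 0 by omega))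
    exact le_trans (by omega) (this.le_ord hf0)
  have hv2f : 1 ≤ v2.ord f := by
    refine OrdGE.le_ord ?_ hf0
    have e : f = -((uF p)⁻¹ * (uF p - algebraMap QA (XF QA p) c)) := by
      rw [hf, mul_sub, inv_mul_cancel₀ uF_ne_zero, mul_comm]
      ring
    rw [e]
    have := ((ordGE_uF_inv h2).mul hc).neg
    rwa [zero_add] at this
  obtain ⟨u, -, hu⟩ := exists_tFun_series hℓp A
  set y : LaurentSeries A := HahnSeries.C (⟨c, hcA⟩ : A) * uIS A p - 1 with hy
  have hyf : coeffMap A.subtype y = (f : LaurentSeries QA) := by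
    rw [hy, map_sub, map_mul, map_one, coeffMap_C_series, coeffMap_uIS, hf]
    push_cast
    rw [← coe_uF_inv, algebraMap_eq_C]
    push_cast
    rfl
  obtain ⟨g, hg, hgR⟩ := hu f y hyf
  have hy0 : GeOrd y 0 ∧ y.coeff 0 = -1 := by
    have hI : GeOrd (uIS A p) 1 := fun k hk ↦ Subtype.ext (by
      have := geOrd_uIS (p := p) k hk
      rw [← coeffMap_uIS A.subtype, coeffMap_coeff] at this
      exact this)
    have hmul : GeOrd (HahnSeries.C (⟨c, hcA⟩ : A) * uIS A p) 1 := by
      simpa using (ModEq.geOrd_C (⟨c, hcA⟩ : A)).mul hI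
    refine ⟨fun k hk ↦ ?_, ?_⟩
    · rw [hy, HahnSeries.coeff_sub, hmul k (by omega), zero_sub,
        ModEq.geOrd_one k hk, neg_zero]
    · rw [hy, HahnSeries.coeff_sub, hmul 0 one_pos, HahnSeries.coeff_one, if_pos rfl, zero_sub]
  set C0 : A := g.coeff 0
  obtain ⟨hp0, hp0'⟩ := geOrd_prod Finset.univ (fun i ↦ conjA (p := p) (ℓ := ℓ) u i y) (fun _ ↦ (0 : ℤ))
    (fun i _ ↦ by simpa using geOrd_conjA (p := p) (ℓ := ℓ) u i hy0.1)
  rw [← hgR] at hp0 hp0'
  simp only [Finset.sum_const_zero, coeff_zero_conjA (p := p), hy0.2, Finset.prod_const] at hp0 hp0'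
  have hC0 : C0 = (-1) ^ (Finset.univ : Finset (Option (Fin ℓ))).card := by
    rw [← hp0']
    simpa using (qExpand_coeff_mul (p * ℓ) g 0).symm
  have hgo : GeOrd g 0 := geOrd_qExpand_iff (p * ℓ) (by simpa using hp0)
  have hinf : OrdGE (cuspInf p) 1
      (tFun p ℓ f - algebraMap QA (XF QA p) (C0 : QA)) := by
    refine ordGE_cuspInf fun k hk ↦ ?_
    push_cast
    rw [algebraMap_eq_C, HahnSeries.coeff_sub, ← hg, coeffMap_coeff]
    rcases lt_or_eq_of_le (show k ≤ 0 by omega) with h0 | h0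
    · rw [hgo k h0, map_zero, HahnSeries.C_apply, HahnSeries.coeff_single_of_ne h0.ne, sub_zero]
    · subst h0
      rw [HahnSeries.C_apply, HahnSeries.coeff_single_same]
      exact sub_self _
  have hnp : ∀ w, r w = r v1 → OrdGE w 0 (tFun p ℓ f) := fun w hw ↦
    (ordGE_tFun_of_le hℓp hf0 hle hm hT0 fun e ↦
      red_cusp_ne hA hqp hp hr (by rw [← hv1, ← hw, e])).1
  obtain ⟨hc1, hc2, e⟩ := value_congr hA hqp hr g hg (v := v1) (w := cuspInf p) hv1.symm hnp
    (c := 0) (by
        rw [map_zero, sub_zero]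
        exact (ordGE_tFun_of_le hℓp hf0 hle hm hT0 h1).2 v2 h2 hv2f h) hinf
  rw [show (⟨0, hc1⟩ : A) = 0 from rfl, map_zero, show (⟨(C0 : QA), hc2⟩ : A) = C0 from rfl,
    hC0, map_pow, map_neg, map_one] at e
  exact pow_ne_zero _ (neg_ne_zero.mpr one_ne_zero) e.symm

end FLTAgent.Mazur
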