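import Fermat.Agent.Mazur.ImmersionResidue
import Fermat.Agent.Mazur.EisensteinDivisible

/-!
# The formal immersion at `∞`

A rational point of `X₀(p)` in the residue disc of `∞` at `l`, other than `∞`, is not killed by a
combination of Hecke words which is nonzero modulo `l`.
-/

set_option autoImplicit false
set_option linter.style.haveILetI false
set_option linter.unusedSectionVars false
set_option maxHeartbeats 1000000
set_option synthInstance.maxHeartbeats 400000

noncomputable section

open AlgebraicCurve ModularCurve IsLocalRing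
open FLTAgent.X0Fn (XF jF)
open FLTAgent.Curves (OrdGE IsFunctionField divOf divOf_apply)
open FLTAgent.ModEq (GeOrd)
open FLTAgent.Eisenstein (tSeries forms)

namespace FLTAgent.Mazur

local notation "QA" => AlgebraicClosure ℚ
local notation "GG" => (AlgebraicClosure ℚ ≃ₐ[ℚ] AlgebraicClosure ℚ)

/-! ### Series -/

section Series

variable {R : Type*} [CommRing R]

theorem exists_one_add_pow (X : R) (n : ℕ) : ∃ K : R, (1 + X) ^ n = 1 + n * X + X ^ 2 * K := by
  induction n with
  | zero => exact ⟨0, by simp⟩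
  | succ n ih =>
    obtain ⟨K, hK⟩ := ih
    exact ⟨(n : R) + K + X * K, by rw [pow_succ, hK]; push_cast; ring⟩

/-- An integral series over any ring. -/
def intPS (R : Type*) [CommRing R] (a : PowerSeries ℤ) : LaurentSeries R :=
  HahnSeries.ofPowerSeries ℤ R (a.map (Int.castRingHom R))

theorem coeffMap_intPS {S : Type*} [CommRing S] (f : R →+* S) (a : PowerSeries ℤ) :
    coeffMap f (intPS R a) = intPS S a := by
  ext k
  rw [coeffMap_coeff, intPS, intPS]
  rcases lt_or_ge k 0 with hk | hk
  · rw [ModularCurve.ofPowerSeries_coeff_of_neg _ hk, ModularCurve.ofPowerSeries_coeff_of_neg _ hk,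
      map_zero]
  · lift k to ℕ using hk
    rw [HahnSeries.ofPowerSeries_apply_coeff, HahnSeries.ofPowerSeries_apply_coeff,
      PowerSeries.coeff_map, PowerSeries.coeff_map, eq_intCast, eq_intCast, map_intCast]

theorem exists_bound (x : LaurentSeries R) : ∃ B : ℕ, ∀ k : ℤ, k ≤ -(B : ℤ) → x.coeff k = 0 := by
  refine ⟨(-x.order).toNat + 1, fun k hk => HahnSeries.coeff_eq_zero_of_lt_order ?_⟩
  omega

/-- The constant term of a product with a series as a finite sum. -/
theorem coeff_zero_mul_intPS (x : LaurentSeries R) (a : PowerSeries ℤ) {B : ℕ}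
    (hB : ∀ k : ℤ, k ≤ -(B : ℤ) → x.coeff k = 0) :
    (x * intPS R a).coeff 0 =
      ∑ n ∈ Finset.range B, x.coeff (-(n : ℤ)) * (PowerSeries.coeff n a : ℤ) := by
  set b := a.map (Int.castRingHom R)
  set t : PowerSeries R := PowerSeries.mk fun k => PowerSeries.coeff (k + B) b
  have hb : b = (∑ n ∈ Finset.range B, PowerSeries.C (PowerSeries.coeff n b) * PowerSeries.X ^ n) +
      PowerSeries.X ^ B * t := by
    ext k
    rw [map_add, map_sum, PowerSeries.coeff_X_pow_mul']
    simp only [PowerSeries.coeff_C_mul, PowerSeries.coeff_X_pow]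
    by_cases hk : k < B
    · rw [if_neg (by omega), add_zero, Finset.sum_eq_single k
        (fun n _ hn => by rw [if_neg (Ne.symm hn), mul_zero])
        (fun h => absurd (Finset.mem_range.2 hk) h), if_pos rfl, mul_one]
    · rw [if_pos (by omega), PowerSeries.coeff_mk, Nat.sub_add_cancel (by omega),
        Finset.sum_eq_zero fun n hn => ?_, zero_add]
      rw [if_neg (by have := Finset.mem_range.1 hn; omega), mul_zero]
  have hmon : ∀ n : ℕ, (HahnSeries.ofPowerSeries ℤ R (PowerSeries.X ^ n) : LaurentSeries R) =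
      HahnSeries.single (n : ℤ) 1 := fun n => by
    rw [map_pow, HahnSeries.ofPowerSeries_X, HahnSeries.single_pow]
    simp
  rw [intPS, show a.map (Int.castRingHom R) = b from rfl]
  conv_lhs => rw [hb]
  rw [map_add, mul_add, HahnSeries.coeff_add, map_sum, Finset.mul_sum,
    HahnSeries.coeff_sum]
  have hrest : (x * HahnSeries.ofPowerSeries ℤ R (PowerSeries.X ^ B * t)).coeff 0 = 0 := by
    have hx : GeOrd x (1 - (B : ℤ)) := fun k hk => hB k (by omega)
    have h2 : GeOrd (HahnSeries.ofPowerSeries ℤ R (PowerSeries.X ^ B * t)) (B : ℤ) := fun k hk => by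
      rcases lt_or_ge k 0 with h0 | h0
      · exact ModularCurve.ofPowerSeries_coeff_of_neg _ h0
      · lift k to ℕ using h0
        rw [HahnSeries.ofPowerSeries_apply_coeff, PowerSeries.coeff_X_pow_mul', if_neg (by omega)]
    exact (hx.mul h2) 0 (by omega)
  rw [hrest, add_zero]
  refine Finset.sum_congr rfl fun n _ => ?_
  rw [map_mul, hmon, HahnSeries.ofPowerSeries_C, mul_left_comm, HahnSeries.C_mul_eq_smul,
    HahnSeries.coeff_smul, smul_eq_mul, mul_comm x,
    show (0 : ℤ) = -(n : ℤ) + n by ring, HahnSeries.coeff_single_mul_add, one_mul,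
    PowerSeries.coeff_map, eq_intCast, mul_comm]

theorem sum_range_dvd {M : Type*} [AddCommMonoid M] {q : ℕ} (hq : 0 < q) (B : ℕ) (g : ℕ → M) :
    ∑ m ∈ Finset.range (q * B), (if q ∣ m then g m else 0) = ∑ n ∈ Finset.range B, g (q * n) := by
  rw [← Finset.sum_filter]
  refine (Finset.sum_nbij' (fun n => q * n) (fun m => m / q) (fun n hn => ?_) (fun m hm => ?_)
    (fun n _ => Nat.mul_div_cancel_left n hq) (fun m hm => ?_) (fun n _ => rfl)).symm
  · simp only [Finset.mem_coe, Finset.mem_filter, Finset.mem_range] at hn ⊢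
    exact ⟨Nat.mul_lt_mul_of_pos_left hn hq, dvd_mul_right q n⟩
  · simp only [Finset.mem_coe, Finset.mem_filter, Finset.mem_range] at hm ⊢
    exact Nat.div_lt_of_lt_mul hm.1
  · simp only [Finset.mem_coe, Finset.mem_filter] at hm
    exact Nat.mul_div_cancel' hm.2

/-- `T_q` on principal parts is adjoint to `T_q` on series. -/
theorem coeff_zero_mul_tSeries {q : ℕ} (hq : 0 < q) (x x' : LaurentSeries R) (a : PowerSeries ℤ)
    (hx : ∀ n : ℤ, x'.coeff n =
      q * x.coeff (q * n) + if (q : ℤ) ∣ n then x.coeff (n / q) else 0) :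
    (x' * intPS R a).coeff 0 = (x * intPS R (tSeries 1 q a)).coeff 0 := by
  obtain ⟨B, hB⟩ := exists_bound x
  have hq' : (q : ℤ) ≠ 0 := by exact_mod_cast hq.ne'
  have hB' : ∀ k : ℤ, k ≤ -((q * B : ℕ) : ℤ) → x'.coeff k = 0 := fun k hk => by
    push_cast at hk
    have hB0 : (0 : ℤ) ≤ (q : ℤ) * B := by positivity
    have hq1 : (1 : ℤ) ≤ q := by exact_mod_cast hq
    rw [hx, hB _ (by nlinarith), mul_zero, zero_add]
    split_ifs with h
    · obtain ⟨c, rfl⟩ := h
      rw [Int.mul_ediv_cancel_left _ hq']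
      exact hB _ (by nlinarith)
    · rfl
  have hBq : ∀ k : ℤ, k ≤ -((q * B : ℕ) : ℤ) → x.coeff k = 0 := fun k hk => hB k (by
    push_cast at hk
    have hq1 : (1 : ℤ) ≤ q := by exact_mod_cast hq
    nlinarith)
  rw [coeff_zero_mul_intPS x' a hB', coeff_zero_mul_intPS x _ hBq]
  set α : ℕ → R := fun n => ((PowerSeries.coeff n a : ℤ) : R)
  have hBle : B ≤ q * B := Nat.le_mul_of_pos_left B hq
  have htail : ∀ g : ℕ → R, (∀ n, B ≤ n → g n = 0) →
      ∑ n ∈ Finset.range (q * B), g n = ∑ n ∈ Finset.range B, g n := fun g hg =>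
    (Finset.sum_subset (Finset.range_mono hBle) fun n _ hn => hg n
      (by simpa using hn)).symm
  calc ∑ m ∈ Finset.range (q * B), x'.coeff (-(m : ℤ)) * α m
      = (∑ m ∈ Finset.range (q * B), (q : R) * x.coeff (-((q * m : ℕ) : ℤ)) * α m) +
        ∑ m ∈ Finset.range (q * B), (if q ∣ m then x.coeff (-((m / q : ℕ) : ℤ)) * α m else 0) := by
        rw [← Finset.sum_add_distrib]
        refine Finset.sum_congr rfl fun m _ => ?_
        rw [hx, add_mul]
        congr 1
        · rw [show -((q * m : ℕ) : ℤ) = (q : ℤ) * -(m : ℤ) by push_cast; ring]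
        · by_cases h : q ∣ m
          · rw [if_pos (by rw [dvd_neg]; exact Int.natCast_dvd_natCast.2 h), if_pos h]
            obtain ⟨c, rfl⟩ := h
            rw [Nat.mul_div_cancel_left _ hq,
              show -((q * c : ℕ) : ℤ) = (q : ℤ) * -(c : ℤ) by push_cast; ring,
              Int.mul_ediv_cancel_left _ hq']
          · rw [if_neg (by rw [dvd_neg, Int.natCast_dvd_natCast]; exact h), if_neg h, zero_mul]
    _ = (∑ m ∈ Finset.range B, (q : R) * x.coeff (-((q * m : ℕ) : ℤ)) * α m) +
        ∑ n ∈ Finset.range B, x.coeff (-(n : ℤ)) * α (q * n) := by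
        rw [htail _ fun n hn => by
            rw [hB _ (by
              have : B ≤ q * n := hn.trans (Nat.le_mul_of_pos_left n hq)
              omega), mul_zero, zero_mul],
          sum_range_dvd hq B fun m => x.coeff (-((m / q : ℕ) : ℤ)) * α m]
        congr 1
        exact Finset.sum_congr rfl fun n _ => by rw [Nat.mul_div_cancel_left _ hq]
    _ = (∑ n ∈ Finset.range (q * B), x.coeff (-(n : ℤ)) * α (n * q)) +
        ∑ n ∈ Finset.range (q * B),
          (if q ∣ n then x.coeff (-(n : ℤ)) * ((q : R) * α (n / q)) else 0) := by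
        rw [add_comm, sum_range_dvd hq B fun n => x.coeff (-(n : ℤ)) * ((q : R) * α (n / q)),
          htail (fun n => x.coeff (-(n : ℤ)) * α (n * q)) fun n hn => by
            rw [hB _ (by omega), zero_mul]]
        congr 1
        · exact Finset.sum_congr rfl fun n _ => by rw [mul_comm q n]
        · exact Finset.sum_congr rfl fun n _ => by rw [Nat.mul_div_cancel_left _ hq]; ring
    _ = _ := by
        rw [← Finset.sum_add_distrib]
        refine Finset.sum_congr rfl fun n _ => ?_
        rw [Eisenstein.coeff_tSeries, Int.cast_add, mul_add, pow_one]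
        congr 1
        split_ifs
        · push_cast; rfl
        · rw [Int.cast_zero, mul_zero]

theorem wordSeries_append (m m' : List Nat.Primes) (a : PowerSeries ℤ) :
    wordSeries (m ++ m') a = wordSeries m (wordSeries m' a) := by
  induction m with
  | nil => rfl
  | cons q m ih =>
    show tSeries 1 (q : ℕ) (wordSeries (m ++ m') a) = tSeries 1 (q : ℕ) (wordSeries m (wordSeries m' a))
    rw [ih]

theorem coeff_zero_wordSeries (m : List Nat.Primes) {a : PowerSeries ℤ}
    (ha : PowerSeries.coeff 0 a = 0) : PowerSeries.coeff 0 (wordSeries m a) = 0 := by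
  induction m with
  | nil => exact ha
  | cons q m ih =>
    rw [show wordSeries (q :: m) a = tSeries 1 (q : ℕ) (wordSeries m a) from rfl,
      Eisenstein.coeff_tSeries, zero_mul, if_pos (dvd_zero _), Nat.zero_div, ih, mul_zero, add_zero]


end Series

variable {p : ℕ} [Fact p.Prime]

/-- A word in the Hecke correspondences. -/
def tWord (p : ℕ) [Fact p.Prime] (m : List Nat.Primes) (D : Divisor QA (XF QA p)) :
    Divisor QA (XF QA p) :=
  m.foldr (fun (q : Nat.Primes) E => haveI : Fact (q : ℕ).Prime := ⟨q.2⟩; tOp p (q : ℕ) E) D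

theorem exists_mk_tWord [NeZero p] (m : List Nat.Primes)
    (D : Divisor.degZero (K := QA) (F := modularFunctionFieldBar p)) :
    ∃ h : tWord p m (D : Divisor QA (XF QA p)) ∈
        Divisor.degZero (K := QA) (F := modularFunctionFieldBar p),
      m.foldr (fun q x => heckeOperatorBar p q x) (Pic0.mk D : JZero p) = Pic0.mk ⟨_, h⟩ := by
  induction m with
  | nil => exact ⟨D.2, rfl⟩
  | cons q m ih =>
    obtain ⟨h, e⟩ := ih
    haveI : Fact (q : ℕ).Prime := ⟨q.2⟩
    haveI : NeZero (q : ℕ) := ⟨q.2.ne_zero⟩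
    haveI : HasPrincipalDivisors QA (modularFunctionFieldBar (p * (q : ℕ))) :=
      Curves.hasPrincipalDivisors
    obtain ⟨h', e'⟩ := Kronecker.heckeOperatorAlong_mk p (q : ℕ) (Kronecker.isIntegralAlong _)
      (Kronecker.isIntegralAlong _) ⟨_, h⟩
    refine ⟨h', ?_⟩
    rw [List.foldr_cons, e, heckeOperatorBar_apply]
    exact e'

variable {l : ℕ} [Fact l.Prime] {A : ValuationSubring QA}
  (hA : A.LiesOverPrime l) (hlp : l ≠ p)
  {r : Place QA (modularFunctionFieldBar p) →
    Place (ResidueField A) (modularFunctionFieldFullC (ResidueField A) p)}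

local notation "kA" => ResidueField A
local notation "Fk" => modularFunctionFieldFullC (ResidueField A) p

/-- Raising to a power moves the scale and keeps the datum modulo the maximal ideal. -/
theorem GoodDiv.lpow {n : ℕ} {w : A} (hw : residue A w = 0) {D : Divisor QA (XF QA p)}
    {L : LaurentSeries A} (h : GoodDiv r ((n : A) * w) D L) :
    ∃ L' : LaurentSeries A, GoodDiv r ((n : A) * ((n : A) * w)) (n • D) L' ∧
      coeffMap (residue A) L' = coeffMap (residue A) L := by
  obtain ⟨hsupp, P, y, hy, ⟨M, hM⟩, hP0, hPD⟩ := h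
  set c : LaurentSeries A := HahnSeries.C w with hc
  set X : LaurentSeries A := (n : LaurentSeries A) * c * ((n : LaurentSeries A) * c * M - L)
  obtain ⟨K, hK⟩ := exists_one_add_pow X n
  refine ⟨L - (n : LaurentSeries A) * c * M - c * ((n : LaurentSeries A) * c * M - L) ^ 2 * K,
    ⟨fun v hv => hsupp v fun h0 => hv (by rw [Finsupp.smul_apply, h0, smul_zero]), P ^ n, y ^ n,
      by rw [map_pow, hy]; push_cast; rfl, ⟨0, ?_⟩, pow_ne_zero _ hP0,
      fun v hv => by rw [Curves.ord_pow, hPD v hv, Finsupp.smul_apply, nsmul_eq_mul]⟩, ?_⟩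
  · have hyX : y = 1 + X := by
      rw [hM, map_mul, map_natCast, ← hc]; ring
    rw [hyX, hK, map_mul, map_mul, map_natCast, ← hc]
    ring
  · rw [map_sub, map_sub, map_mul, map_mul, map_mul, map_mul, coeffMap_C_series, hw, map_zero]
    ring

theorem GoodDiv.iterate {w : A} (hw : residue A w = 0) {D : Divisor QA (XF QA p)}
    {L : LaurentSeries A} (h : GoodDiv r ((l : A) * w) D L) (a : ℕ) :
    ∃ L' : LaurentSeries A, GoodDiv r ((l : A) * ((l : A) ^ a * w)) (l ^ a • D) L' ∧
      coeffMap (residue A) L' = coeffMap (residue A) L := by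
  induction a with
  | zero => exact ⟨L, by simpa using h, rfl⟩
  | succ a ih =>
    obtain ⟨L1, h1, e1⟩ := ih
    obtain ⟨L2, h2, e2⟩ := GoodDiv.lpow (by rw [map_mul, hw, mul_zero]) h1
    refine ⟨L2, ?_, e2.trans e1⟩
    rw [← mul_smul, ← pow_succ'] at h2
    rwa [show (l : A) * ((l : A) ^ (a + 1) * w) = (l : A) * ((l : A) * ((l : A) ^ a * w)) by ring]

include hA hlp in
theorem GoodDiv.word (hp5 : 5 ≤ p) (hr : IsPlaceReductionModL A p r) {w : A}
    {D : Divisor QA (XF QA p)} {L : LaurentSeries A} (h : GoodDiv r w D L) :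
    ∀ m : List Nat.Primes, (∀ q ∈ m, (q : ℕ) ≠ p) →
      ∃ L' : LaurentSeries A, GoodDiv r w (tWord p m D) L' ∧ ∀ a : PowerSeries ℤ,
        (L' * intPS A a).coeff 0 = (L * intPS A (wordSeries m.reverse a)).coeff 0
  | [], _ => ⟨L, h, fun _ => rfl⟩
  | q :: m, hm => by
    obtain ⟨L1, h1, e1⟩ := GoodDiv.word hp5 hr h m fun x hx => hm x (List.mem_cons_of_mem q hx)
    haveI : Fact (q : ℕ).Prime := ⟨q.2⟩
    have hqp : ¬ (q : ℕ) ∣ p := fun h' => hm q (List.mem_cons_self ..)
      ((Nat.prime_dvd_prime_iff_eq q.2 Fact.out).1 h')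
    obtain ⟨L2, h2, e2⟩ := h1.tOp hA hlp hqp hp5 hr
    refine ⟨L2, h2, fun a => ?_⟩
    rw [coeff_zero_mul_tSeries q.2.pos L1 L2 a e2, e1, List.reverse_cons, wordSeries_append]
    rfl

include hA hlp in
theorem res_of_series [IsAlgClosed kA] {F : XF QA p} {z : LaurentSeries A} {g : Fk}
    (hz : coeffMap A.subtype z = (F : LaurentSeries QA))
    (hg : coeffMap (residue A) z = (g : LaurentSeries kA)) :
    (Specialization.modularModel (π := residue A) residue_surjective p
      (natCast_p_ne_zero hA hlp)).Res F g := by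
  have := Specialization.modularModel_res_series (π := residue A) residue_surjective p
    (natCast_p_ne_zero hA hlp) (y := z) (hz ▸ F.2) (hg ▸ g.2)
  rwa [show (⟨_, hz ▸ F.2⟩ : XF QA p) = F from Subtype.ext hz,
    show (⟨_, hg ▸ g.2⟩ : Fk) = g from Subtype.ext hg] at this

include hA hlp in
/-- A function may be made regular away from `∞` without changing its reduction, if its poles
lie in the disc of `∞`. -/
theorem exists_regular_lift [IsAlgClosed kA] (hp5 : 5 ≤ p) (hr : IsPlaceReductionModL A p r)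
    {H : XF QA p} {h : Fk}
    (hres : (Specialization.modularModel (π := residue A) residue_surjective p
      (natCast_p_ne_zero hA hlp)).Res H h)
    (hoff : ∀ v, r v ≠ r (cuspInf p) → OrdGE v 0 H) :
    ∃ f : XF QA p, (Specialization.modularModel (π := residue A) residue_surjective p
      (natCast_p_ne_zero hA hlp)).Res f h ∧
      ∀ v : Place QA (XF QA p), v ≠ cuspInf p → OrdGE v 0 f := by
  classical
  haveI := Specialization.instIsFunctionFieldX0Bar p
  by_cases hH : H = 0
  · exact ⟨H, hres, fun v _ => Or.inl hH⟩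
  set S := (divOf QA H).support.filter fun v => v ≠ cuspInf p ∧ v.ord H < 0
  have hfac : ∀ v ∈ S, ∃ (g : XF QA p) (z : LaurentSeries A),
      coeffMap A.subtype z = (g : LaurentSeries QA) ∧ coeffMap (residue A) z = 1 ∧
      OrdGE v 1 g ∧ ∀ u : Place QA (XF QA p), u ≠ cuspInf p → OrdGE u 0 g := by
    intro v hv
    simp only [S, Finset.mem_filter] at hv
    have hvd : r v = r (cuspInf p) := by
      by_contra hne
      have := (hoff v hne).le_ord hH
      omega
    obtain ⟨b, hb⟩ := Curves.exists_residue v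
      (ordGE_uF_inv (v := v) fun e => red_cusp_ne hA hlp hp5 hr (by rw [← hvd, e]))
    obtain ⟨hbA, hb0⟩ := uF_inv_value_disc hA hlp hp5 hr hvd hb
    refine ⟨1 - algebraMap QA (XF QA p) b * uF p, 1 - HahnSeries.C (⟨b, hbA⟩ : A) * uS A p, ?_, ?_,
      ?_, fun u hu => ?_⟩
    · rw [map_sub, map_mul, map_one, coeffMap_C_series, coeffMap_uS]
      push_cast
      rw [coe_uF, algebraMap_eq_C]
      rfl
    · rw [map_sub, map_mul, map_one, coeffMap_C_series, hb0, map_zero, zero_mul, sub_zero]
    · have e : (1 - algebraMap QA (XF QA p) b * uF p) =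
          uF p * ((uF p)⁻¹ - algebraMap QA (XF QA p) b) := by
        rw [mul_sub, mul_inv_cancel₀ uF_ne_zero, mul_comm]
      rw [e]
      simpa using (ordGE_uF hv.2.1).mul hb
    · exact (Curves.ordGE_one u).sub (by simpa using (Curves.ordGE_algebraMap u b).mul (ordGE_uF hu))
  choose g z hzg hz1 hg1 hg0 using hfac
  set P : XF QA p := ∏ v ∈ S.attach, g v.1 v.2 ^ (-(v.1.ord H)).toNat
  have hz : coeffMap A.subtype (∏ v ∈ S.attach, z v.1 v.2 ^ (-(v.1.ord H)).toNat) =
      (P : LaurentSeries QA) := by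
    rw [map_prod]
    simp only [P]
    push_cast
    exact Finset.prod_congr rfl fun v _ => by rw [map_pow, hzg]
  have hz' : coeffMap (residue A) (∏ v ∈ S.attach, z v.1 v.2 ^ (-(v.1.ord H)).toNat) =
      ((1 : Fk) : LaurentSeries kA) := by
    rw [map_prod, Finset.prod_eq_one fun v _ => by rw [map_pow, hz1, one_pow]]
    rfl
  refine ⟨H * P, by simpa using hres.mul (res_of_series hA hlp hz hz'), fun u hu => ?_⟩
  have hpow : ∀ (v : Place QA (XF QA p)) (x : XF QA p) (i : ℤ) (e : ℕ), OrdGE v i x →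
      OrdGE v ((e : ℤ) * i) (x ^ e) := fun v x i e hx => by
    induction e with
    | zero => simpa using Curves.ordGE_one v
    | succ e ih =>
      rw [pow_succ]
      have := ih.mul hx
      rwa [Nat.cast_succ, add_one_mul]
  have hprod : ∀ T : Finset {x // x ∈ S},
      OrdGE u (∑ v ∈ T, if v.1 = u then ((-(v.1.ord H)).toNat : ℤ) else 0)
        (∏ v ∈ T, g v.1 v.2 ^ (-(v.1.ord H)).toNat) := by
    intro T
    induction T using Finset.induction with
    | empty => simpa using Curves.ordGE_one u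
    | insert v T hv ih =>
      rw [Finset.sum_insert hv, Finset.prod_insert hv]
      refine OrdGE.mul ?_ ih
      split_ifs with e
      · subst e
        have h1 := hpow v.1 _ 1 (-(v.1.ord H)).toNat (hg1 v.1 v.2)
        rw [mul_one] at h1
        exact h1
      · simpa using hpow u _ 0 _ (hg0 v.1 v.2 u hu)
  have hP := hprod S.attach
  by_cases hneg : u.ord H < 0
  · have huS : u ∈ S := by
      simp only [S, Finset.mem_filter, Finsupp.mem_support_iff, divOf_apply]
      exact ⟨hneg.ne, hu, hneg⟩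
    rw [Finset.sum_eq_single (⟨u, huS⟩ : {x // x ∈ S})
      (fun v _ hv => if_neg fun e => hv (Subtype.ext e))
      (fun h => absurd (Finset.mem_attach _ _) h), if_pos rfl] at hP
    have := (Curves.ordGE_of_le (le_refl (u.ord H))).mul hP
    exact this.mono (show (0 : ℤ) ≤ u.ord H + ((-(u.ord H)).toNat : ℤ) by omega)
  · have := ((Curves.ordGE_of_le (show (0 : ℤ) ≤ u.ord H by omega)) : OrdGE u 0 H).mul hP
    refine this.mono ?_
    simp only [zero_add]
    exact Finset.sum_nonneg fun v _ => by split_ifs <;> simp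

include hA hlp in
/-- **The pairing.** The data of a principal combination of good divisors pair to zero with every
cusp form modulo the maximal ideal. -/
theorem pairing_eq_zero (hp5 : 5 ≤ p) (hr : IsPlaceReductionModL A p r) {w : A}
    (hw : residue A w = 0) (hw0 : w ≠ 0) {ι : Type*} [Fintype ι] (c : ι → ℤ)
    (D : ι → Divisor QA (XF QA p)) (L : ι → LaurentSeries A)
    (hgood : ∀ i, GoodDiv r w (D i) (L i)) {f : XF QA p} (hf0 : f ≠ 0)
    (hf : ∀ v, v.ord f = ∑ i, c i * D i v) {a : PowerSeries ℤ} (ha : a ∈ forms p 2)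
    (ha0 : PowerSeries.coeff 0 a = 0) :
    ∑ i, (c i : kA) * (coeffMap (residue A) (L i) * intPS kA a).coeff 0 = 0 := by
  classical
  haveI : IsAlgClosed kA := FrobTrace.isAlgClosed_residueField A
  obtain ⟨h, H, hres, hoff, hpol⟩ := exists_polar hA hlp hr hw hw0 c D L hgood hf0 hf
  obtain ⟨F, hFres, hFreg⟩ := exists_regular_lift hA hlp hp5 hr (hres) hoff
  obtain ⟨z, hzF, hzh⟩ := exists_series_of_regular hA hlp hFreg hFres
  have h0 : (z * intPS A a).coeff 0 = 0 := by
    refine Subtype.val_injective (p := (· ∈ A)) ?_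
    show A.subtype ((z * intPS A a).coeff 0) = _
    rw [← coeffMap_coeff, map_mul, hzF, coeffMap_intPS]
    exact residue_pairing hFreg ha ha0
  have h1 : ((h : LaurentSeries kA) * intPS kA a).coeff 0 = 0 := by
    rw [← hzh, ← coeffMap_intPS (residue A), ← map_mul, coeffMap_coeff, h0, map_zero]
  choose Bi hBi using fun i => exists_bound (coeffMap (residue A) (L i))
  obtain ⟨Bh, hBh⟩ := exists_bound (h : LaurentSeries kA)
  set B := Bh + ∑ i, Bi i
  have hle : ∀ i, Bi i ≤ B := fun i =>
    (Finset.single_le_sum (fun j _ => Nat.zero_le (Bi j)) (Finset.mem_univ i)).trans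
      (Nat.le_add_left _ _)
  rw [coeff_zero_mul_intPS _ _ (B := B) fun k hk => hBh k (by omega)] at h1
  rw [Finset.sum_congr rfl fun i _ => by
    rw [coeff_zero_mul_intPS _ _ (B := B) fun k hk => hBi i k (by have := hle i; omega),
      Finset.mul_sum]]
  rw [Finset.sum_comm, ← neg_eq_zero, ← Finset.sum_neg_distrib, ← h1]
  refine Finset.sum_congr rfl fun n _ => ?_
  rcases Nat.eq_zero_or_pos n with rfl | hn
  · simp [ha0]
  · rw [hpol _ (by omega), neg_mul, Finset.sum_mul]
    refine congrArg _ (Finset.sum_congr rfl fun i _ => ?_)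
    rw [coeffMap_coeff, mul_assoc]

include hA hlp in
/-- **Formal immersion.** A point of the disc of `∞` other than `∞` is not killed by a combination
of words which is nonzero modulo `l`. -/
theorem false_of_principal_words [NeZero p] (hp5 : 5 ≤ p) (hr : IsPlaceReductionModL A p r)
    {x : Place QA (XF QA p)} (hxd : r x = r (cuspInf p)) (hxi : x ≠ cuspInf p)
    {w : A} (hw : residue A w = 0) (hw0 : w ≠ 0)
    (hx : OrdGE x 1 (1 - algebraMap QA (XF QA p) (((l : A) * w : A) : QA) * jF QA p))
    {n : ℕ} (d : Fin n → ℤ) (m : Fin n → List Nat.Primes)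
    (hm : ∀ i, ∀ q ∈ m i, (q : ℕ) ≠ p) (N : ℕ)
    (hprinc : (l ^ N • ∑ i, d i • tWord p (m i)
      (Finsupp.single x 1 - Finsupp.single (cuspInf p) 1)).IsPrincipal)
    (hnd : ¬ ∃ u : CuspForm.heckeAlgebra p 2 (∅ : Set ℕ),
      ∑ i, d i • wordOp p (m i) = (l : CuspForm.heckeAlgebra p 2 (∅ : Set ℕ)) * u) : False := by
  classical
  haveI := FrobTrace.charP_residueField hA
  have hl0 : (l : A) ≠ 0 := fun h => (Fact.out : l.Prime).ne_zero (by
    have := congrArg (Subtype.val : A → QA) h
    simpa using this)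
  have hbase := goodDiv_base hA hlp hp5 hr (w := (l : A) * w) (by rw [map_mul, hw, mul_zero])
    (mul_ne_zero hl0 hw0) hxd hxi hx
  choose L1 hL1 hpair using fun i => hbase.word hA hlp hp5 hr (m i) (hm i)
  choose L hL hres using fun i => GoodDiv.iterate hw (hL1 i) N
  obtain ⟨f, hf0, hf⟩ := hprinc
  have hnd' : ¬ ∃ u : CuspForm.heckeAlgebra p 2 (∅ : Set ℕ),
      ∑ i, d i • wordOp p (m i).reverse = (l : CuspForm.heckeAlgebra p 2 (∅ : Set ℕ)) * u := by
    simpa [wordOp, List.map_reverse, List.prod_reverse] using hnd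
  obtain ⟨a, ha, ha0, hnot⟩ := exists_form_word d (fun i => (m i).reverse)
    (fun i q hq => hm i q (List.mem_reverse.1 hq)) hnd'
  have key := pairing_eq_zero hA hlp hp5 hr (by rw [map_mul, map_mul, hw, mul_zero, mul_zero])
    (mul_ne_zero hl0 (mul_ne_zero (pow_ne_zero _ hl0) hw0)) d _ L hL hf0 (fun v => by
      rw [← hf, Finsupp.smul_apply, Finsupp.finsetSum_apply, Finset.smul_sum]
      refine Finset.sum_congr rfl fun i _ => ?_
      rw [Finsupp.smul_apply, Finsupp.smul_apply, nsmul_eq_mul, smul_eq_mul, nsmul_eq_mul]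
      ring) ha ha0
  have hterm : ∀ i, (coeffMap (residue A) (L i) * intPS kA a).coeff 0 =
      ((PowerSeries.coeff 1 (wordSeries (m i).reverse a) : ℤ) : kA) := fun i => by
    rw [hres i, ← coeffMap_intPS (residue A), ← map_mul, coeffMap_coeff, hpair,
      coeff_zero_mul_intPS _ _ (B := 2) fun k hk => by
        have := coeff_jqModC_pow_of_lt A (b := 1) (m := k) (by omega)
        rwa [pow_one] at this,
      Finset.sum_range_succ, Finset.sum_range_one, coeff_zero_wordSeries _ ha0]
    simp [coeff_jqModC_neg_one]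
  simp only [hterm] at key
  refine hnot ((CharP.intCast_eq_zero_iff kA l _).1 ?_)
  rw [Int.cast_sum, ← key]
  exact Finset.sum_congr rfl fun i _ => Int.cast_mul _ _

/-- With finitely generated rational classes a combination nonzero modulo `l` kills the class. -/
theorem exists_words_torsion {p l : ℕ} [Fact p.Prime] [NeZero p] [Fact l.Prime]
    (hfg : AddGroup.FG ↥(FixedPoints.addSubgroup GG (JZero p))) {z : JZero p}
    (hz : ∀ σ : GG, σ • z = z)
    (hdiv : ∃ N : ℕ, ∀ k : ℕ, ∃ (n : ℕ) (d : Fin n → ℤ) (w : Fin n → List Nat.Primes) (y : JZero p),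
      (∀ i, ∀ q ∈ w i, (q : ℕ) ≠ p) ∧ (∀ σ : GG, σ • y = y) ∧
      l ^ k • y = l ^ N • ∑ i, d i • (w i).foldr (fun q x => heckeOperatorBar p q x) z ∧
      ¬ ∃ u : CuspForm.heckeAlgebra p 2 (∅ : Set ℕ),
        ∑ i, d i • wordOp p (w i) = (l : CuspForm.heckeAlgebra p 2 (∅ : Set ℕ)) * u) :
    ∃ (N n : ℕ) (d : Fin n → ℤ) (w : Fin n → List Nat.Primes),
      (∀ i, ∀ q ∈ w i, (q : ℕ) ≠ p) ∧
      l ^ N • ∑ i, d i • (w i).foldr (fun q x => heckeOperatorBar p q x) z = 0 ∧
      ¬ ∃ u : CuspForm.heckeAlgebra p 2 (∅ : Set ℕ),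
        ∑ i, d i • wordOp p (w i) = (l : CuspForm.heckeAlgebra p 2 (∅ : Set ℕ)) * u := by
  classical
  obtain ⟨N, hN⟩ := hdiv
  haveI : Module.Finite ℤ ↥(FixedPoints.addSubgroup GG (JZero p)) :=
    Module.Finite.iff_addGroup_fg.2 hfg
  haveI : IsNoetherian ℤ ↥(FixedPoints.addSubgroup GG (JZero p)) :=
    isNoetherian_of_isNoetherianRing_of_finite ℤ _
  set W := {m : List Nat.Primes // ∀ q ∈ m, (q : ℕ) ≠ p}
  let ζ : W → ↥(FixedPoints.addSubgroup GG (JZero p)) := fun m =>
    ⟨m.1.foldr (fun q x => heckeOperatorBar p q x) z, fun σ => by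
      rw [← Tate.wordAct_apply, Tate.smul_wordAct, hz]⟩
  set I : Submodule ℤ ↥(FixedPoints.addSubgroup GG (JZero p)) := Submodule.span ℤ (Set.range ζ)
  obtain ⟨c, hc⟩ := EigenReps.exists_saturation I l
  obtain ⟨n, d, w, y, hw, hy, hky, hnd⟩ := hN (c + N + 1)
  set yG : ↥(FixedPoints.addSubgroup GG (JZero p)) := ⟨y, hy⟩
  have hsum : (l ^ N • ∑ i, d i • ζ ⟨w i, hw i⟩ : ↥(FixedPoints.addSubgroup GG (JZero p))) =
      l ^ (c + N + 1) • yG := Subtype.ext (by
    push_cast
    exact hky.symm)
  have hmem : (l : ℤ) ^ (c + N + 1) • yG ∈ I := by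
    rw [← Nat.cast_pow, natCast_zsmul, ← hsum]
    exact nsmul_mem (Submodule.sum_mem _ fun i _ => I.smul_mem _
      (Submodule.subset_span ⟨_, rfl⟩)) _
  obtain ⟨μ, hμ⟩ := Finsupp.mem_span_range_iff_exists_finsupp.1 (hc _ _ hmem)
  let e := μ.support.equivFin
  refine ⟨N, n + μ.support.card, Fin.append d fun j => -(l : ℤ) * μ (e.symm j).1,
    Fin.append w fun j => (e.symm j).1.1, fun i => ?_, ?_, fun h => hnd ?_⟩
  · induction i using Fin.addCases with
    | left i => simpa using hw i
    | right j => simpa using (e.symm j).1.2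
  · have hμ' : ∑ j, (-(l : ℤ) * μ (e.symm j).1) • ζ (e.symm j).1 =
        -((l : ℤ) • ((l : ℤ) ^ c • yG)) := by
      rw [← hμ, Finsupp.sum, ← Finset.sum_coe_sort μ.support]
      refine (e.symm.sum_comp fun x => (-(l : ℤ) * μ x.1) • ζ x.1).trans ?_
      rw [show ((l : ℤ) • ∑ i : μ.support, μ i.1 • ζ i.1) = ∑ i : μ.support, (l : ℤ) • μ i.1 • ζ i.1
        from map_sum (zsmulAddGroupHom (l : ℤ)) _ _, ← Finset.sum_neg_distrib]
      refine Finset.sum_congr rfl fun x _ => ?_
      rw [neg_mul, neg_smul, mul_smul]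
    have h2 : l ^ N • (∑ i, d i • ζ ⟨w i, hw i⟩ +
        ∑ j, (-(l : ℤ) * μ (e.symm j).1) • ζ (e.symm j).1) = 0 := by
      rw [hμ', nsmul_add, hsum, neg_nsmul, ← natCast_zsmul, ← natCast_zsmul, smul_smul, smul_smul,
        add_neg_eq_zero]
      congr 1
      push_cast
      ring
    have h3 := congrArg (Subtype.val : ↥(FixedPoints.addSubgroup GG (JZero p)) → JZero p) h2
    push_cast at h3
    rw [Fin.sum_univ_add]
    simp only [Fin.append_left, Fin.append_right]
    exact h3
  · obtain ⟨u, hu⟩ := h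
    rw [Fin.sum_univ_add] at hu
    simp only [Fin.append_left, Fin.append_right] at hu
    refine ⟨u + ∑ j, μ (e.symm j).1 • wordOp p (e.symm j).1.1, ?_⟩
    rw [mul_add, Finset.mul_sum, ← hu, add_assoc, ← Finset.sum_add_distrib]
    refine left_eq_add.2 (Finset.sum_eq_zero fun j _ => ?_)
    rw [zsmul_eq_mul, zsmul_eq_mul]
    push_cast
    ring

end FLTAgent.Mazur
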