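import Fermat.Agent.Mazur.ImmersionHecke
import Fermat.Agent.Mazur.HeckeKernel
import Fermat.Agent.Specialization.Inputs

/-!
# First order data of divisors in the disc of `∞`

A divisor in the disc of `∞` is recorded by a function with the same divisor there, congruent to
`1 - w L` modulo `w ^ 2`. A principal combination of such divisors gives a function on the
reduction, regular away from `∞`, with principal part read off from the series `L`.
-/

set_option autoImplicit false
set_option linter.style.haveILetI false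
set_option linter.unusedSectionVars false
set_option maxHeartbeats 1000000
set_option synthInstance.maxHeartbeats 400000

noncomputable section

open AlgebraicCurve ModularCurve IsLocalRing
open FLTAgent.X0Fn (XF jF)
open FLTAgent.Curves (OrdGE IsFunctionField divOf divOf_apply)
open FLTAgent.ModEq (substHom GeOrd)

namespace FLTAgent.Mazur

local notation "QA" => AlgebraicClosure ℚ

/-! ### First order expansions -/

section FirstOrder

variable {R : Type*} [CommRing R]

/-- `y ≡ 1 - w L` modulo `w ^ 2`. -/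
def FirstOrder (w : R) (y L : LaurentSeries R) : Prop :=
  ∃ M : LaurentSeries R, y = 1 - HahnSeries.C w * L + HahnSeries.C w ^ 2 * M

theorem firstOrder_one (w : R) : FirstOrder w (1 : LaurentSeries R) 0 :=
  ⟨0, by ring⟩

theorem FirstOrder.mul {w : R} {y y' L L' : LaurentSeries R} (h : FirstOrder w y L)
    (h' : FirstOrder w y' L') : FirstOrder w (y * y') (L + L') := by
  obtain ⟨M, rfl⟩ := h
  obtain ⟨M', rfl⟩ := h'
  set c : LaurentSeries R := HahnSeries.C w
  exact ⟨M + M' + L * L' - c * (L * M' + L' * M) + c ^ 2 * (M * M'), by ring⟩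

theorem FirstOrder.pow {w : R} {y L : LaurentSeries R} (h : FirstOrder w y L) (n : ℕ) :
    FirstOrder w (y ^ n) (n • L) := by
  induction n with
  | zero => simpa using firstOrder_one w
  | succ n ih => rw [pow_succ, succ_nsmul]; exact ih.mul h

theorem firstOrder_prod {w : R} {ι : Type*} (s : Finset ι) {y L : ι → LaurentSeries R}
    (h : ∀ i ∈ s, FirstOrder w (y i) (L i)) :
    FirstOrder w (∏ i ∈ s, y i) (∑ i ∈ s, L i) := by
  classical
  induction s using Finset.induction with
  | empty => simpa using firstOrder_one w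
  | insert i s hi ih =>
    rw [Finset.prod_insert hi, Finset.sum_insert hi]
    exact (h i (Finset.mem_insert_self i s)).mul
      (ih fun j hj ↦ h j (Finset.mem_insert_of_mem hj))

theorem substHom_C (u : Rˣ) (m : ℕ) [NeZero m] (c : R) :
    substHom u m (HahnSeries.C c) = HahnSeries.C c := by
  ext k
  rcases eq_or_ne k 0 with rfl | hk
  · exact coeff_zero_substHom u m _
  by_cases hd : (m : ℤ) ∣ k
  · obtain ⟨l, rfl⟩ := hd
    rw [ModEq.substHom_coeff_mul, HahnSeries.C_apply,
      HahnSeries.coeff_single_of_ne (right_ne_zero_of_mul hk), mul_zero,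
      HahnSeries.coeff_single_of_ne hk]
  · rw [ModEq.substHom_coeff_of_not_dvd u m _ hd, HahnSeries.C_apply,
      HahnSeries.coeff_single_of_ne hk]

theorem ord_finset_prod {K F : Type*} [Field K] [Field F] [Algebra K F] (v : Place K F)
    {ι : Type*} (s : Finset ι) (g : ι → F) (h : ∀ i ∈ s, g i ≠ 0) :
    v.ord (∏ i ∈ s, g i) = ∑ i ∈ s, v.ord (g i) := by
  classical
  induction s using Finset.induction with
  | empty => simp
  | insert i s hi ih =>
    rw [Finset.prod_insert hi, Finset.sum_insert hi, v.ord_mul (h i (Finset.mem_insert_self i s))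
      (Finset.prod_ne_zero_iff.mpr fun j hj ↦ h j (Finset.mem_insert_of_mem hj)),
      ih fun j hj ↦ h j (Finset.mem_insert_of_mem hj)]

theorem exists_contract (m : ℕ) [NeZero m] (x : LaurentSeries R) :
    ∃ z : LaurentSeries R, ∀ k, z.coeff k = x.coeff ((m : ℤ) * k) := by
  have hm : (0 : ℤ) < m := by exact_mod_cast Nat.pos_of_ne_zero (NeZero.ne m)
  refine ⟨HahnSeries.ofSuppBddBelow (fun k ↦ x.coeff ((m : ℤ) * k))
    ⟨min x.order 0, fun k hk ↦ ?_⟩, fun k ↦ rfl⟩
  have h1 : x.order ≤ (m : ℤ) * k := HahnSeries.order_le_of_coeff_ne_zero hk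
  by_contra hlt
  push Not at hlt
  have h2 : k < x.order ∧ k < 0 := ⟨lt_of_lt_of_le hlt (min_le_left _ _),
    lt_of_lt_of_le hlt (min_le_right _ _)⟩
  nlinarith

end FirstOrder

variable {p : ℕ} [Fact p.Prime] {q : ℕ} [Fact q.Prime] {A : ValuationSubring QA}
  (hA : A.LiesOverPrime q) (hqp : q ≠ p)
  {r : Place QA (modularFunctionFieldBar p) →
    Place (ResidueField A) (modularFunctionFieldFullC (ResidueField A) p)}

local notation "kA" => ResidueField A
local notation "Fk" => modularFunctionFieldFullC (ResidueField A) p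

/-- `D` lies in the disc of `∞` and has first order datum `L`. -/
def GoodDiv (r : Place QA (modularFunctionFieldBar p) →
      Place (ResidueField A) (modularFunctionFieldFullC (ResidueField A) p)) (w : A)
    (D : Divisor QA (XF QA p)) (L : LaurentSeries A) : Prop :=
  (∀ v, D v ≠ 0 → r v = r (cuspInf p)) ∧
    ∃ (P : XF QA p) (y : LaurentSeries A), coeffMap A.subtype y = (P : LaurentSeries QA) ∧
      FirstOrder w y L ∧ P ≠ 0 ∧ ∀ v, r v = r (cuspInf p) → v.ord P = D v

include hA hqp in
/-- The base point. -/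
theorem goodDiv_base (hp : 5 ≤ p) (hr : IsPlaceReductionModL A p r) {w : A}
    (hw : residue A w = 0) (hw0 : w ≠ 0) {x : Place QA (XF QA p)}
    (hxd : r x = r (cuspInf p)) (hxi : x ≠ cuspInf p)
    (hx : OrdGE x 1 (1 - algebraMap QA (XF QA p) (w : QA) * jF QA p)) :
    GoodDiv r w (Finsupp.single x 1 - Finsupp.single (cuspInf p) 1) (jqModC A) := by
  classical
  haveI := Specialization.instIsFunctionFieldX0Bar p
  haveI : IsAlgClosed kA := FrobTrace.isAlgClosed_residueField A
  haveI := Specialization.isFunctionField_full kA p rfl (natCast_p_ne_zero hA hqp)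
  set P : XF QA p := 1 - algebraMap QA (XF QA p) (w : QA) * jF QA p with hP
  set y : LaurentSeries A := 1 - HahnSeries.C w * jqModC A with hy
  have hyP : coeffMap A.subtype y = (P : LaurentSeries QA) := by
    rw [hy, map_sub, map_mul, map_one, coeffMap_C_series, coeffMap_jqModC, hP]
    push_cast
    rw [coe_jF, algebraMap_eq_C]
    rfl
  have hyr : coeffMap (residue A) y = ((1 : Fk) : LaurentSeries kA) := by
    rw [hy, map_sub, map_mul, map_one, coeffMap_C_series, hw, map_zero, zero_mul, sub_zero]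
    rfl
  have hwQ : (w : QA) ≠ 0 := fun h ↦ hw0 (Subtype.ext h)
  have hp1 := (Fact.out : p.Prime).one_lt
  have hci : (cuspInf p).ord P = -1 := by
    have h1 : (cuspInf p).ord (-(algebraMap QA (XF QA p) (w : QA) * jF QA p)) = -1 := by
      rw [Curves.ord_neg, (cuspInf p).ord_mul ((map_ne_zero _).mpr hwQ) (fun h ↦ by
        have := ord_jF_cuspInf (p := p)
        rw [h, Place.ord_zero] at this
        omega), Curves.ord_algebraMap, ord_jF_cuspInf, zero_add]
    have hne : -(algebraMap QA (XF QA p) (w : QA) * jF QA p) ≠ 0 := fun h ↦ by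
      rw [h, Place.ord_zero] at h1
      omega
    have := (Curves.ord_add_eq_left hne (g := 1)
      (Or.inr (by rw [h1, Place.ord_one]; omega))).1
    rwa [h1, neg_add_eq_sub, ← hP] at this
  have hP0 : P ≠ 0 := fun h ↦ by
    rw [h, Place.ord_zero] at hci
    omega
  refine ⟨fun v hv ↦ ?_, P, y, hyP, ⟨0, by rw [hy]; ring⟩, hP0, ?_⟩
  · by_contra hne
    apply hv
    rw [Finsupp.sub_apply, Finsupp.single_apply, Finsupp.single_apply,
      if_neg (fun e ↦ hne (by rw [← e, hxd])), if_neg (fun e ↦ hne (by rw [← e])), sub_zero]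
  set E : Divisor QA (XF QA p) :=
    divOf QA P - Finsupp.single x 1 + Finsupp.single (cuspInf p) 1 with hE
  have hEw : ∀ v, E v = v.ord P - (if x = v then 1 else 0) + if cuspInf p = v then 1 else 0 :=
    fun v ↦ by simp [hE, divOf_apply, Finsupp.single_apply]
  have hsum : ∑ v ∈ E.support, (if r v = r (cuspInf p) then E v else 0) = 0 := by
    rw [← mapDomain_apply_sum, hE, Finsupp.mapDomain_add, Finsupp.mapDomain_sub,
      Finsupp.mapDomain_single, Finsupp.mapDomain_single, hxd, Finsupp.add_apply,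
      Finsupp.sub_apply, mapDomain_eq hr y hyP hyr one_ne_zero, Place.ord_one]
    simp
  have hnn : ∀ v, r v = r (cuspInf p) → 0 ≤ E v := by
    intro v hv
    rw [hEw]
    by_cases h1 : cuspInf p = v
    · subst h1
      rw [if_neg hxi, if_pos rfl, hci]
      omega
    rw [if_neg h1, add_zero]
    have h2 : 0 ≤ v.ord P := by
      have hj : OrdGE v 0 (jF QA p) := Curves.ordGE_of_le (by
        by_contra hlt
        rcases (ord_jF_neg_iff v).mp (not_le.mp hlt) with e | e
        · exact h1 e.symm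
        · exact red_cusp_ne hA hqp hp hr (by rw [← hv, e]))
      have h3 := (Curves.ordGE_one v).sub
        (by simpa using (Curves.ordGE_algebraMap v (w : QA)).mul hj)
      exact (h3 : OrdGE v 0 P).le_ord hP0
    split_ifs with h3
    · subst h3
      have := hx.le_ord hP0
      omega
    · omega
  intro v hv
  have hz : E v = 0 := by
    by_cases hvs : v ∈ E.support
    · have := (Finset.sum_eq_zero_iff_of_nonneg fun u _ ↦ ?_).mp hsum v hvs
      · rwa [if_pos hv] at this
      · split_ifs with hu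
        · exact hnn u hu
        · exact le_rfl
    · exact Finsupp.notMem_support_iff.mp hvs
  rw [hEw] at hz
  rw [Finsupp.sub_apply, Finsupp.single_apply, Finsupp.single_apply]
  omega

include hA hqp in
/-- The Hecke step. -/
theorem GoodDiv.tOp {ℓ : ℕ} [Fact ℓ.Prime] (hℓp : ¬ ℓ ∣ p) (hp : 5 ≤ p)
    (hr : IsPlaceReductionModL A p r) {w : A} {D : Divisor QA (XF QA p)} {L : LaurentSeries A}
    (h : GoodDiv r w D L) :
    ∃ L' : LaurentSeries A, GoodDiv r w (tOp p ℓ D) L' ∧ ∀ n : ℤ, L'.coeff n =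
      ℓ * L.coeff (ℓ * n) + if (ℓ : ℤ) ∣ n then L.coeff (n / ℓ) else 0 := by
  classical
  haveI := Specialization.instIsFunctionFieldX0Bar p
  haveI : NeZero (ℓ * (p * ℓ)) :=
    ⟨Nat.mul_ne_zero (Fact.out : ℓ.Prime).ne_zero (NeZero.ne (p * ℓ))⟩
  obtain ⟨hD, P, y, hy, ⟨M, hM⟩, hP0, hPD⟩ := h
  obtain ⟨u, hu, hser⟩ := exists_tFun_series hℓp A
  obtain ⟨g, hg, hgR⟩ := hser P y hy
  have hfo : ∀ i, FirstOrder w (conjA (p := p) (ℓ := ℓ) u i y) (conjA (p := p) (ℓ := ℓ) u i L) :=
      fun i ↦ ⟨conjA (p := p) (ℓ := ℓ) u i M, by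
    have hc : conjA (p := p) (ℓ := ℓ) u i (HahnSeries.C w) = HahnSeries.C w := by
      cases i <;> exact substHom_C _ _ _
    rw [hM, map_add, map_sub, map_one, map_mul, map_mul, map_pow, hc]⟩
  obtain ⟨M', hM'⟩ := firstOrder_prod Finset.univ (fun i _ ↦ hfo i)
  rw [← hgR] at hM'
  obtain ⟨L', hL'⟩ := exists_contract (p * ℓ) (∑ i, conjA (p := p) (ℓ := ℓ) u i L)
  obtain ⟨M'', hM''⟩ := exists_contract (p * ℓ) M'
  have hgfo : FirstOrder w g L' := ⟨M'', by
    ext k
    rw [← qExpand_coeff_mul (p * ℓ) g k, hM', ← map_pow HahnSeries.C,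
      HahnSeries.coeff_add, HahnSeries.coeff_sub, HahnSeries.coeff_add, HahnSeries.coeff_sub,
      HahnSeries.C_mul_eq_smul, HahnSeries.C_mul_eq_smul, HahnSeries.C_mul_eq_smul,
      HahnSeries.C_mul_eq_smul, HahnSeries.coeff_smul, HahnSeries.coeff_smul,
      HahnSeries.coeff_smul, HahnSeries.coeff_smul, ← hL', ← hM'', HahnSeries.coeff_one,
      HahnSeries.coeff_one]
    congr 2
    simp [mul_eq_zero, (Fact.out : p.Prime).ne_zero,
      (Fact.out : ℓ.Prime).ne_zero]⟩
  refine ⟨L', ⟨fun v hv ↦ ?_, tFun p ℓ P, g, hg, hgfo, tFun_ne_zero hP0, fun v hv ↦ ?_⟩,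
    fun n ↦ ?_⟩
  · rw [tOp_apply_eq_sum] at hv
    obtain ⟨v2, -, h2⟩ := Finset.exists_ne_zero_of_sum_ne_zero hv
    exact tOp_disc hℓp hA hqp hp hr (right_ne_zero_of_mul h2) (hD v2 (left_ne_zero_of_mul h2))
  · rw [← tOp_divOf hP0, ← sub_eq_zero, ← Finsupp.sub_apply, ← map_sub, tOp_apply_eq_sum]
    refine Finset.sum_eq_zero fun v2 _ ↦ ?_
    by_cases h2 : r v2 = r (cuspInf p)
    · rw [Finsupp.sub_apply, divOf_apply, hPD v2 h2, sub_self, zero_mul]
    · rw [mul_eq_zero]
      refine Or.inr ?_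
      by_contra hne
      exact tOp_off hℓp hA hqp hp hr hne h2 hv
  · rw [hL', Fintype.sum_option, HahnSeries.coeff_add, HahnSeries.coeff_sum, add_comm]
    congr 1
    · rw [Finset.sum_eq_card_nsmul (b := L.coeff (ℓ * n)) fun b _ ↦ ?_, Finset.card_univ,
        Fintype.card_fin, nsmul_eq_mul]
      show (substHom (u ^ ((b : ℕ) * p)) p L).coeff _ = _
      rw [Nat.cast_mul, mul_assoc, ModEq.substHom_coeff_mul]
      have h1 : (u ^ ((b : ℕ) * p)) ^ ((ℓ : ℤ) * n) = 1 := by
        rw [zpow_mul, zpow_natCast, ← pow_mul, mul_assoc, mul_comm (b : ℕ), pow_mul,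
          hu.pow_eq_one, one_pow, one_zpow]
      rw [h1, Units.val_one, one_mul]
    · show (substHom (1 : Aˣ) (ℓ * (p * ℓ)) L).coeff _ = _
      split_ifs with hd
      · obtain ⟨k, rfl⟩ := hd
        rw [Int.mul_ediv_cancel_left _ (by exact_mod_cast (Fact.out : ℓ.Prime).ne_zero),
          show ((p * ℓ : ℕ) : ℤ) * ((ℓ : ℤ) * k) = ((ℓ * (p * ℓ) : ℕ) : ℤ) * k by push_cast; ring,
          ModEq.substHom_coeff_mul, one_zpow, Units.val_one, one_mul]
      · refine ModEq.substHom_coeff_of_not_dvd _ _ _ fun h' ↦ hd ?_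
        obtain ⟨k, hk⟩ := h'
        refine ⟨k, mul_left_cancel₀ (show ((p * ℓ : ℕ) : ℤ) ≠ 0 by
          exact_mod_cast NeZero.ne (p * ℓ)) (hk.trans ?_)⟩
        push_cast
        ring

include hA hqp in
/-- Reductions of functions in the sense of the model see divisors. -/
theorem mapDomain_res [IsAlgClosed kA] [IsFunctionField kA Fk]
    (hr : IsPlaceReductionModL A p r) {f : XF QA p} {g : Fk}
    (h : (Specialization.modularModel (π := residue A) residue_surjective p
      (natCast_p_ne_zero hA hqp)).Res f g) (hg : g ≠ 0) (Q : Place kA Fk) :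
    Finsupp.mapDomain r (divOf QA f) Q = Q.ord g := by
  haveI := Specialization.instIsFunctionFieldX0Bar p
  have hNk := natCast_p_ne_zero hA hqp
  set MM := Specialization.modularModel (π := residue A) residue_surjective p hNk
  have hf0 : f ≠ 0 := h.ne_zero hg
  obtain ⟨u, v, huv⟩ := exists_pair_of_principal
    (Specialization.principalGeneratedByIntegral hA p fun hd ↦ hqp
      ((Nat.prime_dvd_prime_iff_eq Fact.out Fact.out).mp hd))
    (E := divOf QA f) ⟨f, hf0, fun P ↦ divOf_apply f P⟩
  have hu := Specialization.modularModel_res_series residue_surjective p hNk u.mem u.memk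
  have hv := Specialization.modularModel_res_series residue_surjective p hNk v.mem v.memk
  obtain ⟨c, hc⟩ := Curves.eq_algebraMap_of_forall_ord_nonneg (K := QA)
    (f := f * v.fn / u.fn) fun P ↦ by
      have e := congrArg (fun E : Divisor QA (XF QA p) ↦ E P) huv
      simp only [Finsupp.sub_apply, divOf_apply] at e
      rw [Curves.ord_div P (mul_ne_zero hf0 v.fn_ne) u.fn_ne, P.ord_mul hf0 v.fn_ne]
      omega
  have hfc : f * v.fn = algebraMap QA (XF QA p) c * u.fn := (div_eq_iff u.fn_ne).mp hc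
  have hprod : MM.Res (f * v.fn) (g * v.red) := h.mul hv
  have hcA : c ∈ A := by
    by_contra hcA
    have hc0 : c ≠ 0 := fun e ↦ hcA (e ▸ zero_mem A)
    have hci : c⁻¹ ∈ A := (A.mem_or_inv_mem c).resolve_left hcA
    have h0 : residue A ⟨c⁻¹, hci⟩ = 0 :=
      Specialization.Reduction.map_eq_zero_of_inv_notMem residue_surjective (by simpa using hcA)
    have h1 := (MM.res_algebraMap ⟨c⁻¹, hci⟩).mul hprod
    rw [hfc, h0, map_zero, zero_mul, ← mul_assoc, ← map_mul, inv_mul_cancel₀ hc0, map_one,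
      one_mul] at h1
    exact u.red_ne (hu.unique h1)
  have e : g * v.red = algebraMap kA Fk (residue A ⟨c, hcA⟩) * u.red := by
    rw [hfc] at hprod
    exact hprod.unique ((MM.res_algebraMap ⟨c, hcA⟩).mul hu)
  have hc1 : residue A ⟨c, hcA⟩ ≠ 0 := fun h0 ↦ mul_ne_zero hg v.red_ne (by
    rw [e, h0, map_zero, zero_mul])
  have eord := congrArg Q.ord e
  rw [Q.ord_mul hg v.red_ne, Q.ord_mul ((map_ne_zero _).mpr hc1) u.red_ne,
    Curves.ord_algebraMap, zero_add] at eord
  rw [huv, Finsupp.mapDomain_sub, Finsupp.sub_apply, u.map_div hr, v.map_div hr, divOf_apply,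
    divOf_apply]
  omega

include hA hqp in
/-- No pole in a disc: the reduction is regular there. -/
theorem ordGE_res [IsAlgClosed kA] [IsFunctionField kA Fk]
    (hr : IsPlaceReductionModL A p r) {f : XF QA p} {g : Fk}
    (h : (Specialization.modularModel (π := residue A) residue_surjective p
      (natCast_p_ne_zero hA hqp)).Res f g) {Q : Place kA Fk}
    (hnp : ∀ w, r w = Q → OrdGE w 0 f) :
    OrdGE Q 0 g ∧ ∀ v, r v = Q → OrdGE v 1 f → OrdGE Q 1 g := by
  classical
  by_cases hg : g = 0
  · exact ⟨Or.inl hg, fun _ _ _ ↦ Or.inl hg⟩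
  haveI := Specialization.instIsFunctionFieldX0Bar p
  have hf0 : f ≠ 0 := h.ne_zero hg
  have e := mapDomain_res hA hqp hr h hg Q
  rw [mapDomain_apply_sum] at e
  have hnn : ∀ w ∈ (divOf QA f).support, (0 : ℤ) ≤ if r w = Q then divOf QA f w else 0 := by
    intro w _
    split_ifs with hw
    · rw [divOf_apply]; exact (hnp w hw).le_ord hf0
    · exact le_rfl
  refine ⟨Curves.ordGE_of_le (e ▸ Finset.sum_nonneg hnn), fun v hv hv1 ↦ Curves.ordGE_of_le ?_⟩
  have h1 := hv1.le_ord hf0
  rw [← e]
  refine le_trans ?_ (Finset.single_le_sum hnn (a := v) ?_)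
  · rw [if_pos hv, divOf_apply]; exact h1
  · rw [Finsupp.mem_support_iff, divOf_apply]; omega

include hA hqp in
/-- The expansion is the one at the reduced cusp `∞`. -/
theorem geOrd_series_red (hr : IsPlaceReductionModL A p r) {g : Fk}
    (h : OrdGE (r (cuspInf p)) 0 g) : GeOrd (g : LaurentSeries kA) 0 := by
  classical
  haveI := Specialization.instIsFunctionFieldX0Bar p
  haveI : IsAlgClosed kA := FrobTrace.isAlgClosed_residueField A
  haveI := Specialization.isFunctionField_full kA p rfl (natCast_p_ne_zero hA hqp)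
  obtain ⟨ub, hub⟩ := exists_red hA hqp (f := uF p) (uS A p) (by rw [coeffMap_uS, coe_uF])
  rw [coeffMap_uS] at hub
  have hI : GeOrd (uIS kA p) 1 := by
    have hA1 : GeOrd (uIS A p) 1 := fun k hk ↦ Subtype.ext (by
      have := geOrd_uIS (p := p) k hk
      rw [← coeffMap_uIS A.subtype, coeffMap_coeff] at this
      exact this)
    simpa [coeffMap_uIS] using geOrd_coeffMap (residue A) hA1
  have hub0 : ub ≠ 0 := fun h0 ↦ by
    have := uS_mul_uIS kA p
    rw [hub, h0, ZeroMemClass.coe_zero, zero_mul] at this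
    exact zero_ne_one this
  have hinv : ((ub⁻¹ : Fk) : LaurentSeries kA) = uIS kA p := by
    push_cast
    rw [← hub]
    exact inv_eq_of_mul_eq_one_right (uS_mul_uIS kA p)
  have hpos : 0 < (uIS kA p).order := by
    have hne : uIS kA p ≠ 0 := right_ne_zero_of_mul_eq_one (uS_mul_uIS kA p)
    by_contra hle
    exact HahnSeries.coeff_order_eq_zero.not.mpr hne (hI _ (by omega))
  obtain ⟨Q, c, hc, hQ⟩ := Curves.exists_place
    (φ := (algebraMap Fk (LaurentSeries kA)))
    (κ := RingHom.id kA)
    (fun a ↦ by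
      rw [RingHom.id_apply]
      exact coe_const_red (p := p) a)
    (t := ub⁻¹) (by
      show 0 < ((ub⁻¹ : Fk) : LaurentSeries kA).order
      rw [hinv]
      exact hpos)
  have hQr : Q = r (cuspInf p) := by
    by_contra hne
    have h1 := hQ ub⁻¹
    rw [show (algebraMap Fk (LaurentSeries kA)) ub⁻¹ = uIS kA p from hinv, Place.ord_inv] at h1
    have h2 := (ordGE_red hr (f := uF p) (g := ub) (uS A p) (by rw [coeffMap_uS, coe_uF])
      (by rw [coeffMap_uS, hub]) (Q := Q)
      (fun v hv ↦ ordGE_uF fun e ↦ hne (by rw [← hv, e]))).1.le_ord hub0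
    nlinarith
  intro k hk
  rcases h with h | h
  · rw [h]; rfl
  refine HahnSeries.coeff_eq_zero_of_lt_order ?_
  rw [show (g : LaurentSeries kA) = algebraMap Fk (LaurentSeries kA) g from rfl, hQ g, hQr]
  nlinarith

include hA hqp in
/-- **First order descent.** A principal combination of good divisors gives a function on the
reduction, regular away from `∞`, with the combined principal part. -/
theorem exists_polar (hr : IsPlaceReductionModL A p r) {w : A} (hw : residue A w = 0)
    (hw0 : w ≠ 0) {ι : Type*} [Fintype ι] (c : ι → ℤ) (D : ι → Divisor QA (XF QA p))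
    (L : ι → LaurentSeries A) (hgood : ∀ i, GoodDiv r w (D i) (L i))
    {f : XF QA p} (hf0 : f ≠ 0) (hf : ∀ v, v.ord f = ∑ i, c i * D i v) :
    ∃ (h : Fk) (H : XF QA p),
      (∀ [IsAlgClosed kA], (Specialization.modularModel (π := residue A) residue_surjective p
        (natCast_p_ne_zero hA hqp)).Res H h) ∧
      (∀ v, r v ≠ r (cuspInf p) → OrdGE v 0 H) ∧
      ∀ k : ℤ, k < 0 → (h : LaurentSeries kA).coeff k =
        -∑ i, (c i : kA) * residue A ((L i).coeff k) := by
  classical
  haveI := Specialization.instIsFunctionFieldX0Bar p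
  haveI : IsAlgClosed kA := FrobTrace.isAlgClosed_residueField A
  have hNk := natCast_p_ne_zero hA hqp
  haveI := Specialization.isFunctionField_full kA p rfl hNk
  set MM := Specialization.modularModel (π := residue A) residue_surjective p hNk with hMM
  choose hsupp P y hyP hfo hP0 hPD using hgood
  have hwQ : (w : QA) ≠ 0 := fun h ↦ hw0 (Subtype.ext h)
  -- numerator and denominator
  set Pn : XF QA p := ∏ i, P i ^ (c i).toNat with hPn
  set Pd : XF QA p := ∏ i, P i ^ (-c i).toNat with hPd
  set Ln : LaurentSeries A := ∑ i, (c i).toNat • L i with hLn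
  set Ld : LaurentSeries A := ∑ i, (-c i).toNat • L i with hLd
  obtain ⟨Mn, hMn⟩ := firstOrder_prod Finset.univ (fun i _ ↦ (hfo i).pow (c i).toNat)
  obtain ⟨Md, hMd⟩ := firstOrder_prod Finset.univ (fun i _ ↦ (hfo i).pow (-c i).toNat)
  rw [← hLn] at hMn
  rw [← hLd] at hMd
  have hyn : coeffMap A.subtype (∏ i, y i ^ (c i).toNat) = (Pn : LaurentSeries QA) := by
    rw [hPn, map_prod]
    push_cast
    exact Finset.prod_congr rfl fun i _ ↦ by rw [map_pow, hyP]
  have hyd : coeffMap A.subtype (∏ i, y i ^ (-c i).toNat) = (Pd : LaurentSeries QA) := by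
    rw [hPd, map_prod]
    push_cast
    exact Finset.prod_congr rfl fun i _ ↦ by rw [map_pow, hyP]
  set yn := ∏ i, y i ^ (c i).toNat
  set yd := ∏ i, y i ^ (-c i).toNat
  have hred1 : ∀ {z Lz : LaurentSeries A} (Mz : LaurentSeries A),
      z = 1 - HahnSeries.C w * Lz + HahnSeries.C w ^ 2 * Mz →
      coeffMap (residue A) z = ((1 : Fk) : LaurentSeries kA) := by
    intro z Lz Mz hz
    rw [hz, map_add, map_sub, map_mul, map_mul, map_pow, map_one, coeffMap_C_series, hw,
      map_zero, zero_mul, zero_pow two_ne_zero, zero_mul, sub_zero, add_zero]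
    rfl
  have hres : ∀ {F : XF QA p} {z : LaurentSeries A} {gz : Fk},
      coeffMap A.subtype z = (F : LaurentSeries QA) →
      coeffMap (residue A) z = (gz : LaurentSeries kA) → MM.Res F gz := by
    intro F z gz hz hgz
    have := Specialization.modularModel_res_series (π := residue A) residue_surjective p hNk
      (y := z) (hz ▸ F.2) (hgz ▸ gz.2)
    rwa [show (⟨_, hz ▸ F.2⟩ : XF QA p) = F from Subtype.ext hz,
      show (⟨_, hgz ▸ gz.2⟩ : Fk) = gz from Subtype.ext hgz] at this
  have hRn : MM.Res Pn 1 := hres hyn (hred1 Mn hMn)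
  have hRd : MM.Res Pd 1 := hres hyd (hred1 Md hMd)
  have hPn0 : Pn ≠ 0 := hRn.ne_zero one_ne_zero
  have hPd0 : Pd ≠ 0 := hRd.ne_zero one_ne_zero
  -- `(Pn/Pd - 1)/w`
  set zS : LaurentSeries A := -Ln + Ld + HahnSeries.C w * (Mn - Md) with hzS
  set wF : XF QA p := algebraMap QA (XF QA p) (w : QA) with hwF
  have hwF0 : wF ≠ 0 := (map_ne_zero _).mpr hwQ
  have hzF : coeffMap A.subtype zS = (((Pn - Pd) / wF : XF QA p) : LaurentSeries QA) := by
    push_cast
    rw [← hyn, ← hyd, hwF, coe_const, eq_div_iff (HahnSeries.C_ne_zero hwQ),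
      show (HahnSeries.C (w : QA) : LaurentSeries QA) = coeffMap A.subtype (HahnSeries.C w) from
        (coeffMap_C_series A.subtype w).symm, ← map_mul, ← map_sub]
    congr 1
    rw [hzS, hMn, hMd]
    ring
  obtain ⟨zb, hzb⟩ := exists_red hA hqp zS hzF
  have hRz : MM.Res ((Pn - Pd) / wF) zb := hres hzF hzb
  have hRzd : MM.Res ((Pn / Pd - 1) / wF) zb := by
    have h := hRz.div hRd one_ne_zero
    rw [div_one] at h
    rwa [show (Pn / Pd - 1) / wF = (Pn - Pd) / wF / Pd by field_simp]
  -- the unit part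
  have hUord : ∀ v, r v = r (cuspInf p) → v.ord (f * Pd / Pn) = 0 := by
    intro v hv
    rw [Curves.ord_div v (mul_ne_zero hf0 hPd0) hPn0, v.ord_mul hf0 hPd0, hf v, hPn, hPd,
      ord_finset_prod v _ _ fun i _ ↦ pow_ne_zero _ (hP0 i),
      ord_finset_prod v _ _ fun i _ ↦ pow_ne_zero _ (hP0 i),
      ← Finset.sum_add_distrib, ← Finset.sum_sub_distrib]
    refine Finset.sum_eq_zero fun i _ ↦ ?_
    rw [Curves.ord_pow, Curves.ord_pow, hPD i v hv]
    have := Int.toNat_sub_toNat_neg (c i)
    linear_combination (-(D i v)) * this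
  set c0 : QA := ((f * Pd / Pn : XF QA p) : LaurentSeries QA).coeff 0 with hc0
  have hU0 : f * Pd / Pn ≠ 0 := div_ne_zero (mul_ne_zero hf0 hPd0) hPn0
  have hUinf : ((f * Pd / Pn : XF QA p) : LaurentSeries QA).order = 0 := by
    rw [← ord_cuspInf]
    exact hUord _ rfl
  have hc00 : c0 ≠ 0 := by
    rw [hc0, ← hUinf]
    exact HahnSeries.coeff_order_eq_zero.not.mpr fun h ↦ hU0 (Subtype.ext h)
  set f1 : XF QA p := algebraMap QA (XF QA p) c0⁻¹ * f with hf1
  set U : XF QA p := f1 * Pd / Pn with hU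
  have hU' : U = algebraMap QA (XF QA p) c0⁻¹ * (f * Pd / Pn) := by
    rw [hU, hf1]; ring
  have hUdisc : ∀ v, r v = r (cuspInf p) → OrdGE v 0 U := fun v hv ↦ by
    rw [hU']
    simpa using (Curves.ordGE_algebraMap v c0⁻¹).mul
      (Curves.ordGE_of_le (hUord v hv).ge)
  have hUone : OrdGE (cuspInf p) 1 (U - 1) := by
    refine ordGE_cuspInf fun k hk ↦ ?_
    rw [hU']
    push_cast
    rw [← map_inv₀, algebraMap_eq_C, HahnSeries.C_mul_eq_smul, HahnSeries.coeff_sub,
      HahnSeries.coeff_smul, smul_eq_mul, HahnSeries.coeff_one]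
    rcases lt_or_eq_of_le (show k ≤ 0 by omega) with h0 | h0
    · have : ((f * Pd / Pn : XF QA p) : LaurentSeries QA).coeff k = 0 :=
        HahnSeries.coeff_eq_zero_of_lt_order (hUinf.symm ▸ h0)
      push_cast at this
      rw [this, mul_zero, if_neg h0.ne, sub_zero]
    · subst h0
      have : c0⁻¹ * c0 - 1 = 0 := by rw [inv_mul_cancel₀ hc00, sub_self]
      rw [if_pos rfl]
      rw [hc0] at this
      push_cast at this
      exact this
  -- regularity of `f1 - 1` off the disc
  have hf1off : ∀ v, r v ≠ r (cuspInf p) → OrdGE v 0 (f1 - 1) := fun v hv ↦ by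
    refine OrdGE.sub ?_ (Curves.ordGE_one v)
    rw [hf1]
    have hfge : OrdGE v 0 f := Curves.ordGE_of_le (by
      rw [hf v]
      exact Finset.sum_nonneg fun i _ ↦ by
        rw [show D i v = 0 from by_contra fun h ↦ hv (hsupp i v h), mul_zero])
    simpa using (Curves.ordGE_algebraMap v c0⁻¹).mul hfge
  -- the reduction of `(U - 1)/w`
  have hV : ∃ Vb : Fk, MM.Res ((U - 1) / wF) Vb ∧ OrdGE (r (cuspInf p)) 0 Vb := by
    have hdiscU : ∀ v, r v = r (cuspInf p) → OrdGE v 0 (U - 1) := fun v hv ↦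
      (hUdisc v hv).sub (Curves.ordGE_one v)
    suffices hmem : (U - 1) / wF ∈ MM.O by
      obtain ⟨Vb, hVb⟩ := MM.exists_res_of_mem hmem
      refine ⟨Vb, hVb, (ordGE_res hA hqp hr hVb fun v hv ↦ ?_).1⟩
      rw [div_eq_mul_inv, hwF, ← map_inv₀]
      simpa using (hdiscU v hv).mul (Curves.ordGE_algebraMap v (w : QA)⁻¹)
    by_cases hU1 : U - 1 = 0
    · rw [hU1, zero_div]; exact zero_mem _
    obtain ⟨s, g, hg, hs⟩ := MM.scaled (U - 1) hU1
    rw [Algebra.smul_def] at hs
    by_cases hsw : ((s * (w : QA))⁻¹) ∈ A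
    · have h := (MM.res_algebraMap ⟨_, hsw⟩).mul hs
      have hs0 : s ≠ 0 := by
        rintro rfl
        rw [map_zero, zero_mul] at hs
        exact hg (hs.unique MM.res_zero)
      have hmem := h.mem
      rwa [show algebraMap QA (XF QA p) ((s * (w : QA))⁻¹) *
          (algebraMap QA (XF QA p) s * (U - 1)) = (U - 1) / wF by
        rw [hwF, ← mul_assoc, ← map_mul, mul_inv_rev, mul_assoc, inv_mul_cancel₀ hs0, mul_one,
          map_inv₀, div_eq_inv_mul]] at hmem
    exfalso
    have hswA : s * (w : QA) ∈ A := by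
      by_contra hn
      exact hsw ((A.mem_or_inv_mem _).resolve_left hn)
    have hsw0 : residue A ⟨_, hswA⟩ = 0 :=
      Specialization.Reduction.map_eq_zero_of_inv_notMem residue_surjective hsw
    -- `s (f1 - 1)` has the same reduction
    have h1 := (hRn.div hRd one_ne_zero).mul hs
    have h2 := (MM.res_algebraMap ⟨_, hswA⟩).mul hRzd
    rw [hsw0, map_zero, zero_mul] at h2
    have h3 := h1.add h2
    rw [div_one, one_mul, add_zero, show Pn / Pd * (algebraMap QA (XF QA p) s * (U - 1)) +
        algebraMap QA (XF QA p) ((⟨s * (w : QA), hswA⟩ : A) : QA) * ((Pn / Pd - 1) / wF) =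
          algebraMap QA (XF QA p) s * (f1 - 1) by
      rw [hU, map_mul, ← hwF]
      field_simp
      ring] at h3
    obtain ⟨e, he⟩ := Curves.eq_algebraMap_of_forall_ord_nonneg (K := kA) (f := g) fun Q ↦ by
      by_cases hQ : Q = r (cuspInf p)
      · exact (ordGE_res hA hqp hr hs fun v hv ↦ by
          simpa using (Curves.ordGE_algebraMap v s).mul (hdiscU v (hv.trans hQ))).1.le_ord hg
      · exact (ordGE_res hA hqp hr h3 fun v hv ↦ by
          simpa using (Curves.ordGE_algebraMap v s).mul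
            (hf1off v fun e ↦ hQ (hv.symm.trans e))).1.le_ord hg
    have h4 := ((ordGE_res hA hqp hr hs fun v hv ↦ by
      simpa using (Curves.ordGE_algebraMap v s).mul (hdiscU v hv)).2 (cuspInf p) rfl
      (by simpa using (Curves.ordGE_algebraMap (cuspInf p) s).mul hUone)).le_ord hg
    rw [he, Curves.ord_algebraMap] at h4
    omega
  obtain ⟨Vb, hVb, hVinf⟩ := hV
  have hh : MM.Res ((f1 - 1) / wF) (Vb + zb) := by
    have h := ((hRn.div hRd one_ne_zero).mul hVb).add hRzd
    rw [div_one, one_mul] at h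
    rwa [show (f1 - 1) / wF = Pn / Pd * ((U - 1) / wF) + (Pn / Pd - 1) / wF by
      rw [hU]; field_simp; ring]
  refine ⟨Vb + zb, (f1 - 1) / wF, hh, fun v hv ↦ ?_, fun k hk ↦ ?_⟩
  · rw [div_eq_mul_inv, hwF, ← map_inv₀]
    simpa using (hf1off v hv).mul (Curves.ordGE_algebraMap v (w : QA)⁻¹)
  · push_cast
    rw [HahnSeries.coeff_add, geOrd_series_red hA hqp hr hVinf k hk, zero_add, ← hzb,
      coeffMap_coeff, hzS, HahnSeries.coeff_add, HahnSeries.C_mul_eq_smul,
      HahnSeries.coeff_smul, smul_eq_mul, map_add, map_mul, hw, zero_mul, add_zero,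
      HahnSeries.coeff_add, HahnSeries.coeff_neg, hLn, hLd, HahnSeries.coeff_sum,
      HahnSeries.coeff_sum, map_add, map_neg, map_sum, map_sum, ← Finset.sum_neg_distrib,
      ← Finset.sum_neg_distrib, ← Finset.sum_add_distrib]
    refine Finset.sum_congr rfl fun i _ ↦ ?_
    have hs : ∀ n : ℕ, (n • L i).coeff k = n • (L i).coeff k := fun n ↦ by
      induction n with
      | zero => simp
      | succ n ih => rw [succ_nsmul, succ_nsmul, HahnSeries.coeff_add, ih]
    rw [hs, hs, map_nsmul, map_nsmul, nsmul_eq_mul, nsmul_eq_mul]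
    have e : ((c i).toNat : kA) - ((-c i).toNat : kA) = (c i : kA) := by
      rw [← Int.cast_natCast (R := kA), ← Int.cast_natCast (R := kA) (-c i).toNat, ← Int.cast_sub,
        Int.toNat_sub_toNat_neg]
    linear_combination -(residue A ((L i).coeff k)) * e

end FLTAgent.Mazur
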