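import Fermat.Agent.Mazur.ImmersionAnalytic
import Fermat.Agent.Mazur.ImmersionPolar
import Fermat.Agent.Eisenstein.Dual
import Fermat.Agent.Mazur.ImmersionSturm

/-!
# The residue pairing at `∞`

A function on `X₀(p)` without poles outside `∞` pairs to zero with every cusp form of weight two.
Such a function has bounded coefficients; if it has a reduction then its expansion is integral.
-/

set_option autoImplicit false
set_option linter.unusedSectionVars false
set_option linter.style.haveILetI false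
set_option maxHeartbeats 1000000
set_option synthInstance.maxHeartbeats 400000

noncomputable section

open UpperHalfPlane CongruenceSubgroup Filter Complex Function AlgebraicCurve
open scoped MatrixGroups Manifold Topology ModularForm

namespace FLTAgent.Mazur

open FLTAgent.X0Fn
open FLTAgent.TorsionHom (psiPoint psiCusp)
open FLTAgent.Curves (OrdGE)
open FLTAgent.CuspForms (IsForm IsCuspidal intIncl)
open FLTAgent.ES (jfun dlt)
open ModularCurve (coeffMap qExpand)
open IsLocalRing (residue ResidueField residue_surjective)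

local notation "QA" => AlgebraicClosure ℚ

variable {p : ℕ} [Fact p.Prime] (κ : QA →+* ℂ)

theorem expand_eq_stretch (S : PowerSeries ℂ) :
    stretch 1 p S = PowerSeries.expand p (NeZero.ne p) S := by
  ext k
  rw [stretch, PowerSeries.coeff_mk]
  by_cases hd : p ∣ k
  · obtain ⟨i, rfl⟩ := hd
    rw [if_pos (dvd_mul_right p i), Nat.mul_div_cancel_left _ (NeZero.pos p),
      PowerSeries.coeff_expand_mul, one_pow, mul_one]
  · rw [if_neg hd, PowerSeries.coeff_expand_of_not_dvd _ _ _ hd]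

theorem qh_one_eq (τ : ℍ) : qh 1 τ = qh (p : ℝ) τ ^ p := by
  simp only [qh, Periodic.qParam, ← Complex.exp_nat_mul]
  congr 1
  have : (p : ℂ) ≠ 0 := Nat.cast_ne_zero.2 (NeZero.ne p)
  push_cast
  field_simp

theorem mem_Per_level {f : ℍ → ℂ} (hf : f ∈ Per 1) : f ∈ Per (p : ℝ) := by
  have h : f ∘ id ∈ Per (p : ℝ) :=
    comp_mem_Per hf mdifferentiable_id (NeZero.ne p) (ζ := 1) fun τ => by
      rw [id, qh_one_eq (p := p), one_mul]
  simpa using h

theorem qExp_level {f : ℍ → ℂ} (hf : f ∈ Per 1) :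
    qExp (p : ℝ) ⟨f, mem_Per_level hf⟩ =
      PowerSeries.expand p (NeZero.ne p) (qExp 1 ⟨f, hf⟩) := by
  rw [← expand_eq_stretch]
  refine qExp_eq_of_hasSum fun τ => ?_
  exact hasSum_stretch (f := ⟨f, hf⟩) (z := id) (NeZero.ne p)
    (fun τ => by rw [id, qh_one_eq (p := p), one_mul]) τ

theorem T_pow_fixes (q : Cos p) : (ModularGroup.T ^ (p : ℤ)) • q = q := by
  have key : ∀ g : SL(2, ℤ), (g⁻¹ * ModularGroup.T ^ (p : ℤ) * g) ∈ Gamma0 p := fun g => by
    have hT : ((ModularGroup.T ^ (p : ℤ) : SL(2, ℤ)) : Matrix (Fin 2) (Fin 2) ℤ) =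
        !![1, (p : ℤ); 0, 1] := ModularGroup.coe_T_zpow _
    rw [Gamma0_mem]
    simp only [Matrix.SpecialLinearGroup.coe_mul, Matrix.SpecialLinearGroup.coe_inv, hT,
      Matrix.adjugate_fin_two, Matrix.mul_apply, Fin.sum_univ_two]
    simp
    ring
  induction q using QuotientGroup.induction_on with
  | H g =>
    rw [MulAction.Quotient.smul_mk, smul_eq_mul, QuotientGroup.eq]
    have e : (ModularGroup.T ^ (p : ℤ) * g)⁻¹ * g = (g⁻¹ * ModularGroup.T ^ (p : ℤ) * g)⁻¹ := by
      group
    rw [e]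
    exact inv_mem (key g)

theorem isForm_translate_mem_Per {G : ℍ → ℂ} (hG : IsForm p 2 G) (q : Cos p) :
    hG.translate q ∈ Per (p : ℝ) := by
  refine ⟨hG.translate_holo q, ?_, hG.translate_bdd q⟩
  intro z
  by_cases hz : 0 < z.im
  · have hz1 : 0 < (z + ((p : ℝ) : ℂ)).im := by simpa using hz
    have h1 := congrFun (hG.translate_slash q (ModularGroup.T ^ (p : ℤ))) ⟨z, hz⟩
    rw [Eisenstein.slash_T_zpow_apply, inv_smul_eq_iff.2 (T_pow_fixes q).symm] at h1
    simp only [comp_apply, ofComplex_apply_of_im_pos hz, ofComplex_apply_of_im_pos hz1]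
    rw [← h1]
    congr 1
    apply UpperHalfPlane.ext
    rw [UpperHalfPlane.coe_vadd]
    simp [add_comm]
  · have hz1 : (z + ((p : ℝ) : ℂ)).im ≤ 0 := by simpa using not_lt.1 hz
    simp only [comp_apply, ofComplex_apply_of_im_nonpos hz1,
      ofComplex_apply_of_im_nonpos (not_lt.1 hz)]

theorem tendsto_slash_S {G : ℍ → ℂ} (hG : IsForm p 2 G)
    (h0 : (qExpansion 1 G).coeff 0 = 0) :
    IsZeroAtImInfty (G ∣[(2 : ℤ)] ModularGroup.S) := by
  have hU := Eisenstein.isForm_heckeU hG
  have hU0 : (qExpansion 1 (ModularForm.heckeU 2 p G)).coeff 0 = 0 := by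
    have := ModularFormClass.qCoeff_heckeU (k := (2 : ℤ)) hG.toModularForm
      (one_mem_strictPeriods_Gamma0 p) (Fact.out : p.Prime).ne_zero 0
    simp only [IsForm.coe_toModularForm, ModularFormClass.qCoeff,
      ModularForm.coeffHeckeU_apply] at this
    rw [this]
    simpa using h0
  have hz : IsZeroAtImInfty (Eisenstein.twist p 2 G) := by
    rw [Eisenstein.twist_eq_neg_heckeU hG]
    have h := CuspForms.IsForm.periodic hU
    have hlim : Tendsto (ModularForm.heckeU 2 p G) atImInfty (𝓝 0) := by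
      have h2 : ModularForm.heckeU 2 p G ∈ Per 1 := ⟨hU.holo, h, hU.bdd_infty⟩
      have h3 := UpperHalfPlane.qExpansion_coeff_zero (f := ModularForm.heckeU 2 p G) one_pos
        (analyticAt_of_mem h2) h
      rw [hU0] at h3
      obtain ⟨c, hc, hO⟩ : ∃ c > (0 : ℝ), (fun τ => ModularForm.heckeU 2 p G τ -
          valueAtInfty (ModularForm.heckeU 2 p G)) =O[atImInfty]
            fun τ => Real.exp (-c * τ.im) := by
        refine ⟨2 * Real.pi, by positivity, ?_⟩
        have := UpperHalfPlane.exp_decay_sub_atImInfty one_pos h hU.holo hU.bdd_infty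
        simpa [neg_mul] using this
      simp only [← h3, sub_zero] at hO
      exact hO.trans_tendsto ((Real.tendsto_exp_atBot).comp
        ((tendsto_comap).const_mul_atTop_of_neg (neg_lt_zero.2 hc)))
    show Tendsto _ _ _
    have h2 := hlim.neg
    rw [neg_zero] at h2
    exact h2
  have e : (G ∣[(2 : ℤ)] ModularGroup.S) = fun τ =>
      ((p : ℂ) ^ ((2 : ℤ) - 1))⁻¹ *
        Eisenstein.twist p 2 G (ModularForm.heckeMatrix p 0 • τ) := by
    funext τ
    have hp0 : (p : ℂ) ≠ 0 := Nat.cast_ne_zero.2 (Fact.out : p.Prime).ne_zero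
    rw [Eisenstein.twist_eq_comp]
    have : ModularForm.heckeDiagMatrix p • (ModularForm.heckeMatrix p 0 • τ) = τ := by
      ext
      rw [ModularForm.coe_heckeDiagMatrix_smul (Fact.out : p.Prime).ne_zero,
        ModularForm.coe_heckeMatrix_smul (Fact.out : p.Prime).ne_zero]
      simp [hp0, mul_div_cancel₀]
    show _ = _ * (_ * _)
    rw [this, ← mul_assoc, inv_mul_cancel₀ (zpow_ne_zero _ hp0), one_mul]
  rw [e]
  show Tendsto _ _ _
  have := (hz.comp (Eisenstein.tendsto_heckeMatrix_atImInfty (p := p) 0)).const_mul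
    (((p : ℂ) ^ ((2 : ℤ) - 1))⁻¹)
  simpa using this

/-- **The residue theorem.** -/
theorem residue_pairing {f : XF QA p}
    (hreg : ∀ v : Place QA (XF QA p), v ≠ cuspInf p → OrdGE v 0 f) {a : PowerSeries ℤ}
    (ha : a ∈ Eisenstein.forms p 2) (ha0 : PowerSeries.coeff 0 a = 0) :
    ((f : LaurentSeries QA) *
      HahnSeries.ofPowerSeries ℤ QA (a.map (Int.castRingHom QA))).coeff 0 = 0 := by
  classical
  obtain ⟨G, hG, hGa⟩ := ha
  set κ := kappa0
  obtain ⟨R, hR, hRS⟩ := exists_W0_of_regular κ hreg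
  let tR : Cos p → PerL (p : ℝ) := fun q => ⟨trans q R, trans_mem_PerL q R⟩
  let tG : Cos p → PerL (p : ℝ) := fun q =>
    ⟨hG.translate q, Per_le_PerL (isForm_translate_mem_Per hG q)⟩
  set S : PerL (p : ℝ) := ∑ q, tR q * tG q
  have hSval : ∀ τ, (S : ℍ → ℂ) τ = ∑ q, trans q R τ * hG.translate q τ := fun τ => by
    simp only [S, AddSubmonoidClass.coe_finsetSum, Finset.sum_apply, MulMemClass.coe_mul,
      Pi.mul_apply, tR, tG]
  -- level one
  have hinv : ∀ (γ : SL(2, ℤ)) τ,
      (S : ℍ → ℂ) (γ • τ) = denom γ τ ^ (2 : ℤ) * (S : ℍ → ℂ) τ := fun γ τ => by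
    rw [hSval, hSval, Finset.mul_sum]
    refine Fintype.sum_equiv (MulAction.toPerm γ⁻¹) _ _ fun q => ?_
    rw [MulAction.toPerm_apply, hG.translate_smul q γ τ, trans_smul R γ⁻¹ q τ, inv_inv]
    ring
  have hper : Periodic ((S : ℍ → ℂ) ∘ ofComplex) (1 : ℝ) := by
    intro z
    by_cases hz : 0 < z.im
    · have hz1 : 0 < (z + ((1 : ℝ) : ℂ)).im := by simpa using hz
      have h1 := hinv ModularGroup.T ⟨z, hz⟩
      simp only [comp_apply, ofComplex_apply_of_im_pos hz, ofComplex_apply_of_im_pos hz1]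
      rw [show (⟨z + ((1 : ℝ) : ℂ), hz1⟩ : ℍ) = ModularGroup.T • (⟨z, hz⟩ : ℍ) from by
        apply UpperHalfPlane.ext
        rw [UpperHalfPlane.modular_T_smul]
        simp [add_comm], h1]
      simp [UpperHalfPlane.denom, ModularGroup.coe_T]
    · have hz1 : (z + ((1 : ℝ) : ℂ)).im ≤ 0 := by simpa using not_lt.1 hz
      simp only [comp_apply, ofComplex_apply_of_im_nonpos hz1,
        ofComplex_apply_of_im_nonpos (not_lt.1 hz)]
  obtain ⟨m, hm⟩ := mem_PerL_one S.2 hper
  have hSd : MDiff (S : ℍ → ℂ) := by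
    rw [show (S : ℍ → ℂ) = ∑ q, fun τ => trans q R τ * hG.translate q τ from
      funext fun τ => by rw [hSval, Finset.sum_apply]]
    exact MDifferentiable.sum fun q _ => (trans_mem_Hol q R).mul (hG.translate_holo q)
  have h0 : (expL (p : ℝ) S).coeff 0 = 0 := by
    rw [coeff_zero_eq_integral, integral_levelOne_two hSd hinv hm p, mul_zero]
  rw [map_sum, HahnSeries.coeff_sum, Finset.sum_eq_single ((1 : SL(2, ℤ)) : Cos p)
    (fun q _ hq => ?_) (by simp)] at h0
  · rw [map_mul] at h0
    have e1 : expL (p : ℝ) (tR ((1 : SL(2, ℤ)) : Cos p)) =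
        iota (N := p) κ (f : LaurentSeries QA) := by
      rw [← hR, expW_apply]
      congr 1
      exact Subtype.ext (trans_one R)
    have hG1 : G ∈ Per 1 := ⟨hG.holo, hG.periodic, hG.bdd_infty⟩
    have e2 : expL (p : ℝ) (tG ((1 : SL(2, ℤ)) : Cos p)) =
        qExpand ℂ p (HahnSeries.ofPowerSeries ℤ ℂ (intIncl a)) := by
      rw [qExpand_ofPowerSeries, ← hGa,
        show (qExpansion 1 G) = qExp 1 ⟨G, hG1⟩ from rfl, ← qExp_level hG1,
        ← expL_of_mem_Per ⟨G, Per_le_PerL (mem_Per_level hG1)⟩ (mem_Per_level hG1)]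
      congr 1
      exact Subtype.ext hG.translate_one
    rw [e1, e2, iota, RingHom.comp_apply, ← map_mul] at h0
    have h1 : (qExpand ℂ p (coeffMap κ (f : LaurentSeries QA) *
        HahnSeries.ofPowerSeries ℤ ℂ (intIncl a))).coeff ((p : ℤ) * 0) = 0 := by
      rw [mul_zero]; exact h0
    rw [ModularCurve.qExpand_coeff_mul] at h1
    apply κ.injective
    rw [map_zero, ← ModularCurve.coeffMap_coeff κ, map_mul, ← h1]
    congr 2
    ext k
    rcases lt_or_ge k 0 with hk | hk
    · rw [ModularCurve.coeffMap_coeff, ModularCurve.ofPowerSeries_coeff_of_neg _ hk,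
        ModularCurve.ofPowerSeries_coeff_of_neg _ hk, map_zero]
    · lift k to ℕ using hk
      rw [ModularCurve.coeffMap_coeff, HahnSeries.ofPowerSeries_apply_coeff,
        HahnSeries.ofPowerSeries_apply_coeff, PowerSeries.coeff_map, CuspForms.coeff_intIncl]
      simp
  -- the other cusp
  rcases coset_cases q with rfl | ⟨k, rfl⟩
  · exact absurd rfl hq
  have hGS : hG.translate (ModularGroup.S : Cos p) = G ∣[(2 : ℤ)] ModularGroup.S := by
    rw [IsForm.translate_mk, show (ModularGroup.S⁻¹ : SL(2, ℤ)) = (-1) * ModularGroup.S by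
      apply Subtype.ext
      simp [ModularGroup.coe_S, Matrix.adjugate_fin_two], SlashAction.slash_mul,
      hG.slash (-1) (by simp [Gamma0_mem])]
  have hRP : trans (ModularGroup.S : Cos p) R ∈ Per (p : ℝ) :=
    mem_Per_of_coeff (tR (ModularGroup.S : Cos p)) fun i hi => hRS i hi
  have hGP := isForm_translate_mem_Per hG (ModularGroup.S : Cos p)
  have hS0 : (expL (p : ℝ) (tR (ModularGroup.S : Cos p) * tG (ModularGroup.S : Cos p))).coeff 0
      = 0 := by
    rw [map_mul, expL_of_mem_Per _ hRP, expL_of_mem_Per _ hGP, ← map_mul,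
      show (0 : ℤ) = ((0 : ℕ) : ℤ) from rfl, HahnSeries.ofPowerSeries_apply_coeff,
      PowerSeries.coeff_zero_eq_constantCoeff_apply, map_mul]
    have hz : PowerSeries.constantCoeff (qExp (p : ℝ)
        ⟨hG.translate (ModularGroup.S : Cos p), hGP⟩) = 0 := by
      rw [← PowerSeries.coeff_zero_eq_constantCoeff_apply]
      show (qExpansion (p : ℝ) (hG.translate (ModularGroup.S : Cos p))).coeff 0 = 0
      rw [UpperHalfPlane.qExpansion_coeff_zero hpos (analyticAt_of_mem hGP) hGP.2.1]
      refine UpperHalfPlane.IsZeroAtImInfty.valueAtInfty_eq_zero ?_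
      rw [hGS]
      exact tendsto_slash_S hG (by rw [hGa, CuspForms.coeff_intIncl, ha0, Int.cast_zero])
    exact mul_eq_zero_of_right _ hz
  have hshift : ∀ τ, ((tR (ModularGroup.T ^ k • (ModularGroup.S : Cos p)) *
      tG (ModularGroup.T ^ k • (ModularGroup.S : Cos p)) : PerL (p : ℝ)) : ℍ → ℂ) τ =
      ((tR (ModularGroup.S : Cos p) * tG (ModularGroup.S : Cos p) : PerL (p : ℝ)) : ℍ → ℂ)
        (ModularGroup.T ^ (-(k : ℤ)) • τ) := fun τ => by
    simp only [MulMemClass.coe_mul, Pi.mul_apply, tR, tG]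
    have hinvk : (ModularGroup.T ^ k : SL(2, ℤ))⁻¹ = ModularGroup.T ^ (-(k : ℤ)) := by
      rw [zpow_neg, zpow_natCast]
    have h1 := congrFun (hG.translate_slash (ModularGroup.S : Cos p)
      (ModularGroup.T ^ (-(k : ℤ)))) τ
    rw [Eisenstein.slash_T_zpow_apply, ← hinvk, inv_inv] at h1
    rw [trans_smul, ← h1, hinvk, UpperHalfPlane.modular_T_zpow_smul]
  rw [coeff_expL_shift _ _ _ hshift, zpow_zero, one_mul]
  exact hS0

/-- A regular function has bounded coefficients. -/
theorem exists_int_combination {f : XF QA p}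
    (hreg : ∀ v : Place QA (XF QA p), v ≠ cuspInf p → OrdGE v 0 f) :
    ∃ (ι : Type) (_ : Fintype ι) (c : ι → QA) (z : ι → LaurentSeries ℤ),
      (f : LaurentSeries QA) =
        ∑ i, HahnSeries.C (c i) * coeffMap (Int.castRingHom QA) (z i) := by
  classical
  set κ := kappa0
  obtain ⟨R, hR, -⟩ := exists_W0_of_regular κ hreg
  choose m hm using fun q : Cos p => trans_mem_PerL q R
  set M : ℕ := (Finset.univ.sup m) + 1
  set F : ℍ → ℂ := fun τ => (R : ℍ → ℂ) τ * dlt τ ^ M
  have hdlt : ∀ (g : SL(2, ℤ)) τ, dlt (g • τ) = denom g τ ^ (12 : ℤ) * dlt τ :=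
    ES.top_apply_smul ES.dlt_mem
  have hslash : ∀ g : SL(2, ℤ), F ∣[((12 * M : ℕ) : ℤ)] g =
      fun τ => (R : ℍ → ℂ) (g • τ) * dlt τ ^ M := fun g => funext fun τ => by
    have hd := denom_ne_zero (g : GL (Fin 2) ℝ) τ
    rw [ModularForm.SL_slash_apply]
    simp only [F, hdlt]
    rw [mul_pow, ← zpow_natCast (denom (g : GL (Fin 2) ℝ) τ ^ (12 : ℤ)) M, ← zpow_mul, show ((12 : ℤ) * (M : ℤ)) = ((12 * M : ℕ) : ℤ) by push_cast; rfl, zpow_neg]
    field_simp
  have hhol : MDiff F := R.2.1.mul ((ES.dlt_mem (Γ := ⊤)).2.1.pow M)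
  have hzero : ∀ g : SL(2, ℤ), IsZeroAtImInfty (F ∣[((12 * M : ℕ) : ℤ)] g) := fun g => by
    rw [hslash]
    set q : Cos p := ((g⁻¹ : SL(2, ℤ)) : Cos p)
    have hb := (hm q).2.2
    have hMq : m q + 1 ≤ p * M :=
      le_trans (Nat.succ_le_succ (Finset.le_sup (f := m) (Finset.mem_univ q)))
        (Nat.le_mul_of_pos_left M (NeZero.pos p))
    obtain ⟨r, hr⟩ := Nat.exists_eq_add_of_le hMq
    have e : (fun τ => (R : ℍ → ℂ) (g • τ) * dlt τ ^ M) = fun τ =>
        (trans q R * qh (p : ℝ) ^ m q) τ * (qh (p : ℝ) τ ^ (1 + r) * (eulerH τ ^ 24) ^ M) := by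
      funext τ
      simp only [Pi.mul_apply, Pi.pow_apply, q, trans_mk, inv_inv]
      rw [dlt_eq_euler, qh_one_eq (p := p), mul_pow, ← pow_mul, hr]
      ring
    rw [e]
    have hqh : Tendsto (qh (p : ℝ)) atImInfty (𝓝 0) :=
      UpperHalfPlane.qParam_tendsto_atImInfty hpos
    have hlim : Tendsto (fun τ => qh (p : ℝ) τ ^ (1 + r) * (eulerH τ ^ 24) ^ M) atImInfty
        (𝓝 0) := by
      have := (hqh.pow (1 + r)).mul (tendsto_eulerH.pow M)
      simpa [zero_pow (show 1 + r ≠ 0 by omega)] using this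
    have h1 := Asymptotics.IsBigO.mul_isLittleO hb ((Asymptotics.isLittleO_one_iff ℝ).2 hlim)
    simp only [Pi.one_apply, mul_one] at h1
    exact (Asymptotics.isLittleO_one_iff ℝ).1 h1
  have hF : IsCuspidal p ((12 * M : ℕ) : ℤ) F :=
    { holo := hhol
      slash := fun γ hγ => by
        rw [hslash]; funext τ
        rw [R.2.2.1 γ hγ]
      bdd := fun g => (hzero g).isBoundedAtImInfty
      zero := hzero }
  have hspan : qExpansion 1 F ∈ Submodule.span ℂ (Set.range intIncl) := by
    have hmem : hF.toCuspForm ∈ Submodule.span ℂ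
        ((CuspForm.intLattice p ((12 * M : ℕ) : ℤ) : Submodule ℤ _) :
          Set (CuspForm (Gamma0 p) ((12 * M : ℕ) : ℤ))) := by
      have h := CuspForms.hasIntegralStructure p ((12 * M : ℕ) : ℤ)
      rw [CuspForm.HasIntegralStructure] at h
      rw [h]; trivial
    let Q : CuspForm (Gamma0 p) ((12 * M : ℕ) : ℤ) →ₗ[ℂ] PowerSeries ℂ :=
      { toFun := fun g => qExpansion 1 ⇑g
        map_add' := fun g g' => PowerSeries.ext fun n => by
          rw [map_add]
          exact (CuspForms.qcLin p _ n).map_add g g'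
        map_smul' := fun c g => PowerSeries.ext fun n => by
          rw [RingHom.id_apply, PowerSeries.coeff_smul]
          exact (CuspForms.qcLin p _ n).map_smul c g }
    have h := Submodule.mem_map_of_mem (f := Q) hmem
    rw [Submodule.map_span] at h
    refine Submodule.span_mono ?_ h
    rintro _ ⟨g, hg, rfl⟩
    choose z hz using (CuspForms.mem_intLattice_iff g).1 hg
    exact ⟨PowerSeries.mk z, PowerSeries.ext fun n => by
      rw [CuspForms.coeff_intIncl, PowerSeries.coeff_mk]; exact (hz n).symm⟩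
  obtain ⟨c, hc⟩ := Finsupp.mem_span_range_iff_exists_finsupp.1 hspan
  -- expansions at level `p`
  have hF1 : F ∈ Per 1 := ⟨hhol, hF.toIsForm.periodic, hF.toIsForm.bdd_infty⟩
  have hD1 : dlt ∈ Per 1 := ⟨(ES.dlt_mem (Γ := ⊤)).2.1, ES.top_periodic ES.dlt_mem,
    ES.top_bdd ES.dlt_mem⟩
  have hkey : coeffMap κ (f : LaurentSeries QA) *
      HahnSeries.ofPowerSeries ℤ ℂ (intIncl deltaS) ^ M =
      HahnSeries.ofPowerSeries ℤ ℂ (qExpansion 1 F) := by
    apply ModularCurve.qExpand_injective (R := ℂ) p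
    rw [map_mul, map_pow, qExpand_ofPowerSeries, qExpand_ofPowerSeries,
      show qExpand ℂ p (coeffMap κ (f : LaurentSeries QA)) =
        iota (N := p) κ (f : LaurentSeries QA) from rfl, ← hR, ← qExpansion_dlt,
      show qExpansion 1 F = qExp 1 ⟨F, hF1⟩ from rfl,
      show qExpansion 1 dlt = qExp 1 ⟨dlt, hD1⟩ from rfl, ← qExp_level hD1, ← qExp_level hF1,
      ← expL_of_mem_Per ⟨dlt, Per_le_PerL (mem_Per_level hD1)⟩ (mem_Per_level hD1),
      ← expL_of_mem_Per ⟨F, Per_le_PerL (mem_Per_level hF1)⟩ (mem_Per_level hF1), expW_apply,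
      ← map_pow, ← map_mul]
    congr 1
  obtain ⟨u, hu, hu1⟩ := exists_deltaS
  set v := u.invOfUnit 1
  have huv : u * v = 1 := PowerSeries.mul_invOfUnit u 1 (by rw [hu1, Units.val_one])
  set D' : LaurentSeries ℤ := HahnSeries.single (-1) 1 * HahnSeries.ofPowerSeries ℤ ℤ v
  have hD' : HahnSeries.ofPowerSeries ℤ ℤ deltaS * D' = 1 := by
    rw [hu, map_mul, HahnSeries.ofPowerSeries_X, mul_mul_mul_comm, HahnSeries.single_mul_single,
      ← map_mul, huv, map_one]
    simp
  have hmapS : ∀ z : PowerSeries ℤ, coeffMap (Int.castRingHom ℂ)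
      (HahnSeries.ofPowerSeries ℤ ℤ z) = HahnSeries.ofPowerSeries ℤ ℂ (intIncl z) := fun z => by
    ext k
    rw [ModularCurve.coeffMap_coeff]
    rcases lt_or_ge k 0 with hk | hk
    · rw [ModularCurve.ofPowerSeries_coeff_of_neg _ hk, ModularCurve.ofPowerSeries_coeff_of_neg _ hk,
        map_zero]
    · lift k to ℕ using hk
      rw [HahnSeries.ofPowerSeries_apply_coeff, HahnSeries.ofPowerSeries_apply_coeff,
        CuspForms.coeff_intIncl]
      rfl
  have hkey2 : coeffMap κ (f : LaurentSeries QA) = ∑ z ∈ c.support, HahnSeries.C (c z) *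
      coeffMap (Int.castRingHom ℂ) (HahnSeries.ofPowerSeries ℤ ℤ z * D' ^ M) := by
    have h := congrArg (fun x => x * coeffMap (Int.castRingHom ℂ) (D' ^ M)) hkey
    beta_reduce at h
    rw [mul_assoc, ← hmapS, ← map_pow, ← map_mul, ← mul_pow, hD', one_pow, map_one, mul_one,
      ← hc, Finsupp.sum, map_sum, Finset.sum_mul] at h
    rw [h]
    refine Finset.sum_congr rfl fun z _ => ?_
    rw [PowerSeries.smul_eq_C_mul, map_mul, HahnSeries.ofPowerSeries_C, map_mul, hmapS]
    ring
  letI : Algebra QA ℂ := κ.toAlgebra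
  obtain ⟨l, hl⟩ := LinearMap.exists_leftInverse_of_injective (Algebra.linearMap QA ℂ)
    (LinearMap.ker_eq_bot.2 κ.injective)
  have hl1 : ∀ x : QA, l (κ x) = x := fun x => LinearMap.congr_fun hl x
  refine ⟨c.support, inferInstance, fun z => l (c z),
    fun z => HahnSeries.ofPowerSeries ℤ ℤ z.1 * D' ^ M, ?_⟩
  ext k
  have h := congrArg (fun x : LaurentSeries ℂ => x.coeff k) hkey2
  simp only [ModularCurve.coeffMap_coeff, HahnSeries.coeff_sum] at h
  rw [← hl1 ((f : LaurentSeries QA).coeff k), h, map_sum, HahnSeries.coeff_sum,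
    ← Finset.sum_coe_sort]
  refine Finset.sum_congr rfl fun z _ => ?_
  rw [HahnSeries.C_mul_eq_smul, HahnSeries.C_mul_eq_smul, HahnSeries.coeff_smul,
    HahnSeries.coeff_smul, ModularCurve.coeffMap_coeff, ModularCurve.coeffMap_coeff, smul_eq_mul,
    smul_eq_mul, eq_intCast, eq_intCast, mul_comm (c z.1), ← zsmul_eq_mul, map_zsmul, zsmul_eq_mul,
    mul_comm]

variable {l : ℕ} [Fact l.Prime] {A : ValuationSubring QA} (hA : A.LiesOverPrime l) (hlp : l ≠ p)

local notation "kA" => ResidueField A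
local notation "Fk" => ModularCurve.modularFunctionFieldFullC (ResidueField A) p

include hA hlp in
/-- A regular function with a reduction has integral coefficients. -/
theorem exists_series_of_regular [IsAlgClosed kA] {f : XF QA p}
    (hreg : ∀ v : Place QA (XF QA p), v ≠ cuspInf p → OrdGE v 0 f) {g : Fk}
    (hres : (Specialization.modularModel (π := residue A) residue_surjective p
      (natCast_p_ne_zero hA hlp)).Res f g) :
    ∃ z : LaurentSeries A, coeffMap A.subtype z = (f : LaurentSeries QA) ∧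
      coeffMap (residue A) z = (g : LaurentSeries kA) := by
  set MM := Specialization.modularModel (π := residue A) residue_surjective p
    (natCast_p_ne_zero hA hlp)
  have hser : ∀ (F : XF QA p) (z : LaurentSeries A), coeffMap A.subtype z = (F : LaurentSeries QA) →
      ∃ gz : Fk, coeffMap (residue A) z = (gz : LaurentSeries kA) ∧ MM.Res F gz := by
    intro F z hz
    obtain ⟨gz, hgz⟩ := exists_red hA hlp z hz
    have := Specialization.modularModel_res_series (π := residue A) residue_surjective p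
      (natCast_p_ne_zero hA hlp) (y := z) (hz ▸ F.2) (hgz ▸ gz.2)
    rw [show (⟨_, hz ▸ F.2⟩ : XF QA p) = F from Subtype.ext hz,
      show (⟨_, hgz ▸ gz.2⟩ : Fk) = gz from Subtype.ext hgz] at this
    exact ⟨gz, hgz, this⟩
  suffices h : ∃ z : LaurentSeries A, coeffMap A.subtype z = (f : LaurentSeries QA) by
    obtain ⟨z, hz⟩ := h
    obtain ⟨gz, hgz, hR⟩ := hser f z hz
    exact ⟨z, hz, by rw [hgz, hR.unique hres]⟩
  by_cases hf : f = 0
  · exact ⟨0, by rw [hf, map_zero]; rfl⟩
  obtain ⟨ι, _, c, z, hc⟩ := exists_int_combination hreg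
  obtain ⟨u, y, hu, hy, hy'⟩ := Specialization.exists_primitive hA c z hc
    fun e => hf (Subtype.ext e)
  have hyF : coeffMap A.subtype y = ((algebraMap QA (XF QA p) u * f : XF QA p) :
      LaurentSeries QA) := by
    rw [hy, MulMemClass.coe_mul]
    congr 1
    exact (coe_const u).symm
  obtain ⟨gy, hgy, hRy⟩ := hser _ y hyF
  by_cases hui : u⁻¹ ∈ A
  · refine ⟨HahnSeries.C ⟨u⁻¹, hui⟩ * y, ?_⟩
    rw [map_mul, coeffMap_C_series, hy, ← mul_assoc,
      show A.subtype (⟨u⁻¹, hui⟩ : A) = u⁻¹ from rfl, ← map_mul, inv_mul_cancel₀ hu, map_one,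
      one_mul]
  · exfalso
    have huA : u ∈ A := (A.mem_or_inv_mem u).resolve_right hui
    have h0 : residue A ⟨u, huA⟩ = 0 :=
      Specialization.Reduction.map_eq_zero_of_inv_notMem residue_surjective hui
    have h := (MM.res_algebraMap ⟨u, huA⟩).mul hres
    rw [h0, map_zero, zero_mul] at h
    apply hy'
    rw [hgy, hRy.unique h]
    rfl

end FLTAgent.Mazur
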