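import Fermat.Agent.Mazur.Stab
import Fermat.Agent.Divisible.FiniteFixed
import Fermat.Agent.Frobenius.Exists

/-!
# The Tate module of `J₀(p)` as a lattice with a kernel of reduction
-/

set_option autoImplicit false
set_option linter.style.haveILetI false
set_option linter.unusedSectionVars false
set_option synthInstance.maxHeartbeats 400000
set_option maxHeartbeats 1000000

noncomputable section

open CongruenceSubgroup TensorProduct AlgebraicCurve IsLocalRing
open scoped MatrixGroups

namespace FLTAgent.Mazur.Tate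

open ModularCurve (JZero reductionModL ReductionInputsModL modularFunctionFieldFullC JZeroC)

variable (p l : ℕ) [Fact p.Prime] [NeZero p] [Fact l.Prime]

local notation "QA" => AlgebraicClosure ℚ
local notation "GG" => (AlgebraicClosure ℚ ≃ₐ[ℚ] AlgebraicClosure ℚ)
local notation "HH" => CuspForm.heckeAlgebra p 2 (∅ : Set ℕ)
local notation "TT" => ℤ_[l] ⊗[ℤ] (CuspForm.heckeAlgebra p 2 (∅ : Set ℕ))

omit [Fact p.Prime] [NeZero p] in
/-- An `l`-divisible sequence of torsion elements inside a finite set vanishes. -/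
theorem eq_zero_of_finite_tower {M : Type*} [AddCommGroup M] {s : Set M} (hs : s.Finite)
    (u : ℕ → M) (hu : ∀ k, l • u (k + 1) = u k) (h0 : ∀ k, l ^ k • u k = 0) (hmem : ∀ k, u k ∈ s)
    (k : ℕ) : u k = 0 := by
  haveI := hs.to_subtype
  obtain ⟨a, b, hne, hab⟩ :=
    Finite.exists_ne_map_eq_of_infinite fun j : ℕ => (⟨u (k + j), hmem _⟩ : s)
  wlog hlt : a < b generalizing a b
  · exact this b a hne.symm hab.symm (by omega)
  have hpow : ∀ i j, l ^ j • u (i + j) = u i := fun i j => by
    induction j with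
    | zero => rw [pow_zero, one_nsmul, add_zero]
    | succ j ih => rw [pow_succ', mul_nsmul, ← Nat.add_assoc, hu, ih]
  have h1 : u (k + a) = u (k + b) := congrArg Subtype.val hab
  have h2 : l ^ (b - a) • u (k + b) = u (k + b) := by
    conv_rhs => rw [← h1, ← hpow (k + a) (b - a), show k + a + (b - a) = k + b by omega]
  have h3 : ∀ n : ℕ, l ^ (n * (b - a)) • u (k + b) = u (k + b) := fun n => by
    induction n with
    | zero => rw [zero_mul, pow_zero, one_nsmul]
    | succ n ih => rw [add_mul, one_mul, pow_add, mul_nsmul', h2, ih]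
  have h4 : u (k + b) = 0 := by
    obtain ⟨d, hd⟩ := Nat.exists_eq_add_of_le
      (Nat.le_mul_of_pos_right (k + b) (by omega : 0 < b - a))
    rw [← h3 (k + b), hd, pow_add, mul_nsmul, h0, nsmul_zero]
  rw [← hpow k b, h4, nsmul_zero]

variable {A : ValuationSubring QA} (hA : A.LiesOverPrime l) (hlp : l ≠ p)

/-- The Eisenstein idempotent. -/
def eps : TT := (exists_eps p l hA hlp).choose

theorem eps_mem : eps p l hA hlp ∈ stab p l A := (exists_eps p l hA hlp).choose_spec.1

theorem eps_sq : eps p l hA hlp * eps p l hA hlp = eps p l hA hlp :=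
  (exists_eps p l hA hlp).choose_spec.2.1

theorem eps_xd (σ : GG) : ∃ (j : ℕ) (y : TT), eps p l hA hlp * xd p l σ ^ j = (l : TT) * y :=
  (exists_eps p l hA hlp).choose_spec.2.2.1 σ

theorem lev_eps_of_xd {k : ℕ} {v : Lat p l}
    (h : ∀ σ, lev p l k (latticeHom l (hecke p l) (xd p l σ) v) = 0) :
    lev p l k (latticeHom l (hecke p l) (eps p l hA hlp) v) = lev p l k v :=
  (exists_eps p l hA hlp).choose_spec.2.2.2 k v h

/-- Vectors whose Eisenstein part reduces to zero. -/
def kerRed : Submodule ℤ_[l] (Lat p l) where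
  carrier := {w | ∀ k, reductionModL A p
    (lev p l k (latticeHom l (hecke p l) (eps p l hA hlp) w)) = 0}
  add_mem' := fun {a b} ha hb k => by rw [map_add, map_add, map_add, ha k, hb k, add_zero]
  zero_mem' := fun k => by rw [map_zero, map_zero, map_zero]
  smul_mem' := fun c w hw k => by rw [map_smul, lev_smul, map_nsmul, hw k, nsmul_zero]

theorem mem_kerRed {w : Lat p l} : w ∈ kerRed p l hA hlp ↔ ∀ k, reductionModL A p
    (lev p l k (latticeHom l (hecke p l) (eps p l hA hlp) w)) = 0 := Iff.rfl

theorem kerRed_sat {w : Lat p l} (hw : (l : ℤ_[l]) • w ∈ kerRed p l hA hlp) :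
    w ∈ kerRed p l hA hlp := fun k => by
  have h := hw (k + 1)
  rwa [map_smul, lev_nsmul_succ] at h

theorem latticeHom_mem_kerRed {x : TT} (hx : x ∈ stab p l A) {w : Lat p l}
    (hw : w ∈ kerRed p l hA hlp) : latticeHom l (hecke p l) x w ∈ kerRed p l hA hlp := fun k => by
  rw [← Module.End.mul_apply, ← map_mul, mul_comm, map_mul, Module.End.mul_apply]
  exact hx k _ (hw k)

theorem hecke_mem_kerRed (s : HH) {w : Lat p l} (hw : w ∈ kerRed p l hA hlp) :
    hecke p l s w ∈ kerRed p l hA hlp := by
  obtain ⟨m, hm, hs⟩ := exists_index_awayAlg p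
  have h1 := latticeHom_mem_kerRed p l hA hlp (tmul_mem_stab p l hA hlp (hs s)) hw
  rw [latticeHom_one_tmul, map_zsmul, LinearMap.smul_apply, ← Int.cast_smul_eq_zsmul ℤ_[l]] at h1
  have hm' : (m : ℤ_[l]) ≠ 0 := Int.cast_ne_zero.2 hm
  rw [PadicInt.unitCoeff_spec hm', mul_smul] at h1
  have h2 := Submodule.smul_mem _ ((PadicInt.unitCoeff hm')⁻¹ : ℤ_[l]ˣ).val h1
  rw [smul_smul, Units.inv_mul, one_smul] at h2
  generalize (m : ℤ_[l]).valuation = n at h2
  induction n with
  | zero => rwa [pow_zero, one_smul] at h2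
  | succ n ih =>
    rw [pow_succ', mul_smul] at h2
    exact ih (kerRed_sat p l hA hlp h2)

theorem lev_eps_gal (k : ℕ) (σ : GG) (w : Lat p l) :
    lev p l k (latticeHom l (hecke p l) (eps p l hA hlp) (gal p l σ w)) =
      σ • lev p l k (latticeHom l (hecke p l) (eps p l hA hlp) w) := by
  rw [latticeHom_gal, lev_gal]

theorem inertia_mem_kerRed {σ : GG} (hσ : σ ∈ A.inertiaSubgroupIn ℚ) (w : Lat p l) :
    gal p l σ w - w ∈ kerRed p l hA hlp := fun k => by
  rw [map_sub, map_sub, map_sub, lev_eps_gal, Kronecker.reductionModL_smul_of_mem_inertia σ hσ,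
    sub_self]

variable {φl : GG} (hφl : A.IsFrobeniusAt φl l)

/-- The residual Frobenius. -/
def frobK : ResidueField A ≃+* ResidueField A :=
  Kronecker.residueAut A ⟨φl, hφl.mem_decompositionSubgroup⟩

theorem frobK_apply (z : ResidueField A) : frobK l hφl z = z ^ l := hφl.smul_residue_eq z

include hA hlp hφl in
theorem reductionModL_frob (x : JZero p) :
    reductionModL A p (φl • x) =
      Kronecker.specialAut p (frobK l hφl) • reductionModL A p x :=
  Kronecker.reductionModL_smul_of_frobenius (reductionInputs p l hA hlp) hφl _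
    (frobK_apply l hφl) x

include hφl in
theorem frob_stable {w : Lat p l} (hw : w ∈ kerRed p l hA hlp) :
    gal p l φl w ∈ kerRed p l hA hlp := fun k => by
  rw [lev_eps_gal, reductionModL_frob p l hA hlp hφl, hw k]
  exact map_zero (DistribSMul.toAddMonoidHom (JZeroC (ResidueField A) p)
    (Kronecker.specialAut p (frobK l hφl)))

include hφl in
theorem frob_injective {w : Lat p l}
    (hw : gal p l φl (gal p l φl w) - w ∈ kerRed p l hA hlp) : w ∈ kerRed p l hA hlp := by
  intro k
  set u := fun k => reductionModL A p (lev p l k (latticeHom l (hecke p l) (eps p l hA hlp) w))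
  have hfin := Divisible.finite_fixed p
    (fun h => hlp ((Nat.prime_dvd_prime_iff_eq (Fact.out : l.Prime) Fact.out).1 h)) A hA
    (frobK l hφl) (frobK_apply l hφl) 2 two_pos
  refine eq_zero_of_finite_tower l hfin u (fun j => ?_) (fun j => ?_) (fun j => ?_) k
  · simp only [u]
    rw [← map_nsmul, nsmul_lev_succ]
  · simp only [u]
    rw [← map_nsmul, nsmul_lev, map_zero]
  · show Kronecker.specialAut p (frobK l hφl) ^ 2 • u j = u j
    have h := hw j
    rw [map_sub, map_sub, map_sub, lev_eps_gal, lev_eps_gal, reductionModL_frob p l hA hlp hφl,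
      reductionModL_frob p l hA hlp hφl, sub_eq_zero] at h
    rw [pow_two, mul_smul]
    exact h

variable {Ap : ValuationSubring QA} (hAp : Ap.LiesOverPrime p) {φp : GG}
  (hφp : Ap.IsFrobeniusAt φp p)
  (hbad : ∀ σ ∈ Ap.inertiaSubgroupIn ℚ, ∀ (k : ℕ) (x : JZero p), l ^ k • x = 0 →
    σ • (σ • x - x) = σ • x - x)

/-- A place over each prime. -/
def someplace (q : ℕ) : ValuationSubring QA :=
  if h : q.Prime then (Frobenius.exists_liesOverPrime q h).choose else ⊤

theorem someplace_lies {q : ℕ} (hq : q.Prime) : (someplace q).LiesOverPrime q := by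
  rw [someplace, dif_pos hq]
  exact (Frobenius.exists_liesOverPrime q hq).choose_spec

include hlp in
theorem chi_frob_sq (hAp : Ap.LiesOverPrime p) (hφp : Ap.IsFrobeniusAt φp p) :
    chi l φp ^ 2 ≠ 1 := by
  rw [chi_frobenius l Fact.out hlp.symm hAp hφp, ← Nat.cast_pow, ← Nat.cast_one]
  intro h
  have h1 := Nat.cast_injective h
  have h2 := (Fact.out : p.Prime).two_le
  nlinarith

/-- The lattice. -/
def tateLattice : HeckeLattice l p HH (Lat p l) where
  ρ := gal p l
  α := hecke p l
  comm := fun σ t w => gal_comm p l σ t w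
  ψ := coord p l
  ψ_inj := coord_injective p l
  ψ_α := fun s w i t => coord_hecke p l s w i t
  a := (exists_coord_span p l).choose
  ψ_span := (exists_coord_span p l).choose_spec
  cont := gal_cont p l
  χ := chi l
  cyclo := fun n σ k h => chi_spec l n σ h
  χ_mul := chi_mul l
  t := tr p l
  rel := tr_rel p l
  Al := A
  Ap := Ap
  liesl := hA
  liesp := hAp
  place := someplace
  liesq := fun _ hq => someplace_lies hq
  unram := fun q hq hqp hql σ hσ w => gal_inertia p l hq
    (fun h => hqp ((Nat.prime_dvd_prime_iff_eq hq Fact.out).1 h)) hql (someplace_lies hq) hσ w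
  unip := fun σ hσ w => sub_eq_zero.1 <| eq_zero_of_lev p l fun k => by
    rw [map_sub, lev_gal, map_sub, lev_gal, sub_eq_zero]
    exact hbad σ hσ k _ (nsmul_lev p l k w)
  K := kerRed p l hA hlp
  K_sat := fun _ hw => kerRed_sat p l hA hlp hw
  K_α := fun s _ hw => hecke_mem_kerRed p l hA hlp s hw
  htr := fun σ => by
    obtain ⟨j, y, hy⟩ := eps_xd p l hA hlp σ
    refine ⟨j, eps p l hA hlp * y, fun w k => ?_⟩
    rw [← Module.End.mul_apply, ← map_mul]
    have h : eps p l hA hlp * (xd p l σ ^ j - (l : TT) * (eps p l hA hlp * y)) = 0 := by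
      linear_combination eps p l hA hlp * hy -
        (xd p l σ ^ j + (l : TT) * y) * eps_sq p l hA hlp
    rw [show tr p l σ - 1 - algebraMap ℤ_[l] TT (chi l σ) = xd p l σ from rfl, h, map_zero,
      LinearMap.zero_apply, map_zero, map_zero]
  inertia := fun σ hσ w => inertia_mem_kerRed p l hA hlp hσ w
  φl := φl
  φl_mem := hφl.mem_decompositionSubgroup
  φl_stable := fun _ hw => frob_stable p l hA hlp hφl hw
  frob := fun _ hw => frob_injective p l hA hlp hφl hw
  φp := φp
  φp_mem := hφp.mem_decompositionSubgroup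
  φp_sq := chi_frob_sq p l hlp hAp hφp

end FLTAgent.Mazur.Tate
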