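import Fermat.Agent.Mazur.Coeff
import Mathlib.RingTheory.LocalRing.ResidueField.Basic

/-!
# Choice of the lattice

We may assume that the residual representation is a nonsplit extension whose sub is the line fixed
at `l`.
-/

set_option autoImplicit false
set_option linter.overlappingInstances false
set_option linter.unusedSectionVars false

noncomputable section

namespace FLTAgent.Mazur

open scoped Pointwise

local notation "QQb" => AlgebraicClosure ℚ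
local notation "GG" => (AlgebraicClosure ℚ ≃ₐ[ℚ] AlgebraicClosure ℚ)

/-- Two singular `2 × 2` families closed under `N, N' ↦ N + N' + N N'` have a common stable line. -/
theorem exists_common_line {k : Type} [Field k] {G : Type} [Mul G] (A B C D : G → k)
    (hA : ∀ σ τ, A (σ * τ) = A σ + A τ + (A σ * A τ + B σ * C τ))
    (hB : ∀ σ τ, B (σ * τ) = B σ + B τ + (A σ * B τ + B σ * D τ))
    (hC : ∀ σ τ, C (σ * τ) = C σ + C τ + (C σ * A τ + D σ * C τ))
    (hD : ∀ σ τ, D (σ * τ) = D σ + D τ + (C σ * B τ + D σ * D τ))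
    (h0 : ∀ σ, A σ * D σ - B σ * C σ = 0) :
    ∃ v1 v2 : k, (v1 ≠ 0 ∨ v2 ≠ 0) ∧
      ∀ σ, v1 * (C σ * v1 + D σ * v2) - v2 * (A σ * v1 + B σ * v2) = 0 := by
  have hdec : ∀ σ, ∃ x1 x2 f1 f2 : k, (x1 ≠ 0 ∨ x2 ≠ 0) ∧
      A σ = x1 * f1 ∧ B σ = x1 * f2 ∧ C σ = x2 * f1 ∧ D σ = x2 * f2 := fun σ ↦ by
    have h := h0 σ
    by_cases hA0 : A σ = 0
    · by_cases hB0 : B σ = 0
      · exact ⟨0, 1, C σ, D σ, Or.inr one_ne_zero, by simp [hA0], by simp [hB0], by simp, by simp⟩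
      · have hC0 : C σ = 0 := by
          rw [hA0, zero_mul, zero_sub, neg_eq_zero] at h
          exact (mul_eq_zero.mp h).resolve_left hB0
        exact ⟨1, D σ / B σ, 0, B σ, Or.inl one_ne_zero, by simp [hA0], by simp, by simp [hC0],
          by field_simp⟩
    · exact ⟨1, C σ / A σ, A σ, B σ, Or.inl one_ne_zero, by simp, by simp, by field_simp,
        by field_simp; linear_combination h⟩
  choose x1 x2 f1 f2 hx eA eB eC eD using hdec
  have key : ∀ σ τ, (x1 σ * x2 τ - x2 σ * x1 τ) * (f1 σ * f2 τ - f2 σ * f1 τ) = 0 := fun σ τ ↦ by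
    have h := h0 (σ * τ)
    rw [hA, hB, hC, hD, eA σ, eA τ, eB σ, eB τ, eC σ, eC τ, eD σ, eD τ] at h
    linear_combination h
  suffices H : ∀ v1 v2 : k, (∀ σ, (v1 * x2 σ - v2 * x1 σ) * (f1 σ * v1 + f2 σ * v2) = 0) →
      ∀ σ, v1 * (C σ * v1 + D σ * v2) - v2 * (A σ * v1 + B σ * v2) = 0 by
    by_cases hz : ∀ σ, f1 σ = 0 ∧ f2 σ = 0
    · exact ⟨1, 0, Or.inl one_ne_zero, H 1 0 fun σ ↦ by simp [(hz σ).1]⟩
    push Not at hz
    obtain ⟨s, hs⟩ := hz
    by_cases hc1 : ∀ σ, (x1 s * x2 σ - x2 s * x1 σ) * (f1 σ * x1 s + f2 σ * x2 s) = 0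
    · exact ⟨x1 s, x2 s, hx s, H _ _ hc1⟩
    push Not at hc1
    obtain ⟨t, ht⟩ := hc1
    refine ⟨f2 s, -f1 s, ?_, H _ _ fun σ ↦ ?_⟩
    · by_cases h : f1 s = 0
      · exact Or.inl (hs h)
      · exact Or.inr (neg_ne_zero.mpr h)
    · have k1 : f1 s * f2 t - f2 s * f1 t = 0 :=
        (mul_eq_zero.mp (key s t)).resolve_left (left_ne_zero_of_mul ht)
      by_contra hne
      have k2 : f1 s * f2 σ - f2 s * f1 σ ≠ 0 := fun h ↦ hne (by
        linear_combination (-(f2 s * x2 σ + f1 s * x1 σ)) * h)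
      have k3 : x1 s * x2 σ - x2 s * x1 σ = 0 := (mul_eq_zero.mp (key s σ)).resolve_right k2
      rcases mul_eq_zero.mp (key t σ) with h | h
      · have e1 : (x1 s * x2 t - x2 s * x1 t) * x1 σ = 0 := by
          linear_combination x1 t * k3 - x1 s * h
        have e2 : (x1 s * x2 t - x2 s * x1 t) * x2 σ = 0 := by
          linear_combination x2 t * k3 - x2 s * h
        rcases hx σ with h' | h'
        · exact h' ((mul_eq_zero.mp e1).resolve_left (left_ne_zero_of_mul ht))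
        · exact h' ((mul_eq_zero.mp e2).resolve_left (left_ne_zero_of_mul ht))
      · refine ht ?_
        have e1 : (f1 s * f2 σ - f2 s * f1 σ) * f1 t = 0 := by
          linear_combination f1 σ * k1 + f1 s * h
        have e2 : (f1 s * f2 σ - f2 s * f1 σ) * f2 t = 0 := by
          linear_combination f2 σ * k1 + f2 s * h
        rw [(mul_eq_zero.mp e1).resolve_left k2, (mul_eq_zero.mp e2).resolve_left k2]
        ring
  intro v1 v2 h σ
  rw [eA, eB, eC, eD]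
  linear_combination h σ

variable {l p : ℕ} {O : Type} [CommRing O] [IsDomain O] {ϖ : O} {R : Rep O ϖ}

/-- Change of basis `e₂ ↦ e₂ + X e₁`. -/
def Rep.shift (R : Rep O ϖ) (X : O) : Rep O ϖ where
  a σ := R.a σ - X * R.c σ
  b σ := R.b σ + (R.a σ - R.d σ) * X - R.c σ * X ^ 2
  c σ := R.c σ
  d σ := R.d σ + R.c σ * X
  a_one := by rw [R.a_one, R.c_one]; ring
  b_one := by rw [R.a_one, R.b_one, R.c_one, R.d_one]; ring
  c_one := R.c_one
  d_one := by rw [R.d_one, R.c_one]; ring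
  a_mul σ τ := by rw [R.a_mul, R.c_mul]; ring
  b_mul σ τ := by rw [R.a_mul, R.b_mul, R.c_mul, R.d_mul]; ring
  c_mul σ τ := by rw [R.c_mul]; ring
  d_mul σ τ := by rw [R.d_mul, R.c_mul]; ring
  cont n := by
    obtain ⟨V, hV, h⟩ := R.cont n
    refine ⟨V, hV, fun σ hσ ↦ ?_⟩
    obtain ⟨h1, h2, h3, h4⟩ := h σ hσ
    refine ⟨?_, ?_, h3, ?_⟩
    · rw [sub_right_comm]; exact h1.sub (h3.mul_left _)
    · rw [show R.a σ - R.d σ = (R.a σ - 1) - (R.d σ - 1) by ring]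
      exact (h2.add ((h1.sub h4).mul_right _)).sub (h3.mul_right _)
    · rw [add_sub_right_comm]; exact h4.add (h3.mul_right _)

/-- Change of basis `e₁ ↦ ϖⁿ e₁`. -/
def Rep.scale (R : Rep O ϖ) (hϖ : ϖ ≠ 0) (n : ℕ) (b' : GG → O)
    (hb : ∀ σ, R.b σ = ϖ ^ n * b' σ) : Rep O ϖ where
  a := R.a
  b := b'
  c σ := ϖ ^ n * R.c σ
  d := R.d
  a_one := R.a_one
  b_one := mul_left_cancel₀ (pow_ne_zero n hϖ) (by rw [← hb, R.b_one, mul_zero])
  c_one := by rw [R.c_one, mul_zero]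
  d_one := R.d_one
  a_mul σ τ := by rw [R.a_mul, hb]; ring
  b_mul σ τ := mul_left_cancel₀ (pow_ne_zero n hϖ) (by
    rw [← hb, R.b_mul, hb σ, hb τ]; ring)
  c_mul σ τ := by rw [R.c_mul]; ring
  d_mul σ τ := by rw [R.d_mul, hb τ]; ring
  cont m := by
    obtain ⟨V, hV, h⟩ := R.cont (m + n)
    refine ⟨V, hV, fun σ hσ ↦ ?_⟩
    obtain ⟨h1, h2, h3, h4⟩ := h σ hσ
    refine ⟨(pow_dvd_pow ϖ (Nat.le_add_right m n)).trans h1, ?_,
      ((pow_dvd_pow ϖ (Nat.le_add_right m n)).trans h3).mul_left _,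
      (pow_dvd_pow ϖ (Nat.le_add_right m n)).trans h4⟩
    rw [hb, pow_add, mul_comm (ϖ ^ m)] at h2
    exact (mul_dvd_mul_iff_left (pow_ne_zero n hϖ)).mp h2

theorem Rep.det_shift (R : Rep O ϖ) (X : O) : (R.shift X).det = R.det :=
  funext fun σ ↦ by simp only [Rep.det, Rep.shift]; ring

theorem Rep.det_scale (R : Rep O ϖ) (hϖ : ϖ ≠ 0) (n : ℕ) (b' : GG → O)
    (hb : ∀ σ, R.b σ = ϖ ^ n * b' σ) : (R.scale hϖ n b' hb).det = R.det :=
  funext fun σ ↦ by simp only [Rep.det, Rep.scale, hb]; ring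

/-- The shifted setup. -/
def Setup.shift (S : Setup l p R) (X : O) : Setup l p (R.shift X) where
  Al := S.Al
  Ap := S.Ap
  liesl := S.liesl
  liesp := S.liesp
  cyclo := by rw [Rep.det_shift]; exact S.cyclo
  place := S.place
  liesq := S.liesq
  unram q h1 h2 h3 σ hσ := by
    obtain ⟨e1, e2, e3, e4⟩ := S.unram q h1 h2 h3 σ hσ
    simp [Rep.shift, e1, e2, e3, e4]
  decomp_c := S.decomp_c
  inertia_d σ hσ := by
    simp [Rep.shift, S.inertia_d σ hσ, S.decomp_c σ (Places.inertia_le_decomposition _ hσ)]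
  φl := S.φl
  φl_mem := S.φl_mem
  φl_sq := by simpa [Rep.shift, S.decomp_c _ S.φl_mem] using S.φl_sq
  unipotent σ hσ := by
    obtain ⟨e1, e2, e3, e4⟩ := S.unipotent σ hσ
    refine ⟨?_, ?_, ?_, ?_⟩ <;> simp only [Rep.shift]
    · linear_combination e1 - X * e3
    · linear_combination e2 + X * (e1 - e4) - X ^ 2 * e3
    · linear_combination e3
    · linear_combination e4 + X * e3
  φp := S.φp
  φp_mem := S.φp_mem
  φp_sq := by rw [Rep.det_shift]; exact S.φp_sq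

/-- The scaled setup. -/
def Setup.scale (S : Setup l p R) (hϖ : ϖ ≠ 0) (n : ℕ) (b' : GG → O)
    (hb : ∀ σ, R.b σ = ϖ ^ n * b' σ) : Setup l p (R.scale hϖ n b' hb) where
  Al := S.Al
  Ap := S.Ap
  liesl := S.liesl
  liesp := S.liesp
  cyclo := by rw [Rep.det_scale]; exact S.cyclo
  place := S.place
  liesq := S.liesq
  unram q h1 h2 h3 σ hσ := by
    obtain ⟨e1, e2, e3, e4⟩ := S.unram q h1 h2 h3 σ hσ
    rw [hb, mul_eq_zero] at e2
    exact ⟨e1, e2.resolve_left (pow_ne_zero n hϖ), by simp [Rep.scale, e3], e4⟩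
  decomp_c σ hσ := by simp [Rep.scale, S.decomp_c σ hσ]
  inertia_d := S.inertia_d
  φl := S.φl
  φl_mem := S.φl_mem
  φl_sq := S.φl_sq
  unipotent σ hσ := by
    obtain ⟨e1, e2, e3, e4⟩ := S.unipotent σ hσ
    rw [hb] at e1 e2 e4
    refine ⟨?_, ?_, ?_, ?_⟩ <;> simp only [Rep.scale]
    · linear_combination e1
    · exact mul_left_cancel₀ (pow_ne_zero n hϖ) (by linear_combination e2)
    · linear_combination ϖ ^ n * e3
    · linear_combination e4
  φp := S.φp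
  φp_mem := S.φp_mem
  φp_sq := by rw [Rep.det_scale]; exact S.φp_sq

/-- A cocycle is torsion: a multiple is a coboundary. -/
def IsTorsion (R : Rep O ϖ) (κ : Cocycle R) : Prop :=
  ∃ (N : ℕ) (A1 A2 : O), ∀ σ, ϖ ^ N * κ.u σ = (R.a σ - 1) * A1 + R.b σ * A2 ∧
    ϖ ^ N * κ.v σ = R.c σ * A1 + (R.d σ - 1) * A2

/-- The aim of the descent. -/
def Goal (S : Setup l p R) : Prop := ∀ κ : Cocycle R, Valid l p S κ → IsTorsion R κ

theorem goal_of_shift (S : Setup l p R) (X : O) (h : Goal (S.shift X)) : Goal S := by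
  intro κ hκ
  let κ' : Cocycle (R.shift X) :=
    { u := fun σ ↦ κ.u σ - X * κ.v σ
      v := κ.v
      u_mul := fun σ τ ↦ by simp only [Rep.shift]; rw [κ.u_mul, κ.v_mul]; ring
      v_mul := fun σ τ ↦ by simp only [Rep.shift]; rw [κ.v_mul]; ring
      cont := fun n ↦ by
        obtain ⟨V, hV, h⟩ := κ.cont n
        exact ⟨V, hV, fun σ hσ ↦ ⟨(h σ hσ).1.sub ((h σ hσ).2.mul_left _), (h σ hσ).2⟩⟩ }
  obtain ⟨N, A1, A2, hA⟩ := h κ'
    { unram := fun q h1 h2 h3 σ hσ ↦ by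
        obtain ⟨e1, e2⟩ := hκ.unram q h1 h2 h3 σ hσ
        exact ⟨by simp [κ', e1, e2], e2⟩
      inertia_l := hκ.inertia_l }
  refine ⟨N, A1 + X * A2, A2, fun σ ↦ ?_⟩
  obtain ⟨e1, e2⟩ := hA σ
  simp only [κ', Rep.shift] at e1 e2
  exact ⟨by linear_combination e1 + X * e2, by linear_combination e2⟩

theorem goal_of_scale (S : Setup l p R) (hϖ : ϖ ≠ 0) (n : ℕ) (b' : GG → O)
    (hb : ∀ σ, R.b σ = ϖ ^ n * b' σ) (h : Goal (S.scale hϖ n b' hb)) : Goal S := by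
  intro κ hκ
  let κ' : Cocycle (R.scale hϖ n b' hb) :=
    { u := κ.u
      v := fun σ ↦ ϖ ^ n * κ.v σ
      u_mul := fun σ τ ↦ by simp only [Rep.scale]; rw [κ.u_mul, hb]; ring
      v_mul := fun σ τ ↦ by simp only [Rep.scale]; rw [κ.v_mul]; ring
      cont := fun m ↦ by
        obtain ⟨V, hV, h⟩ := κ.cont m
        exact ⟨V, hV, fun σ hσ ↦ ⟨(h σ hσ).1, (h σ hσ).2.mul_left _⟩⟩ }
  obtain ⟨N, A1, A2, hA⟩ := h κ'
    { unram := fun q h1 h2 h3 σ hσ ↦ by
        obtain ⟨e1, e2⟩ := hκ.unram q h1 h2 h3 σ hσ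
        exact ⟨e1, by simp [κ', e2]⟩
      inertia_l := fun σ hσ ↦ by simp [κ', hκ.inertia_l σ hσ] }
  refine ⟨N + n, ϖ ^ n * A1, A2, fun σ ↦ ?_⟩
  obtain ⟨e1, e2⟩ := hA σ
  simp only [κ', Rep.scale] at e1 e2
  exact ⟨by linear_combination ϖ ^ n * e1 - A2 * hb σ, by linear_combination e2⟩

/-- A normal subgroup containing the chosen inertia groups is everything. -/
theorem Setup.eq_top (S : Setup l p R) (hl : l.Prime) (hp : p.Prime) (H : Subgroup GG) [H.Normal]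
    (hH : IsOpen (H : Set GG))
    (hq : ∀ q : ℕ, q.Prime → q ≠ p → q ≠ l → (S.place q).inertiaSubgroupIn ℚ ≤ H)
    (hIp : S.Ap.inertiaSubgroupIn ℚ ≤ H) (hIl : S.Al.inertiaSubgroupIn ℚ ≤ H) : H = ⊤ := by
  refine Places.eq_top_of_forall_inertia_le H hH fun ℓ hℓ V hV ↦ ?_
  have key : ∀ W : ValuationSubring QQb, W.LiesOverPrime ℓ → W.inertiaSubgroupIn ℚ ≤ H →
      V.inertiaSubgroupIn ℚ ≤ H := fun W hW hle σ hσ ↦ by
    obtain ⟨g, hg⟩ := Places.exists_smul_eq hℓ hV hW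
    have h := hle (hg ▸ Places.conj_mem_inertia V hσ g)
    have h' := Subgroup.Normal.conj_mem ‹H.Normal› _ h g⁻¹
    simpa [mul_assoc] using h'
  by_cases h1 : ℓ = p
  · exact key S.Ap (h1 ▸ S.liesp) hIp
  · by_cases h2 : ℓ = l
    · exact key S.Al (h2 ▸ S.liesl) hIl
    · exact key _ (S.liesq ℓ hℓ) (hq ℓ hℓ h1 h2)

/-- There is no stable complement of the line fixed at `l`. -/
theorem Setup.not_forall_b_eq_zero [IsDiscreteValuationRing O] (hϖ : Irreducible ϖ)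
    (S : Setup l p R) (hl : l.Prime) (hp : p.Prime) : ¬ ∀ σ, R.b σ = 0 := by
  intro hb
  have hmul : ∀ σ τ, R.d (σ * τ) = R.d σ * R.d τ := fun σ τ ↦ by rw [R.d_mul, hb τ]; ring
  let dh : GG →* O := { toFun := R.d, map_one' := R.d_one, map_mul' := hmul }
  have hd : ∀ n : ℕ, ∀ σ, ϖ ^ n ∣ R.d σ - 1 := by
    intro n
    let q := Ideal.Quotient.mk (Ideal.span {ϖ ^ n})
    let f : GG →* O ⧸ Ideal.span {ϖ ^ n} := q.toMonoidHom.comp dh
    have hmem : ∀ σ, σ ∈ f.ker ↔ ϖ ^ n ∣ R.d σ - 1 := fun σ ↦ by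
      rw [MonoidHom.mem_ker, ← Ideal.mem_span_singleton, ← Ideal.Quotient.eq]
      exact Iff.rfl
    have hopen : IsOpen (f.ker : Set GG) := by
      obtain ⟨V, hV, h⟩ := R.cont n
      exact Subgroup.isOpen_mono (fun σ hσ ↦ (hmem σ).mpr (h σ hσ).2.2.2) hV
    have htop := S.eq_top hl hp f.ker hopen
      (fun q h1 h2 h3 σ hσ ↦ (hmem σ).mpr (by
        rw [(S.unram q h1 h2 h3 σ hσ).2.2.2, sub_self]; exact dvd_zero _))
      (fun σ hσ ↦ (hmem σ).mpr (by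
        have h := (S.unipotent σ hσ).2.2.2
        rw [hb, zero_mul, add_zero, mul_self_eq_zero] at h
        rw [h]; exact dvd_zero _))
      (fun σ hσ ↦ (hmem σ).mpr (by rw [S.inertia_d σ hσ, sub_self]; exact dvd_zero _))
    exact fun σ ↦ (hmem σ).mp (htop ▸ Subgroup.mem_top σ)
  have h1 : R.d S.φl - 1 = 0 := eq_zero_of_forall_dvd hϖ fun n ↦ hd n _
  exact S.φl_sq (by rw [sub_eq_zero.mp h1, one_pow])

variable [Fact l.Prime] [IsDiscreteValuationRing O] [Algebra ℤ_[l] O] [Module.Finite ℤ_[l] O]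
  [Module.Free ℤ_[l] O]

theorem exists_line (hϖ : Irreducible ϖ) (R : Rep O ϖ)
    (htr : ∀ σ, ϖ ∣ R.a σ + R.d σ - 1 - R.det σ) :
    (∀ σ, ϖ ∣ R.c σ) ∨ ∃ X, ∀ σ, ϖ ∣ R.b σ + (R.a σ - R.d σ) * X - R.c σ * X ^ 2 := by
  let red := IsLocalRing.residue O
  have hz : ∀ x, red x = 0 ↔ ϖ ∣ x := fun x ↦ by
    rw [IsLocalRing.residue_eq_zero_iff, hϖ.maximalIdeal_eq, Ideal.mem_span_singleton]
  obtain ⟨v1, v2, hv, h⟩ := exists_common_line (fun σ ↦ red (R.a σ - 1)) (fun σ ↦ red (R.b σ))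
    (fun σ ↦ red (R.c σ)) (fun σ ↦ red (R.d σ - 1))
    (fun σ τ ↦ by simp only [← map_add, ← map_mul]; congr 1; rw [R.a_mul]; ring)
    (fun σ τ ↦ by simp only [← map_add, ← map_mul]; congr 1; rw [R.b_mul]; ring)
    (fun σ τ ↦ by simp only [← map_add, ← map_mul]; congr 1; rw [R.c_mul]; ring)
    (fun σ τ ↦ by simp only [← map_add, ← map_mul]; congr 1; rw [R.d_mul]; ring)
    (fun σ ↦ by
      rw [← map_mul, ← map_mul, ← map_sub, hz, show (R.a σ - 1) * (R.d σ - 1) - R.b σ * R.c σ =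
        -(R.a σ + R.d σ - 1 - R.det σ) by rw [Rep.det]; ring, dvd_neg]
      exact htr σ)
  by_cases h2 : v2 = 0
  · refine Or.inl fun σ ↦ (hz _).mp ?_
    have h' := h σ
    rw [h2, mul_zero, add_zero, zero_mul, sub_zero] at h'
    simp only [mul_eq_zero] at h'
    tauto
  · obtain ⟨X, hX⟩ := IsLocalRing.residue_surjective (R := O) (v1 / v2)
    have hX' : red X = v1 / v2 := hX
    refine Or.inr ⟨X, fun σ ↦ (hz _).mp ?_⟩
    have h' := h σ
    simp only [map_sub, map_add, map_mul, map_pow, hX', map_one] at h' ⊢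
    field_simp
    linear_combination -h'

/-- It suffices to treat lattices with nonsplit residual representation fixing `e₁`. -/
theorem goal_of_residual (hϖ : Irreducible ϖ) (hp : p.Prime)
    (H : ∀ (R' : Rep O ϖ) (S' : Setup l p R'), (∀ σ, ϖ ∣ R'.a σ + R'.d σ - 1 - R'.det σ) →
      (∀ σ, ϖ ∣ R'.c σ) → (¬ ∃ x, ∀ σ, ϖ ∣ R'.b σ + (R'.a σ - R'.d σ) * x) → Goal S')
    (S : Setup l p R) (htr : ∀ σ, ϖ ∣ R.a σ + R.d σ - 1 - R.det σ) : Goal S := by
  classical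
  have h0 := hϖ.ne_zero
  have htr1 : ∀ (R : Rep O ϖ) (X : O), (∀ σ, ϖ ∣ R.a σ + R.d σ - 1 - R.det σ) →
      ∀ σ, ϖ ∣ (R.shift X).a σ + (R.shift X).d σ - 1 - (R.shift X).det σ := fun R X h σ ↦ by
    rw [Rep.det_shift]
    convert h σ using 1
    simp only [Rep.shift]; ring
  have htr2 : ∀ (R : Rep O ϖ) (n : ℕ) (b' : GG → O) (hb : ∀ σ, R.b σ = ϖ ^ n * b' σ),
      (∀ σ, ϖ ∣ R.a σ + R.d σ - 1 - R.det σ) → ∀ σ, ϖ ∣ (R.scale h0 n b' hb).a σ +
        (R.scale h0 n b' hb).d σ - 1 - (R.scale h0 n b' hb).det σ := fun R n b' hb h σ ↦ by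
    rw [Rep.det_scale]; exact h σ
  -- the case where the line is already stable
  have main : ∀ (R : Rep O ϖ) (S : Setup l p R), (∀ σ, ϖ ∣ R.a σ + R.d σ - 1 - R.det σ) →
      (∀ σ, ϖ ∣ R.c σ) → Goal S := by
    intro R S htr hc
    let good : ℕ → O → Prop := fun n X ↦ ∀ σ, ϖ ^ n ∣ (R.shift X).b σ
    by_cases hstop : ∃ n X, good n X ∧ ∀ x, ¬ good (n + 1) (X + ϖ ^ n * x)
    · obtain ⟨n, X, hX, hx⟩ := hstop
      choose b' hb' using hX
      refine goal_of_shift S X (goal_of_scale _ h0 n b' hb' (H _ _ (htr2 _ n b' hb' (htr1 R X htr))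
        (fun σ ↦ (hc σ).mul_left _) ?_))
      rintro ⟨x, h⟩
      refine hx x fun σ ↦ ?_
      have e := hb' σ
      simp only [Rep.shift] at e ⊢
      rw [show R.b σ + (R.a σ - R.d σ) * (X + ϖ ^ n * x) - R.c σ * (X + ϖ ^ n * x) ^ 2 =
        ϖ ^ n * (b' σ + (R.a σ - X * R.c σ - (R.d σ + R.c σ * X)) * x) -
          ϖ ^ n * (R.c σ * (ϖ ^ n * x ^ 2)) by linear_combination e, pow_succ]
      exact (mul_dvd_mul_left _ (h σ)).sub (mul_dvd_mul_left _ ((hc σ).mul_right _))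
    · push Not at hstop
      have h00 : good 0 0 := fun σ ↦ by rw [pow_zero]; exact one_dvd _
      choose nx hnx using hstop
      let step : ∀ n : ℕ, {X : O // good n X} := fun n ↦ Nat.rec ⟨0, h00⟩
        (fun n X ↦ ⟨X.1 + ϖ ^ n * nx n X.1 X.2, hnx n X.1 X.2⟩) n
      obtain ⟨X, hX⟩ := exists_limit (l := l) hϖ (fun n ↦ (step n).1) fun n ↦ by
        show ϖ ^ n ∣ (step n).1 + ϖ ^ n * _ - (step n).1
        rw [add_sub_cancel_left]; exact dvd_mul_right _ _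
      refine absurd (fun σ ↦ eq_zero_of_forall_dvd hϖ fun n ↦ ?_)
        ((S.shift X).not_forall_b_eq_zero hϖ Fact.out hp)
      have e := (step n).2 σ
      simp only [Rep.shift] at e ⊢
      obtain ⟨t, ht⟩ := hX n
      rw [show X = (step n).1 + ϖ ^ n * t by linear_combination ht]
      rw [show ∀ Y : O, R.b σ + (R.a σ - R.d σ) * (Y + ϖ ^ n * t) -
        R.c σ * (Y + ϖ ^ n * t) ^ 2 = (R.b σ + (R.a σ - R.d σ) * Y - R.c σ * Y ^ 2) +
          ϖ ^ n * (t * (R.a σ - R.d σ) - R.c σ * (2 * Y * t + ϖ ^ n * t ^ 2)) from fun Y ↦ by ring]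
      exact e.add (dvd_mul_right _ _)
  rcases exists_line hϖ R htr with hc | ⟨X, hX⟩
  · exact main R S htr hc
  · choose b' hb' using hX
    have hb'' : ∀ σ, (R.shift X).b σ = ϖ ^ 1 * b' σ := fun σ ↦ by rw [pow_one]; exact hb' σ
    refine goal_of_shift S X (goal_of_scale _ h0 1 b' hb'' (main _ _
      (htr2 _ 1 b' hb'' (htr1 R X htr)) fun σ ↦ ?_))
    show ϖ ∣ ϖ ^ 1 * R.c σ
    rw [pow_one]; exact dvd_mul_right _ _

end FLTAgent.Mazur
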