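import Fermat.Agent.Mazur.RankTwo

/-!
# Descent with coefficients in a module

The descent theorem for cocycles with values in the square of a module over the algebra.
-/

set_option autoImplicit false
set_option linter.overlappingInstances false
set_option linter.unusedSectionVars false
set_option linter.style.haveILetI false

noncomputable section

namespace FLTAgent.Mazur

open Matrix

local notation "QQb" => AlgebraicClosure ℚ
local notation "GG" => (AlgebraicClosure ℚ ≃ₐ[ℚ] AlgebraicClosure ℚ)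

variable {B E : Type} [CommRing B] [AddCommGroup E] [Module B E]

/-- A matrix over the algebra acting on pairs in a module. -/
def pairAct (X : Matrix (Fin 2) (Fin 2) B) : (Fin 2 → E) →ₗ[B] (Fin 2 → E) :=
  LinearMap.pi fun i ↦ X i 0 • LinearMap.proj 0 + X i 1 • LinearMap.proj 1

theorem pairAct_apply (X : Matrix (Fin 2) (Fin 2) B) (v : Fin 2 → E) (i : Fin 2) :
    pairAct X v i = X i 0 • v 0 + X i 1 • v 1 := rfl

theorem pairAct_one (v : Fin 2 → E) : pairAct (1 : Matrix (Fin 2) (Fin 2) B) v = v := by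
  funext i; fin_cases i <;> simp [pairAct_apply]

theorem pairAct_mul (X Y : Matrix (Fin 2) (Fin 2) B) (v : Fin 2 → E) :
    pairAct (X * Y) v = pairAct X (pairAct Y v) := by
  funext i
  simp only [pairAct_apply, Matrix.mul_apply, Fin.sum_univ_two, add_smul, mul_smul, smul_add]
  abel

theorem pairAct_add (X Y : Matrix (Fin 2) (Fin 2) B) (v : Fin 2 → E) :
    pairAct (X + Y) v = pairAct X v + pairAct Y v := by
  funext i
  simp only [pairAct_apply, Matrix.add_apply, Pi.add_apply, add_smul]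
  abel

theorem pairAct_sub (X Y : Matrix (Fin 2) (Fin 2) B) (v : Fin 2 → E) :
    pairAct (X - Y) v = pairAct X v - pairAct Y v := by
  rw [eq_sub_iff_add_eq, ← pairAct_add, sub_add_cancel]

theorem pairAct_zero (v : Fin 2 → E) : pairAct (0 : Matrix (Fin 2) (Fin 2) B) v = 0 := by
  funext i; simp [pairAct_apply]

theorem pairAct_smul (b : B) (X : Matrix (Fin 2) (Fin 2) B) (v : Fin 2 → E) :
    pairAct (b • X) v = b • pairAct X v := by
  funext i
  simp [pairAct_apply, smul_add, mul_smul]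

variable {l p : ℕ} [Fact l.Prime] [Algebra ℚ_[l] B] [Algebra ℤ_[l] B]
  [IsScalarTower ℤ_[l] ℚ_[l] B] [Module.Finite ℚ_[l] B]

namespace RankTwo

variable (D : RankTwo l p B) (hp : p.Prime) (hpl : p ≠ l)

include hp hpl in
/-- The projector kills the reduction kernel on pairs, if no element has both slots in it. -/
theorem pairAct_proj_eq_zero {σ₀ : GG} (h₀ : σ₀ ∈ D.Al.inertiaSubgroupIn ℚ) (h₁ : D.χ σ₀ ≠ 1)
    (ZE : Submodule B (Fin 2 → E)) (hin : ∀ v, pairAct (D.M σ₀) v - v ∈ ZE)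
    (hann : ∀ η : E, Pi.single 0 η ∈ ZE → Pi.single 1 η ∈ ZE → η = 0) {v : Fin 2 → E}
    (hv : v ∈ ZE) : pairAct (D.proj σ₀) v = 0 := by
  set P := D.proj σ₀
  have hsub : ∀ z : Fin 2 → E, z - pairAct P z ∈ ZE := fun z ↦ by
    have e : z - pairAct P z = pairAct (1 - P) z := by rw [pairAct_sub, pairAct_one]
    rw [e, D.one_sub_proj h₁, pairAct_smul, pairAct_sub, pairAct_one,
      show z - pairAct (D.M σ₀) z = -(pairAct (D.M σ₀) z - z) from (neg_sub _ _).symm]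
    exact ZE.smul_mem _ (neg_mem (hin z))
  have hw : pairAct P v ∈ ZE := by
    have := sub_mem hv (hsub v); rwa [sub_sub_cancel] at this
  have hd := D.det_proj h₀ h₁ hp hpl
  rw [Matrix.det_fin_two, sub_eq_zero] at hd
  funext i
  have key : ∀ j, Pi.single j (pairAct P v i) ∈ ZE := fun j ↦ by
    have e : pairAct P (Pi.single j (pairAct P v i)) = P i j • pairAct P v := by
      funext k
      fin_cases i <;> fin_cases j <;> fin_cases k <;>
        simp [pairAct_apply, smul_add, smul_smul, P, mul_comm] <;>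
        (try rw [show D.proj σ₀ 0 1 * D.proj σ₀ 1 0 = D.proj σ₀ 0 0 * D.proj σ₀ 1 1 from hd.symm]) <;>
        (try abel)
    have := add_mem (ZE.smul_mem (P i j) hw) (hsub (Pi.single j (pairAct P v i)))
    rwa [← e, add_sub_cancel] at this
  exact hann _ (key 0) (key 1)

variable [Module ℚ_[l] E] [IsScalarTower ℚ_[l] B E] [Module ℤ_[l] E]
  [IsScalarTower ℤ_[l] ℚ_[l] E] [IsScalarTower ℤ_[l] B E] [Module.Finite B E]

include hp hpl in
/-- Descent for cocycles valued in pairs in a module. -/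
theorem exists_coboundary_module (κ : GG → Fin 2 → E)
    (hκ : ∀ σ τ, κ (σ * τ) = κ σ + pairAct (D.M σ) (κ τ)) (hb : Bdd l κ) (hc : Tends0 l κ)
    (hu : ∀ q : ℕ, q.Prime → q ≠ p → q ≠ l → ∀ σ ∈ (D.place q).inertiaSubgroupIn ℚ, κ σ = 0)
    (hI : ∀ σ₀ ∈ D.Al.inertiaSubgroupIn ℚ, D.χ σ₀ ≠ 1 → ∀ σ ∈ D.Al.inertiaSubgroupIn ℚ,
      pairAct (D.proj σ₀) (κ σ) = 0) :
    ∃ A : Fin 2 → E, ∀ σ, κ σ = pairAct (D.M σ) A - A := by
  classical
  haveI : IsNoetherianRing B := isNoetherian_of_tower ℚ_[l] inferInstance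
  haveI : IsArtinianRing B := isArtinian_of_tower ℚ_[l] inferInstance
  haveI : Module.Finite ℚ_[l] E := Module.Finite.trans B E
  haveI : IsNoetherian B E := isNoetherian_of_tower ℚ_[l] inferInstance
  haveI : IsArtinian B E := isArtinian_of_tower ℚ_[l] inferInstance
  suffices H : ∀ I : Submodule B E, ∀ κ : GG → Fin 2 → E, (∀ σ i, κ σ i ∈ I) →
      (∀ σ τ, κ (σ * τ) = κ σ + pairAct (D.M σ) (κ τ)) → Bdd l κ → Tends0 l κ →
      (∀ q : ℕ, q.Prime → q ≠ p → q ≠ l → ∀ σ ∈ (D.place q).inertiaSubgroupIn ℚ, κ σ = 0) →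
      (∀ σ₀ ∈ D.Al.inertiaSubgroupIn ℚ, D.χ σ₀ ≠ 1 → ∀ σ ∈ D.Al.inertiaSubgroupIn ℚ,
        pairAct (D.proj σ₀) (κ σ) = 0) → ∃ A, ∀ σ, κ σ = pairAct (D.M σ) A - A from
    H ⊤ κ (fun _ _ ↦ Submodule.mem_top) hκ hb hc hu hI
  intro I
  induction I using WellFoundedLT.induction with
  | _ I IH =>
  intro κ hmem hκ hb hc hu hI
  rcases eq_or_ne I ⊥ with rfl | hne
  · exact ⟨0, fun σ ↦ by
      rw [map_zero, sub_zero]; funext i; exact (Submodule.mem_bot B).mp (hmem σ i)⟩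
  obtain ⟨J, hJI, hJmax⟩ :=
    (wellFounded_gt (α := Submodule B E)).has_min {J | J < I} ⟨⊥, bot_lt_iff_ne_bot.mpr hne⟩
  replace hJI : J < I := hJI
  replace hJmax : ∀ K : Submodule B E, K < I → ¬ J < K := hJmax
  obtain ⟨i₀, hi₀, hi₀J⟩ := SetLike.exists_of_lt hJI
  let φ : B →ₗ[B] E ⧸ J := (Submodule.mkQ J).comp (LinearMap.toSpanSingleton B E i₀)
  let m : Ideal B := LinearMap.ker φ
  have hm_iff : ∀ b, b ∈ m ↔ b • i₀ ∈ J := fun b ↦ by
    simp only [m, φ, LinearMap.mem_ker, LinearMap.comp_apply, LinearMap.toSpanSingleton_apply]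
    exact Submodule.Quotient.mk_eq_zero J
  have hgen : ∀ {c}, c ∈ I → c ∉ J → J ⊔ Submodule.span B {c} = I := fun {c} hcI hcJ ↦ by
    have hle : J ⊔ Submodule.span B {c} ≤ I :=
      sup_le hJI.le ((Submodule.span_singleton_le_iff_mem c I).mpr hcI)
    by_contra hh
    refine hJmax _ (lt_of_le_of_ne hle hh) (lt_of_le_of_ne le_sup_left fun e ↦ hcJ ?_)
    rw [e]
    exact Submodule.mem_sup_right (Submodule.mem_span_singleton_self c)
  haveI hmax : m.IsMaximal := by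
    refine Ideal.isMaximal_iff.mpr ⟨fun h ↦ hi₀J (by simpa using (hm_iff 1).mp h), ?_⟩
    intro J' x hle hx hxJ'
    have h : i₀ ∈ J ⊔ Submodule.span B {x • i₀} := by
      rw [hgen (I.smul_mem _ hi₀) (fun h ↦ hx ((hm_iff x).mpr h))]
      exact hi₀
    obtain ⟨j, hj, y, hy, e⟩ := Submodule.mem_sup.mp h
    obtain ⟨c, rfl⟩ := Submodule.mem_span_singleton.mp hy
    have h1 : 1 - c * x ∈ m := (hm_iff _).mpr (by
      rw [sub_smul, one_smul, mul_smul]
      nth_rw 1 [← e]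
      rwa [add_sub_cancel_right])
    have := J'.add_mem (hle h1) (J'.mul_mem_left c hxJ')
    rwa [sub_add_cancel] at this
  let ν : (B ⧸ m) →ₗ[B] E ⧸ J := Submodule.liftQ m φ le_rfl
  have hν : LinearMap.ker (ν.restrictScalars ℚ_[l]) = ⊥ := LinearMap.ker_eq_bot.mpr
    (LinearMap.ker_eq_bot.mp (Submodule.ker_liftQ_eq_bot _ _ le_rfl le_rfl) :
      Function.Injective ν)
  obtain ⟨ρ, hρ⟩ := LinearMap.exists_leftInverse_of_injective _ hν
  let θ : E →ₗ[ℚ_[l]] B ⧸ m := ρ.comp ((Submodule.mkQ J).restrictScalars ℚ_[l])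
  have hθ : ∀ b j, j ∈ J → θ (b • i₀ + j) = Ideal.Quotient.mk m b := fun b j hj ↦ by
    have e : Submodule.mkQ J (b • i₀ + j) = ν (Ideal.Quotient.mk m b) := by
      rw [map_add, show Submodule.mkQ J j = 0 from (Submodule.Quotient.mk_eq_zero J).mpr hj,
        add_zero]
      rfl
    show ρ (Submodule.mkQ J (b • i₀ + j)) = _
    rw [e]
    exact LinearMap.congr_fun hρ _
  have hdec : ∀ x ∈ I, ∃ b : B, ∃ j ∈ J, x = b • i₀ + j := fun x hx ↦ by
    rw [← hgen hi₀ hi₀J] at hx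
    obtain ⟨j, hj, y, hy, rfl⟩ := Submodule.mem_sup.mp hx
    obtain ⟨b, rfl⟩ := Submodule.mem_span_singleton.mp hy
    exact ⟨b, j, hj, add_comm _ _⟩
  have hθmul : ∀ (b : B), ∀ x ∈ I, θ (b • x) = Ideal.Quotient.mk m b * θ x := fun b x hx ↦ by
    obtain ⟨c, j, hj, rfl⟩ := hdec x hx
    rw [hθ c j hj, smul_add, smul_smul, hθ _ _ (J.smul_mem b hj), map_mul]
  have hθvec : ∀ (X : Matrix (Fin 2) (Fin 2) B) (v : Fin 2 → E), (∀ i, v i ∈ I) →
      (fun i ↦ θ (pairAct X v i)) = X.map (Ideal.Quotient.mk m) *ᵥ fun i ↦ θ (v i) :=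
    fun X v hv ↦ funext fun i ↦ by
      simp [pairAct_apply, Matrix.mulVec, dotProduct, Fin.sum_univ_two, hθmul _ _ (hv _)]
  have hθJ : ∀ x ∈ I, θ x = 0 → x ∈ J := fun x hx h ↦ by
    obtain ⟨b, j, hj, rfl⟩ := hdec x hx
    rw [hθ b j hj, Ideal.Quotient.eq_zero_iff_mem] at h
    exact J.add_mem ((hm_iff b).mp h) hj
  let Θ : (Fin 2 → E) →ₗ[ℤ_[l]] (Fin 2 → B ⧸ m) :=
    LinearMap.pi fun i ↦ (θ.restrictScalars ℤ_[l]).comp (LinearMap.proj i)
  have hΘ : ∀ v : Fin 2 → E, Θ v = fun i ↦ θ (v i) := fun v ↦ rfl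
  obtain ⟨A, hA⟩ := D.exists_coboundary_residue hp hpl m (fun σ ↦ Θ (κ σ))
    (fun σ τ ↦ by
      rw [hκ, map_add, hΘ (pairAct (D.M σ) (κ τ)), hθvec _ _ (hmem τ)]
      rfl)
    (hb.map Θ) (hc.map Θ)
    (fun q h1 h2 h3 σ hσ ↦ by rw [hu q h1 h2 h3 σ hσ, map_zero])
    (fun σ₀ h₀ h₁ σ hσ ↦ by
      rw [hΘ, ← hθvec _ _ (hmem σ), hI σ₀ h₀ h₁ σ hσ]
      funext i
      exact map_zero θ)
  choose a ha using fun i ↦ Ideal.Quotient.mk_surjective (A i)
  let v : Fin 2 → E := fun i ↦ a i • i₀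
  have hvI : ∀ i, v i ∈ I := fun i ↦ I.smul_mem _ hi₀
  have hθv : (fun i ↦ θ (v i)) = A := funext fun i ↦ by
    rw [← ha i, ← hθ (a i) 0 J.zero_mem, add_zero]
  have hdI : ∀ σ i, (pairAct (D.M σ) v - v) i ∈ I := fun σ i ↦
    I.sub_mem (I.add_mem (I.smul_mem _ (hvI 0)) (I.smul_mem _ (hvI 1))) (hvI i)
  let L : Matrix (Fin 2) (Fin 2) B →ₗ[ℤ_[l]] (Fin 2 → E) :=
    { toFun := fun X ↦ -(pairAct X v)
      map_add' := fun X Y ↦ by rw [pairAct_add, neg_add]
      map_smul' := fun r X ↦ by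
        funext i
        simp only [RingHom.id_apply, pairAct_apply, Matrix.smul_apply, Pi.neg_apply, Pi.smul_apply,
          smul_assoc, smul_add, neg_add, smul_neg] }
  have hκ' : ∀ σ, κ σ + L (D.M σ - 1) = κ σ - (pairAct (D.M σ) v - v) := fun σ ↦ by
    show κ σ + -(pairAct (D.M σ - 1) v) = _
    rw [pairAct_sub, pairAct_one, ← sub_eq_add_neg]
  obtain ⟨A', hA'⟩ := IH J hJI (fun σ ↦ κ σ + L (D.M σ - 1))
    (fun σ i ↦ by
      rw [hκ']
      refine hθJ _ (I.sub_mem (hmem σ i) (hdI σ i)) ?_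
      have h1 := congrFun (hA σ) i
      have h2 := congrFun (hθvec (D.M σ) v hvI) i
      rw [Pi.sub_apply, Pi.sub_apply, map_sub, map_sub, h2, hθv, congrFun hθv i]
      rw [show θ (κ σ i) = Θ (κ σ) i from rfl, h1, Pi.sub_apply]
      exact sub_self _)
    (fun σ τ ↦ by
      rw [hκ', hκ', hκ', hκ, D.M_mul, map_sub, map_sub, ← pairAct_mul]
      abel)
    (hb.add ((D.bdd.add (bdd_const (-1))).map L) |>.congr fun σ ↦ by rw [← sub_eq_add_neg])
    (hc.add (D.cont.map L))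
    (fun q h1 h2 h3 σ hσ ↦ by
      rw [hu q h1 h2 h3 σ hσ, D.unram q h1 h2 h3 σ hσ, sub_self, map_zero, add_zero])
    (fun σ₀ h₀ h₁ σ hσ ↦ by
      have h := congrArg (fun X ↦ pairAct X v) (D.proj_mul_inertia h₀ h₁ hp hpl hσ)
      rw [pairAct_mul, pairAct_sub, pairAct_one, pairAct_zero] at h
      rw [hκ', map_sub, hI σ₀ h₀ h₁ σ hσ, h, sub_zero])
  refine ⟨A' + v, fun σ ↦ ?_⟩
  have h := hA' σ
  rw [hκ', sub_eq_iff_eq_add] at h
  rw [h, map_add]
  abel

end RankTwo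

end FLTAgent.Mazur
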