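import Fermat.Agent.Mazur.Descent
import Fermat.Agent.Mazur.Idem
import Mathlib.RingTheory.Finiteness.Basic
import Mathlib.NumberTheory.Padics.RingHoms
import Mathlib.RingTheory.Localization.Integral
import Mathlib.FieldTheory.Perfect

/-!
# Descent over a finite extension of `ℚ_l`

The descent theorem for a representation given by entries in a field, in a basis adapted to `l`.
-/

set_option autoImplicit false
set_option linter.overlappingInstances false
set_option linter.unusedSectionVars false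

noncomputable section

namespace FLTAgent.Mazur

local notation "QQb" => AlgebraicClosure ℚ
local notation "GG" => (AlgebraicClosure ℚ ≃ₐ[ℚ] AlgebraicClosure ℚ)

section Bounded

variable (l : ℕ) [Fact l.Prime] {X : Type*} [AddCommGroup X] [Module ℤ_[l] X]

/-- All values lie in a finitely generated submodule. -/
def Bdd (f : GG → X) : Prop := ∃ L : Submodule ℤ_[l] X, L.FG ∧ ∀ σ, f σ ∈ L

/-- The values tend to zero near the identity. -/
def Tends0 (f : GG → X) : Prop := ∃ L : Submodule ℤ_[l] X, L.FG ∧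
  ∀ n : ℕ, ∃ V : Subgroup GG, IsOpen (V : Set GG) ∧
    ∀ σ ∈ V, ∃ y ∈ L, f σ = ((l : ℤ_[l]) ^ n) • y

variable {l} {Y : Type*} [AddCommGroup Y] [Module ℤ_[l] Y]

theorem Bdd.map {f : GG → X} (h : Bdd l f) (φ : X →ₗ[ℤ_[l]] Y) : Bdd l (fun σ ↦ φ (f σ)) := by
  obtain ⟨L, hL, hf⟩ := h
  exact ⟨L.map φ, hL.map φ, fun σ ↦ Submodule.mem_map_of_mem (hf σ)⟩

theorem Bdd.add {f g : GG → X} (h : Bdd l f) (h' : Bdd l g) : Bdd l (fun σ ↦ f σ + g σ) := by
  obtain ⟨L, hL, hf⟩ := h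
  obtain ⟨L', hL', hg⟩ := h'
  exact ⟨L ⊔ L', hL.sup hL', fun σ ↦ Submodule.add_mem_sup (hf σ) (hg σ)⟩

theorem bdd_const (x : X) : Bdd l (fun _ ↦ x) :=
  ⟨_, Submodule.fg_span_singleton x, fun _ ↦ Submodule.mem_span_singleton_self x⟩

theorem Tends0.map {f : GG → X} (h : Tends0 l f) (φ : X →ₗ[ℤ_[l]] Y) :
    Tends0 l (fun σ ↦ φ (f σ)) := by
  obtain ⟨L, hL, hf⟩ := h
  refine ⟨L.map φ, hL.map φ, fun n ↦ ?_⟩
  obtain ⟨V, hV, h'⟩ := hf n
  refine ⟨V, hV, fun σ hσ ↦ ?_⟩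
  obtain ⟨y, hy, e⟩ := h' σ hσ
  exact ⟨φ y, Submodule.mem_map_of_mem hy, by show φ (f σ) = _; rw [e, map_smul]⟩

theorem Tends0.add {f g : GG → X} (h : Tends0 l f) (h' : Tends0 l g) :
    Tends0 l (fun σ ↦ f σ + g σ) := by
  obtain ⟨L, hL, hf⟩ := h
  obtain ⟨L', hL', hg⟩ := h'
  refine ⟨L ⊔ L', hL.sup hL', fun n ↦ ?_⟩
  obtain ⟨V, hV, h1⟩ := hf n
  obtain ⟨W, hW, h2⟩ := hg n
  refine ⟨V ⊓ W, hV.inter hW, fun σ hσ ↦ ?_⟩
  obtain ⟨y, hy, e⟩ := h1 σ hσ.1
  obtain ⟨z, hz, e'⟩ := h2 σ hσ.2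
  exact ⟨y + z, Submodule.add_mem_sup hy hz, by show f σ + g σ = _; rw [e, e', smul_add]⟩

theorem tends0_zero : Tends0 l (fun _ : GG ↦ (0 : X)) :=
  ⟨⊥, Submodule.fg_bot, fun _ ↦ ⟨⊤, isOpen_univ, fun _ _ ↦ ⟨0, zero_mem _, (smul_zero _).symm⟩⟩⟩

theorem Tends0.congr {f g : GG → X} (h : Tends0 l f) (e : ∀ σ, f σ = g σ) : Tends0 l g :=
  (funext e : f = g) ▸ h

theorem Bdd.congr {f g : GG → X} (h : Bdd l f) (e : ∀ σ, f σ = g σ) : Bdd l g :=
  (funext e : f = g) ▸ h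

end Bounded

section Field

variable {l p : ℕ} [Fact l.Prime] {K : Type} [Field K] [Algebra ℚ_[l] K] [Algebra ℤ_[l] K]
  [IsScalarTower ℤ_[l] ℚ_[l] K] [FiniteDimensional ℚ_[l] K]

local notation "OK" => integralClosure ℤ_[l] K

theorem charZero_of_padic (l : ℕ) [Fact l.Prime] {K : Type} [Field K] [Algebra ℚ_[l] K] :
    CharZero K := charZero_of_injective_algebraMap (algebraMap ℚ_[l] K).injective

instance isTorsionFree_integers : Module.IsTorsionFree ℤ_[l] OK :=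
  haveI : FaithfulSMul ℤ_[l] K := FaithfulSMul.trans ℤ_[l] ℚ_[l] K
  Subtype.coe_injective.moduleIsTorsionFree _ fun _ _ ↦ rfl

instance finite_integers : Module.Finite ℤ_[l] OK :=
  IsIntegralClosure.finite ℤ_[l] ℚ_[l] K OK

instance free_integers : Module.Free ℤ_[l] OK := Module.free_of_finite_type_torsion_free'

instance isDedekindDomain_integers : IsDedekindDomain OK :=
  IsIntegralClosure.isDedekindDomain ℤ_[l] ℚ_[l] K OK

instance isDiscreteValuationRing_integers : IsDiscreteValuationRing OK :=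
  isDiscreteValuationRing_of_finite l

theorem exists_natCast_pow_mul_mem (x : K) :
    ∃ N : ℕ, IsIntegral ℤ_[l] ((l : K) ^ N * x) := by
  obtain ⟨m, hm, hx⟩ := ((IsFractionRing.isAlgebraic_iff ℤ_[l] ℚ_[l] K).mpr
    (Algebra.IsIntegral.isIntegral (R := ℚ_[l]) x).isAlgebraic).exists_integral_multiple
  obtain ⟨N, u, hu⟩ := IsDiscreteValuationRing.eq_unit_mul_pow_irreducible hm PadicInt.irreducible_p
  refine ⟨N, ?_⟩
  have h := hx.smul (↑u⁻¹ : ℤ_[l])
  rw [smul_smul, hu, ← mul_assoc, Units.inv_mul, one_mul, Algebra.smul_def, map_pow,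
    map_natCast] at h
  exact h

theorem exists_natCast_pow_mul_mem_of_fg {L : Submodule ℤ_[l] K} (hL : L.FG) :
    ∃ N : ℕ, ∀ x ∈ L, IsIntegral ℤ_[l] ((l : K) ^ N * x) := by
  classical
  obtain ⟨s, hs⟩ := hL
  choose N hN using fun x : K ↦ exists_natCast_pow_mul_mem (l := l) x
  refine ⟨s.sum N, fun x hx ↦ ?_⟩
  rw [← hs] at hx
  induction hx using Submodule.span_induction with
  | mem y hy =>
    obtain ⟨r, hr⟩ : ∃ r, s.sum N = N y + r :=
      Nat.exists_eq_add_of_le (Finset.single_le_sum (fun _ _ ↦ Nat.zero_le _) hy)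
    rw [hr, pow_add, mul_comm ((l : K) ^ N y), mul_assoc]
    exact ((isIntegral_algebraMap (R := ℤ_[l]) (x := (l : ℤ_[l])) |> fun h ↦ (map_natCast (algebraMap ℤ_[l] K) l ▸ h : IsIntegral ℤ_[l] (l : K))).pow r).mul (hN y)
  | zero => rw [mul_zero]; exact isIntegral_zero
  | add a b _ _ ha hb => rw [mul_add]; exact ha.add hb
  | smul r a _ ha => rw [mul_smul_comm]; exact ha.smul r

/-- **Descent over a field**, in a basis adapted to `l`. -/
theorem exists_coboundary_field (hp : p.Prime) (hpl : p ≠ l) (χ : GG → ℤ_[l])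
    (hχ : ∀ (n : ℕ) (σ : GG) (k : ℕ), (∀ ζ : QQb, ζ ^ l ^ n = 1 → σ ζ = ζ ^ k) →
      (l : ℤ_[l]) ^ n ∣ χ σ - k)
    (Al Ap : ValuationSubring QQb) (place : ℕ → ValuationSubring QQb)
    (hAl : Al.LiesOverPrime l) (hAp : Ap.LiesOverPrime p)
    (hplace : ∀ q : ℕ, q.Prime → (place q).LiesOverPrime q)
    (a b c d u v : GG → K)
    (ha : a 1 = 1 ∧ ∀ σ τ, a (σ * τ) = a σ * a τ + b σ * c τ)
    (hb : b 1 = 0 ∧ ∀ σ τ, b (σ * τ) = a σ * b τ + b σ * d τ)
    (hc : c 1 = 0 ∧ ∀ σ τ, c (σ * τ) = c σ * a τ + d σ * c τ)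
    (hd : d 1 = 1 ∧ ∀ σ τ, d (σ * τ) = c σ * b τ + d σ * d τ)
    (hu : ∀ σ τ, u (σ * τ) = u σ + (a σ * u τ + b σ * v τ))
    (hv : ∀ σ τ, v (σ * τ) = v σ + (c σ * u τ + d σ * v τ))
    (hbdd : Bdd l (fun σ ↦ ![a σ, b σ, c σ, d σ, u σ, v σ]))
    (hcont : Tends0 l (fun σ ↦ ![a σ - 1, b σ, c σ, d σ - 1, u σ, v σ]))
    (hdet : ∀ σ, a σ * d σ - b σ * c σ = algebraMap ℤ_[l] K (χ σ))
    (htr : ∀ σ, ∃ (j : ℕ) (y : K), IsIntegral ℤ_[l] y ∧
      (a σ + d σ - 1 - algebraMap ℤ_[l] K (χ σ)) ^ j = l * y)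
    (htint : ∀ σ, IsIntegral ℤ_[l] (a σ + d σ))
    (hunr : ∀ q : ℕ, q.Prime → q ≠ p → q ≠ l → ∀ σ ∈ (place q).inertiaSubgroupIn ℚ,
      a σ = 1 ∧ b σ = 0 ∧ c σ = 0 ∧ d σ = 1 ∧ u σ = 0 ∧ v σ = 0)
    (hunip : ∀ σ ∈ Ap.inertiaSubgroupIn ℚ, (a σ - 1) * (a σ - 1) + b σ * c σ = 0 ∧
      b σ * (a σ - 1 + (d σ - 1)) = 0 ∧ c σ * (a σ - 1 + (d σ - 1)) = 0 ∧
      (d σ - 1) * (d σ - 1) + b σ * c σ = 0)
    (hDl : ∀ σ ∈ Al.decompositionSubgroup ℚ, c σ = 0)
    (hIl : ∀ σ ∈ Al.inertiaSubgroupIn ℚ, d σ = 1 ∧ v σ = 0)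
    (φl : GG) (hφl : φl ∈ Al.decompositionSubgroup ℚ) (hφl2 : d φl ^ 2 ≠ 1)
    (φp : GG) (hφp : φp ∈ Ap.decompositionSubgroup ℚ) (hφp2 : χ φp ^ 2 ≠ 1) :
    ∃ A1 A2 : K, ∀ σ, u σ = (a σ - 1) * A1 + b σ * A2 ∧ v σ = c σ * A1 + (d σ - 1) * A2 := by
  classical
  haveI := charZero_of_padic l (K := K)
  haveI : FaithfulSMul ℤ_[l] K := FaithfulSMul.trans ℤ_[l] ℚ_[l] K
  have hl0 : (l : K) ≠ 0 := Nat.cast_ne_zero.mpr (Fact.out : l.Prime).ne_zero
  -- the orbit lattice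
  obtain ⟨L, hL, hLmem⟩ := hbdd
  obtain ⟨N, hN⟩ := exists_natCast_pow_mul_mem_of_fg (hL.map
    (LinearMap.pi fun i : Fin 6 ↦ LinearMap.proj i) |> fun h ↦ (Submodule.FG.sup
      (Submodule.FG.sup (hL.map (LinearMap.proj (R := ℤ_[l]) (φ := fun _ : Fin 6 ↦ K) 0))
        (hL.map (LinearMap.proj (R := ℤ_[l]) (φ := fun _ : Fin 6 ↦ K) 1)))
      (Submodule.FG.sup (Submodule.FG.sup
        (hL.map (LinearMap.proj (R := ℤ_[l]) (φ := fun _ : Fin 6 ↦ K) 2))
        (hL.map (LinearMap.proj (R := ℤ_[l]) (φ := fun _ : Fin 6 ↦ K) 3)))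
        (Submodule.FG.sup (hL.map (LinearMap.proj (R := ℤ_[l]) (φ := fun _ : Fin 6 ↦ K) 4))
          (hL.map (LinearMap.proj (R := ℤ_[l]) (φ := fun _ : Fin 6 ↦ K) 5))))))
  have hint : ∀ σ, IsIntegral ℤ_[l] ((l : K) ^ N * a σ) ∧ IsIntegral ℤ_[l] ((l : K) ^ N * b σ) ∧
      IsIntegral ℤ_[l] ((l : K) ^ N * c σ) ∧ IsIntegral ℤ_[l] ((l : K) ^ N * d σ) ∧
      IsIntegral ℤ_[l] ((l : K) ^ N * u σ) ∧ IsIntegral ℤ_[l] ((l : K) ^ N * v σ) := fun σ ↦ by
    refine ⟨hN _ ?_, hN _ ?_, hN _ ?_, hN _ ?_, hN _ ?_, hN _ ?_⟩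
    · exact Submodule.mem_sup_left (Submodule.mem_sup_left ⟨_, hLmem σ, rfl⟩)
    · exact Submodule.mem_sup_left (Submodule.mem_sup_right ⟨_, hLmem σ, rfl⟩)
    · exact Submodule.mem_sup_right (Submodule.mem_sup_left (Submodule.mem_sup_left
        ⟨_, hLmem σ, rfl⟩))
    · exact Submodule.mem_sup_right (Submodule.mem_sup_left (Submodule.mem_sup_right
        ⟨_, hLmem σ, rfl⟩))
    · exact Submodule.mem_sup_right (Submodule.mem_sup_right (Submodule.mem_sup_left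
        ⟨_, hLmem σ, rfl⟩))
    · exact Submodule.mem_sup_right (Submodule.mem_sup_right (Submodule.mem_sup_right
        ⟨_, hLmem σ, rfl⟩))
  have hsmul : ∀ (r : OK) (z : K × K), r • z = ((r : K) * z.1, (r : K) * z.2) :=
    fun r z ↦ Prod.ext rfl rfl
  -- orbit of the standard basis and its span
  let gen : Bool × GG → K × K := fun x ↦ if x.1 then (a x.2, c x.2) else (b x.2, d x.2)
  let Λ : Submodule OK (K × K) := Submodule.span OK (Set.range gen)
  have hstab : ∀ σ, ∀ z ∈ Λ, (a σ * z.1 + b σ * z.2, c σ * z.1 + d σ * z.2) ∈ Λ := by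
    intro σ z hz
    induction hz using Submodule.span_induction with
    | mem y hy =>
      obtain ⟨⟨i, τ⟩, rfl⟩ := hy
      refine Submodule.subset_span ⟨(i, σ * τ), ?_⟩
      cases i <;> simp [gen, ha.2, hb.2, hc.2, hd.2]
    | zero =>
      simp only [Prod.fst_zero, Prod.snd_zero, mul_zero, add_zero]
      exact Λ.zero_mem
    | add y y' _ _ hy hy' => convert add_mem hy hy' using 1; ext <;> simp <;> ring
    | smul r y _ hy => convert Λ.smul_mem r hy using 1; ext <;> simp [hsmul] <;> ring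
  have hΛint : ∀ z ∈ Λ,
      IsIntegral ℤ_[l] ((l : K) ^ N * z.1) ∧ IsIntegral ℤ_[l] ((l : K) ^ N * z.2) := by
    intro z hz
    induction hz using Submodule.span_induction with
    | mem y hy =>
      obtain ⟨⟨i, τ⟩, rfl⟩ := hy
      obtain ⟨h1, h2, h3, h4, -, -⟩ := hint τ
      cases i <;> simp [gen, h1, h2, h3, h4]
    | zero => simp [isIntegral_zero]
    | add y y' _ _ hy hy' =>
      simp only [Prod.fst_add, Prod.snd_add, mul_add]; exact ⟨hy.1.add hy'.1, hy.2.add hy'.2⟩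
    | smul r y _ hy =>
      simp only [hsmul, mul_left_comm]
      exact ⟨r.2.mul hy.1, r.2.mul hy.2⟩
  have he1 : ((1 : K), (0 : K)) ∈ Λ := Submodule.subset_span ⟨(true, 1), by simp [gen, ha.1, hc.1]⟩
  have he2 : ((0 : K), (1 : K)) ∈ Λ := Submodule.subset_span ⟨(false, 1), by simp [gen, hb.1, hd.1]⟩
  -- generators of the line and of the projection
  let I1 : Ideal OK :=
    { carrier := {x | ((x : K) / (l : K) ^ N, (0 : K)) ∈ Λ}
      zero_mem' := by
        show ((((0 : OK) : K) / (l : K) ^ N, (0 : K)) : K × K) ∈ Λ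
        rw [ZeroMemClass.coe_zero, zero_div]; exact Λ.zero_mem
      add_mem' := fun {x y} hx hy ↦ by
        simpa [add_div] using add_mem (show ((x : K) / (l : K) ^ N, (0 : K)) ∈ Λ from hx) hy
      smul_mem' := fun r x hx ↦ by
        have h := Λ.smul_mem r (show ((x : K) / (l : K) ^ N, (0 : K)) ∈ Λ from hx)
        simpa [hsmul, mul_div_assoc] using h }
  let I2 : Ideal OK :=
    { carrier := {x | ∃ y, (y, (x : K) / (l : K) ^ N) ∈ Λ}
      zero_mem' := ⟨0, by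
        rw [ZeroMemClass.coe_zero, zero_div]; exact Λ.zero_mem⟩
      add_mem' := fun {x x'} ⟨y, hy⟩ ⟨y', hy'⟩ ↦ ⟨y + y', by simpa [add_div] using add_mem hy hy'⟩
      smul_mem' := fun r x ⟨y, hy⟩ ↦ ⟨(r : K) * y, by
        simpa [hsmul, mul_div_assoc] using Λ.smul_mem r hy⟩ }
  obtain ⟨g1, hg1⟩ := IsPrincipalIdealRing.principal I1
  obtain ⟨g2, hg2⟩ := IsPrincipalIdealRing.principal I2
  have hg1m : g1 ∈ I1 := hg1 ▸ Submodule.mem_span_singleton_self g1
  obtain ⟨β, hβ⟩ : g2 ∈ I2 := hg2 ▸ Submodule.mem_span_singleton_self g2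
  set α : K := (g1 : K) / (l : K) ^ N
  set γ : K := (g2 : K) / (l : K) ^ N
  have hα : (α, (0 : K)) ∈ Λ := hg1m
  have hdec : ∀ z ∈ Λ, ∃ s t : OK, z = ((s : K) * α + (t : K) * β, (t : K) * γ) := by
    intro z hz
    obtain ⟨h1, h2⟩ := hΛint z hz
    have hmem : (⟨_, h2⟩ : OK) ∈ I2 := ⟨z.1, by
      show (z.1, (l : K) ^ N * z.2 / (l : K) ^ N) ∈ Λ
      rwa [mul_div_cancel_left₀ _ (pow_ne_zero N hl0)]⟩
    rw [hg2, Submodule.mem_span_singleton] at hmem
    obtain ⟨t, ht⟩ := hmem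
    have ht' : (t : K) * γ = z.2 := by
      have := congrArg Subtype.val ht
      simp only [smul_eq_mul, MulMemClass.coe_mul] at this
      rw [← mul_div_assoc, this, mul_div_cancel_left₀ _ (pow_ne_zero N hl0)]
    have hz' : (z.1 - (t : K) * β, (0 : K)) ∈ Λ := by
      have := sub_mem hz (Λ.smul_mem t hβ)
      convert this using 1
      ext <;> simp [hsmul, ht']
    have hmem1 : (⟨_, (hΛint _ hz').1⟩ : OK) ∈ I1 := by
      show ((l : K) ^ N * (z.1 - (t : K) * β) / (l : K) ^ N, (0 : K)) ∈ Λ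
      rwa [mul_div_cancel_left₀ _ (pow_ne_zero N hl0)]
    rw [hg1, Submodule.mem_span_singleton] at hmem1
    obtain ⟨s, hs⟩ := hmem1
    have hs' : (s : K) * α = z.1 - (t : K) * β := by
      have := congrArg Subtype.val hs
      simp only [smul_eq_mul, MulMemClass.coe_mul] at this
      rw [← mul_div_assoc, this, mul_div_cancel_left₀ _ (pow_ne_zero N hl0)]
    exact ⟨s, t, Prod.ext (by linear_combination -hs') ht'.symm⟩
  obtain ⟨s1, t1, h1⟩ := hdec _ he2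
  have hγ0 : γ ≠ 0 := fun h ↦ one_ne_zero (α := K) (by
    have := congrArg Prod.snd h1; simpa [h] using this)
  have hα0 : α ≠ 0 := fun h ↦ one_ne_zero (α := K) (by
    obtain ⟨s, t, e⟩ := hdec _ he1
    have e2 : (t : K) * γ = 0 := (congrArg Prod.snd e).symm
    have e1 : (1 : K) = (s : K) * α + (t : K) * β := congrArg Prod.fst e
    rw [(mul_eq_zero.mp e2).resolve_right hγ0, h, mul_zero, zero_mul, add_zero] at e1
    exact e1)
  -- the integral entries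
  clear_value α γ
  choose a' c' hac using fun σ ↦ hdec _ (hstab σ _ hα)
  choose b' d' hbd using fun σ ↦ hdec _ (hstab σ _ hβ)
  have ea : ∀ σ, a σ * α = a' σ * α + c' σ * β ∧ c σ * α = (c' σ : K) * γ := fun σ ↦
    ⟨by simpa using congrArg Prod.fst (hac σ), by simpa using congrArg Prod.snd (hac σ)⟩
  have eb : ∀ σ, a σ * β + b σ * γ = b' σ * α + d' σ * β ∧ c σ * β + d σ * γ = (d' σ : K) * γ :=
    fun σ ↦ ⟨by simpa using congrArg Prod.fst (hbd σ), by simpa using congrArg Prod.snd (hbd σ)⟩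
  have fc : ∀ σ, (c' σ : K) = c σ * α / γ := fun σ ↦ by rw [(ea σ).2, mul_div_cancel_right₀ _ hγ0]
  have fd : ∀ σ, (d' σ : K) = d σ + c σ * β / γ := fun σ ↦ by
    field_simp; linear_combination -(eb σ).2
  have fa : ∀ σ, (a' σ : K) = a σ - c σ * β / γ := fun σ ↦ by
    have h := (ea σ).1
    rw [fc σ] at h
    field_simp at h ⊢
    linear_combination -h
  have fb : ∀ σ, (b' σ : K) = (a σ * β + b σ * γ - d σ * β - c σ * β ^ 2 / γ) / α := fun σ ↦ by
    have h := (eb σ).1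
    rw [fd σ] at h
    field_simp at h ⊢
    linear_combination -h
  -- transfer of continuity
  obtain ⟨ϖ, hϖ⟩ := IsDiscreteValuationRing.exists_irreducible OK
  obtain ⟨C, hC, hcont⟩ := hcont
  have hsmall : ∀ φ : (Fin 6 → K) →ₗ[ℤ_[l]] K, ∀ m : ℕ, ∃ V : Subgroup GG, IsOpen (V : Set GG) ∧
      ∀ σ ∈ V, ∀ x : OK, (x : K) = φ ![a σ - 1, b σ, c σ, d σ - 1, u σ, v σ] → ϖ ^ m ∣ x := by
    intro φ m
    obtain ⟨M, hM⟩ := exists_natCast_pow_mul_mem_of_fg (hC.map φ)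
    obtain ⟨V, hV, hVd⟩ := hcont (m + M)
    refine ⟨V, hV, fun σ hσ x hx ↦ ?_⟩
    obtain ⟨y, hy, e⟩ := hVd σ hσ
    simp only at e
    rw [e, map_smul, Algebra.smul_def, map_pow, map_natCast, pow_add, mul_assoc] at hx
    have hx' : x = (l : OK) ^ m * ⟨_, hM _ (Submodule.mem_map_of_mem hy)⟩ := Subtype.ext (by
      rw [hx]; simp)
    rw [hx']
    exact (pow_dvd_pow_of_dvd (irreducible_dvd_natCast hϖ) m).mul_right _
  let pr : Fin 6 → ((Fin 6 → K) →ₗ[ℤ_[l]] K) := fun i ↦ LinearMap.proj i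
  let sc : K → (K →ₗ[ℤ_[l]] K) := fun r ↦ (LinearMap.mul ℤ_[l] K) r
  let R : Rep OK ϖ :=
    { a := a'
      b := b'
      c := c'
      d := d'
      a_one := Subtype.ext (by rw [fa]; simp [ha.1, hc.1])
      b_one := Subtype.ext (by rw [fb]; simp [ha.1, hb.1, hc.1, hd.1])
      c_one := Subtype.ext (by rw [fc]; simp [hc.1])
      d_one := Subtype.ext (by rw [fd]; simp [hc.1, hd.1])
      a_mul := fun σ τ ↦ Subtype.ext (by
        push_cast; simp only [fa, fb, fc, ha.2, hc.2]; field_simp; ring)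
      b_mul := fun σ τ ↦ Subtype.ext (by
        push_cast; simp only [fa, fb, fd, ha.2, hb.2, hc.2, hd.2]; field_simp; ring)
      c_mul := fun σ τ ↦ Subtype.ext (by
        push_cast; simp only [fa, fc, fd, hc.2]; field_simp; ring)
      d_mul := fun σ τ ↦ Subtype.ext (by
        push_cast; simp only [fb, fc, fd, hc.2, hd.2]; field_simp; ring)
      cont := fun m ↦ by
        obtain ⟨V1, o1, h1⟩ := hsmall (pr 0 - (sc (β / γ)).comp (pr 2)) m
        obtain ⟨V2, o2, h2⟩ := hsmall ((sc (β / α)).comp (pr 0) + (sc (γ / α)).comp (pr 1) -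
          (sc (β / α)).comp (pr 3) - (sc (β ^ 2 / γ / α)).comp (pr 2)) m
        obtain ⟨V3, o3, h3⟩ := hsmall ((sc (α / γ)).comp (pr 2)) m
        obtain ⟨V4, o4, h4⟩ := hsmall (pr 3 + (sc (β / γ)).comp (pr 2)) m
        refine ⟨V1 ⊓ V2 ⊓ V3 ⊓ V4, ((o1.inter o2).inter o3).inter o4,
          fun σ hσ ↦ ⟨h1 σ hσ.1.1.1 _ ?_, h2 σ hσ.1.1.2 _ ?_, h3 σ hσ.1.2 _ ?_, h4 σ hσ.2 _ ?_⟩⟩
        · push_cast; simp [pr, sc, fa]; ring
        · simp [pr, sc, fb]; field_simp; ring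
        · simp [pr, sc, fc]; field_simp
        · push_cast; simp [pr, sc, fd]; ring }
  have hdetR : ∀ σ, ((R.det σ : OK) : K) = algebraMap ℤ_[l] K (χ σ) := fun σ ↦ by
    rw [← hdet σ]; simp only [Rep.det, R]; push_cast
    rw [fa, fb, fc, fd]; field_simp; ring
  let S : Setup l p R :=
    { Al := Al
      Ap := Ap
      liesl := hAl
      liesp := hAp
      cyclo := fun n σ k hk ↦ by
        obtain ⟨y, hy⟩ := hχ n σ k hk
        refine ⟨algebraMap ℤ_[l] OK y, Subtype.ext ?_⟩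
        push_cast
        rw [hdetR]
        have := congrArg (algebraMap ℤ_[l] K) hy
        rw [map_sub, map_natCast, map_mul, map_pow, map_natCast] at this
        exact this
      place := place
      liesq := hplace
      unram := fun q h1 h2 h3 σ hσ ↦ by
        obtain ⟨e1, e2, e3, e4, -, -⟩ := hunr q h1 h2 h3 σ hσ
        exact ⟨Subtype.ext (by simp [R, fa, e1, e3]), Subtype.ext (by simp [R, fb, e1, e2, e3, e4]),
          Subtype.ext (by simp [R, fc, e3]), Subtype.ext (by simp [R, fd, e3, e4])⟩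
      decomp_c := fun σ hσ ↦ Subtype.ext (by simp [R, fc, hDl σ hσ])
      inertia_d := fun σ hσ ↦ Subtype.ext (by
        simp [R, fd, (hIl σ hσ).1, hDl σ (Places.inertia_le_decomposition _ hσ)])
      φl := φl
      φl_mem := hφl
      φl_sq := fun e ↦ hφl2 (by
        have := congrArg Subtype.val e
        simpa [R, fd, hDl φl hφl] using this)
      unipotent := fun σ hσ ↦ by
        obtain ⟨e1, e2, e3, e4⟩ := hunip σ hσ
        refine ⟨Subtype.ext ?_, Subtype.ext ?_, Subtype.ext ?_, Subtype.ext ?_⟩ <;>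
          simp only [R] <;> push_cast <;> simp only [fa, fb, fc, fd] <;> field_simp
        · linear_combination γ ^ 2 * e1 - β * γ * e3
        · linear_combination γ ^ 3 * e2 + β * γ ^ 2 * (e1 - e4) - β ^ 2 * γ * e3
        · linear_combination α * γ * e3
        · linear_combination γ ^ 2 * e4 + β * γ * e3
      φp := φp
      φp_mem := hφp
      φp_sq := fun e ↦ hφp2 (by
        have := congrArg Subtype.val e
        push_cast at this
        rw [hdetR, ← map_pow, ← map_one (algebraMap ℤ_[l] K)] at this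
        exact (FaithfulSMul.algebraMap_injective ℤ_[l] K) this) }
  have htrR : ∀ σ, ϖ ∣ R.a σ + R.d σ - 1 - R.det σ := fun σ ↦ by
    obtain ⟨j, y, hy, e⟩ := htr σ
    refine hϖ.prime.dvd_of_dvd_pow (n := j) ((irreducible_dvd_natCast (l := l) hϖ).trans ⟨⟨y, hy⟩, ?_⟩)
    refine Subtype.ext ?_
    push_cast
    rw [hdetR, ← e]
    congr 1
    simp only [R, fa, fd]; ring
  -- the cocycle, scaled
  set F : K := (l : K) ^ N
  have huv : ∀ σ, ((u σ - v σ * β / γ) / α, v σ / γ) = ((u σ - v σ * β / γ) / α, v σ / γ) :=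
    fun _ ↦ rfl
  obtain ⟨M1, hM1⟩ := exists_natCast_pow_mul_mem (l := l) (1 / α)
  obtain ⟨M2, hM2⟩ := exists_natCast_pow_mul_mem (l := l) (β / (γ * α))
  obtain ⟨M3, hM3⟩ := exists_natCast_pow_mul_mem (l := l) (1 / γ)
  have hl : IsIntegral ℤ_[l] (l : K) := map_natCast (algebraMap ℤ_[l] K) l ▸ isIntegral_algebraMap
  set G : K := (l : K) ^ (N + M1 + M2 + M3) with hG
  have hu'i : ∀ σ, IsIntegral ℤ_[l] (G * ((u σ - v σ * β / γ) / α)) := fun σ ↦ by
    have : G * ((u σ - v σ * β / γ) / α) =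
        (l : K) ^ (M2 + M3) * (((l : K) ^ N * u σ) * ((l : K) ^ M1 * (1 / α))) -
          (l : K) ^ (M1 + M3) * (((l : K) ^ N * v σ) * ((l : K) ^ M2 * (β / (γ * α)))) := by
      rw [hG, pow_add, pow_add, pow_add, pow_add, pow_add]; field_simp
    rw [this]
    exact ((hl.pow _).mul ((hint σ).2.2.2.2.1.mul hM1)).sub
      ((hl.pow _).mul ((hint σ).2.2.2.2.2.mul hM2))
  have hv'i : ∀ σ, IsIntegral ℤ_[l] (G * (v σ / γ)) := fun σ ↦ by
    have : G * (v σ / γ) =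
        (l : K) ^ (M1 + M2) * (((l : K) ^ N * v σ) * ((l : K) ^ M3 * (1 / γ))) := by
      rw [hG, pow_add, pow_add, pow_add, pow_add]; field_simp
    rw [this]
    exact (hl.pow _).mul ((hint σ).2.2.2.2.2.mul hM3)
  let κ : Cocycle R :=
    { u := fun σ ↦ ⟨_, hu'i σ⟩
      v := fun σ ↦ ⟨_, hv'i σ⟩
      u_mul := fun σ τ ↦ Subtype.ext (by
        simp only [R]; push_cast; rw [fa, fb, hu, hv]; field_simp; ring)
      v_mul := fun σ τ ↦ Subtype.ext (by
        simp only [R]; push_cast; rw [fc, fd, hv]; field_simp; ring)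
      cont := fun m ↦ by
        obtain ⟨V1, o1, h1⟩ := hsmall ((sc (G / α)).comp (pr 4) - (sc (G * β / γ / α)).comp (pr 5)) m
        obtain ⟨V2, o2, h2⟩ := hsmall ((sc (G / γ)).comp (pr 5)) m
        refine ⟨V1 ⊓ V2, o1.inter o2, fun σ hσ ↦ ⟨h1 σ hσ.1 _ ?_, h2 σ hσ.2 _ ?_⟩⟩ <;>
          simp [pr, sc] <;> field_simp <;> ring }
  obtain ⟨m, B1, B2, hB⟩ := isTorsion_of_valid hϖ hp hpl S htrR (κ := κ)
    { unram := fun q h1 h2 h3 σ hσ ↦ by
        obtain ⟨-, -, -, -, e5, e6⟩ := hunr q h1 h2 h3 σ hσ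
        exact ⟨Subtype.ext (by simp [κ, e5, e6]), Subtype.ext (by simp [κ, e6])⟩
      inertia_l := fun σ hσ ↦ Subtype.ext (by simp [κ, (hIl σ hσ).2]) }
  have hG0 : G ≠ 0 := pow_ne_zero _ hl0
  set E : K := (ϖ : K) ^ m * G
  have hE : E ≠ 0 := mul_ne_zero (pow_ne_zero _ fun h ↦ hϖ.ne_zero (Subtype.ext h)) hG0
  refine ⟨(α * B1 + β * B2) / E, γ * B2 / E, fun σ ↦ ?_⟩
  obtain ⟨k1, k2⟩ := hB σ
  replace k1 := congrArg Subtype.val k1
  replace k2 := congrArg Subtype.val k2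
  simp only [κ, R] at k1 k2
  push_cast at k1 k2
  rw [fa, fb] at k1
  rw [fc, fd] at k2
  field_simp at k1 k2
  refine ⟨?_, ?_⟩ <;> field_simp <;> simp only [E]
  · refine mul_left_cancel₀ hγ0 ?_
    linear_combination k1 + β * k2
  · linear_combination k2

end Field

end FLTAgent.Mazur
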