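import Fermat.Agent.GoodModel.Wp

/-!
# The parametrisation of a complex cubic by `℘` and `℘'` is additive

The addition theorem is obtained by differentiating the chord formula along a line
`z + w = c` and letting `z` tend to `0`.
-/

set_option autoImplicit false

noncomputable section

open Filter Topology Complex PeriodPair WeierstrassCurve
open FLTAgent.GoodModel (perPair wp)

namespace FLTAgent.Mazur

variable (L : PeriodPair)

/-- `℘'' = 6℘² - g₂/2`. -/
theorem hasDerivAt_derivWeierstrassP {x : ℂ} (hx : x ∉ L.lattice) :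
    HasDerivAt ℘'[L] (6 * ℘[L] x ^ 2 - L.g₂ / 2) x := by
  have hU : IsOpen (L.lattice : Set ℂ)ᶜ := L.isClosed_lattice.isOpen_compl
  have hP : ∀ y ∉ L.lattice, HasDerivAt ℘[L] (℘'[L] y) y := fun y hy ↦ by
    rw [← L.deriv_weierstrassP]
    exact (L.analyticOnNhd_weierstrassP _ hy).differentiableAt.hasDerivAt
  have hd : HasDerivAt ℘'[L] (deriv ℘'[L] x) x :=
    (L.analyticOnNhd_derivWeierstrassP _ hx).differentiableAt.hasDerivAt
  suffices h : deriv ℘'[L] x = 6 * ℘[L] x ^ 2 - L.g₂ / 2 by rwa [h] at hd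
  set Φ : ℂ → ℂ := fun y ↦ deriv ℘'[L] y - (6 * ℘[L] y ^ 2 - L.g₂ / 2)
  have han : AnalyticAt ℂ Φ x := by
    have := L.analyticOnNhd_weierstrassP _ hx
    have := (L.analyticOnNhd_derivWeierstrassP _ hx).deriv
    fun_prop
  have hprod : ∀ y ∉ L.lattice, ℘'[L] y * Φ y = 0 := by
    intro y hy
    have hP' : HasDerivAt ℘'[L] (deriv ℘'[L] y) y :=
      (L.analyticOnNhd_derivWeierstrassP _ hy).differentiableAt.hasDerivAt
    have h1 : HasDerivAt (fun t ↦ ℘'[L] t ^ 2) (2 * ℘'[L] y * deriv ℘'[L] y) y := by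
      simpa using hP'.fun_pow 2
    have h2 : HasDerivAt (fun t ↦ 4 * ℘[L] t ^ 3 - L.g₂ * ℘[L] t - L.g₃)
        (12 * ℘[L] y ^ 2 * ℘'[L] y - L.g₂ * ℘'[L] y) y := by
      refine ((((hP y hy).fun_pow 3).const_mul (4 : ℂ) |>.fun_sub
        ((hP y hy).const_mul L.g₂)).sub_const L.g₃).congr_deriv ?_
      push_cast
      ring
    have := (h1.congr_of_eventuallyEq
      ((hU.eventually_mem hy).mono fun t ht ↦ (L.derivWeierstrassP_sq t ht).symm)).unique h2
    simp only [Φ]
    linear_combination this / 2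
  by_contra hne
  have hΦ : Φ x ≠ 0 := sub_ne_zero.mpr hne
  have hev : ℘'[L] =ᶠ[𝓝 x] 0 :=
    ((han.continuousAt.eventually_ne hΦ).and (hU.eventually_mem hx)).mono fun y hy ↦
      (mul_eq_zero.mp (hprod y hy.2)).resolve_right hy.1
  have hΦ' : Φ x = 6 * (0 : ℂ) - (6 * ℘[L] x ^ 2 - L.g₂ / 2) := by
    simp only [Φ, hev.deriv_eq, Pi.zero_def, deriv_const]
    ring
  have hconn : IsPreconnected (L.lattice : Set ℂ)ᶜ := by
    refine (Set.Countable.isConnected_compl_of_one_lt_rank (by simp) ?_).isPreconnected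
    exact (Set.countable_coe_iff.mp (inferInstance : Countable L.lattice))
  have hzero := L.analyticOnNhd_derivWeierstrassP.eqOn_zero_of_preconnected_of_eventuallyEq_zero
    hconn hx hev
  obtain ⟨c, hc⟩ := hU.exists_is_const_of_deriv_eq_zero hconn
    L.differentiableOn_weierstrassP fun y hy ↦ by rw [L.deriv_weierstrassP]; exact hzero hy
  have h0 : ℘[L] =ᶠ[𝓝[≠] (0 : ℂ)] fun _ ↦ c := by
    filter_upwards [nhdsWithin_le_nhds (L.compl_lattice_sdiff_singleton_mem_nhds 0),
      self_mem_nhdsWithin] with y hy hy0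
    exact hc y fun hm ↦ hy ⟨hm, hy0⟩
  have ho := L.order_weierstrassP 0 (zero_mem _)
  rw [meromorphicOrderAt_congr h0, meromorphicOrderAt_const] at ho
  split_ifs at ho with hc0 <;> exact absurd ho (by decide)

theorem hasDerivAt_weierstrassP {x : ℂ} (hx : x ∉ L.lattice) :
    HasDerivAt ℘[L] (℘'[L] x) x := by
  rw [← L.deriv_weierstrassP]
  exact (L.analyticOnNhd_weierstrassP _ hx).differentiableAt.hasDerivAt

/-- The slope of the chord through the points of `z` and `w`, doubled. -/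
def chord (z w : ℂ) : ℂ := (℘'[L] z - ℘'[L] w) / (℘[L] z - ℘[L] w)

/-- The third abscissa on a chord. -/
def chordX (z w : ℂ) : ℂ := chord L z w ^ 2 / 4 - ℘[L] z - ℘[L] w

variable {L}

theorem hasDerivAt_chordX_line {z c : ℂ} (hz : z ∉ L.lattice) (hw : c - z ∉ L.lattice)
    (hne : ℘[L] z ≠ ℘[L] (c - z)) : HasDerivAt (fun t ↦ chordX L t (c - t)) 0 z := by
  have hu := hasDerivAt_weierstrassP L hz
  have hP := hasDerivAt_derivWeierstrassP L hz
  have hlin : HasDerivAt (fun t : ℂ ↦ c - t) (-1) z := by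
    simpa using (hasDerivAt_id z).const_sub c
  have hv := (hasDerivAt_weierstrassP L hw).comp z hlin
  have hQ := (hasDerivAt_derivWeierstrassP L hw).comp z hlin
  have hd0 : ℘[L] z - ℘[L] (c - z) ≠ 0 := sub_ne_zero.mpr hne
  have hl := (hP.fun_sub hQ).fun_div (hu.fun_sub hv) hd0
  refine (((((hl.fun_pow 2).div_const 4)).fun_sub hu).fun_sub hv).congr_deriv ?_
  have e1 := L.derivWeierstrassP_sq z hz
  have e2 := L.derivWeierstrassP_sq (c - z) hw
  simp only [Function.comp_apply]
  set u := ℘[L] z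
  set v := ℘[L] (c - z)
  set P := ℘'[L] z
  set Q := ℘'[L] (c - z)
  push_cast
  rw [pow_one]
  field_simp
  linear_combination -2 * (P - Q) * (e1 - e2)

/-- **The addition theorem.** -/
theorem chordX_eq {z c : ℂ} (hz : z ∉ L.lattice) (hw : c - z ∉ L.lattice) (hc : c ∉ L.lattice)
    (h2 : 2 * z - c ∉ L.lattice)
    (hinj : ∀ a b : ℂ, a ∉ L.lattice → b ∉ L.lattice → ℘[L] a = ℘[L] b →
      a - b ∈ L.lattice ∨ a + b ∈ L.lattice) :
    chordX L z (c - z) = ℘[L] c := by
  set U : Set ℂ := {t | t ∉ L.lattice ∧ c - t ∉ L.lattice ∧ 2 * t - c ∉ L.lattice} with hUdef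
  have hcl : IsOpen (L.lattice : Set ℂ)ᶜ := L.isClosed_lattice.isOpen_compl
  have hU : IsOpen U :=
    hcl.inter ((hcl.preimage (by fun_prop : Continuous fun t : ℂ ↦ c - t)).inter
      (hcl.preimage (by fun_prop : Continuous fun t : ℂ ↦ 2 * t - c)))
  have hne : ∀ t ∈ U, ℘[L] t ≠ ℘[L] (c - t) := fun t ht h ↦ by
    rcases hinj t (c - t) ht.1 ht.2.1 h with h' | h'
    · exact ht.2.2 (by convert h' using 1; ring)
    · exact hc (by simpa using h')
  have hder : ∀ t ∈ U, HasDerivAt (fun t ↦ chordX L t (c - t)) 0 t := fun t ht ↦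
    hasDerivAt_chordX_line ht.1 ht.2.1 (hne t ht)
  have hconn : IsPreconnected U := by
    have hcount : (L.lattice : Set ℂ).Countable :=
      Set.countable_coe_iff.mp (inferInstance : Countable L.lattice)
    have he : U = ((L.lattice : Set ℂ) ∪ (fun l ↦ c - l) '' L.lattice ∪
        (fun l ↦ (l + c) / 2) '' L.lattice)ᶜ := by
      ext t
      simp only [hUdef, Set.mem_ofPred_eq, Set.mem_compl_iff, Set.mem_union, Set.mem_image, not_or,
        SetLike.mem_coe, not_exists, not_and]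
      refine ⟨fun ⟨a, b, d⟩ ↦ ⟨⟨a, fun l hl e ↦ b (by rw [← e]; simpa using hl)⟩,
        fun l hl e ↦ d (by rw [← e]; convert hl using 1; ring)⟩,
        fun ⟨⟨a, b⟩, d⟩ ↦ ⟨a, fun hm ↦ b _ hm (by ring), fun hm ↦ d _ hm (by ring)⟩⟩
    rw [he]
    exact (Set.Countable.isConnected_compl_of_one_lt_rank (by simp)
      ((hcount.union (hcount.image _)).union (hcount.image _))).isPreconnected
  obtain ⟨C, hC⟩ := hU.exists_is_const_of_deriv_eq_zero hconn
    (fun t ht ↦ (hder t ht).differentiableAt.differentiableWithinAt) (fun t ht ↦ (hder t ht).deriv)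
  -- the limit at `0`
  set E := ℘[L - (0 : ℂ)]
  set D := ℘'[L - (0 : ℂ)]
  let A : ℂ → ℂ := fun t ↦ D t - ℘'[L] (c - t)
  let B : ℂ → ℂ := fun t ↦ E t - ℘[L] (c - t)
  let G : ℂ → ℂ := fun t ↦ (-4 * t * A t + t ^ 4 * A t ^ 2 - 8 * B t - 4 * t ^ 2 * B t ^ 2) /
    (4 * (1 + t ^ 2 * B t) ^ 2) - E t - ℘[L] (c - t)
  have hE := L.analyticAt_weierstrassPExcept 0
  have hD := L.analyticAt_derivWeierstrassPExcept 0
  have hcv : ContinuousAt (fun t ↦ ℘[L] (c - t)) 0 := by
    have h := (L.analyticOnNhd_weierstrassP c hc).continuousAt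
    exact ContinuousAt.comp (g := ℘[L]) (by simpa using h) (by fun_prop)
  have hcQ : ContinuousAt (fun t ↦ ℘'[L] (c - t)) 0 := by
    have h := (L.analyticOnNhd_derivWeierstrassP c hc).continuousAt
    exact ContinuousAt.comp (g := ℘'[L]) (by simpa using h) (by fun_prop)
  have hA : ContinuousAt A 0 := hD.continuousAt.sub hcQ
  have hB : ContinuousAt B 0 := hE.continuousAt.sub hcv
  have hG : ContinuousAt G 0 := by
    refine ((ContinuousAt.div (by fun_prop) (by fun_prop) ?_).sub hE.continuousAt).sub hcv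
    simp
  have hG0 : G 0 = ℘[L] c := by
    simp only [G, B, sub_zero]
    rw [show E 0 = 0 from L.weierstrassPExcept_zero 0]
    ring
  have hev0 : ∀ᶠ t in 𝓝[≠] (0 : ℂ), t ∉ L.lattice := by
    filter_upwards [nhdsWithin_le_nhds (L.compl_lattice_sdiff_singleton_mem_nhds 0),
      self_mem_nhdsWithin] with t ht ht0 hm
    exact ht ⟨hm, ht0⟩
  have hnz : ∀ᶠ t in 𝓝[≠] (0 : ℂ), 1 + t ^ 2 * B t ≠ 0 := by
    refine nhdsWithin_le_nhds (ContinuousAt.eventually_ne (by fun_prop) ?_)
    simp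
  have hUev : ∀ᶠ t in 𝓝[≠] (0 : ℂ), c - t ∉ L.lattice ∧ 2 * t - c ∉ L.lattice := by
    refine nhdsWithin_le_nhds (Filter.Eventually.and ?_ ?_)
    · exact ((by fun_prop : Continuous fun t : ℂ ↦ c - t).tendsto' 0 c (sub_zero c)).eventually
        (hcl.eventually_mem hc)
    · exact ((by fun_prop : Continuous fun t : ℂ ↦ 2 * t - c).tendsto' 0 (-c) (by ring)).eventually
        (hcl.eventually_mem fun hm ↦ hc (by simpa using hm))
  have heq : ∀ᶠ t in 𝓝[≠] (0 : ℂ), G t = C := by
    filter_upwards [hev0, hUev, hnz, self_mem_nhdsWithin] with t ht hUt hd (ht0 : t ≠ 0)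
    rw [← hC t ⟨ht, hUt⟩]
    have eu : ℘[L] t = E t + 1 / t ^ 2 := by
      have := L.weierstrassPExcept_def (0 : L.lattice) t
      simp only [ZeroMemClass.coe_zero, sub_zero] at this
      rw [show E t = _ from this]
      simp
    have eP : ℘'[L] t = D t - 2 / t ^ 3 := by
      have := L.derivWeierstrassPExcept_def (0 : L.lattice) t
      simp only [ZeroMemClass.coe_zero, sub_zero] at this
      rw [show D t = _ from this]
      ring
    simp only [G, chordX, chord, A, B] at *
    rw [eu, eP]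
    have hden : E t + 1 / t ^ 2 - ℘[L] (c - t) = (1 + t ^ 2 * (E t - ℘[L] (c - t))) / t ^ 2 := by
      field_simp
      ring
    rw [hden]
    field_simp
    ring
  have hlim : G 0 = C := tendsto_nhds_unique (hG.tendsto.mono_left nhdsWithin_le_nhds)
    (tendsto_const_nhds.congr' (heq.mono fun t ht ↦ ht.symm))
  rw [hC z ⟨hz, hw, h2⟩, ← hlim, hG0]

/-- The ordinate on the third point. -/
theorem chordY_eq {z w : ℂ} (hz : z ∉ L.lattice) (hw : w ∉ L.lattice) (hc : z + w ∉ L.lattice)
    (h2 : z - w ∉ L.lattice)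
    (hinj : ∀ a b : ℂ, a ∉ L.lattice → b ∉ L.lattice → ℘[L] a = ℘[L] b →
      a - b ∈ L.lattice ∨ a + b ∈ L.lattice) :
    ℘'[L] (z + w) = -℘'[L] z - chord L z w * (chordX L z w - ℘[L] z) := by
  have hcl : IsOpen (L.lattice : Set ℂ)ᶜ := L.isClosed_lattice.isOpen_compl
  have hne : ℘[L] z ≠ ℘[L] w := fun h ↦ (hinj z w hz hw h).elim h2 hc
  have hid : (fun t ↦ chordX L z t) =ᶠ[𝓝 w] fun t ↦ ℘[L] (z + t) := by
    have h1 : ∀ᶠ t in 𝓝 w, t ∉ L.lattice := hcl.eventually_mem hw
    have h1' : ∀ᶠ t in 𝓝 w, z + t ∉ L.lattice :=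
      ((by fun_prop : Continuous fun t : ℂ ↦ z + t).tendsto w).eventually (hcl.eventually_mem hc)
    have h1'' : ∀ᶠ t in 𝓝 w, z - t ∉ L.lattice :=
      ((by fun_prop : Continuous fun t : ℂ ↦ z - t).tendsto w).eventually (hcl.eventually_mem h2)
    filter_upwards [h1, h1', h1''] with t ht ht' ht''
    have := chordX_eq (c := z + t) hz (by simpa using ht) ht'
      (by convert ht'' using 2; ring) hinj
    simpa using this
  have hv := hasDerivAt_weierstrassP L hw
  have hQ := hasDerivAt_derivWeierstrassP L hw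
  have hd0 : ℘[L] z - ℘[L] w ≠ 0 := sub_ne_zero.mpr hne
  have hl := (hQ.const_sub (℘'[L] z)).fun_div (hv.const_sub (℘[L] z)) hd0
  have hR : HasDerivAt (fun t ↦ ℘[L] (z + t)) (℘'[L] (z + w)) w :=
    (hasDerivAt_weierstrassP L hc).comp_const_add z w
  have hL' := ((((hl.fun_pow 2).div_const 4)).sub_const (℘[L] z)).fun_sub hv
  rw [← (hL'.congr_of_eventuallyEq hid.symm).unique hR]
  have e1 := L.derivWeierstrassP_sq z hz
  have e2 := L.derivWeierstrassP_sq w hw
  simp only [chordX, chord]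
  set u := ℘[L] z
  set v := ℘[L] w
  set P := ℘'[L] z
  set Q := ℘'[L] w
  push_cast
  rw [pow_one]
  field_simp
  linear_combination (P - Q) * (e1 - e2)

section Hom

variable (τ : UpperHalfPlane)

/-- `y² = x³ - (g₂/4) x - g₃/4`. -/
def latCurve : WeierstrassCurve.Affine ℂ :=
  ⟨0, 0, 0, -(perPair τ).g₂ / 4, -(perPair τ).g₃ / 4⟩

variable [(latCurve τ).IsElliptic]

theorem latCurve_nonsingular {z : ℂ} (hz : z ∉ (perPair τ).lattice) :
    (latCurve τ).Nonsingular (wp τ z) (℘'[perPair τ] z / 2) := by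
  refine (latCurve τ).equation_iff_nonsingular.mp ?_
  rw [WeierstrassCurve.Affine.equation_iff]
  simp only [latCurve, wp]
  linear_combination (perPair τ).derivWeierstrassP_sq z hz / 4

open scoped Classical in
/-- The parametrisation. -/
def latFun (z : ℂ) : (latCurve τ).Point :=
  if hz : z ∈ (perPair τ).lattice then 0 else .some _ _ (latCurve_nonsingular τ hz)

theorem latFun_eq_zero_iff {z : ℂ} : latFun τ z = 0 ↔ z ∈ (perPair τ).lattice := by
  unfold latFun
  split_ifs with h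
  · exact iff_of_true rfl h
  · exact iff_of_false (fun e ↦ by cases e) h

theorem latFun_add_coe (z : ℂ) {l : ℂ} (hl : l ∈ (perPair τ).lattice) :
    latFun τ (z + l) = latFun τ z := by
  by_cases hz : z ∈ (perPair τ).lattice
  · rw [(latFun_eq_zero_iff τ).mpr (add_mem hz hl), (latFun_eq_zero_iff τ).mpr hz]
  · have hzl : z + l ∉ (perPair τ).lattice := fun h ↦ hz (by simpa using sub_mem h hl)
    rw [latFun, latFun, dif_neg hzl, dif_neg hz]
    have e1 := (perPair τ).weierstrassP_add_coe z ⟨l, hl⟩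
    have e2 := (perPair τ).derivWeierstrassP_add_coe z ⟨l, hl⟩
    simp only [wp, e1, e2]

theorem latFun_neg (z : ℂ) : latFun τ (-z) = -latFun τ z := by
  by_cases hz : z ∈ (perPair τ).lattice
  · rw [(latFun_eq_zero_iff τ).mpr (neg_mem hz), (latFun_eq_zero_iff τ).mpr hz]
    exact neg_zero.symm
  · have hzn : -z ∉ (perPair τ).lattice := fun h ↦ hz (by simpa using neg_mem h)
    rw [latFun, latFun, dif_neg hzn, dif_neg hz, WeierstrassCurve.Affine.Point.neg_some]
    simp only [wp, weierstrassP_neg, derivWeierstrassP_neg]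
    congr 1
    simp only [WeierstrassCurve.Affine.negY, latCurve]
    ring

/-- Additivity away from the exceptional pairs. -/
theorem latFun_add_generic {z w : ℂ} (hz : z ∉ (perPair τ).lattice) (hw : w ∉ (perPair τ).lattice)
    (hc : z + w ∉ (perPair τ).lattice) (h2 : z - w ∉ (perPair τ).lattice) :
    latFun τ (z + w) = latFun τ z + latFun τ w := by
  have hinj : ∀ a b : ℂ, a ∉ (perPair τ).lattice → b ∉ (perPair τ).lattice →
      ℘[perPair τ] a = ℘[perPair τ] b → a - b ∈ (perPair τ).lattice ∨ a + b ∈ (perPair τ).lattice :=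
    fun a b ha hb h ↦ (GoodModel.wp_eq_iff ha hb).mp h
  have hne : wp τ z ≠ wp τ w := fun h ↦ (hinj z w hz hw h).elim h2 hc
  have hX := chordX_eq (c := z + w) hz (by simpa using hw) hc
    (by convert h2 using 2; ring) hinj
  simp only [add_sub_cancel_left] at hX
  have hY := chordY_eq hz hw hc h2 hinj
  rw [latFun, latFun, latFun, dif_neg hc, dif_neg hz, dif_neg hw,
    WeierstrassCurve.Affine.Point.add_of_X_ne hne, WeierstrassCurve.Affine.Point.some.injEq,
    WeierstrassCurve.Affine.slope_of_X_ne hne]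
  have hd : ℘[perPair τ] z - ℘[perPair τ] w ≠ 0 := sub_ne_zero.mpr hne
  constructor
  · rw [wp, ← hX]
    simp only [WeierstrassCurve.Affine.addX, latCurve, chordX, chord, wp]
    field_simp
    ring
  · rw [hY]
    simp only [WeierstrassCurve.Affine.addY, WeierstrassCurve.Affine.negAddY,
      WeierstrassCurve.Affine.negY, WeierstrassCurve.Affine.addX, latCurve, chordX, chord, wp]
    field_simp
    ring

theorem latFun_add (z w : ℂ) : latFun τ (z + w) = latFun τ z + latFun τ w := by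
  classical
  set Λ := (perPair τ).lattice
  have h0 : ∀ {x : ℂ}, x ∈ Λ → latFun τ x = 0 := fun h ↦ (latFun_eq_zero_iff τ).mpr h
  by_cases hw : w ∈ Λ
  · rw [latFun_add_coe τ z hw, h0 hw, add_zero]
  by_cases hz : z ∈ Λ
  · rw [add_comm z w, latFun_add_coe τ w hz, h0 hz, zero_add]
  by_cases hc : z + w ∈ Λ
  · have e : latFun τ w = latFun τ (-z) := by
      rw [show w = -z + (z + w) by ring, latFun_add_coe τ (-z) hc]
    rw [h0 hc, e, latFun_neg, add_neg_cancel]
  by_cases h2 : z - w ∈ Λ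
  swap
  · exact latFun_add_generic τ hz hw hc h2
  -- doubling through a generic auxiliary point
  have e : latFun τ w = latFun τ z := by
    conv_lhs => rw [show w = z + -(z - w) by ring]
    exact latFun_add_coe τ z (neg_mem h2)
  have ezw : latFun τ (z + w) = latFun τ (z + z) := by
    conv_lhs => rw [show z + w = z + z + -(z - w) by ring]
    exact latFun_add_coe τ (z + z) (neg_mem h2)
  rw [ezw, e]
  have hzz : z + z ∉ Λ := fun h ↦ hc (by convert sub_mem h h2 using 1; ring)
  have hcount : (Λ : Set ℂ).Countable :=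
    Set.countable_coe_iff.mp (inferInstance : Countable Λ)
  obtain ⟨d, hd⟩ : ∃ d : ℂ, d ∉ ((Λ : Set ℂ) ∪ (fun l ↦ l - z) '' Λ ∪ (fun l ↦ z - l) '' Λ ∪
      (fun l ↦ l / 2) '' Λ) := by
    exact (Set.Countable.isConnected_compl_of_one_lt_rank (by simp)
      (((hcount.union (hcount.image _)).union (hcount.image _)).union (hcount.image _))).nonempty
  simp only [Set.mem_union, Set.mem_image, SetLike.mem_coe, not_or, not_exists, not_and] at hd
  obtain ⟨⟨⟨hd0, hd1⟩, hd2⟩, hd3⟩ := hd
  have p1 : z + d ∉ Λ := fun h ↦ hd1 _ h (by ring)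
  have p2 : z - d ∉ Λ := fun h ↦ hd2 _ h (by ring)
  have g1 : latFun τ ((z + d) + (z - d)) = latFun τ (z + d) + latFun τ (z - d) :=
    latFun_add_generic τ p1 p2 (by rwa [show z + d + (z - d) = z + z by ring])
      (fun h ↦ hd3 _ h (by ring))
  have g2 : latFun τ (z + d) = latFun τ z + latFun τ d := latFun_add_generic τ hz hd0 p1 p2
  have g3 : latFun τ (z + -d) = latFun τ z + latFun τ (-d) :=
    latFun_add_generic τ hz (fun h ↦ hd0 (by simpa using neg_mem h))
      (by rwa [← sub_eq_add_neg]) (by rwa [sub_neg_eq_add])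
  rw [show z + d + (z - d) = z + z by ring, g2, show z - d = z + -d by ring, g3, latFun_neg] at g1
  rw [g1]
  abel

/-- The parametrisation as a homomorphism. -/
def latHom : ℂ →+ (latCurve τ).Point :=
  AddMonoidHom.mk' (latFun τ) (latFun_add τ)

theorem latHom_eq_zero_iff {z : ℂ} : latHom τ z = 0 ↔ z ∈ (perPair τ).lattice :=
  latFun_eq_zero_iff τ

theorem latHom_of_not_mem {z : ℂ} (hz : z ∉ (perPair τ).lattice) :
    ∃ (y : ℂ) (h : (latCurve τ).Nonsingular (wp τ z) y), latHom τ z = .some _ _ h := by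
  refine ⟨_, latCurve_nonsingular τ hz, ?_⟩
  show latFun τ z = _
  rw [latFun, dif_neg hz]

end Hom

end FLTAgent.Mazur
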