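import Fermat.Agent.Mazur.PointPlace
import Fermat.Prelude.Def_FLTPrelim_GaloisRep

/-!
# The rational point of `X₀(p)` of a curve with a Galois-stable line
-/

set_option autoImplicit false
set_option linter.style.haveILetI false
set_option maxHeartbeats 1000000
set_option synthInstance.maxHeartbeats 400000

noncomputable section

open UpperHalfPlane hiding I I_re I_im
open Filter Topology Complex Function CongruenceSubgroup ModularCurve IntermediateField AlgebraicCurve
open WeierstrassCurve.Affine (Point)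
open FLTAgent.X0Fn (Cos XF jF iota cuspEmb pointEmb)
open FLTAgent.Curves (OrdGE)
open FLTAgent.ES (jfun e4 e6 dlt)
open scoped MatrixGroups Manifold WeierstrassCurve.Affine

namespace FLTAgent.Mazur

local notation "QA" => AlgebraicClosure ℚ
local notation "GG" => (AlgebraicClosure ℚ ≃ₐ[ℚ] AlgebraicClosure ℚ)

/-- The curve over an extension of `ℚ`. -/
abbrev curveOver (W : WeierstrassCurve ℤ) (K : Type) [Field K] [Algebra ℚ K] :
    WeierstrassCurve.Affine K :=
  (W.map (Int.castRingHom ℚ))⁄K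

theorem curveOver_eq (W : WeierstrassCurve ℤ) (K : Type) [Field K] [Algebra ℚ K] :
    curveOver W K = W.map (Int.castRingHom K) := by
  show (W.map (Int.castRingHom ℚ)).map (algebraMap ℚ K) = _
  rw [WeierstrassCurve.map_map, RingHom.eq_intCast' ((algebraMap ℚ K).comp (Int.castRingHom ℚ))]

theorem xOf_map {W : WeierstrassCurve ℤ} {K L : Type} [Field K] [Field L] [DecidableEq K]
    [DecidableEq L] [Algebra ℚ K] [Algebra ℚ L] (f : K →ₐ[ℚ] L) (P : (curveOver W K).Point) :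
    xOf (Point.map f P) = f (xOf P) := by
  rcases P with _ | ⟨x, y, h⟩
  · exact (map_zero f).symm
  · rfl

theorem eq_or_eq_neg_of_xOf_eq {K : Type} [Field K] [DecidableEq K]
    {E : WeierstrassCurve.Affine K} {P Q : E.Point} (hP : P ≠ 0) (hQ : Q ≠ 0)
    (h : xOf P = xOf Q) : P = Q ∨ P = -Q := by
  rcases P with _ | ⟨x, y, hxy⟩
  · exact absurd rfl hP
  rcases Q with _ | ⟨x', y', hxy'⟩
  · exact absurd rfl hQ
  exact WeierstrassCurve.Affine.Point.X_eq_iff.mp h

variable {p : ℕ} [Fact p.Prime]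

/-- The series of `gF (0, u)` over `ℚ̄`. -/
def gX (ζ : QAˣ) (u : (ZMod p)ˣ) : LaurentSeries QA :=
  HahnSeries.ofPowerSeries ℤ QA (gP ζ ((0 : ZMod p), (u : ZMod p))) * qExpand QA p (jqModC QA)

/-- The value of `gF (0, u)` at the point of a curve. -/
def gVal (W : WeierstrassCurve ℤ) (Q : (curveOver W QA).Point) (u : (ZMod p)ˣ) : QA :=
  (W.c₄ : QA) ^ 2 / (W.Δ : QA) *
    (xOf ((u : ZMod p).val • Q) - xOf ((2 * (u : ZMod p)).val • Q)) ^ 2

theorem exists_good_root (κ : QA →+* ℂ) :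
    ∃ ζ : QAˣ, GoodRoot p ζ ∧ Units.map (κ : QA →* ℂ) ζ = GoodModel.zetaN p := by
  have hp : p.Prime := Fact.out
  haveI : NeZero (p : QA) := ⟨Nat.cast_ne_zero.mpr hp.ne_zero⟩
  obtain ⟨z, hz⟩ := HasEnoughRootsOfUnity.exists_primitiveRoot QA p
  have hzc : IsPrimitiveRoot (κ z) p := hz.map_of_injective κ.injective
  obtain ⟨i, -, hi⟩ := hzc.eq_pow_of_pow_eq_one (ξ := ((GoodModel.zetaN p : ℂˣ) : ℂ))
    (by rw [← Units.val_pow_eq_pow_val,
      (GoodModel.zetaN_primitive (N := p)).pow_eq_one, Units.val_one])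
  obtain ⟨ζ, hζ⟩ : IsUnit (z ^ i) := (hz.isUnit hp.ne_zero).pow i
  have he : Units.map (κ : QA →* ℂ) ζ = GoodModel.zetaN p := Units.ext (by
    rw [Units.coe_map, MonoidHom.coe_coe, hζ, map_pow, hi])
  refine ⟨ζ, ⟨Units.ext (by rw [Units.val_pow_eq_pow_val, hζ, ← pow_mul, mul_comm, pow_mul,
    hz.pow_eq_one, one_pow, Units.val_one]), fun j hj ↦ ?_⟩, he⟩
  have h := (zetaN_good (p := p)).isUnit_sub j hj
  rw [← he, ← map_zpow, Units.coe_map, MonoidHom.coe_coe, ← map_one κ, ← map_sub] at h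
  exact isUnit_iff_ne_zero.mpr fun h0 ↦ h.ne_zero (by rw [h0, map_zero])

set_option maxHeartbeats 4000000 in
/-- The point of `X₀(p)` attached to a Galois-stable line of order `p`. -/
theorem exists_point (hp : 5 ≤ p) (κ : QA →+* ℂ) {ζ : QAˣ} (hζ : GoodRoot p ζ)
    (hκ : Units.map (κ : QA →* ℂ) ζ = GoodModel.zetaN p)
    (W : WeierstrassCurve ℤ) (hΔ : W.Δ ≠ 0) (hc4 : W.c₄ ≠ 0) (hc6 : W.c₆ ≠ 0)
    (Q : (curveOver W QA).Point) (hQ : addOrderOf Q = p)
    (hstab : ∀ σ : GG, ∃ k : ℕ, σ • Q = k • Q) :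
    ∃ x : Place QA (XF QA p),
      (∀ σ : GG, arithmeticGalois (modularFunctionFieldFull p) σ • x = x) ∧
      0 < x.ord (jF QA p -
        algebraMap QA (XF QA p) (algebraMap ℚ QA ((W.c₄ : ℚ) ^ 3 / W.Δ))) ∧
      ∀ z : XF QA p, qExpand QA p (z : LaurentSeries QA) = ∏ u : (ZMod p)ˣ, gX ζ u →
        OrdGE x 1 (z - algebraMap QA (XF QA p) (∏ u : (ZMod p)ˣ, gVal W Q u)) := by
  classical
  have hpp : p.Prime := Fact.out
  haveI : IsAlgClosed QA := inferInstance
  let κ' : QA →ₐ[ℚ] ℂ := κ.toRatAlgHom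
  have hκ' : ∀ z, κ' z = κ z := fun z ↦ rfl
  haveI : (curveOver W QA).IsElliptic := ⟨isUnit_iff_ne_zero.mpr (by
    rw [curveOver_eq, WeierstrassCurve.map_Δ]; simpa using hΔ)⟩
  haveI : (curveOver W ℂ).IsElliptic := ⟨isUnit_iff_ne_zero.mpr (by
    rw [curveOver_eq, WeierstrassCurve.map_Δ]; simpa using hΔ)⟩
  have hC4 : (curveOver W ℂ).c₄ = (W.c₄ : ℂ) := by rw [curveOver_eq, WeierstrassCurve.map_c₄]; rfl
  have hC6 : (curveOver W ℂ).c₆ = (W.c₆ : ℂ) := by rw [curveOver_eq, WeierstrassCurve.map_c₆]; rfl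
  have hCΔ : (curveOver W ℂ).Δ = (W.Δ : ℂ) := by rw [curveOver_eq, WeierstrassCurve.map_Δ]; rfl
  set P : (curveOver W ℂ).Point := Point.map κ' Q with hP
  have hpQ : p • Q = 0 := hQ ▸ addOrderOf_nsmul_eq_zero Q
  have hQ0 : Q ≠ 0 := fun h ↦ by rw [h, addOrderOf_zero] at hQ; omega
  obtain ⟨τ, s, e, hs, hs4, hj, heinj, hrange, he1, hx⟩ :=
    exists_uniformization (E := curveOver W ℂ) hpp (by rw [hC4]; exact_mod_cast hc4)
      (by rw [hC6]; exact_mod_cast hc6) (P := P) (by rw [hP, ← map_nsmul, hpQ, map_zero])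
      (fun h ↦ hQ0 (WeierstrassCurve.Affine.Point.map_injective κ'
        (by rw [← hP, h, map_zero])))
  -- the torsion over `ℚ̄`
  have hsurj : ∀ v, ∃ R : (curveOver W QA).Point, Point.map κ' R = e v := by
    have hA := FLTAgent.Torsion.card_ker_nsmul (W := (curveOver W QA)) (n := p)
      (Nat.cast_ne_zero.mpr hpp.ne_zero)
    have hB := FLTAgent.Torsion.card_ker_nsmul (W := (curveOver W ℂ)) (n := p)
      (Nat.cast_ne_zero.mpr hpp.ne_zero)
    haveI : Finite {R : (curveOver W ℂ).Point // p • R = 0} :=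
      Nat.finite_of_card_ne_zero (by rw [hB]; exact pow_ne_zero 2 hpp.ne_zero)
    let f : {R : (curveOver W QA).Point // p • R = 0} → {R : (curveOver W ℂ).Point // p • R = 0} := fun R ↦
      ⟨Point.map κ' R.1, by rw [← map_nsmul, R.2, map_zero]⟩
    have hb := (Nat.bijective_iff_injective_and_card f).mpr
      ⟨fun a b h ↦ Subtype.ext (WeierstrassCurve.Affine.Point.map_injective κ'
        (congrArg Subtype.val h)), by rw [hA, hB]⟩
    intro v
    obtain ⟨R, hR⟩ := hb.2 ⟨e v, by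
      rw [← map_nsmul, show p • v = 0 from Prod.ext (by simp) (by simp), map_zero]⟩
    exact ⟨R.1, congrArg Subtype.val hR⟩
  choose g hg using hsurj
  have hminj : Injective (Point.map (W' := W.map (Int.castRingHom ℚ)) κ') :=
    WeierstrassCurve.Affine.Point.map_injective κ'
  let e' : ZMod p × ZMod p →+ (curveOver W QA).Point := AddMonoidHom.mk' g fun v w ↦ hminj (by
    rw [map_add, hg, hg, hg, map_add])
  have he' : ∀ v, Point.map κ' (e' v) = e v := hg
  have he'inj : Injective e' := fun v w h ↦ heinj (by rw [← he', ← he', h])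
  have he'1 : e' (0, 1) = Q := hminj (by rw [he', he1, hP])
  have he'u : ∀ u : ZMod p, e' (0, u) = u.val • Q := fun u ↦ by
    rw [← he'1, ← map_nsmul]
    congr 1
    ext <;> simp
  have he'range : ∀ R : (curveOver W QA).Point, p • R = 0 → R ∈ Set.range e' := fun R hR ↦ by
    obtain ⟨v, hv⟩ := hrange (Point.map κ' R) (by rw [← map_nsmul, hR, map_zero])
    exact ⟨v, hminj (by rw [he', hv])⟩
  have hxv : ∀ v : ZMod p × ZMod p, v ≠ 0 →
      κ (xOf (e' v)) + (curveOver W ℂ).b₂ / 12 =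
        s * (GoodModel.wv p (liftV v).1 (liftV v).2 τ / (2 * Real.pi * I) ^ 2) := by
    intro v hv
    rw [← hκ', ← xOf_map, he']
    refine Eq.trans ?_ (hx (liftV v).1 (liftV v).2 (nz_liftV hv))
    simp [liftV]
  have hdF : ∀ v w : ZMod p × ZMod p, v ≠ 0 → w ≠ 0 →
      s * dF v w τ = κ (xOf (e' v)) - κ (xOf (e' w)) := by
    intro v w hv hw
    have h1 := hxv v hv
    have h2 := hxv w hw
    rw [dF, GoodModel.wdiff, sub_div, mul_sub]
    linear_combination -h1 + h2
  have hd := FLTAgent.ES.dlt_ne_zero τ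
  have hCΔ0 : (W.Δ : ℂ) ≠ 0 := by exact_mod_cast hΔ
  have hC40 : (W.c₄ : ℂ) ≠ 0 := by exact_mod_cast hc4
  have hC60 : (W.c₆ : ℂ) ≠ 0 := by exact_mod_cast hc6
  rw [hC4, hCΔ] at hj
  rw [hC4] at hs4
  have h40 : e4 τ ≠ 0 := fun h ↦ hC40 (by rw [hs4, h, mul_zero])
  have hΔs : (W.Δ : ℂ) = s ^ 6 * dlt τ := by
    rw [jfun, div_eq_div_iff hCΔ0 hd, hs4] at hj
    refine mul_left_cancel₀ (pow_ne_zero 3 h40) ?_
    linear_combination -hj
  obtain ⟨ε, hε0, hε⟩ : ∃ ε : ℚ, ε ≠ 0 ∧ (ε : ℂ) = s ^ 3 * e6 τ := by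
    have hrel : (W.c₆ : ℂ) ^ 2 = (s ^ 3 * e6 τ) ^ 2 := by
      have h1 := (curveOver W ℂ).c_relation
      rw [hC4, hC6, hCΔ] at h1
      have h2 := FLTAgent.ES.dlt_eq τ
      rw [hs4, hΔs] at h1
      linear_combination h1 - 1728 * s ^ 6 * h2
    rcases eq_or_eq_neg_of_sq_eq_sq _ _ hrel with h | h
    · exact ⟨(W.c₆ : ℚ), by exact_mod_cast hc6, by rw [← h]; push_cast; rfl⟩
    · exact ⟨-(W.c₆ : ℚ), by simpa using hc6, by rw [Rat.cast_neg, Rat.cast_intCast, h, neg_neg]⟩
  set r : ℚ := ε * W.c₄ / W.Δ with hr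
  have hr0 : r ≠ 0 := by
    rw [hr]
    exact div_ne_zero (mul_ne_zero hε0 (by exact_mod_cast hc4)) (by exact_mod_cast hΔ)
  set hv : ZMod p × ZMod p → QA := fun v ↦ (algebraMap ℚ QA r) *
    ∑ w ∈ Finset.univ.erase (0 : ZMod p × ZMod p), (xOf (e' v) - xOf (e' w)) with hhv
  have hhF : ∀ v : ZMod p × ZMod p, v ≠ 0 → κ (hv v) = hF v τ := by
    intro v hv0
    simp only [hhv, map_mul, map_sum, map_sub, hF]
    rw [show κ (algebraMap ℚ QA r) = (r : ℂ) by rw [eq_ratCast, map_ratCast]]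
    rw [Finset.sum_congr rfl fun w hw ↦ (hdF v w hv0 (Finset.ne_of_mem_erase hw)).symm,
      ← Finset.mul_sum, hr]
    push_cast
    rw [hε, hΔs, hs4]
    field_simp
  -- the place
  set a : QA := algebraMap ℚ QA ((W.c₄ : ℚ) ^ 3 / W.Δ) with ha_def
  have ha : κ a = jfun τ := by
    rw [← hj, ha_def, eq_ratCast, map_ratCast]
    push_cast
    rfl
  have ha0 : a ≠ 0 := fun h ↦ by
    rw [h, map_zero] at ha
    exact mul_ne_zero (pow_ne_zero 3 h40) (inv_ne_zero hd) (by
      rw [← div_eq_mul_inv]; exact ha.symm)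
  have ha1728 : a ≠ 1728 := fun h ↦ by
    have h1 := (curveOver W ℂ).c_relation
    rw [hC4, hC6, hCΔ] at h1
    rw [← hj, h, map_ofNat, eq_div_iff hCΔ0] at ha
    exact pow_ne_zero 2 hC60 (by linear_combination h1 - ha)
  obtain ⟨Pl, hPlinj, hPliff, hPlval⟩ := exists_point_places (p := p) κ τ ha ha0 ha1728
  set x := Pl ((1 : SL(2, ℤ)) : Cos p) with hxdef
  have hxord : 0 < x.ord (jF QA p - algebraMap QA (XF QA p) a) := (hPliff x).mpr ⟨_, rfl⟩
  refine ⟨x, fun σ ↦ ?_, hxord, fun z hz ↦ ?_⟩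
  swap
  · rw [hxdef, hPlval]
    obtain ⟨z', hz', hval, -⟩ := (gFam κ hζ hκ (by omega)).exists_fn
    have : z = z' := Subtype.ext (qExpand_injective p (by rw [hz, hz']; rfl))
    subst this
    obtain ⟨h1, h2⟩ := hval τ 1
    refine ⟨h1, ?_⟩
    rw [h2, inv_one, one_smul, Fam.prod, map_prod]
    refine Finset.prod_congr rfl fun u _ ↦ ?_
    have hu := unit_vec_ne_zero u
    show gF _ τ = _
    simp only [gVal, gF, map_mul, map_pow, map_div₀, map_sub, map_intCast]
    rw [← he'u, ← he'u, show ((0 : ZMod p), 2 * (u : ZMod p)) =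
      ((2 * ((0 : ZMod p), (u : ZMod p)).1), 2 * ((0 : ZMod p), (u : ZMod p)).2) by simp,
      ← hdF _ _ hu (two_mul_ne_zero' (by omega) hu)]
    rw [hs4, hΔs]
    field_simp
  -- the Galois action on the torsion
  obtain ⟨k, hk⟩ := hstab σ
  have hMex : ∀ v, ∃ w, e' w = σ • e' v := fun v ↦ he'range _ (by
    rw [WeierstrassCurve.Affine.Point.algEquiv_smul_def, ← map_nsmul, ← map_nsmul,
      show p • v = 0 from Prod.ext (by simp) (by simp), map_zero, map_zero])
  choose M hM using hMex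
  have hMinj : Injective M := fun v w h ↦ he'inj
    (MulAction.injective σ (show σ • e' v = σ • e' w by rw [← hM, h, hM]))
  have hM0 : M 0 = 0 := he'inj (by rw [hM, map_zero, WeierstrassCurve.Affine.Point.algEquiv_smul_def, map_zero])
  have hMu : ∀ u : ZMod p, M (0, u) = (0, (k : ZMod p) * u) := fun u ↦ he'inj (by
    rw [hM, he'u, WeierstrassCurve.Affine.Point.algEquiv_smul_def, map_nsmul,
      ← WeierstrassCurve.Affine.Point.algEquiv_smul_def, hk, ← he'1, ← map_nsmul, ← map_nsmul]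
    congr 1
    ext <;> simp [mul_comm])
  have hk0 : (k : ZMod p) ≠ 0 := fun h ↦ by
    have := hMu 1
    rw [h, zero_mul] at this
    exact one_ne_zero (congrArg Prod.snd (hMinj (this.trans hM0.symm)))
  have hσx : ∀ v, σ (xOf (e' v)) = xOf (e' (M v)) := fun v ↦ by
    rw [hM]
    exact (xOf_map σ.toAlgHom _).symm
  have hσh : ∀ v, σ (hv v) = hv (M v) := by
    intro v
    simp only [hhv, map_mul, map_sum, map_sub, AlgEquiv.commutes, hσx]
    congr 1
    refine Finset.sum_equiv (Equiv.ofBijective M ⟨hMinj, (Finite.injective_iff_surjective.mp hMinj)⟩)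
      (fun w ↦ ?_) fun w _ ↦ rfl
    simp only [Finset.mem_erase, Finset.mem_univ, and_true, Equiv.ofBijective_apply, ne_eq]
    refine not_congr ⟨fun h ↦ ?_, fun h ↦ hMinj (h.trans hM0.symm)⟩
    show M w = 0
    rw [h, hM0]
  -- the action on the series
  obtain ⟨c, hcz, hc⟩ : ∃ c : ZMod p, c ≠ 0 ∧
      Units.map ((σ : QA →+* QA) : QA →* QA) ζ = ζ ^ c.val := by
    have hprim : IsPrimitiveRoot (ζ : QA) p := by
      refine IsPrimitiveRoot.of_map_of_injective (f := κ) ?_ κ.injective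
      have := congrArg (fun u : ℂˣ ↦ (u : ℂ)) hκ
      simp only [Units.coe_map, MonoidHom.coe_coe] at this
      rw [this]
      exact IsPrimitiveRoot.coe_units_iff.mpr (GoodModel.zetaN_primitive (N := p))
    obtain ⟨i, hi, hi'⟩ := hprim.eq_pow_of_pow_eq_one (ξ := σ (ζ : QA))
      (by rw [← map_pow, hprim.pow_eq_one, map_one])
    refine ⟨(i : ZMod p), fun h ↦ ?_, Units.ext ?_⟩
    · have : i = 0 := by
        have := congrArg ZMod.val h
        rwa [ZMod.val_natCast, ZMod.val_zero, Nat.mod_eq_of_lt hi] at this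
      rw [this, pow_zero] at hi'
      exact hprim.ne_one hpp.one_lt (σ.injective (by rw [← hi', map_one]))
    · rw [Units.coe_map, Units.val_pow_eq_pow_val, ZMod.val_natCast, Nat.mod_eq_of_lt hi, hi']
      rfl
  have hzfix : ∀ t : ℕ, ∀ z : XF QA p,
      qExpand QA p (z : LaurentSeries QA) =
          ∏ u : (ZMod p)ˣ, (hFam κ hζ hκ t).X (0, (u : ZMod p)) →
        arithmeticGalois (modularFunctionFieldFull p) σ • z = z := by
    intro t z hz
    refine Subtype.ext (qExpand_injective p ?_)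
    rw [coe_arithmeticGalois_smul, ← coeffMap_qExpand, hz, map_prod]
    refine Finset.prod_equiv (Equiv.mulLeft (Units.mk0 c hcz)) (fun _ ↦ by simp) fun u _ ↦ ?_
    show coeffMap _ (HahnSeries.C (t : QA) - _ * _) = HahnSeries.C (t : QA) - _ * _
    rw [map_sub, map_mul, coeffMap_ofPowerSeries, coeffMap_qExpand, coeffMap_jqModC,
      ModEq.coeffMap_C, map_natCast, map_hP hζ _ (unit_vec_ne_zero u), hc, hP_pow hζ.pow_eq hcz]
    simp [twV]
  -- values
  have hprod : ∀ (t : ℕ) (g : SL(2, ℤ)), (hFam κ hζ hκ t).prod (g • τ) =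
      ∏ u : (ZMod p)ˣ, ((t : ℂ) - κ (hv (vact (0, (u : ZMod p)) g))) := fun t g ↦ by
    rw [Fam.prod_smul]
    refine Finset.prod_congr rfl fun u _ ↦ ?_
    rw [hhF _ (vact_ne_zero (unit_vec_ne_zero u) g)]
    rfl
  set x' := arithmeticGalois (modularFunctionFieldFull p) σ • x with hx'
  obtain ⟨q, hq⟩ := (hPliff x').mp (by
    have h := SemilinearAut.ord_smul (arithmeticGalois (modularFunctionFieldFull p) σ) x
      (jF QA p - algebraMap QA (XF QA p) a)
    rw [smul_sub, smul_jF, ha_def, smul_algebraMap_rat, ← ha_def] at h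
    rw [hx', h]
    exact hxord)
  obtain ⟨g, rfl⟩ := QuotientGroup.mk_surjective q
  have hvals : ∀ t : ℕ, ∏ u : (ZMod p)ˣ, ((t : ℂ) - κ (hv (0, (u : ZMod p)))) =
      ∏ u : (ZMod p)ˣ, ((t : ℂ) - κ (hv (vact (0, (u : ZMod p)) g⁻¹))) := by
    intro t
    obtain ⟨z, hz, hval, -⟩ := (hFam κ hζ hκ t).exists_fn
    set val : QA := ∏ u : (ZMod p)ˣ, ((t : QA) - hv (0, (u : ZMod p))) with hvaldef
    have hκval : κ val = ∏ u : (ZMod p)ˣ, ((t : ℂ) - κ (hv (0, (u : ZMod p)))) := by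
      simp [hvaldef]
    have h1 : OrdGE x 1 (z - algebraMap QA (XF QA p) val) := (hPlval _ _ _).mpr
      ⟨(hval τ 1).1, by rw [(hval τ 1).2, inv_one, hprod t 1, hκval]; simp [vact_one]⟩
    have hσval : σ val = val := by
      simp only [hvaldef, map_prod, map_sub, map_natCast, hσh, hMu]
      exact Fintype.prod_equiv (Equiv.mulLeft (Units.mk0 (k : ZMod p) hk0)) _ _ fun u ↦ by simp
    have h2 : OrdGE x' 1 (z - algebraMap QA (XF QA p) val) := by
      rcases h1 with h1 | h1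
      · exact Or.inl h1
      · refine Or.inr ?_
        have h := SemilinearAut.ord_smul (arithmeticGalois (modularFunctionFieldFull p) σ) x
          (z - algebraMap QA (XF QA p) val)
        rw [smul_sub, hzfix t z hz, SemilinearAut.smul_algebraMap, baseAut_arithmeticGalois] at h
        rw [show σ.toRingEquiv val = val from hσval] at h
        rw [hx', h]
        exact h1
    rw [← hq, hPlval, (hval τ g).2, hprod t g⁻¹, hκval] at h2
    exact h2.2.symm
  -- the coset is trivial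
  have hpoly : (∏ u : (ZMod p)ˣ, (Polynomial.X - Polynomial.C (κ (hv (0, (u : ZMod p)))))) =
      ∏ u : (ZMod p)ˣ, (Polynomial.X - Polynomial.C (κ (hv (vact (0, (u : ZMod p)) g⁻¹)))) := by
    refine Polynomial.eq_of_infinite_eval_eq _ _ (Set.Infinite.mono ?_
      (Set.infinite_range_of_injective (Nat.cast_injective (R := ℂ))))
    rintro _ ⟨t, rfl⟩
    simp only [Set.mem_setOf_eq, Polynomial.eval_prod, Polynomial.eval_sub, Polynomial.eval_X,
      Polynomial.eval_C]
    exact hvals t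
  obtain ⟨u, hu⟩ : ∃ u : (ZMod p)ˣ,
      κ (hv (0, 1)) = κ (hv (vact (0, (u : ZMod p)) g⁻¹)) := by
    have h := congrArg (Polynomial.eval (κ (hv (0, 1)))) hpoly
    simp only [Polynomial.eval_prod, Polynomial.eval_sub, Polynomial.eval_X,
      Polynomial.eval_C] at h
    rw [Finset.prod_eq_zero (Finset.mem_univ (1 : (ZMod p)ˣ)) (by simp), eq_comm,
      Finset.prod_eq_zero_iff] at h
    obtain ⟨u, -, hu⟩ := h
    exact ⟨u, sub_eq_zero.mp hu⟩
  set w := vact ((0 : ZMod p), (u : ZMod p)) g⁻¹ with hw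
  have hw0 : w ≠ 0 := vact_ne_zero (unit_vec_ne_zero u) _
  have hxeq : xOf (e' (0, 1)) = xOf (e' w) := by
    have h := κ.injective hu
    simp only [hhv, Finset.sum_sub_distrib, Finset.sum_const, nsmul_eq_mul] at h
    have hr' : algebraMap ℚ QA r ≠ 0 := by simpa using hr0
    have hcard : ((Finset.univ.erase (0 : ZMod p × ZMod p)).card : QA) ≠ 0 := by
      rw [Finset.card_erase_of_mem (Finset.mem_univ _), Finset.card_univ, Fintype.card_prod,
        ZMod.card, Nat.cast_ne_zero]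
      have : 2 ≤ p * p := by nlinarith
      omega
    exact mul_left_cancel₀ hcard (by linear_combination (mul_left_cancel₀ hr' h))
  have he'ne : ∀ v, v ≠ 0 → e' v ≠ 0 := fun v hv0 h ↦ hv0 (he'inj (by rw [h, map_zero]))
  have hw1 : w.1 = 0 := by
    rcases eq_or_eq_neg_of_xOf_eq (he'ne _ hw0) (he'ne (0, 1) (by simp)) hxeq.symm with h | h
    · exact congrArg Prod.fst (he'inj h)
    · rw [← map_neg] at h
      simpa using congrArg Prod.fst (he'inj h)
  have hg : g⁻¹ ∈ Gamma0 p := by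
    rw [Gamma0_mem]
    simp only [hw, vact, zero_mul, zero_add] at hw1
    exact (mul_eq_zero.mp hw1).resolve_left u.ne_zero
  show x' = x
  rw [← hq, hxdef]
  congr 1
  refine QuotientGroup.eq.mpr ?_
  rw [mul_one]
  exact hg

end FLTAgent.Mazur
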