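import Fermat.Agent.Mazur.PointPlace

/-!
# Every finite place of `X₀(p)` is seen by a point of the upper half plane
-/

set_option autoImplicit false
set_option linter.style.haveILetI false
set_option maxHeartbeats 1000000
set_option synthInstance.maxHeartbeats 400000

noncomputable section

open UpperHalfPlane hiding I I_re I_im
open Filter Topology Complex Function CongruenceSubgroup ModularCurve IntermediateField AlgebraicCurve
open FLTAgent.X0Fn (Cos XF jF pointEmb taylorAt jShift)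
open FLTAgent.Curves (OrdGE)
open FLTAgent.ModEq (GeOrd)
open FLTAgent.ES (jfun rhoPt)
open scoped MatrixGroups Manifold

namespace FLTAgent.Mazur

local notation "QA" => AlgebraicClosure ℚ

variable {p : ℕ} [Fact p.Prime]

theorem exists_emb_aux (κ : QA →+* ℂ) (a : QA) (τ : ℍ) (g : SL(2, ℤ)) (hg : g • τ = τ) (m : ℕ)
    (hm : 0 < m) (hord : (taylorAt τ (jShift (κ a))).order = m)
    (hμ : IsPrimitiveRoot (UpperHalfPlane.denom g (τ : ℂ) ^ (-2 : ℤ)) m)
    (v : Place QA (XF QA p)) (hv : 0 < v.ord (jF QA p - algebraMap QA (XF QA p) a)) :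
    ∃ (q : Cos p) (c : ℤ), 0 < c ∧ ∀ f, (pointEmb κ τ q f).order = c * v.ord f := by
  haveI := (X0Fn.isFunctionField_and_finrank (N := p) κ).1
  have ho := X0Fn.order_ofPowerSeries hord
  obtain ⟨P, -, hsurj, -, hc⟩ := Curves.exists_place_map_of_tame (pointEmb κ τ)
    (fun q c ↦ X0Fn.pointEmb_algebraMap κ τ q c) (X0Fn.pointEmb_injective κ τ)
    (X0Fn.finrank_shift κ a) (fun q ↦ X0Fn.point_T (N := p) κ τ q a) (by rw [ho]; exact_mod_cast hm)
    (by rw [ho]; exact_mod_cast hm.ne') (MulAction.toPerm g)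
    (fun q f ↦ X0Fn.point_order_smul κ hg q f) (fun q d hd f ↦ by
      rw [ho]
      refine X0Fn.point_dvd_order κ hg hμ ?_ f
      rwa [← MulAction.toPermHom_apply, ← map_pow, MulAction.toPermHom_apply,
        MulAction.toPerm_apply] at hd)
  obtain ⟨q, rfl⟩ := hsurj v hv
  obtain ⟨c, hc0, hc⟩ := hc q
  exact ⟨q, c, hc0, hc⟩

/-- A place with `j` finite gives the orders of the expansions at some point. -/
theorem exists_emb (κ : QA →+* ℂ) (v : Place QA (XF QA p)) (hv : 0 ≤ v.ord (jF QA p)) :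
    ∃ (τ : ℍ) (q : Cos p) (c : ℤ), 0 < c ∧ ∀ f, (pointEmb κ τ q f).order = c * v.ord f := by
  haveI := (X0Fn.isFunctionField_and_finrank (N := p) κ).1
  obtain ⟨a, ha⟩ := Curves.exists_residue v (Curves.ordGE_of_le hv)
  have hne : jF QA p - algebraMap QA (XF QA p) a ≠ 0 := fun h ↦
    X0Fn.transcendental_jF (N := p) κ (by rw [sub_eq_zero.mp h]; exact isAlgebraic_algebraMap a)
  have hpos : 0 < v.ord (jF QA p - algebraMap QA (XF QA p) a) := by
    have := ha.le_ord hne
    omega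
  obtain ⟨τ, hτ⟩ := X0Fn.exists_jfun_eq (κ a)
  by_cases h0 : a = 0
  · obtain ⟨q, c, hc, h⟩ := exists_emb_aux κ a rhoPt (ModularGroup.S * ModularGroup.T)
      FLTAgent.ES.rho_fixed 3 (by norm_num)
      (by rw [h0, map_zero]; exact X0Fn.order_taylor_rho) (by
        have h3 : (rhoPt : ℂ) ^ 3 = 1 := by
          linear_combination ((rhoPt : ℂ) - 1) * FLTAgent.ES.rhoPt_eq
        have h2 : (((rhoPt : ℂ) + 1) ^ 2)⁻¹ = (rhoPt : ℂ) ^ 2 := by
          rw [show ((rhoPt : ℂ) + 1) ^ 2 = (rhoPt : ℂ) by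
            linear_combination FLTAgent.ES.rhoPt_eq]
          exact inv_eq_of_mul_eq_one_right (by linear_combination h3)
        rw [FLTAgent.ES.denom_ST_rho, zpow_neg, zpow_ofNat, h2]
        exact FLTAgent.ES.rho_sq_primitive) v hpos
    exact ⟨_, q, c, hc, h⟩
  by_cases h1 : a = 1728
  · obtain ⟨q, c, hc, h⟩ := exists_emb_aux κ a UpperHalfPlane.I ModularGroup.S
      FLTAgent.ES.I_fixed 2 (by norm_num)
      (by rw [h1, map_ofNat]; exact X0Fn.order_taylor_I) (by
        rw [FLTAgent.ES.denom_S_I, zpow_neg, zpow_ofNat, Complex.I_sq, inv_neg_one]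
        exact IsPrimitiveRoot.neg_one 0 (by norm_num)) v hpos
    exact ⟨_, q, c, hc, h⟩
  have hgen : jfun τ ≠ 0 ∧ jfun τ ≠ 1728 := by
    rw [hτ]
    exact ⟨fun h ↦ h0 ((map_eq_zero κ).mp h),
      fun h ↦ h1 (κ.injective (by rw [h, map_ofNat]))⟩
  obtain ⟨q, c, hc, h⟩ := exists_emb_aux κ a τ 1 (one_smul _ _) 1 one_pos
    (by rw [← hτ, X0Fn.order_taylor_generic hgen]; rfl)
    (by simpa [ModularGroup.denom_apply] using IsPrimitiveRoot.one) v hpos
  exact ⟨τ, q, c, hc, h⟩

/-- A function with holomorphic translates is regular at the finite places. -/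
theorem ord_nonneg_of_geOrd (κ : QA →+* ℂ) {z : XF QA p}
    (h : ∀ (τ : ℍ) (q : Cos p), GeOrd (pointEmb κ τ q z) 0) (v : Place QA (XF QA p))
    (hv : 0 ≤ v.ord (jF QA p)) : 0 ≤ v.ord z := by
  obtain ⟨τ, q, c, hc, hord⟩ := exists_emb κ v hv
  rcases eq_or_ne z 0 with rfl | hz
  · simp
  have h1 : 0 ≤ (pointEmb κ τ q z).order := by
    by_contra hlt
    exact HahnSeries.coeff_order_eq_zero.not.mpr ((map_ne_zero (pointEmb κ τ q)).mpr hz)
      (h τ q _ (not_le.mp hlt))
  rw [hord] at h1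
  exact nonneg_of_mul_nonneg_right h1 hc

end FLTAgent.Mazur
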