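import Fermat.Agent.Mazur.PointSeries
import Fermat.Agent.X0Fn.Genus
import Fermat.Prelude.Def_ModularCurve_ArithmeticGalois

/-!
# The two cusps of `X₀(p)` and the places over a finite value of `j`
-/

set_option autoImplicit false
set_option linter.style.haveILetI false
set_option maxHeartbeats 1000000
set_option synthInstance.maxHeartbeats 400000

noncomputable section

open UpperHalfPlane hiding I I_re I_im
open Filter Topology Complex Function CongruenceSubgroup ModularCurve IntermediateField AlgebraicCurve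
open FLTAgent.X0Fn (Cos XF jF iota cuspEmb pointEmb taylorAt jShift)
open FLTAgent.Curves (OrdGE IsFunctionField zerosOf)
open FLTAgent.ModEq (GeOrd)
open FLTAgent.ES (jfun)
open scoped MatrixGroups Manifold

namespace FLTAgent.Mazur

local notation "QA" => AlgebraicClosure ℚ
local notation "GG" => (AlgebraicClosure ℚ ≃ₐ[ℚ] AlgebraicClosure ℚ)

variable {p : ℕ} [Fact p.Prime]

theorem coset_cases (q : Cos p) :
    q = ((1 : SL(2, ℤ)) : Cos p) ∨ ∃ k : ℕ, q = ModularGroup.T ^ k • (ModularGroup.S : Cos p) := by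
  induction q using QuotientGroup.induction_on with
  | H g =>
    by_cases hc : ((g 1 0 : ℤ) : ZMod p) = 0
    · exact Or.inl (QuotientGroup.eq.mpr (by
        rw [mul_one]; exact (Gamma0 p).inv_mem (Gamma0_mem.mpr hc)))
    · refine Or.inr ⟨(((g 0 0 : ℤ) : ZMod p) / ((g 1 0 : ℤ) : ZMod p)).val, ?_⟩
      set k := (((g 0 0 : ℤ) : ZMod p) / ((g 1 0 : ℤ) : ZMod p)).val with hk
      rw [MulAction.Quotient.smul_mk, smul_eq_mul]
      refine (QuotientGroup.eq.mpr ?_).symm
      rw [Gamma0_mem]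
      have hT : (↑((ModularGroup.T ^ k)⁻¹) : Matrix (Fin 2) (Fin 2) ℤ) = !![1, -(k : ℤ); 0, 1] := by
        rw [show (ModularGroup.T ^ k)⁻¹ = ModularGroup.T ^ (-(k : ℤ)) by
          rw [zpow_neg, zpow_natCast]]
        exact ModularGroup.coe_T_zpow _
      have hS : (↑(ModularGroup.S⁻¹) : Matrix (Fin 2) (Fin 2) ℤ) = !![0, 1; -1, 0] := by
        simp [ModularGroup.coe_S, Matrix.adjugate_fin_two]
      rw [mul_inv_rev]
      simp only [Matrix.SpecialLinearGroup.coe_mul, hT, hS, Matrix.mul_apply, Fin.sum_univ_two]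
      simp
      rw [hk, ZMod.natCast_zmod_val, div_mul_cancel₀ _ hc]
      ring

theorem finrank_XF (κ : QA →+* ℂ) :
    Module.finrank QA⟮jF QA p⟯ (XF QA p) = p + 1 := by
  have hp : p.Prime := Fact.out
  rw [(X0Fn.isFunctionField_and_finrank κ).2, ← Nat.card_eq_fintype_card,
    FLTAgent.ES.card_cosets_eq_psi p, dedekindPsi, hp.divisors,
    Finset.filter_true_of_mem, Finset.sum_pair hp.one_lt.ne, Nat.div_one, Nat.div_self hp.pos]
  intro d hd
  simp only [Finset.mem_insert, Finset.mem_singleton] at hd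
  rcases hd with rfl | rfl
  · exact squarefree_one
  · exact hp.squarefree

theorem cuspEmb_one (κ : QA →+* ℂ) (f : XF QA p) :
    cuspEmb κ ((1 : SL(2, ℤ)) : Cos p) f = iota (N := p) κ (f : LaurentSeries QA) := by
  have h : ∀ a : X0Fn.XA QA p, cuspEmb κ ((1 : SL(2, ℤ)) : Cos p) (X0Fn.incA QA p a) =
      iota (N := p) κ (a : LaurentSeries QA) := fun a ↦ by
    rw [X0Fn.cuspEmb_incA, X0Fn.cuspHom_apply, ← X0Fn.expW_toW, X0Fn.expW_apply]
    congr 1
    exact Subtype.ext (X0Fn.trans_one _)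
  obtain ⟨a, b, e⟩ := X0Fn.exists_incA_div f
  rw [e, map_div₀, h, h, ← map_div₀]
  rfl

theorem order_iota (κ : QA →+* ℂ) {x : LaurentSeries QA} :
    (iota (N := p) κ x).order = (p : ℤ) * x.order := by
  rcases eq_or_ne x 0 with rfl | hx
  · simp
  have h1 : iota (N := p) κ x ≠ 0 := (map_ne_zero_iff _ (X0Fn.iota_injective κ)).mpr hx
  have hp : (0 : ℤ) < p := by exact_mod_cast (Fact.out : p.Prime).pos
  have hc : ∀ k : ℤ, (iota (N := p) κ x).coeff ((p : ℤ) * k) = κ (x.coeff k) := fun k ↦ by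
    rw [iota, RingHom.comp_apply, qExpand_coeff_mul, coeffMap_coeff]
  refine le_antisymm (HahnSeries.order_le_of_coeff_ne_zero ?_) ?_
  · rw [hc, map_ne_zero]
    exact HahnSeries.coeff_order_eq_zero.not.mpr hx
  · by_contra hlt
    push Not at hlt
    have h2 := HahnSeries.coeff_order_eq_zero.not.mpr h1
    by_cases hd : (p : ℤ) ∣ (iota (N := p) κ x).order
    · obtain ⟨k, hk⟩ := hd
      rw [hk, hc, map_eq_zero] at h2
      have := HahnSeries.order_le_of_coeff_ne_zero h2
      nlinarith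
    · exact h2 (by
        rw [iota, RingHom.comp_apply] at hd ⊢
        exact qExpand_coeff_of_not_dvd p _ hd)

/-- The poles of `j`. -/
theorem exists_cusp_data (κ : QA →+* ℂ) :
    ∃ ci c0 : Place QA (XF QA p), (∀ v, v.ord (jF QA p) < 0 ↔ v = ci ∨ v = c0) ∧
      ci.ord (jF QA p) = -1 ∧ c0.ord (jF QA p) = -(p : ℤ) ∧
      (∀ f : XF QA p, ci.ord f = (f : LaurentSeries QA).order) ∧
      ∃ c : ℤ, 0 < c ∧ ∀ f, (cuspEmb κ (ModularGroup.S : Cos p) f).order = c * c0.ord f := by
  classical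
  haveI := (X0Fn.isFunctionField_and_finrank (N := p) κ).1
  have hp : p.Prime := Fact.out
  have hT : ∀ q : Cos p, cuspEmb κ q (jF QA p)⁻¹ = (iota (N := p) κ (coeffEmb QA jq))⁻¹ :=
    fun q ↦ by rw [map_inv₀, X0Fn.cuspEmb_jF]
  have ho : ((iota (N := p) κ (coeffEmb QA jq))⁻¹).order = (p : ℤ) := by
    rw [Curves.lord_inv, X0Fn.order_iota_jq, neg_neg]
  obtain ⟨P, hpos, hsurj, hiff, hord⟩ := Curves.exists_place_map_of_tame (cuspEmb κ)
    (fun q c ↦ X0Fn.cuspEmb_algebraMap κ q c) (X0Fn.cuspEmb_injective κ) (t := (jF QA p)⁻¹)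
    (by rw [Curves.adjoin_simple_inv_eq]; exact (X0Fn.isFunctionField_and_finrank κ).2.symm) hT
    (by rw [ho]; exact_mod_cast hp.pos) (by rw [ho]; exact_mod_cast hp.ne_zero)
    (MulAction.toPerm ModularGroup.T) (fun q f ↦ X0Fn.cusp_order_smul_T κ q f)
    (fun q d hd f ↦ by
      rw [ho]
      refine X0Fn.cusp_dvd_order κ ?_ f
      rwa [← MulAction.toPermHom_apply, ← map_pow, MulAction.toPermHom_apply,
        MulAction.toPerm_apply] at hd)
  set q1 : Cos p := ((1 : SL(2, ℤ)) : Cos p) with hq1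
  set qS : Cos p := (ModularGroup.S : Cos p) with hqS
  have hTq1 : ∀ k : ℕ, ModularGroup.T ^ k • q1 = q1 := fun k ↦ by
    rw [hq1, MulAction.Quotient.smul_mk, smul_eq_mul, mul_one]
    refine QuotientGroup.eq.mpr ?_
    rw [mul_one]
    exact (Gamma0 p).inv_mem ((Gamma0 p).pow_mem
      (Gamma0_mem.mpr (by simp [ModularGroup.coe_T])) k)
  have hne : P q1 ≠ P qS := fun h ↦ by
    obtain ⟨d, hd⟩ := ((hiff _ _).mp h).exists_nat_pow_eq
    rw [← MulAction.toPermHom_apply, ← map_pow, MulAction.toPermHom_apply, MulAction.toPerm_apply,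
      hTq1] at hd
    have := QuotientGroup.eq.mp hd
    rw [inv_one, one_mul, Gamma0_mem] at this
    simp [ModularGroup.coe_S] at this
  have hcases : ∀ q, P q = P q1 ∨ P q = P qS := fun q ↦ by
    rcases coset_cases q with rfl | ⟨k, rfl⟩
    · exact Or.inl rfl
    · refine Or.inr ((hiff _ _).mpr (Equiv.Perm.SameCycle.symm ⟨(k : ℤ), ?_⟩))
      rw [zpow_natCast, ← MulAction.toPermHom_apply, ← map_pow, MulAction.toPermHom_apply,
        MulAction.toPerm_apply]
  have hzeros : ∀ v, v.ord (jF QA p) < 0 ↔ v = P q1 ∨ v = P qS := fun v ↦ by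
    constructor
    · intro hv
      obtain ⟨q, rfl⟩ := hsurj v (by rw [v.ord_inv]; omega)
      exact hcases q
    · rintro (rfl | rfl)
      · have := hpos q1
        rw [(P q1).ord_inv] at this
        omega
      · have := hpos qS
        rw [(P qS).ord_inv] at this
        omega
  obtain ⟨c1, hc1, h1⟩ := hord q1
  obtain ⟨cS, hcS, hS⟩ := hord qS
  have hjq : (coeffEmb QA jq).order = -1 := by
    have h := X0Fn.order_iota_jq (N := p) κ
    rw [order_iota] at h
    have : (p : ℤ) ≠ 0 := by exact_mod_cast hp.ne_zero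
    refine mul_left_cancel₀ this (h.trans ?_)
    ring
  have hj1 : c1 = p ∧ (P q1).ord (jF QA p) = -1 := by
    obtain ⟨π, -, hπ⟩ := Curves.exists_uniformizer (P q1)
    have e1 := h1 π
    rw [hπ, mul_one, cuspEmb_one, order_iota] at e1
    have e2 := h1 (jF QA p)
    rw [X0Fn.cuspEmb_jF, X0Fn.order_iota_jq] at e2
    have hd : c1 ∣ (p : ℤ) := ⟨-(P q1).ord (jF QA p), by rw [mul_neg, ← e2, neg_neg]⟩
    have hpc : (p : ℤ) ∣ c1 := ⟨_, e1.symm⟩
    have hcp : c1 = p := Int.dvd_antisymm hc1.le (Int.natCast_nonneg p) hd hpc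
    subst hcp
    refine ⟨rfl, mul_left_cancel₀ hc1.ne' ?_⟩
    linarith
  have hzf : zerosOf QA (jF QA p)⁻¹ = {P q1, P qS} := by
    ext v
    rw [Curves.mem_zerosOf, v.ord_inv, Finset.mem_insert, Finset.mem_singleton, ← hzeros]
    omega
  have hjS : (P qS).ord (jF QA p) = -(p : ℤ) := by
    have h := Curves.sum_ord_zerosOf (K := QA)
      (Curves.transcendental_inv (X0Fn.transcendental_jF (N := p) κ))
    rw [hzf, Finset.sum_pair hne, (P q1).ord_inv, (P qS).ord_inv, hj1.2, Curves.adjoin_simple_inv_eq,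
      finrank_XF κ] at h
    push_cast at h
    omega
  refine ⟨P q1, P qS, hzeros, hj1.2, hjS, fun f ↦ ?_, cS, hcS, hS⟩
  have e := h1 f
  rw [cuspEmb_one, order_iota, hj1.1] at e
  have : (p : ℤ) ≠ 0 := by exact_mod_cast hp.ne_zero
  exact (mul_left_cancel₀ this e).symm

/-- An embedding of `ℚ̄` into `ℂ`. -/
def kappa0 : QA →+* ℂ :=
  haveI : Algebra.IsAlgebraic ℚ QA := AlgebraicClosure.isAlgebraic ℚ
  (IsAlgClosed.lift (R := ℚ) (M := ℂ) : QA →ₐ[ℚ] ℂ).toRingHom

variable (p) in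
/-- The cusp `∞`. -/
def cuspInf : Place QA (modularFunctionFieldBar p) := (exists_cusp_data (p := p) kappa0).choose

variable (p) in
/-- The cusp `0`. -/
def cuspZero : Place QA (modularFunctionFieldBar p) :=
  (exists_cusp_data (p := p) kappa0).choose_spec.choose

theorem ord_jF_neg_iff (v : Place QA (XF QA p)) :
    v.ord (jF QA p) < 0 ↔ v = cuspInf p ∨ v = cuspZero p :=
  (exists_cusp_data (p := p) kappa0).choose_spec.choose_spec.1 v

theorem ord_jF_cuspInf : (cuspInf p).ord (jF QA p) = -1 :=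
  (exists_cusp_data (p := p) kappa0).choose_spec.choose_spec.2.1

theorem ord_jF_cuspZero : (cuspZero p).ord (jF QA p) = -(p : ℤ) :=
  (exists_cusp_data (p := p) kappa0).choose_spec.choose_spec.2.2.1

theorem ord_cuspInf (f : XF QA p) : (cuspInf p).ord f = (f : LaurentSeries QA).order :=
  (exists_cusp_data (p := p) kappa0).choose_spec.choose_spec.2.2.2.1 f

theorem cuspInf_ne_cuspZero : cuspInf p ≠ cuspZero p := fun h ↦ by
  have h1 := ord_jF_cuspInf (p := p)
  rw [h, ord_jF_cuspZero] at h1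
  have := (Fact.out : p.Prime).one_lt
  omega

theorem exists_ord_cuspZero (κ : QA →+* ℂ) :
    ∃ c : ℤ, 0 < c ∧ ∀ f, (cuspEmb κ (ModularGroup.S : Cos p) f).order = c * (cuspZero p).ord f := by
  obtain ⟨ci, c0, hiff, -, h0, -, c, hc, hord⟩ := exists_cusp_data (p := p) κ
  have e : c0 = cuspZero p := by
    rcases (ord_jF_neg_iff c0).mp ((hiff c0).mpr (Or.inr rfl)) with h | h
    · rw [h, ord_jF_cuspInf] at h0
      have := (Fact.out : p.Prime).one_lt
      omega
    · exact h
  exact ⟨c, hc, fun f ↦ e ▸ hord f⟩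

theorem smul_jF (σ : GG) : arithmeticGalois (modularFunctionFieldFull p) σ • jF QA p = jF QA p :=
  Subtype.ext (coeffMap_coeffEmb σ jq)

theorem smul_algebraMap_rat (σ : GG) (r : ℚ) :
    arithmeticGalois (modularFunctionFieldFull p) σ •
      algebraMap QA (XF QA p) (algebraMap ℚ QA r) = algebraMap QA (XF QA p) (algebraMap ℚ QA r) := by
  rw [SemilinearAut.smul_algebraMap, baseAut_arithmeticGalois]
  congr 1
  exact σ.commutes r

theorem smul_cuspInf (σ : GG) :
    arithmeticGalois (modularFunctionFieldFull p) σ • cuspInf p = cuspInf p := by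
  set g := arithmeticGalois (modularFunctionFieldFull p) σ
  have h := SemilinearAut.ord_smul g (cuspInf p) (jF QA p)
  rw [smul_jF, ord_jF_cuspInf] at h
  rcases (ord_jF_neg_iff (g • cuspInf p)).mp (by omega) with e | e
  · exact e
  · rw [e, ord_jF_cuspZero] at h
    have := (Fact.out : p.Prime).one_lt
    omega

theorem smul_cuspZero (σ : GG) :
    arithmeticGalois (modularFunctionFieldFull p) σ • cuspZero p = cuspZero p := by
  set g := arithmeticGalois (modularFunctionFieldFull p) σ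
  have h := SemilinearAut.ord_smul g (cuspZero p) (jF QA p)
  rw [smul_jF, ord_jF_cuspZero] at h
  have := (Fact.out : p.Prime).one_lt
  rcases (ord_jF_neg_iff (g • cuspZero p)).mp (by omega) with e | e
  · rw [e, ord_jF_cuspInf] at h
    omega
  · exact e

/-- The places over a value of `j` other than `0, 1728`. -/
theorem exists_point_places (κ : QA →+* ℂ) (τ : ℍ) {a : QA} (ha : κ a = jfun τ) (h0 : a ≠ 0)
    (h1728 : a ≠ 1728) :
    ∃ P : Cos p → Place QA (XF QA p), Injective P ∧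
      (∀ v, 0 < v.ord (jF QA p - algebraMap QA (XF QA p) a) ↔ ∃ q, P q = v) ∧
      ∀ q z c, OrdGE (P q) 1 (z - algebraMap QA (XF QA p) c) ↔
        GeOrd (pointEmb κ τ q z) 0 ∧ (pointEmb κ τ q z).coeff 0 = κ c := by
  haveI := (X0Fn.isFunctionField_and_finrank (N := p) κ).1
  have hgen : jfun τ ≠ 0 ∧ jfun τ ≠ 1728 := by
    rw [← ha]
    exact ⟨fun h ↦ h0 ((map_eq_zero κ).mp h),
      fun h ↦ h1728 (κ.injective (by rw [h, map_ofNat]))⟩
  have hT : ∀ q, pointEmb κ τ q (jF QA p - algebraMap QA (XF QA p) a) =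
      HahnSeries.ofPowerSeries ℤ ℂ (taylorAt τ (jShift (κ a))) := fun q ↦ X0Fn.point_T κ τ q a
  have ho : (HahnSeries.ofPowerSeries ℤ ℂ (taylorAt τ (jShift (κ a)))).order = 1 :=
    X0Fn.order_ofPowerSeries (k := 1) (by rw [ha, X0Fn.order_taylor_generic hgen]; rfl)
  obtain ⟨P, hpos, hsurj, hiff, hord⟩ := Curves.exists_place_map_of_tame (pointEmb κ τ)
    (fun q c ↦ X0Fn.pointEmb_algebraMap κ τ q c) (X0Fn.pointEmb_injective κ τ)
    (X0Fn.finrank_shift κ a) hT (by rw [ho]; norm_num) (by rw [ho]; simp)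
    (Equiv.refl _) (fun q f ↦ rfl) (fun q d _ f ↦ by rw [ho]; exact one_dvd _)
  refine ⟨P, fun q q' h ↦ ?_,
    fun v ↦ ⟨hsurj v, fun ⟨q, hq⟩ ↦ hq ▸ hpos q⟩, fun q z c ↦ ?_⟩
  · obtain ⟨d, hd⟩ := ((hiff _ _).mp h).exists_nat_pow_eq
    rw [show (Equiv.refl (Cos p) : Equiv.Perm (Cos p)) = 1 from rfl, one_pow] at hd
    exact hd
  obtain ⟨m, hm, hmord⟩ := hord q
  have e : pointEmb κ τ q (z - algebraMap QA (XF QA p) c) =
      pointEmb κ τ q z - HahnSeries.C (κ c) := by
    rw [map_sub, X0Fn.pointEmb_algebraMap]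
  set Z := pointEmb κ τ q z
  have hC : ∀ k : ℤ, k ≠ 0 → (HahnSeries.C (κ c) : LaurentSeries ℂ).coeff k = 0 := fun k hk ↦
    HahnSeries.coeff_single_of_ne hk
  have hC0 : (HahnSeries.C (κ c) : LaurentSeries ℂ).coeff 0 = κ c := HahnSeries.coeff_single_same _ _
  constructor
  · intro h
    have hz : ∀ k : ℤ, k ≤ 0 → (Z - HahnSeries.C (κ c)).coeff k = 0 := fun k hk ↦ by
      rcases h with h | h
      · rw [← e, h, map_zero]; rfl
      · refine HahnSeries.coeff_eq_zero_of_lt_order ?_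
        rw [← e, hmord]
        nlinarith
    refine ⟨fun k hk ↦ ?_, ?_⟩
    · have := hz k hk.le
      rwa [HahnSeries.coeff_sub, hC k hk.ne, sub_zero] at this
    · have := hz 0 le_rfl
      rwa [HahnSeries.coeff_sub, hC0, sub_eq_zero] at this
  · rintro ⟨hge, h0⟩
    by_cases hz : z - algebraMap QA (XF QA p) c = 0
    · exact Or.inl hz
    refine Or.inr ?_
    have h1 := HahnSeries.coeff_order_eq_zero.not.mpr
      ((map_ne_zero (pointEmb κ τ q)).mpr hz)
    rw [e] at h1
    have hlt : 0 < (pointEmb κ τ q (z - algebraMap QA (XF QA p) c)).order := by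
      by_contra hle
      rw [e] at hle
      rcases lt_or_eq_of_le (not_lt.mp hle) with hk | hk
      · exact h1 (by rw [HahnSeries.coeff_sub, hge _ hk, hC _ hk.ne, sub_zero])
      · exact h1 (by rw [hk, HahnSeries.coeff_sub, h0, hC0, sub_self])
    rw [hmord] at hlt
    nlinarith

end FLTAgent.Mazur
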