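import Fermat.Agent.Mazur.PointAdd
import Fermat.Agent.LocalEC.VarChange
import Fermat.Agent.Torsion.Card
import Fermat.Agent.X0Fn.Genus

/-!
# Complex curves with a point of order `p` and points of the upper half plane

An elliptic curve over `ℂ` with `c₄ ≠ 0`, `c₆ ≠ 0` and a point `P` of prime order `p` comes from
some `τ` in such a way that `P` corresponds to `1/p`.
-/

set_option autoImplicit false
set_option linter.style.haveILetI false

noncomputable section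

open UpperHalfPlane hiding I I_re I_im
open Complex PeriodPair WeierstrassCurve
open FLTAgent.GoodModel (perPair wp wv mem_perPair_lattice point_not_mem)
open FLTAgent.ES (e4 e6 dlt jfun)
open scoped MatrixGroups

namespace FLTAgent.Mazur

theorem G_eq_tsum (τ : ℍ) (n : ℕ) :
    (perPair τ).G n = ∑' v : Fin 2 → ℤ, EisensteinSeries.eisSummand n v τ := by
  rw [PeriodPair.G, ← (perPair τ).latticeEquivProd.symm.toEquiv.tsum_eq,
    ← (finTwoArrowEquiv ℤ).tsum_eq]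
  refine tsum_congr fun v ↦ ?_
  have e := latticeEquiv_symm_apply (perPair τ) (v 0, v 1)
  rw [show ((perPair τ).latticeEquivProd.symm.toEquiv (finTwoArrowEquiv ℤ v) : (perPair τ).lattice) =
    (perPair τ).latticeEquivProd.symm (v 0, v 1) from rfl, e]
  simp [perPair, EisensteinSeries.eisSummand, zpow_neg]

theorem eisenstein_eq (τ : ℍ) {k : ℕ} (hk : 3 ≤ k) :
    (perPair τ).G k = riemannZeta k * (2 * ModularForm.E hk τ) := by
  rw [G_eq_tsum, tsum_eisSummand_eq_riemannZeta_mul_eisensteinSeries hk,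
    show ModularForm.E hk τ =
      (1 / 2 : ℂ) • EisensteinSeries.eisensteinSeriesSIF (N := 1) 0 k τ from rfl,
    EisensteinSeries.eisensteinSeriesSIF_apply]
  simp

theorem bernoulli_six : bernoulli 6 = 1 / 42 := by
  rw [bernoulli_eq_bernoulli'_of_ne_one (by norm_num), bernoulli'_def]
  have h5 : bernoulli' 5 = 0 := bernoulli'_eq_zero_of_odd (by decide) (by norm_num)
  have e1 : Nat.choose 6 2 = 15 := by decide
  have e2 : Nat.choose 6 4 = 15 := by decide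
  norm_num [Finset.sum_range_succ, h5, e1, e2]

theorem g₂_eq (τ : ℍ) : (perPair τ).g₂ = (2 * Real.pi * I) ^ 4 * e4 τ / 12 := by
  rw [PeriodPair.g₂, eisenstein_eq τ (k := 4) (by norm_num)]
  have h : riemannZeta ((4 : ℕ) : ℂ) = (Real.pi : ℂ) ^ 4 / 90 := by
    rw [← riemannZeta_four]; norm_num
  rw [h, mul_pow, mul_pow, Complex.I_pow_four]
  show 60 * ((Real.pi : ℂ) ^ 4 / 90 * (2 * ModularForm.E₄ τ)) = _
  rw [e4]
  ring

theorem g₃_eq (τ : ℍ) : (perPair τ).g₃ = -((2 * Real.pi * I) ^ 6 * e6 τ / 216) := by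
  rw [PeriodPair.g₃, eisenstein_eq τ (k := 6) (by norm_num)]
  have h : riemannZeta ((6 : ℕ) : ℂ) = (Real.pi : ℂ) ^ 6 / 945 := by
    have h1 := riemannZeta_two_mul_nat (k := 3) (by norm_num)
    rw [show 2 * 3 = 6 from rfl, bernoulli_six] at h1
    rw [show ((6 : ℕ) : ℂ) = 2 * ((3 : ℕ) : ℂ) by norm_num, h1]
    norm_num [Nat.factorial]
    ring
  rw [h, mul_pow, mul_pow, show (I : ℂ) ^ 6 = -1 by rw [show 6 = 4 + 2 from rfl, pow_add,
    Complex.I_pow_four, Complex.I_sq, one_mul]]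
  show 140 * ((Real.pi : ℂ) ^ 6 / 945 * (2 * ModularForm.E₆ τ)) = _
  rw [e6]
  ring

theorem two_pi_I_ne_zero' : (2 * Real.pi * I : ℂ) ≠ 0 := Complex.two_pi_I_ne_zero

instance latCurve_isElliptic (τ : ℍ) : (latCurve τ).IsElliptic := by
  refine ⟨isUnit_iff_ne_zero.mpr ?_⟩
  have h : (latCurve τ).Δ = (2 * Real.pi * I) ^ 12 * dlt τ := by
    simp only [latCurve, WeierstrassCurve.Δ, WeierstrassCurve.b₂, WeierstrassCurve.b₄,
      WeierstrassCurve.b₆, WeierstrassCurve.b₈, g₂_eq, g₃_eq, FLTAgent.ES.dlt_eq]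
    ring
  rw [h]
  exact mul_ne_zero (pow_ne_zero _ two_pi_I_ne_zero') (FLTAgent.ES.dlt_ne_zero τ)

theorem e_smul (γ : SL(2, ℤ)) (τ : ℍ) :
    e4 (γ • τ) = ((γ 1 0 : ℂ) * τ + γ 1 1) ^ 4 * e4 τ := by
  rw [FLTAgent.ES.top_apply_smul FLTAgent.ES.e4_mem, ModularGroup.denom_apply]
  norm_cast

/-- A lift of a nonzero vector modulo `p` to a row of a matrix of determinant one. -/
theorem exists_sl_row {p : ℕ} (hp : p.Prime) {a b : ZMod p} (h : a ≠ 0 ∨ b ≠ 0) :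
    ∃ γ : SL(2, ℤ), ((γ 1 0 : ℤ) : ZMod p) = a ∧ ((γ 1 1 : ℤ) : ZMod p) = b := by
  haveI : NeZero p := ⟨hp.ne_zero⟩
  obtain ⟨c, d, hcd, hc, hd⟩ : ∃ c d : ℕ, Nat.Coprime c d ∧ (c : ZMod p) = a ∧ (d : ZMod p) = b := by
    by_cases ha : a = 0
    · refine ⟨p, b.val, ?_, by simp [ha], ZMod.natCast_zmod_val b⟩
      refine (Nat.Prime.coprime_iff_not_dvd hp).mpr fun hd ↦ ?_
      exact (h.resolve_left fun e ↦ e ha) ((ZMod.natCast_zmod_val b) ▸
        (ZMod.natCast_eq_zero_iff _ _).mpr hd)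
    · have hco : Nat.Coprime p a.val := by
        refine (Nat.Prime.coprime_iff_not_dvd hp).mpr fun hd ↦ ha ?_
        exact (ZMod.natCast_zmod_val a) ▸ (ZMod.natCast_eq_zero_iff _ _).mpr hd
      obtain ⟨d, hd1, hd2⟩ := Nat.chineseRemainder hco b.val 1
      refine ⟨a.val, d, ?_, ZMod.natCast_zmod_val a, ?_⟩
      · rw [Nat.Coprime, Nat.gcd_rec, hd2, ← Nat.gcd_rec, Nat.gcd_one_right]
      · rw [← ZMod.natCast_zmod_val b]
        exact (ZMod.natCast_eq_natCast_iff _ _ _).mpr hd1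
  obtain ⟨u, v, huv⟩ := (Int.isCoprime_iff_gcd_eq_one.mpr
    (by simpa [Int.gcd_natCast_natCast] using hcd) : IsCoprime (c : ℤ) (d : ℤ))
  refine ⟨⟨!![v, -u; (c : ℤ), (d : ℤ)], by rw [Matrix.det_fin_two_of]; linear_combination huv⟩,
    ?_, ?_⟩
  · simpa using hc
  · simpa using hd

variable {E : WeierstrassCurve.Affine ℂ} [E.IsElliptic]

/-- The abscissa of a point, `0` at infinity. -/
def xOf {K : Type*} [Field K] {W : WeierstrassCurve.Affine K} : W.Point → K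
  | .zero => 0
  | .some x _ _ => x

theorem exists_base (hc4 : E.c₄ ≠ 0) (hc6 : E.c₆ ≠ 0) :
    ∃ (τ : ℍ) (s : ℂ) (ψ : ℂ →+ E.Point), s ≠ 0 ∧ E.c₄ = s ^ 2 * e4 τ ∧
      E.c₄ ^ 3 / E.Δ = jfun τ ∧ (∀ z, ψ z = 0 ↔ z ∈ (perPair τ).lattice) ∧
      ∀ z ∉ (perPair τ).lattice,
        xOf (ψ z) + E.b₂ / 12 = s * (wp τ z / (2 * Real.pi * I) ^ 2) := by
  obtain ⟨τ, hτ⟩ := FLTAgent.X0Fn.exists_jfun_eq (E.c₄ ^ 3 / E.Δ)
  have hΔ : E.Δ ≠ 0 := E.isUnit_Δ.ne_zero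
  have hd := FLTAgent.ES.dlt_ne_zero τ
  have hrel : E.c₄ ^ 3 * dlt τ = e4 τ ^ 3 * E.Δ := by
    rw [jfun, div_eq_div_iff hd hΔ] at hτ
    linear_combination -hτ
  have h4 : e4 τ ≠ 0 := fun e ↦ by
    rw [e, zero_pow (by norm_num), zero_mul] at hrel
    exact mul_ne_zero (pow_ne_zero _ hc4) hd hrel
  have hcross : E.c₆ ^ 2 * e4 τ ^ 3 = e6 τ ^ 2 * E.c₄ ^ 3 := by
    have h1 := E.c_relation
    have h2 := FLTAgent.ES.dlt_eq τ
    linear_combination (e4 τ ^ 3) * h1 + 1728 * hrel - 1728 * E.c₄ ^ 3 * h2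
  have h6 : e6 τ ≠ 0 := fun e ↦ by
    rw [e, zero_pow (by norm_num), zero_mul] at hcross
    exact mul_ne_zero (pow_ne_zero _ hc6) (pow_ne_zero _ h4) hcross
  set s : ℂ := -(E.c₆ * e4 τ) / (E.c₄ * e6 τ) with hsdef
  have hs : s ≠ 0 := div_ne_zero (neg_ne_zero.mpr (mul_ne_zero hc6 h4)) (mul_ne_zero hc4 h6)
  have hs2 : E.c₄ = s ^ 2 * e4 τ := by
    rw [hsdef, div_pow, div_mul_eq_mul_div, eq_div_iff (pow_ne_zero _ (mul_ne_zero hc4 h6))]
    linear_combination -hcross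
  have hs3 : E.c₆ = -(s ^ 3 * e6 τ) := by
    rw [pow_succ, hsdef]
    rw [← hsdef, mul_comm (s ^ 2), mul_assoc]
    have : s * e6 τ = -(E.c₆ * e4 τ) / E.c₄ := by rw [hsdef]; field_simp
    rw [mul_left_comm, this]
    have e : s ^ 2 = E.c₄ / e4 τ := by rw [hs2]; field_simp
    rw [e]
    field_simp
  obtain ⟨r, hr⟩ := IsAlgClosed.exists_pow_nat_eq s (n := 2) (by norm_num)
  have hr0 : r ≠ 0 := fun e ↦ hs (by rw [← hr, e]; simp)
  set T : ℂ := 2 * Real.pi * I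
  have hT : T ≠ 0 := two_pi_I_ne_zero'
  let C : LocalEC.PointChange E (latCurve τ) :=
    { u := r / T
      r := -E.b₂ / 12
      s := -E.a₁ / 2
      t := -(E.a₃ - E.b₂ / 12 * E.a₁) / 2
      hu := div_ne_zero hr0 hT
      h₁ := by simp only [latCurve]; ring
      h₂ := by simp only [latCurve, WeierstrassCurve.b₂]; ring
      h₃ := by simp only [latCurve]; ring
      h₄ := by
        simp only [latCurve, g₂_eq]
        have e : (r / T) ^ 4 * (-(T ^ 4 * e4 τ / 12) / 4) = -E.c₄ / 48 := by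
          rw [div_pow, show r ^ 4 = (r ^ 2) ^ 2 by ring, hr, hs2]
          field_simp
          ring
        rw [e]
        simp only [WeierstrassCurve.c₄, WeierstrassCurve.b₂, WeierstrassCurve.b₄]
        ring
      h₆ := by
        simp only [latCurve, g₃_eq]
        have e : (r / T) ^ 6 * (-(-(T ^ 6 * e6 τ / 216)) / 4) = -E.c₆ / 864 := by
          rw [div_pow, show r ^ 6 = (r ^ 2) ^ 3 by ring, hr, hs3]
          field_simp
          ring
        rw [e]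
        simp only [WeierstrassCurve.c₆, WeierstrassCurve.b₂, WeierstrassCurve.b₄,
          WeierstrassCurve.b₆]
        ring }
  refine ⟨τ, s, C.pointMap.comp (latHom τ), hs, hs2, hτ.symm, fun z ↦ ?_, fun z hz ↦ ?_⟩
  · exact (map_eq_zero_iff C.pointMap C.pointMap_injective).trans (latHom_eq_zero_iff τ)
  · obtain ⟨y, h, e⟩ := latHom_of_not_mem τ hz
    rw [AddMonoidHom.comp_apply, e, C.pointMap_some, xOf, LocalEC.PointChange.X, ← hr]
    simp only [C]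
    field_simp
    ring

/-- The uniformisation of a curve with a point of order `p`. -/
theorem exists_uniformization {p : ℕ} (hp : p.Prime) (hc4 : E.c₄ ≠ 0) (hc6 : E.c₆ ≠ 0)
    {P : E.Point} (hP : p • P = 0) (hP0 : P ≠ 0) :
    ∃ (τ : ℍ) (s : ℂ) (e : ZMod p × ZMod p →+ E.Point),
      s ≠ 0 ∧ E.c₄ = s ^ 2 * e4 τ ∧ E.c₄ ^ 3 / E.Δ = jfun τ ∧
      Function.Injective e ∧ (∀ Q, p • Q = 0 → Q ∈ Set.range e) ∧ e (0, 1) = P ∧
      ∀ a b : ℤ, ((a : ZMod p) ≠ 0 ∨ (b : ZMod p) ≠ 0) →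
        xOf (e (a, b)) + E.b₂ / 12 = s * (wv p a b τ / (2 * Real.pi * I) ^ 2) := by
  classical
  haveI : NeZero p := ⟨hp.ne_zero⟩
  haveI : Fact p.Prime := ⟨hp⟩
  obtain ⟨τ, s, ψ, hs, hs2, hj, hker, hx⟩ := exists_base hc4 hc6
  let f : ℤ × ℤ →+ E.Point :=
    AddMonoidHom.mk' (fun v ↦ ψ (((v.1 : ℂ) * τ + v.2) / p)) fun v w ↦ by
      rw [← map_add]; congr 1; simp only [Prod.fst_add, Prod.snd_add]; push_cast; ring
  have hfker : ∀ v : ℤ × ℤ, f v = 0 ↔ (v.1 : ZMod p) = 0 ∧ (v.2 : ZMod p) = 0 := by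
    intro v
    refine (hker _).trans ⟨fun hm ↦ ?_, fun ⟨h1, h2⟩ ↦ ?_⟩
    · by_contra hne
      exact point_not_mem (not_and_or.mp hne) τ hm
    · obtain ⟨k, hk⟩ := (ZMod.intCast_zmod_eq_zero_iff_dvd _ p).mp h1
      obtain ⟨l, hl⟩ := (ZMod.intCast_zmod_eq_zero_iff_dvd _ p).mp h2
      refine mem_perPair_lattice.mpr ⟨k, l, ?_⟩
      rw [hk, hl]; push_cast; field_simp [Nat.cast_ne_zero.mpr hp.ne_zero]
  have hcongr : ∀ v w : ℤ × ℤ, (v.1 : ZMod p) = w.1 → (v.2 : ZMod p) = w.2 → f v = f w := by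
    intro v w h1 h2
    rw [← sub_eq_zero, ← map_sub, hfker]
    simp [h1, h2]
  let e₀ : ZMod p × ZMod p →+ E.Point :=
    AddMonoidHom.mk' (fun v ↦ f ((v.1.val : ℤ), (v.2.val : ℤ))) fun v w ↦ by
      rw [← map_add]; exact hcongr _ _ (by simp) (by simp)
  have he₀ : ∀ a b : ℤ, e₀ (a, b) = f (a, b) := fun a b ↦ hcongr _ _ (by simp) (by simp)
  have hinj : Function.Injective e₀ := by
    refine (injective_iff_map_eq_zero e₀).mpr fun v hv ↦ ?_
    obtain ⟨h1, h2⟩ := (hfker _).mp hv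
    exact Prod.ext (by simpa using h1) (by simpa using h2)
  have htor : ∀ v, p • e₀ v = 0 := fun v ↦ by
    rw [← map_nsmul, show p • v = 0 from Prod.ext (by simp) (by simp), map_zero]
  have hsurj : ∀ Q : E.Point, p • Q = 0 → Q ∈ Set.range e₀ := by
    intro Q hQ
    have hcard : Nat.card {P : E.Point // p • P = 0} = p ^ 2 :=
      FLTAgent.Torsion.card_ker_nsmul (Nat.cast_ne_zero.mpr hp.ne_zero)
    haveI : Finite {P : E.Point // p • P = 0} :=
      Nat.finite_of_card_ne_zero (by rw [hcard]; exact pow_ne_zero 2 hp.ne_zero)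
    let g : ZMod p × ZMod p → {P : E.Point // p • P = 0} := fun v ↦ ⟨e₀ v, htor v⟩
    obtain ⟨v, hv⟩ := ((Nat.bijective_iff_injective_and_card g).mpr
      ⟨fun v w h ↦ hinj (congrArg Subtype.val h),
        by rw [Nat.card_prod, Nat.card_zmod, hcard, sq]⟩).2 ⟨Q, hQ⟩
    exact ⟨v, congrArg Subtype.val hv⟩
  obtain ⟨⟨a₀, b₀⟩, hab⟩ := hsurj P hP
  have hne : a₀ ≠ 0 ∨ b₀ ≠ 0 := by
    by_contra h
    push Not at h
    exact hP0 (by rw [← hab, h.1, h.2]; exact map_zero e₀)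
  obtain ⟨γ, hγ0, hγ1⟩ := exists_sl_row hp hne
  set D : ℂ := (γ 1 0 : ℂ) * τ + γ 1 1
  have hD : D ≠ 0 := GoodModel.den_ne_zero γ τ
  let M : ZMod p × ZMod p →+ ZMod p × ZMod p :=
    AddMonoidHom.mk' (fun v ↦ (v.1 * (γ 0 0 : ℤ) + v.2 * (γ 1 0 : ℤ),
      v.1 * (γ 0 1 : ℤ) + v.2 * (γ 1 1 : ℤ))) fun v w ↦ by
      ext <;> simp only [Prod.fst_add, Prod.snd_add] <;> ring
  have hdet : ((γ 0 0 : ℤ) : ZMod p) * (γ 1 1 : ℤ) - ((γ 0 1 : ℤ) : ZMod p) * (γ 1 0 : ℤ) = 1 := by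
    exact_mod_cast congrArg (Int.cast : ℤ → ZMod p) (GoodModel.det_eq γ)
  have hM : Function.Bijective M := by
    refine Finite.injective_iff_bijective.mp fun v w h ↦ ?_
    simp only [M, AddMonoidHom.mk'_apply, Prod.mk.injEq] at h
    refine Prod.ext ?_ ?_
    · linear_combination ((γ 1 1 : ℤ) : ZMod p) * h.1 - ((γ 1 0 : ℤ) : ZMod p) * h.2 -
        (v.1 - w.1) * hdet
    · linear_combination -((γ 0 1 : ℤ) : ZMod p) * h.1 + ((γ 0 0 : ℤ) : ZMod p) * h.2 -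
        (v.2 - w.2) * hdet
  refine ⟨γ • τ, s / D ^ 2, e₀.comp M, div_ne_zero hs (pow_ne_zero _ hD), ?_, ?_,
    hinj.comp hM.1, fun Q hQ ↦ ?_, ?_, fun a b h ↦ ?_⟩
  · rw [e_smul, hs2]; field_simp; ring
  · rw [FLTAgent.ES.jfun_smul, hj]
  · obtain ⟨v, rfl⟩ := hsurj Q hQ
    obtain ⟨w, rfl⟩ := hM.2 v
    exact ⟨w, rfl⟩
  · rw [← hab]
    simp [M, hγ0, hγ1]
  · have e1 : M (a, b) = (((a * γ 0 0 + b * γ 1 0 : ℤ) : ZMod p),
        ((a * γ 0 1 + b * γ 1 1 : ℤ) : ZMod p)) := by simp [M]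
    have h' : ((a * γ 0 0 + b * γ 1 0 : ℤ) : ZMod p) ≠ 0 ∨
        ((a * γ 0 1 + b * γ 1 1 : ℤ) : ZMod p) ≠ 0 := by
      by_contra hc
      push Not at hc
      have h0 : ((a : ZMod p), (b : ZMod p)) = 0 :=
        hM.1 (by rw [e1, hc.1, hc.2, map_zero]; rfl)
      simp only [Prod.mk_eq_zero] at h0
      exact h.elim (fun h ↦ h h0.1) (fun h ↦ h h0.2)
    rw [AddMonoidHom.comp_apply, e1, he₀, GoodModel.wv_smul, GoodModel.wv]
    show xOf (ψ _) + _ = _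
    rw [hx _ (point_not_mem h' τ)]
    show _ = s / D ^ 2 * (D ^ 2 * _ / _)
    field_simp

end FLTAgent.Mazur
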