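import Fermat.Agent.Mazur.PointFam
import Fermat.Agent.Mazur.PointUniform
import Fermat.Agent.ModEq.Invariant

/-!
# The series of the torsion functions

`gF v = (℘_v - ℘_{2v})² E₄²/Δ` tells the cusps apart after division by `j`; `hF v`, an affine
function of `℘_v` times `E₄E₆/Δ`, tells apart the points over a value of `j`.
-/

set_option autoImplicit false
set_option linter.style.haveILetI false
set_option maxHeartbeats 1000000
set_option synthInstance.maxHeartbeats 400000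

noncomputable section

open UpperHalfPlane hiding I I_re I_im
open Filter Topology Complex Function ModularCurve
open FLTAgent.GoodModel (wser wdiff Vec zetaN PMEq Nz)
open FLTAgent.ModEq (qp HasExp GeOrd)
open FLTAgent.ES (e4 e6 dlt jfun)
open scoped MatrixGroups Manifold

namespace FLTAgent.Mazur

local notation "QA" => AlgebraicClosure ℚ

section Formal

variable {R S : Type*} [CommRing R] [CommRing S] {p : ℕ} [NeZero p]

variable (p) in
/-- A `p`-th root of unity with `1 - ζ^i` invertible off the multiples of `p`. -/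
structure GoodRoot (ζ : Rˣ) : Prop where
  pow_eq : ζ ^ p = 1
  isUnit_sub : ∀ i : ℤ, ¬ (p : ℤ) ∣ i → IsUnit (1 - ((ζ ^ i : Rˣ) : R))

theorem GoodRoot.map {ζ : Rˣ} (h : GoodRoot p ζ) (f : R →+* S) :
    GoodRoot p (Units.map (f : R →* S) ζ) := by
  refine ⟨by rw [← map_pow, h.pow_eq, map_one], fun i hi ↦ ?_⟩
  have := (h.isUnit_sub i hi).map f
  rwa [map_sub, map_one, show f ((ζ ^ i : Rˣ) : R) = ((Units.map (f : R →* S) ζ ^ i : Sˣ) : S) by
    rw [← map_zpow]; rfl] at this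

/-- Integer representatives. -/
def liftV (v : ZMod p × ZMod p) : Vec := ((v.1.val : ℤ), (v.2.val : ℤ))

theorem nz_liftV {v : ZMod p × ZMod p} (hv : v ≠ 0) : Nz p (liftV v) := by
  by_contra h
  rw [Nz, not_or, not_not, not_not] at h
  exact hv (Prod.ext (by simpa [liftV] using h.1) (by simpa [liftV] using h.2))

theorem not_dvd_val_snd {v : ZMod p × ZMod p} (hv : v ≠ 0) (h : (p : ℤ) ∣ (v.1.val : ℤ)) :
    ¬ (p : ℤ) ∣ (v.2.val : ℤ) := fun h2 ↦ by
  rcases nz_liftV hv with h' | h'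
  · exact h' ((ZMod.intCast_zmod_eq_zero_iff_dvd _ _).mpr h)
  · exact h' ((ZMod.intCast_zmod_eq_zero_iff_dvd _ _).mpr h2)

/-- The series of a difference. -/
def dS (ζ : Rˣ) (v v' : ZMod p × ZMod p) : PowerSeries R :=
  wser p (liftV v).1 (ζ ^ (liftV v).2) - wser p (liftV v').1 (ζ ^ (liftV v').2)

theorem map_dS {ζ : Rˣ} (h : GoodRoot p ζ) (f : R →+* S) {v v' : ZMod p × ZMod p} (hv : v ≠ 0)
    (hv' : v' ≠ 0) : (dS ζ v v').map f = dS (Units.map (f : R →* S) ζ) v v' := by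
  rw [dS, dS, map_sub,
    GoodModel.map_wser f (liftV v).1 (ζ ^ (liftV v).2)
      (fun hd ↦ h.isUnit_sub _ (not_dvd_val_snd hv hd)),
    GoodModel.map_wser f (liftV v').1 (ζ ^ (liftV v').2)
      (fun hd ↦ h.isUnit_sub _ (not_dvd_val_snd hv' hd)), map_zpow, map_zpow]

/-- The action of a Galois element on vectors. -/
def twV (a : ZMod p) (v : ZMod p × ZMod p) : ZMod p × ZMod p := (v.1, a * v.2)

theorem dS_pow {ζ : Rˣ} (h : ζ ^ p = 1) (a : ZMod p) (v v' : ZMod p × ZMod p) :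
    dS (ζ ^ a.val) v v' = dS ζ (twV a v) (twV a v') := by
  have key : ∀ b : ZMod p, (ζ ^ a.val) ^ ((b.val : ℕ) : ℤ) = ζ ^ (((a * b).val : ℕ) : ℤ) := by
    intro b
    rw [zpow_natCast, zpow_natCast, ← pow_mul, ZMod.val_mul]
    conv_lhs => rw [← Nat.mod_add_div (a.val * b.val) p, pow_add, pow_mul, h, one_pow, mul_one]
  simp only [dS, liftV, twV, key]

/-- `1/E₄`. -/
def e4i (R : Type*) [CommRing R] : PowerSeries R :=
  (PowerSeries.invOfUnit eisenstein4 1).map (Int.castRingHom R)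

theorem eisenstein4_mul_e4i :
    eisenstein4.map (Int.castRingHom R) * e4i R = 1 := by
  rw [e4i, ← map_mul, PowerSeries.mul_invOfUnit _ _ (by rw [constantCoeff_eisenstein4]; rfl),
    map_one]

/-- The series of `E₆`. -/
def eis6 : PowerSeries ℤ :=
  PowerSeries.mk fun n ↦ if n = 0 then 1 else -504 * ∑ d ∈ n.divisors, (d : ℤ) ^ 5

/-- The series of `gF` divided by `j`. -/
def gP (ζ : Rˣ) (v : ZMod p × ZMod p) : PowerSeries R :=
  dS ζ v (2 * v.1, 2 * v.2) ^ 2 * PowerSeries.expand p (NeZero.ne p) (e4i R)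

/-- The series of `hF` divided by `j`. -/
def hP (ζ : Rˣ) (v : ZMod p × ZMod p) : PowerSeries R :=
  (∑ v' ∈ Finset.univ.erase 0, dS ζ v v') *
    PowerSeries.expand p (NeZero.ne p) (eis6.map (Int.castRingHom R) * e4i R ^ 2)

theorem map_e4i (f : R →+* S) : (e4i R).map f = e4i S := by
  ext n
  simp [e4i, PowerSeries.coeff_map]

theorem map_int_series (f : R →+* S) (P : PowerSeries ℤ) :
    (P.map (Int.castRingHom R)).map f = P.map (Int.castRingHom S) := by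
  ext n
  simp [PowerSeries.coeff_map]

theorem two_mul_ne_zero' [Fact p.Prime] (hp2 : p ≠ 2) {v : ZMod p × ZMod p} (hv : v ≠ 0) :
    ((2 * v.1, 2 * v.2) : ZMod p × ZMod p) ≠ 0 := by
  have h2 : (2 : ZMod p) ≠ 0 := by
    rw [show (2 : ZMod p) = ((2 : ℕ) : ZMod p) by norm_num, Ne, ZMod.natCast_eq_zero_iff]
    exact fun h ↦ hp2 ((Nat.prime_dvd_prime_iff_eq (Fact.out : p.Prime) Nat.prime_two).mp h)
  intro h
  rw [Prod.mk_eq_zero] at h
  exact hv (Prod.ext ((mul_eq_zero.mp h.1).resolve_left h2) ((mul_eq_zero.mp h.2).resolve_left h2))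

theorem map_gP [Fact p.Prime] (hp2 : p ≠ 2) {ζ : Rˣ} (h : GoodRoot p ζ) (f : R →+* S)
    {v : ZMod p × ZMod p} (hv : v ≠ 0) :
    (gP ζ v).map f = gP (Units.map (f : R →* S) ζ) v := by
  rw [gP, gP, map_mul, map_pow, map_dS h f hv (two_mul_ne_zero' hp2 hv), PowerSeries.map_expand,
    map_e4i]

theorem map_hP {ζ : Rˣ} (h : GoodRoot p ζ) (f : R →+* S) {v : ZMod p × ZMod p} (hv : v ≠ 0) :
    (hP ζ v).map f = hP (Units.map (f : R →* S) ζ) v := by
  rw [hP, hP, map_mul, PowerSeries.map_expand, map_mul, map_pow, map_e4i, map_int_series, map_sum]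
  congr 1
  exact Finset.sum_congr rfl fun v' hv' ↦ map_dS h f hv (Finset.ne_of_mem_erase hv')

theorem gP_pow {ζ : Rˣ} (h : ζ ^ p = 1) (a : ZMod p) (v : ZMod p × ZMod p) :
    gP (ζ ^ a.val) v = gP ζ (twV a v) := by
  rw [gP, gP, dS_pow h]
  congr 2
  simp only [twV]
  congr 1
  ext <;> simp only <;> ring

theorem hP_pow [Fact p.Prime] {ζ : Rˣ} (h : ζ ^ p = 1) {a : ZMod p} (ha : a ≠ 0)
    (v : ZMod p × ZMod p) : hP (ζ ^ a.val) v = hP ζ (twV a v) := by
  rw [hP, hP]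
  congr 1
  refine Finset.sum_equiv ((Equiv.refl _).prodCongr (Equiv.mulLeft₀ a ha)) (fun v' ↦ ?_)
    fun v' _ ↦ by rw [dS_pow h]; rfl
  simp [Prod.ext_iff, ha]

/-- At `∞` the series of `gF / j` starts with a unit. -/
theorem isUnit_gP_zero [Fact p.Prime] (hp : 5 ≤ p) {ζ : Rˣ} (h : GoodRoot p ζ) (u : (ZMod p)ˣ) :
    IsUnit (PowerSeries.constantCoeff (gP ζ ((0 : ZMod p), (u : ZMod p)))) := by
  have hb : ∀ {b : ZMod p}, b ≠ 0 → ¬ (p : ℤ) ∣ (b.val : ℤ) := fun hb hd ↦ hb (by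
    simpa using (ZMod.intCast_zmod_eq_zero_iff_dvd _ p).mpr hd)
  have h2 : (2 : ZMod p) ≠ 0 := by
    rw [show (2 : ZMod p) = ((2 : ℕ) : ZMod p) by norm_num, Ne, ZMod.natCast_eq_zero_iff]
    exact fun h ↦ by have := Nat.le_of_dvd (by norm_num) h; omega
  have h3 : (3 : ZMod p) ≠ 0 := by
    rw [show (3 : ZMod p) = ((3 : ℕ) : ZMod p) by norm_num, Ne, ZMod.natCast_eq_zero_iff]
    exact fun h ↦ by have := Nat.le_of_dvd (by norm_num) h; omega
  obtain ⟨n, hn, -, hu⟩ := GoodModel.exists_unit_coeff (R := R) (N := p) (ζ := ζ) h.pow_eq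
    h.isUnit_sub (a := 0) (a' := 0) (b := ((u : ZMod p).val : ℤ))
    (b' := ((2 * (u : ZMod p)).val : ℤ)) (by omega) (by omega)
    (Or.inr (hb u.ne_zero)) (Or.inr (hb (mul_ne_zero h2 u.ne_zero)))
    (Or.inr ⟨fun hd ↦ u.ne_zero (by
        have := (ZMod.intCast_zmod_eq_zero_iff_dvd _ p).mpr hd
        push_cast [ZMod.natCast_zmod_val] at this
        linear_combination -this),
      Or.inr fun hd ↦ mul_ne_zero h3 u.ne_zero (by
        have := (ZMod.intCast_zmod_eq_zero_iff_dvd _ p).mpr hd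
        push_cast [ZMod.natCast_zmod_val] at this
        linear_combination this)⟩)
  rw [gP, map_mul, map_pow, PowerSeries.constantCoeff_expand]
  refine IsUnit.mul (IsUnit.pow 2 ?_) ?_
  · subst hn
    rw [dS, ← PowerSeries.coeff_zero_eq_constantCoeff_apply]
    simpa [liftV] using hu
  · rw [e4i, ← PowerSeries.coeff_zero_eq_constantCoeff_apply, PowerSeries.coeff_map,
      PowerSeries.coeff_zero_eq_constantCoeff_apply, PowerSeries.constantCoeff_invOfUnit]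
    simp

/-- At the cusp `0` the series of `gF / j` has no constant term. -/
theorem gP_one_zero [Fact p.Prime] (hp2 : p ≠ 2) (ζ : Rˣ) {v : ZMod p × ZMod p} (hv : v.1 ≠ 0) :
    PowerSeries.constantCoeff (gP ζ v) = 0 := by
  have hb : ∀ {b : ZMod p}, b ≠ 0 → ¬ (p : ℤ) ∣ (b.val : ℤ) := fun hb hd ↦ hb (by
    simpa using (ZMod.intCast_zmod_eq_zero_iff_dvd _ p).mpr hd)
  have h2 : (2 : ZMod p) * v.1 ≠ 0 := by
    have := two_mul_ne_zero' hp2 (v := (v.1, 0)) (fun h ↦ hv (congrArg Prod.fst h))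
    simpa using this
  rw [gP, map_mul, map_pow, dS, map_sub, ← PowerSeries.coeff_zero_eq_constantCoeff_apply,
    ← PowerSeries.coeff_zero_eq_constantCoeff_apply, GoodModel.wser_coeff_zero,
    GoodModel.wser_coeff_zero, liftV, liftV, if_neg (hb hv), if_neg (hb h2)]
  ring

end Formal

section Analytic

variable {p : ℕ} [Fact p.Prime]

/-- `(℘_v - ℘_{v'})/(2πi)²`. -/
def dF (v v' : ZMod p × ZMod p) : ℍ → ℂ := wdiff p (liftV v) (liftV v')

theorem mdiff_dF {v v' : ZMod p × ZMod p} (hv : v ≠ 0) (hv' : v' ≠ 0) : MDiff (dF v v') :=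
  GoodModel.mdiff_wdiff (nz_liftV hv) (nz_liftV hv')

theorem dF_smul (v v' : ZMod p × ZMod p) (γ : SL(2, ℤ)) (τ : ℍ) :
    dF v v' (γ • τ) = ((γ 1 0 : ℂ) * τ + γ 1 1) ^ 2 * dF (vact v γ) (vact v' γ) τ := by
  rw [dF, GoodModel.wdiff_smul, dF]
  congr 1
  have e : ∀ w : ZMod p × ZMod p, PMEq p (GoodModel.vmul (liftV w) γ) (liftV (vact w γ)) := fun w ↦
    Or.inl ⟨by simp [GoodModel.vmul, liftV, vact], by simp [GoodModel.vmul, liftV, vact]⟩
  rw [GoodModel.wdiff_congr (e v) (e v')]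

/-- The series of `1/(something)` evaluated: `jfun` at level `p`. -/
theorem hasExp_jfun_level : HasExp p jfun (qExpand ℂ p (jqModC ℂ)) := by
  have h := GoodModel.hasExp_refine ModEq.hasExp_jFun p p (one_mul p)
  refine h.congr (Eventually.of_forall fun τ ↦ ?_)
  simp [ModEq.jFun, jfun, e4, dlt, div_eq_mul_inv]

theorem hasExp_e6 : HasExp 1 e6 (HahnSeries.ofPowerSeries ℤ ℂ (eis6.map (Int.castRingHom ℂ))) := by
  refine HasExp.of_nat (Eventually.of_forall fun τ ↦ ?_)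
  have h := ModularForm.hasSum_qExpansion (h := 1) ModularForm.E₆ one_pos
    one_mem_strictPeriods_SL τ
  rw [FLTAgent.ModEq.qp_one]
  refine h.congr_fun fun k ↦ ?_
  congr 1
  rw [EisensteinSeries.E_qExpansion_coeff (by norm_num) (by decide), PowerSeries.coeff_map,
    eis6, PowerSeries.coeff_mk]
  rcases eq_or_ne k 0 with rfl | hk
  · simp
  · simp only [if_neg hk, map_mul, map_sum, map_pow, map_neg, bernoulli_six,
      ArithmeticFunction.sigma_apply]
    push_cast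
    simp only [map_natCast, map_ofNat]
    norm_num

theorem hasExp_e4_inv :
    HasExp 1 (fun τ ↦ (e4 τ)⁻¹) (HahnSeries.ofPowerSeries ℤ ℂ (e4i ℂ)) := by
  have h := ModEq.hasExp_E4
  have he : HahnSeries.ofPowerSeries ℤ ℂ (eisenstein4.map (Int.castRingHom ℂ)) *
      HahnSeries.ofPowerSeries ℤ ℂ (e4i ℂ) = 1 := by
    rw [← map_mul, eisenstein4_mul_e4i, map_one]
  have hne : HahnSeries.ofPowerSeries ℤ ℂ (eisenstein4.map (Int.castRingHom ℂ)) ≠ 0 :=
    left_ne_zero_of_mul_eq_one he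
  have h1 := GoodModel.hasExp_inv h hne
  rwa [inv_eq_of_mul_eq_one_right he] at h1

theorem qExpand_ofPowerSeries {R : Type*} [CommRing R] (P : PowerSeries R) :
    qExpand R p (HahnSeries.ofPowerSeries ℤ R P) =
      HahnSeries.ofPowerSeries ℤ R (PowerSeries.expand p (NeZero.ne p) P) := by
  ext i
  rcases lt_or_ge i 0 with hi | hi
  · rw [ofPowerSeries_coeff_of_neg _ hi]
    by_cases hd : (p : ℤ) ∣ i
    · obtain ⟨k, rfl⟩ := hd
      rw [qExpand_coeff_mul, ofPowerSeries_coeff_of_neg]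
      by_contra hk
      nlinarith [not_lt.mp hk, (Int.natCast_nonneg p)]
    · rw [qExpand_coeff_of_not_dvd p _ hd]
  · lift i to ℕ using hi
    rw [HahnSeries.ofPowerSeries_apply_coeff]
    by_cases hd : p ∣ i
    · obtain ⟨k, rfl⟩ := hd
      rw [Nat.cast_mul, qExpand_coeff_mul, HahnSeries.ofPowerSeries_apply_coeff,
        PowerSeries.coeff_expand_mul]
    · rw [qExpand_coeff_of_not_dvd p _ (fun h ↦ hd (Int.natCast_dvd_natCast.mp h)),
        PowerSeries.coeff_expand_of_not_dvd _ _ _ hd]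

theorem hasExp_at_level {f : ℍ → ℂ} {P : PowerSeries ℂ}
    (h : HasExp 1 f (HahnSeries.ofPowerSeries ℤ ℂ P)) :
    HasExp p f (HahnSeries.ofPowerSeries ℤ ℂ (PowerSeries.expand p (NeZero.ne p) P)) := by
  rw [← qExpand_ofPowerSeries]
  exact GoodModel.hasExp_refine h p p (one_mul p)

theorem zetaN_good : GoodRoot p (zetaN p) := by
  refine ⟨(GoodModel.zetaN_primitive (N := p)).pow_eq_one, fun i hi ↦ ?_⟩
  rw [isUnit_iff_ne_zero, sub_ne_zero, ne_comm, Ne, Units.val_eq_one,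
    (GoodModel.zetaN_primitive (N := p)).zpow_eq_one_iff_dvd]
  exact hi

theorem hasExp_dF {v v' : ZMod p × ZMod p} (hv : v ≠ 0) (hv' : v' ≠ 0) :
    HasExp p (dF v v') (HahnSeries.ofPowerSeries ℤ ℂ (dS (zetaN p) v v')) :=
  GoodModel.hasExp_wv_sub (nz_liftV hv) (nz_liftV hv')

/-- `(℘_v - ℘_{2v})² E₄²/Δ`. -/
def gF (v : ZMod p × ZMod p) : ℍ → ℂ :=
  fun τ ↦ dF v (2 * v.1, 2 * v.2) τ ^ 2 * (e4 τ ^ 2 / dlt τ)

/-- `∑_{v'} (℘_v - ℘_{v'}) · E₄E₆/Δ`. -/
def hF (v : ZMod p × ZMod p) : ℍ → ℂ :=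
  fun τ ↦ (∑ v' ∈ Finset.univ.erase 0, dF v v' τ) * (e4 τ * e6 τ / dlt τ)

theorem hasExp_gF (hp2 : p ≠ 2) {v : ZMod p × ZMod p} (hv : v ≠ 0) :
    HasExp p (gF v)
      (HahnSeries.ofPowerSeries ℤ ℂ (gP (zetaN p) v) * qExpand ℂ p (jqModC ℂ)) := by
  have h1 := hasExp_dF hv (two_mul_ne_zero' hp2 hv)
  have h := ((h1.mul h1).mul (hasExp_at_level hasExp_e4_inv)).mul hasExp_jfun_level
  rw [gP, pow_two, map_mul, map_mul]
  refine h.congr (Eventually.of_forall fun τ ↦ ?_)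
  simp only [Pi.mul_apply, gF, jfun]
  rcases eq_or_ne (e4 τ) 0 with h0 | h0
  · simp [h0]
  · field_simp

theorem hasExp_hF {v : ZMod p × ZMod p} (hv : v ≠ 0) :
    HasExp p (hF v)
      (HahnSeries.ofPowerSeries ℤ ℂ (hP (zetaN p) v) * qExpand ℂ p (jqModC ℂ)) := by
  have h1 : HasExp p (∑ v' ∈ Finset.univ.erase 0, dF v v')
      (HahnSeries.ofPowerSeries ℤ ℂ (∑ v' ∈ Finset.univ.erase 0, dS (zetaN p) v v')) := by
    rw [map_sum]
    exact GoodModel.hasExp_sum _ fun v' hv' ↦ hasExp_dF hv (Finset.ne_of_mem_erase hv')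
  have h2 : HasExp 1 (e6 * ((fun τ ↦ (e4 τ)⁻¹) * fun τ ↦ (e4 τ)⁻¹))
      (HahnSeries.ofPowerSeries ℤ ℂ (eis6.map (Int.castRingHom ℂ) * e4i ℂ ^ 2)) := by
    rw [pow_two, map_mul, map_mul]
    exact hasExp_e6.mul (hasExp_e4_inv.mul hasExp_e4_inv)
  have h := (h1.mul (hasExp_at_level h2)).mul hasExp_jfun_level
  rw [hP, map_mul]
  refine h.congr (Eventually.of_forall fun τ ↦ ?_)
  simp only [Pi.mul_apply, Finset.sum_apply, hF, jfun]
  rcases eq_or_ne (e4 τ) 0 with h0 | h0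
  · simp [h0]
  · field_simp

theorem level_one_mdiff {f : ℍ → ℂ} (hf : MDiff f) :
    MDiff fun τ ↦ f τ / dlt τ := by
  rw [UpperHalfPlane.mdifferentiable_iff] at hf ⊢
  exact hf.div (UpperHalfPlane.mdifferentiable_iff.mp (FLTAgent.ES.dlt_mem (Γ := ⊤)).2.1)
    fun z _ ↦ FLTAgent.ES.dlt_ne_zero _

theorem mdiff_gF (hp2 : p ≠ 2) {v : ZMod p × ZMod p} (hv : v ≠ 0) : MDiff (gF v) :=
  ((mdiff_dF hv (two_mul_ne_zero' hp2 hv)).pow 2).mul
    (level_one_mdiff ((FLTAgent.ES.e4_mem (Γ := ⊤)).2.1.pow 2))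

theorem mdiff_hF {v : ZMod p × ZMod p} (hv : v ≠ 0) : MDiff (hF v) := by
  have h : MDiff (∑ v' ∈ Finset.univ.erase 0, dF v v') :=
    FLTAgent.X0Fn.Hol.sum_mem fun v' hv' ↦ mdiff_dF hv (Finset.ne_of_mem_erase hv')
  have e : hF v = (∑ v' ∈ Finset.univ.erase 0, dF v v') * fun τ ↦ e4 τ * e6 τ / dlt τ := by
    funext τ
    simp [hF, Finset.sum_apply]
  rw [e]
  exact h.mul (level_one_mdiff ((FLTAgent.ES.e4_mem (Γ := ⊤)).2.1.mul
    (FLTAgent.ES.e6_mem (Γ := ⊤)).2.1))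

theorem denom_sl (γ : SL(2, ℤ)) (τ : ℍ) :
    UpperHalfPlane.denom γ (τ : ℂ) = (γ 1 0 : ℂ) * τ + γ 1 1 := by
  rw [ModularGroup.denom_apply]

theorem gF_smul (v : ZMod p × ZMod p) (γ : SL(2, ℤ)) (τ : ℍ) :
    gF v (γ • τ) = gF (vact v γ) τ := by
  have hD := GoodModel.den_ne_zero γ τ
  have hd := FLTAgent.ES.dlt_ne_zero τ
  simp only [gF, dF_smul, FLTAgent.ES.top_apply_smul FLTAgent.ES.e4_mem,
    FLTAgent.ES.top_apply_smul FLTAgent.ES.dlt_mem, denom_sl]
  rw [show vact ((2 * v.1, 2 * v.2) : ZMod p × ZMod p) γ = (2 * (vact v γ).1, 2 * (vact v γ).2) by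
    ext <;> simp only [vact] <;> ring]
  norm_cast
  field_simp

theorem hF_smul (v : ZMod p × ZMod p) (γ : SL(2, ℤ)) (τ : ℍ) :
    hF v (γ • τ) = hF (vact v γ) τ := by
  have hD := GoodModel.den_ne_zero γ τ
  have hd := FLTAgent.ES.dlt_ne_zero τ
  have hsum : ∑ v' ∈ Finset.univ.erase 0, dF v v' (γ • τ) =
      ((γ 1 0 : ℂ) * τ + γ 1 1) ^ 2 * ∑ v' ∈ Finset.univ.erase 0, dF (vact v γ) v' τ := by
    rw [Finset.mul_sum]
    let e : ZMod p × ZMod p ≃ ZMod p × ZMod p :=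
      { toFun := fun w ↦ vact w γ, invFun := fun w ↦ vact w γ⁻¹
        left_inv := fun w ↦ by simp only; rw [← vact_mul, mul_inv_cancel, vact_one]
        right_inv := fun w ↦ by simp only; rw [← vact_mul, inv_mul_cancel, vact_one] }
    refine Finset.sum_equiv e (fun w ↦ ?_) fun w _ ↦ dF_smul v w γ τ
    simp only [Finset.mem_erase, Finset.mem_univ, and_true]
    refine ⟨fun hw ↦ vact_ne_zero hw γ, fun hw h0 ↦ hw ?_⟩
    rw [h0]
    simp [e, vact]
  simp only [hF, hsum, FLTAgent.ES.top_apply_smul FLTAgent.ES.e4_mem,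
    FLTAgent.ES.top_apply_smul FLTAgent.ES.e6_mem,
    FLTAgent.ES.top_apply_smul FLTAgent.ES.dlt_mem, denom_sl]
  norm_cast
  field_simp

variable (κ : QA →+* ℂ) {ζ : QAˣ} (hζ : GoodRoot p ζ)
  (hκ : Units.map (κ : QA →* ℂ) ζ = zetaN p)

theorem map_jqX : coeffMap κ (qExpand QA p (jqModC QA)) = qExpand ℂ p (jqModC ℂ) := by
  rw [coeffMap_qExpand, coeffMap_jqModC]

include hζ hκ in
/-- The family separating the cusps. -/
def gFam (hp2 : p ≠ 2) : Fam κ p where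
  F := gF
  X v := HahnSeries.ofPowerSeries ℤ QA (gP ζ v) * qExpand QA p (jqModC QA)
  mdiff _ hv := mdiff_gF hp2 hv
  smul v _ := gF_smul v
  exp v hv := by
    rw [map_mul, coeffMap_ofPowerSeries, map_jqX, map_gP hp2 hζ κ hv, hκ]
    exact hasExp_gF hp2 hv

include hζ hκ in
/-- The families separating the points, one for each rational number `t`. -/
def hFam (t : ℕ) : Fam κ p where
  F v := fun τ ↦ (t : ℂ) - hF v τ
  X v := HahnSeries.C (t : QA) - HahnSeries.ofPowerSeries ℤ QA (hP ζ v) * qExpand QA p (jqModC QA)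
  mdiff _ hv := mdifferentiable_const.sub (mdiff_hF hv)
  smul v _ γ τ := by simp only [hF_smul]
  exp v hv := by
    rw [map_sub, map_mul, coeffMap_ofPowerSeries, map_jqX, map_hP hζ κ hv, hκ, ModEq.coeffMap_C,
      map_natCast]
    exact GoodModel.hasExp_sub (HasExp.const _) (hasExp_hF hv)

end Analytic

end FLTAgent.Mazur
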