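import Fermat.Agent.Mazur.PointCurve
import Fermat.Agent.Mazur.PointEmb
import Fermat.Agent.Specialization.Inputs

/-!
# Which cusp a point of `X₀(p)` specialises to

Only the defining property of a reduction of places is used: the poles of `j` go to poles, and
the integral function `∏ gF / j ^ (p - 1)` separates the images of the two cusps.
-/

set_option autoImplicit false
set_option linter.style.haveILetI false
set_option maxHeartbeats 1000000
set_option synthInstance.maxHeartbeats 400000

noncomputable section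

open HahnSeries IntermediateField AlgebraicCurve ModularCurve IsLocalRing
open FLTAgent.X0Fn (Cos XF jF cuspEmb)
open FLTAgent.Curves (OrdGE IsFunctionField divOf divOf_apply zerosOf)
open scoped MatrixGroups

namespace FLTAgent.Mazur

local notation "QA" => AlgebraicClosure ℚ

section NoCancel

variable {K F K' F' : Type*} [Field K] [Field F] [Algebra K F] [IsAlgClosed K]
  [IsFunctionField K F] [Field K'] [Field F'] [Algebra K' F'] [IsAlgClosed K']
  [IsFunctionField K' F']

theorem mapDomain_apply_sum {α β : Type*} [DecidableEq β] (r : α → β) (D : α →₀ ℤ) (Q : β) :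
    Finsupp.mapDomain r D Q = ∑ v ∈ D.support, if r v = Q then D v else 0 := by
  rw [Finsupp.mapDomain, Finsupp.sum_apply, Finsupp.sum]
  exact Finset.sum_congr rfl fun v _ ↦ Finsupp.single_apply

/-- A map of places sending the divisor of `f` to that of `g`, of the same degree, sends zeros
to zeros. -/
theorem red_zero (r : Place K F → Place K' F') {f : F} {g : F'} (hf : Transcendental K f)
    (hg : Transcendental K' g) (hn : Module.finrank K⟮f⟯ F = Module.finrank K'⟮g⟯ F')
    (h : ∀ Q, Finsupp.mapDomain r (divOf K f) Q = Q.ord g) {v : Place K F} (hv : 0 < v.ord f) :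
    0 < (r v).ord g := by
  classical
  by_contra hneg
  set D := divOf K f with hD
  have hsum := Curves.sum_ord_zerosOf hf
  have hsum' := Curves.sum_ord_zerosOf hg
  rw [hn, ← hsum'] at hsum
  have e : (zerosOf K f) = D.support.filter fun w ↦ 0 < D w := by
    ext w
    rw [Curves.mem_zerosOf, Finset.mem_filter, Finsupp.mem_support_iff, hD, divOf_apply]
    omega
  have e2 : ∑ Q ∈ zerosOf K' g, Q.ord g =
      ∑ w ∈ D.support, if r w ∈ zerosOf K' g then D w else 0 := by
    simp only [← h, mapDomain_apply_sum]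
    rw [Finset.sum_comm]
    exact Finset.sum_congr rfl fun w _ ↦ Finset.sum_ite_eq _ _ _
  have hlt : ∑ w ∈ D.support, (if r w ∈ zerosOf K' g then D w else 0) <
      ∑ w ∈ D.support, if 0 < D w then D w else 0 := by
    refine Finset.sum_lt_sum (fun w _ ↦ ?_) ⟨v, ?_, ?_⟩
    · split_ifs <;> omega
    · rw [Finsupp.mem_support_iff, hD, divOf_apply]
      omega
    · have hD0 : 0 < D v := by rw [hD, divOf_apply]; exact hv
      rw [if_neg (by rw [Curves.mem_zerosOf]; exact hneg), if_pos hD0]
      exact hD0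
  rw [← e2, ← Finset.sum_filter, ← e] at hlt
  simp only [hD, divOf_apply] at hlt
  omega

end NoCancel

section Reduction

variable {p : ℕ} [Fact p.Prime] {A : ValuationSubring QA}
  {r : Place QA (modularFunctionFieldBar p) →
    Place (ResidueField A) (modularFunctionFieldFullC (ResidueField A) p)}

/-- The element `j` of the reduced field. -/
def jk (k : Type*) [Field k] (p : ℕ) [NeZero p] : modularFunctionFieldFullC k p :=
  ⟨jqModC k, jqModC_mem_full k p⟩

theorem coe_jF : ((jF QA p : XF QA p) : LaurentSeries QA) = jqModC QA := by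
  show coeffEmb QA jq = jqModC QA
  exact coeffMap_jqModC _

theorem order_jq_series (k : Type*) [Field k] : (jqModC k).order = -1 := by
  have hc : PowerSeries.constantCoeff (jNum.map (Int.castRingHom k)) = 1 := by
    rw [← PowerSeries.coeff_zero_eq_constantCoeff_apply, PowerSeries.coeff_map,
      PowerSeries.coeff_zero_eq_constantCoeff_apply, constantCoeff_jNum, map_one]
  have h0 : (jqModC k).coeff (-1) = 1 := by
    rw [jqModC, HahnSeries.coeff_single_mul, sub_self, one_mul, show (0 : ℤ) = ((0 : ℕ) : ℤ) from rfl,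
      HahnSeries.ofPowerSeries_apply_coeff, PowerSeries.coeff_zero_eq_constantCoeff_apply, hc]
  refine le_antisymm (HahnSeries.order_le_of_coeff_ne_zero (by rw [h0]; exact one_ne_zero)) ?_
  by_contra hlt
  refine HahnSeries.coeff_order_eq_zero.not.mpr (HahnSeries.ne_zero_of_coeff_ne_zero
    (x := jqModC k) (g := -1) (by rw [h0]; exact one_ne_zero)) ?_
  rw [jqModC, HahnSeries.coeff_single_mul, one_mul, ofPowerSeries_coeff_of_neg]
  rw [← jqModC]
  omega

/-- `1/j` as a series. -/
def jInvS (R : Type*) [CommRing R] : LaurentSeries R :=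
  HahnSeries.single (1 : ℤ) 1 *
    HahnSeries.ofPowerSeries ℤ R (dedekindEtaUnit.map (Int.castRingHom R) * e4i R ^ 3)

theorem jqModC_mul_jInvS (R : Type*) [CommRing R] : jqModC R * jInvS R = 1 := by
  have e : (jNum.map (Int.castRingHom R)) * (dedekindEtaUnit.map (Int.castRingHom R) * e4i R ^ 3) =
      1 := by
    rw [jNum, map_mul, map_pow]
    calc _ = (eisenstein4.map (Int.castRingHom R) * e4i R) ^ 3 *
          ((dedekindEtaUnit * dedekindEtaUnitInv).map (Int.castRingHom R)) := by rw [map_mul]; ring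
      _ = 1 := by rw [eisenstein4_mul_e4i, dedekindEtaUnit_mul_inv, map_one]; ring
  rw [jqModC, jInvS, mul_mul_mul_comm, HahnSeries.single_mul_single, ← map_mul, e]
  simp

theorem coeffMap_jInvS {R S : Type*} [CommRing R] [CommRing S] (φ : R →+* S) :
    coeffMap φ (jInvS R) = jInvS S := by
  rw [jInvS, jInvS, map_mul, coeffMap_single, map_one, coeffMap_ofPowerSeries, map_mul, map_pow,
    map_e4i, ← RingHom.comp_apply (PowerSeries.map φ), ← PowerSeries.map_comp,
    RingHom.ext_int (φ.comp (Int.castRingHom R)) (Int.castRingHom S)]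

theorem mapDomain_eq (hr : IsPlaceReductionModL A p r) {f : XF QA p}
    {g : modularFunctionFieldFullC (ResidueField A) p} (y : LaurentSeries A)
    (hf : coeffMap A.subtype y = (f : LaurentSeries QA))
    (hg : coeffMap (residue A) y = (g : LaurentSeries (ResidueField A))) (hg0 : g ≠ 0)
    (Q : Place (ResidueField A) (modularFunctionFieldFullC (ResidueField A) p)) :
    Finsupp.mapDomain r (divOf QA f) Q = Q.ord g := by
  have hy : coeffMap A.subtype y ∈ XF QA p := hf ▸ f.2
  have hyk : coeffMap (residue A) y ∈ modularFunctionFieldFullC (ResidueField A) p := hg ▸ g.2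
  have e1 : (⟨coeffMap A.subtype y, hy⟩ : XF QA p) = f := Subtype.ext hf
  have e2 : (⟨coeffMap (residue A) y, hyk⟩ : modularFunctionFieldFullC (ResidueField A) p) = g :=
    Subtype.ext hg
  refine (hr.2 y hy hyk (fun h ↦ hg0 (Subtype.ext (hg ▸ h))) (divOf QA f)
    (fun P ↦ by rw [divOf_apply]; exact (congrArg P.ord e1).symm) Q).trans (congrArg Q.ord e2)

variable {q : ℕ} [Fact q.Prime] (hA : A.LiesOverPrime q) (hqp : q ≠ p)

include hA hqp in
theorem natCast_p_ne_zero : (p : ResidueField A) ≠ 0 :=
  Specialization.natCast_ne_zero_residue hA fun h ↦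
    hqp ((Nat.prime_dvd_prime_iff_eq Fact.out Fact.out).mp h)

include hA hqp in
theorem finrank_jk_eq :
    Module.finrank QA⟮jF QA p⟯ (XF QA p) =
      Module.finrank (ResidueField A)⟮jk (ResidueField A) p⟯
        (modularFunctionFieldFullC (ResidueField A) p) := by
  rw [Specialization.finrank_jElt (ResidueField A) p rfl (natCast_p_ne_zero hA hqp) _ rfl,
    Specialization.finrank_jElt QA p (Specialization.laurentBaseChange_full_eq p)
      (Nat.cast_ne_zero.mpr (Fact.out : p.Prime).ne_zero) _ coe_jF]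

theorem transcendental_jk : Transcendental (ResidueField A) (jk (ResidueField A) p) :=
  Specialization.transcendental_coe (Specialization.transcendental_jq _)

include hA hqp in
theorem red_j_zero (hr : IsPlaceReductionModL A p r) {v : Place QA (XF QA p)}
    (hv : 0 < v.ord (jF QA p)) : 0 < (r v).ord (jk (ResidueField A) p) := by
  haveI : IsAlgClosed (ResidueField A) := FrobTrace.isAlgClosed_residueField A
  haveI := Specialization.isFunctionField_full (ResidueField A) p rfl (natCast_p_ne_zero hA hqp)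
  refine red_zero r (X0Fn.transcendental_jF kappa0) transcendental_jk
    (finrank_jk_eq hA hqp) (fun Q ↦ ?_) hv
  exact mapDomain_eq hr (jqModC A) (by rw [coe_jF]; exact coeffMap_jqModC _)
    (coeffMap_jqModC _) (fun h ↦ transcendental_jk (p := p) (A := A) (by rw [h]; exact isAlgebraic_zero)) Q

include hA hqp in
/-- A place where `1/j - b`, `b` in the maximal ideal, vanishes goes to a pole of `j`. -/
theorem red_j_pole (hr : IsPlaceReductionModL A p r) {v : Place QA (XF QA p)} {b : A}
    (hb : residue A b = 0)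
    (hv : 0 < v.ord ((jF QA p)⁻¹ - algebraMap QA (XF QA p) (b : QA))) :
    (r v).ord (jk (ResidueField A) p) < 0 := by
  haveI : IsAlgClosed (ResidueField A) := FrobTrace.isAlgClosed_residueField A
  haveI := Specialization.isFunctionField_full (ResidueField A) p rfl (natCast_p_ne_zero hA hqp)
  have hinv : ∀ (K : Type) [Field K], (jqModC K)⁻¹ = jInvS K := fun K _ ↦
    inv_eq_of_mul_eq_one_right (jqModC_mul_jInvS K)
  have h := red_zero r (f := (jF QA p)⁻¹ - algebraMap QA (XF QA p) (b : QA))
    (g := (jk (ResidueField A) p)⁻¹)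
    (Curves.transcendental_sub (Curves.transcendental_inv (X0Fn.transcendental_jF kappa0)) _)
    (Curves.transcendental_inv transcendental_jk)
    (by rw [Curves.adjoin_simple_sub_eq, Curves.adjoin_simple_inv_eq,
      Curves.adjoin_simple_inv_eq]; exact finrank_jk_eq hA hqp)
    (fun Q ↦ mapDomain_eq hr (jInvS A - HahnSeries.C b) ?_ ?_
      (inv_ne_zero fun h ↦ transcendental_jk (p := p) (A := A) (by rw [h]; exact isAlgebraic_zero)) Q) hv
  · rw [(r v).ord_inv] at h
    omega
  · rw [map_sub, coeffMap_jInvS, ← hinv, ModEq.coeffMap_C, ← coe_jF (p := p)]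
    rw [HahnSeries.C_apply, ← algebraMap_laurentSeries_eq_single]
    rfl
  · rw [map_sub, coeffMap_jInvS, ← hinv, ModEq.coeffMap_C, hb, map_zero, sub_zero]
    rfl

include hA hqp in
theorem red_cusp (hr : IsPlaceReductionModL A p r) {v : Place QA (XF QA p)}
    (hv : v.ord (jF QA p) < 0) : (r v).ord (jk (ResidueField A) p) < 0 :=
  red_j_pole hA hqp hr (b := 0) (map_zero _) (by
    rw [ZeroMemClass.coe_zero, map_zero, sub_zero, v.ord_inv]
    omega)

end Reduction

section Separating

variable {p : ℕ} [Fact p.Prime]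

theorem card_units : Fintype.card (ZMod p)ˣ = p - 1 := ZMod.card_units p

/-- The function separating the cusps, times `j ^ (p - 1)`. -/
theorem exists_zG (hp : 5 ≤ p) (κ : QA →+* ℂ) {ζ : QAˣ} (hζ : GoodRoot p ζ)
    (hκ : Units.map (κ : QA →* ℂ) ζ = GoodModel.zetaN p) :
    ∃ z : XF QA p, qExpand QA p (z : LaurentSeries QA) = ∏ u : (ZMod p)ˣ, gX ζ u ∧ z ≠ 0 ∧
      (∀ v : Place QA (XF QA p), 0 ≤ v.ord (jF QA p) → 0 ≤ v.ord z) ∧
      0 < (cuspZero p).ord (z / jF QA p ^ (p - 1)) := by
  have hp2 : p ≠ 2 := by omega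
  obtain ⟨z, hz, hval, hcusp⟩ := (gFam κ hζ hκ hp2).exists_fn
  have hjX : qExpand QA p (jqModC QA) ≠ 0 :=
    (map_ne_zero_iff _ (qExpand_injective p)).mpr fun h ↦ by
      have := jqModC_mul_jInvS QA
      rw [h, zero_mul] at this
      exact zero_ne_one this
  have hz' : qExpand QA p (z : LaurentSeries QA) = ∏ u : (ZMod p)ˣ, gX ζ u := hz
  have hz0 : z ≠ 0 := fun h ↦ by
    rw [h] at hz'
    rw [ZeroMemClass.coe_zero, map_zero, eq_comm, Finset.prod_eq_zero_iff] at hz'
    obtain ⟨u, -, hu⟩ := hz'
    rw [gX, mul_eq_zero, or_iff_left hjX] at hu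
    have h0 := HahnSeries.ofPowerSeries_injective (hu.trans (map_zero _).symm)
    exact (isUnit_gP_zero hp hζ u).ne_zero (by rw [h0, map_zero])
  refine ⟨z, hz', hz0, ord_nonneg_of_geOrd κ fun τ q ↦ ?_, ?_⟩
  · induction q using QuotientGroup.induction_on with
    | H g => exact (hval τ g).1
  have hj0 : jF QA p ≠ 0 := fun h ↦
    X0Fn.transcendental_jF (N := p) κ (h ▸ isAlgebraic_zero)
  obtain ⟨c, hc, hord⟩ := exists_ord_cuspZero (p := p) κ
  set w : (ZMod p)ˣ → ZMod p × ZMod p := fun u ↦
    vact ((0 : ZMod p), (u : ZMod p)) (ModularGroup.S : SL(2, ℤ))⁻¹ with hw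
  have e : cuspEmb κ (ModularGroup.S : Cos p) (z / jF QA p ^ (p - 1)) =
      HahnSeries.ofPowerSeries ℤ ℂ (∏ u : (ZMod p)ˣ, (gP ζ (w u)).map κ) := by
    rw [map_div₀, map_pow, hcusp, X0Fn.cuspEmb_jF,
      div_eq_iff (pow_ne_zero _ ((map_ne_zero_iff _ (X0Fn.iota_injective κ)).mpr
        ((map_ne_zero (coeffEmb QA)).mpr (fun h ↦ hj0 (Subtype.ext (by
          show coeffEmb QA jq = 0
          rw [h, map_zero])))))), map_prod, map_prod, ← card_units (p := p),
      ← Finset.card_univ, ← Finset.prod_const, ← Finset.prod_mul_distrib]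
    refine Finset.prod_congr rfl fun u _ ↦ ?_
    show coeffMap κ (HahnSeries.ofPowerSeries ℤ QA (gP ζ (w u)) * qExpand QA p (jqModC QA)) = _
    rw [map_mul, coeffMap_ofPowerSeries]
    congr 1
    rw [X0Fn.iota, RingHom.comp_apply, coeffMap_qExpand]
    congr 2
    exact (coe_jF (p := p)).symm
  have h := hord (z / jF QA p ^ (p - 1))
  rw [e] at h
  set P := ∏ u : (ZMod p)ˣ, (gP ζ (w u)).map κ
  have hP0 : PowerSeries.constantCoeff P = 0 := by
    rw [map_prod]
    refine Finset.prod_eq_zero (Finset.mem_univ 1) ?_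
    rw [← PowerSeries.coeff_zero_eq_constantCoeff_apply, PowerSeries.coeff_map,
      PowerSeries.coeff_zero_eq_constantCoeff_apply, gP_one_zero hp2, map_zero]
    simp [hw, vact, ModularGroup.coe_S, Matrix.adjugate_fin_two]
  have hne : HahnSeries.ofPowerSeries ℤ ℂ P ≠ 0 := by
    rw [← e]
    exact (map_ne_zero _).mpr (div_ne_zero hz0 (pow_ne_zero _ hj0))
  have hpos : 0 < (HahnSeries.ofPowerSeries ℤ ℂ P).order := by
    have h1 := HahnSeries.coeff_order_eq_zero.not.mpr hne
    by_contra hle
    rcases lt_or_eq_of_le (not_lt.mp hle) with hk | hk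
    · exact h1 (ofPowerSeries_coeff_of_neg _ hk)
    · exact h1 (by rw [hk, show (0 : ℤ) = ((0 : ℕ) : ℤ) from rfl,
        HahnSeries.ofPowerSeries_apply_coeff, PowerSeries.coeff_zero_eq_constantCoeff_apply, hP0])
  rw [h] at hpos
  nlinarith

variable {A : ValuationSubring QA} {q : ℕ} [Fact q.Prime] (hA : A.LiesOverPrime q) (hqp : q ≠ p)

include hA hqp in
theorem exists_good_root_A {ζ : QAˣ} (hζ : GoodRoot p ζ) :
    ∃ ζA : Aˣ, GoodRoot p ζA ∧ Units.map (A.subtype : A →* QA) ζA = ζ := by
  have hp : p.Prime := Fact.out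
  have hpow : (ζ : QA) ^ p = 1 := by rw [← Units.val_pow_eq_pow_val, hζ.pow_eq, Units.val_one]
  have hval : A.valuation (ζ : QA) = 1 := by
    have := congrArg A.valuation hpow
    rw [map_pow, map_one] at this
    exact (pow_eq_one_iff.mp this).resolve_right hp.ne_zero
  have h1 : (ζ : QA) ∈ A := (A.valuation_le_one_iff _).mp hval.le
  have h2 : ((ζ⁻¹ : QAˣ) : QA) ∈ A := (A.valuation_le_one_iff _).mp (by
    rw [Units.val_inv_eq_inv_val, map_inv₀, hval, inv_one])
  let ζA : Aˣ := ⟨⟨ζ, h1⟩, ⟨_, h2⟩, Subtype.ext (Units.mul_inv ζ), Subtype.ext (Units.inv_mul ζ)⟩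
  have he : Units.map (A.subtype : A →* QA) ζA = ζ := Units.ext rfl
  refine ⟨ζA, ⟨Units.ext (Subtype.ext (by simpa using hpow)), fun i hi ↦ ?_⟩, he⟩
  rw [← residue_ne_zero_iff_isUnit]
  intro h0
  set ξ : A := ((ζA ^ i : Aˣ) : A) with hξ
  have hξ1 : (ξ : QA) ≠ 1 := fun h ↦ (hζ.isUnit_sub i hi).ne_zero (by
    rw [← he, ← map_zpow, Units.coe_map, sub_eq_zero]
    exact h.symm)
  have hξp : ξ ^ p = 1 := by
    rw [hξ, ← Units.val_pow_eq_pow_val, ← zpow_natCast, ← zpow_mul, mul_comm, zpow_mul,
      zpow_natCast, show ζA ^ p = 1 from Units.ext (Subtype.ext (by simpa using hpow)),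
      one_zpow, Units.val_one]
  have hs : ∑ k ∈ Finset.range p, ξ ^ k = 0 := by
    have h := geom_sum_mul ξ p
    rw [hξp, sub_self, mul_eq_zero] at h
    exact h.resolve_right (sub_ne_zero.mpr fun h' ↦ hξ1 (by rw [h']; rfl))
  have hres := congrArg (residue A) hs
  rw [map_sum, map_zero] at hres
  rw [map_sub, map_one, sub_eq_zero] at h0
  simp only [map_pow, ← h0, one_pow, Finset.sum_const, Finset.card_range, nsmul_one] at hres
  exact natCast_p_ne_zero hA hqp hres

variable {r : Place QA (modularFunctionFieldBar p) →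
    Place (ResidueField A) (modularFunctionFieldFullC (ResidueField A) p)}

include hA hqp in
/-- The cusps stay distinct, and a point with `j` non-integral specialises to one of them,
according to the residue of the separating function. -/
theorem red_point (hp : 5 ≤ p) (κ : QA →+* ℂ) {ζ : QAˣ} (hζ : GoodRoot p ζ)
    (hκ : Units.map (κ : QA →* ℂ) ζ = GoodModel.zetaN p) (hr : IsPlaceReductionModL A p r) :
    r (cuspInf p) ≠ r (cuspZero p) ∧
      ∀ (x : Place QA (XF QA p)) (a : QA), a ≠ 0 → ∀ (ha : a⁻¹ ∈ A), residue A ⟨a⁻¹, ha⟩ = 0 →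
        0 < x.ord (jF QA p - algebraMap QA (XF QA p) a) → ∀ V : A,
        (∀ z : XF QA p, qExpand QA p (z : LaurentSeries QA) = ∏ u : (ZMod p)ˣ, gX ζ u →
          OrdGE x 1 (z - algebraMap QA (XF QA p) ((V : QA) * a ^ (p - 1)))) →
        (residue A V = 0 → r x = r (cuspZero p)) ∧ (residue A V ≠ 0 → r x = r (cuspInf p)) := by
  classical
  have hp2 : p ≠ 2 := by omega
  haveI : IsAlgClosed (ResidueField A) := FrobTrace.isAlgClosed_residueField A
  have hNk := natCast_p_ne_zero hA hqp
  haveI := Specialization.isFunctionField_full (ResidueField A) p rfl hNk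
  obtain ⟨z, hz, hz0, hzfin, hc0pos⟩ := exists_zG hp κ hζ hκ
  obtain ⟨ζA, hζA, hζA'⟩ := exists_good_root_A hA hqp hζ
  have hj0 : jF QA p ≠ 0 := fun h ↦ X0Fn.transcendental_jF (N := p) κ (h ▸ isAlgebraic_zero)
  set G : XF QA p := z / jF QA p ^ (p - 1) with hG
  -- the integral series
  set PA : PowerSeries A := ∏ u : (ZMod p)ˣ, gP ζA ((0 : ZMod p), (u : ZMod p))
  set y : LaurentSeries A := HahnSeries.ofPowerSeries ℤ A
    (PowerSeries.mk fun k ↦ PowerSeries.coeff (p * k) PA) with hy
  have hjX : qExpand QA p (jqModC QA) ≠ 0 := by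
    rw [← coe_jF (p := p)]
    exact (map_ne_zero_iff _ (qExpand_injective p)).mpr fun h ↦ hj0 (Subtype.ext h)
  have hqG : qExpand QA p (G : LaurentSeries QA) =
      HahnSeries.ofPowerSeries ℤ QA (PA.map A.subtype) := by
    have hcoe : ((G : XF QA p) : LaurentSeries QA) =
        (z : LaurentSeries QA) / jqModC QA ^ (p - 1) := by
      rw [hG]; push_cast; rw [coe_jF]
    rw [hcoe, map_div₀, map_pow, hz, div_eq_iff (pow_ne_zero _ hjX), ← card_units (p := p),
      ← Finset.card_univ, ← Finset.prod_const, map_prod, map_prod, ← Finset.prod_mul_distrib]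
    refine Finset.prod_congr rfl fun u _ ↦ ?_
    rw [gX, map_gP hp2 hζA A.subtype (unit_vec_ne_zero u), hζA']
  have hyG : coeffMap A.subtype y = (G : LaurentSeries QA) := by
    ext k
    rw [coeffMap_coeff, hy]
    have e := congrArg (fun X : LaurentSeries QA ↦ X.coeff ((p : ℤ) * k)) hqG
    simp only [qExpand_coeff_mul] at e
    rw [e]
    rcases lt_or_ge k 0 with hk | hk
    · rw [ofPowerSeries_coeff_of_neg _ hk, map_zero, ofPowerSeries_coeff_of_neg]
      have : (0 : ℤ) < p := by exact_mod_cast (Fact.out : p.Prime).pos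
      nlinarith
    · lift k to ℕ using hk
      rw [← Nat.cast_mul, HahnSeries.ofPowerSeries_apply_coeff,
        HahnSeries.ofPowerSeries_apply_coeff, PowerSeries.coeff_mk, PowerSeries.coeff_map]
  have hy0 : (coeffMap (residue A) y).coeff 0 ≠ 0 := by
    rw [coeffMap_coeff, hy, show (0 : ℤ) = ((0 : ℕ) : ℤ) from rfl,
      HahnSeries.ofPowerSeries_apply_coeff, PowerSeries.coeff_mk, mul_zero,
      PowerSeries.coeff_zero_eq_constantCoeff_apply, map_prod, residue_ne_zero_iff_isUnit]
    exact IsUnit.prod_iff.mpr fun u _ ↦ isUnit_gP_zero hp hζA u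
  have hyneg : ∀ k : ℤ, k < 0 → (coeffMap (residue A) y).coeff k = 0 := fun k hk ↦ by
    rw [coeffMap_coeff, hy, ofPowerSeries_coeff_of_neg _ hk, map_zero]
  have hymem : coeffMap (residue A) y ∈ modularFunctionFieldFullC (ResidueField A) p :=
    Specialization.res_mem_full residue_surjective p hNk
      (f := ⟨coeffMap A.subtype y, hyG ▸ G.2⟩) (Specialization.laurentReduction_res (hyG ▸ G.2))
  set Gb : modularFunctionFieldFullC (ResidueField A) p := ⟨_, hymem⟩ with hGb
  have hGb0 : Gb ≠ 0 := fun h ↦ hy0 (by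
    rw [show coeffMap (residue A) y = 0 from congrArg Subtype.val h]; rfl)
  have hG0 : G ≠ 0 := div_ne_zero hz0 (pow_ne_zero _ hj0)
  -- `G` is regular where `j` has no zero
  have hGfin : ∀ v : Place QA (XF QA p), v.ord (jF QA p) ≤ 0 → 0 ≤ v.ord G := by
    intro v hv
    rcases lt_or_eq_of_le hv with hv | hv
    · rcases (ord_jF_neg_iff v).mp hv with rfl | rfl
      · rw [ord_cuspInf, ← hyG]
        by_contra hlt
        have hne : (coeffMap A.subtype y) ≠ 0 := fun h ↦ hG0 (Subtype.ext (hyG ▸ h))
        refine HahnSeries.coeff_order_eq_zero.not.mpr hne ?_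
        rw [coeffMap_coeff, hy, ofPowerSeries_coeff_of_neg _ (not_le.mp hlt), map_zero]
      · exact hc0pos.le
    · rw [hG, Curves.ord_div v hz0 (pow_ne_zero _ hj0), Curves.ord_pow, hv, mul_zero, sub_zero]
      exact hzfin v hv.ge
  -- positivity at the poles of `j`
  have hposPole : ∀ (c : A), Gb - algebraMap _ _ (residue A c) ≠ 0 → ∀ v : Place QA (XF QA p),
      (r v).ord (jk (ResidueField A) p) < 0 →
      0 < v.ord (G - algebraMap QA (XF QA p) (c : QA)) →
      0 < (r v).ord (Gb - algebraMap _ _ (residue A c)) := by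
    intro c hne v hvj hv
    set f := G - algebraMap QA (XF QA p) (c : QA) with hf
    have h := mapDomain_eq hr (f := f) (g := Gb - algebraMap _ _ (residue A c))
      (y - HahnSeries.C c) (by
        rw [map_sub, hyG, ModEq.coeffMap_C, HahnSeries.C_apply,
          ← algebraMap_laurentSeries_eq_single]
        rfl) (by
        rw [map_sub, ModEq.coeffMap_C, HahnSeries.C_apply, ← algebraMap_laurentSeries_eq_single]
        rfl) hne (r v)
    rw [← h, mapDomain_apply_sum]
    have hf0 : f ≠ 0 := fun h0 ↦ by rw [h0, AlgebraicCurve.Place.ord_zero] at hv; omega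
    refine Finset.sum_pos' (fun w _ ↦ ?_) ⟨v, ?_, ?_⟩
    · split_ifs with hw
      · rw [divOf_apply]
        have hwj : w.ord (jF QA p) ≤ 0 := by
          by_contra hw0
          have := red_j_zero hA hqp hr (v := w) (not_le.mp hw0)
          rw [hw] at this
          omega
        exact ((Curves.ordGE_of_le (hGfin w hwj)).sub
          (Curves.ordGE_algebraMap w (c : QA))).le_ord hf0
      · rfl
    · rw [Finsupp.mem_support_iff, divOf_apply]
      omega
    · rw [if_pos rfl, divOf_apply]
      exact hv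
  have hc0pole : (r (cuspZero p)).ord (jk (ResidueField A) p) < 0 :=
    red_cusp hA hqp hr ((ord_jF_neg_iff _).mpr (Or.inr rfl))
  have hQ0 : 0 < (r (cuspZero p)).ord Gb := by
    have := hposPole 0 (by rw [map_zero, map_zero, sub_zero]; exact hGb0) (cuspZero p) hc0pole
      (by rw [ZeroMemClass.coe_zero, map_zero, sub_zero]; exact hc0pos)
    rwa [map_zero, map_zero, sub_zero] at this
  -- every pole of `j` on the reduction comes from a cusp
  have himg : ∀ Q : Place (ResidueField A) (modularFunctionFieldFullC (ResidueField A) p),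
      Q.ord (jk (ResidueField A) p) < 0 → Q = r (cuspInf p) ∨ Q = r (cuspZero p) := by
    intro Q hQ
    have h := mapDomain_eq hr (f := jF QA p) (g := jk (ResidueField A) p) (jqModC A)
      (by rw [coe_jF]; exact coeffMap_jqModC _) (coeffMap_jqModC _)
      (fun h ↦ transcendental_jk (p := p) (A := A) (by rw [h]; exact isAlgebraic_zero)) Q
    rw [mapDomain_apply_sum] at h
    rw [← h] at hQ
    by_contra hne
    push Not at hne
    have : 0 ≤ ∑ w ∈ (divOf QA (jF QA p)).support,
        if r w = Q then divOf QA (jF QA p) w else 0 := by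
      refine Finset.sum_nonneg fun w _ ↦ ?_
      split_ifs with hw
      · rw [divOf_apply]
        by_contra hlt
        rcases (ord_jF_neg_iff w).mp (not_le.mp hlt) with rfl | rfl
        · exact hne.1 hw.symm
        · exact hne.2 hw.symm
      · rfl
    exact absurd this (not_le.mpr hQ)
  -- the place at infinity of the reduction
  obtain ⟨Q, c, hc, hQ⟩ := Curves.exists_place
    (φ := (algebraMap (modularFunctionFieldFullC (ResidueField A) p)
      (LaurentSeries (ResidueField A))))
    (κ := RingHom.id (ResidueField A))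
    (fun a ↦ by
      rw [RingHom.id_apply, HahnSeries.C_apply, ← algebraMap_laurentSeries_eq_single]
      rfl)
    (t := (jk (ResidueField A) p)⁻¹) (by
      rw [map_inv₀, Curves.lord_inv]
      show 0 < -(jqModC (ResidueField A)).order
      rw [order_jq_series]
      norm_num)
  have hQpole : Q.ord (jk (ResidueField A) p) < 0 := by
    have h := hQ (jk (ResidueField A) p)
    rw [show (algebraMap (modularFunctionFieldFullC (ResidueField A) p)
      (LaurentSeries (ResidueField A))) (jk (ResidueField A) p) = jqModC _ from rfl,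
      order_jq_series] at h
    nlinarith
  have hQG : Q.ord Gb = 0 := by
    have h := hQ Gb
    have e : (coeffMap (residue A) y).order = 0 :=
      le_antisymm (HahnSeries.order_le_of_coeff_ne_zero hy0) (by
        by_contra hlt
        exact HahnSeries.coeff_order_eq_zero.not.mpr (HahnSeries.ne_zero_of_coeff_ne_zero hy0)
          (hyneg _ (not_le.mp hlt)))
    rw [show (algebraMap (modularFunctionFieldFullC (ResidueField A) p)
      (LaurentSeries (ResidueField A))) Gb = coeffMap (residue A) y from rfl, e] at h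
    exact (mul_eq_zero.mp h.symm).resolve_left hc.ne'
  have hne : r (cuspInf p) ≠ r (cuspZero p) := fun he ↦ by
    have : Q = r (cuspZero p) := (himg Q hQpole).elim (fun h ↦ h.trans he) id
    rw [← this, hQG] at hQ0
    omega
  refine ⟨hne, fun x a ha0 ha hares hx V hV ↦ ?_⟩
  have hxinv : 0 < x.ord ((jF QA p)⁻¹ - algebraMap QA (XF QA p) ((⟨a⁻¹, ha⟩ : A) : QA)) := by
    have hjne : jF QA p - algebraMap QA (XF QA p) a ≠ 0 := fun h ↦ by
      rw [h, AlgebraicCurve.Place.ord_zero] at hx; omega
    have haF : algebraMap QA (XF QA p) a ≠ 0 := (map_ne_zero _).mpr ha0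
    have e : (jF QA p)⁻¹ - algebraMap QA (XF QA p) a⁻¹ =
        -((jF QA p - algebraMap QA (XF QA p) a) / (jF QA p * algebraMap QA (XF QA p) a)) := by
      rw [map_inv₀]; field_simp; ring
    have hxj : x.ord (jF QA p) = 0 := by
      have h := (Curves.ord_add_eq_left haF (g := jF QA p - algebraMap QA (XF QA p) a)
        (Or.inr (by rw [Curves.ord_algebraMap]; exact hx))).1
      rwa [add_sub_cancel, Curves.ord_algebraMap] at h
    rw [e, Curves.ord_neg, Curves.ord_div x hjne (mul_ne_zero hj0 haF), x.ord_mul hj0 haF, hxj,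
      Curves.ord_algebraMap]
    omega
  have hxpole := red_j_pole hA hqp hr hares hxinv
  -- the value of `G` at `x`
  set w : XF QA p := jF QA p ^ (p - 1) with hw
  have hxj0 : OrdGE x 0 (jF QA p) := by
    have := (Curves.ordGE_of_le (show (0 : ℤ) ≤ x.ord (jF QA p - algebraMap QA (XF QA p) a) from
      hx.le)).add (Curves.ordGE_algebraMap x a)
    rwa [sub_add_cancel] at this
  have hpow : ∀ n : ℕ, OrdGE x 1 (jF QA p ^ n - algebraMap QA (XF QA p) (a ^ n)) := by
    intro n
    induction n with
    | zero => exact Or.inl (by simp)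
    | succ n ih =>
      have h1 := (hxj0.mul ih)
      have h2 := (Curves.ordGE_algebraMap x (a ^ n)).mul
        (Curves.ordGE_of_le (show (1 : ℤ) ≤ x.ord (jF QA p - algebraMap QA (XF QA p) a) by omega))
      rw [zero_add] at h1 h2
      have := h1.add h2
      rwa [show jF QA p * (jF QA p ^ n - algebraMap QA (XF QA p) (a ^ n)) +
        algebraMap QA (XF QA p) (a ^ n) * (jF QA p - algebraMap QA (XF QA p) a) =
          jF QA p ^ (n + 1) - algebraMap QA (XF QA p) (a ^ (n + 1)) by
          rw [pow_succ a, map_mul]; ring] at this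
  have hwinv : OrdGE x 0 w⁻¹ := by
    have haF : algebraMap QA (XF QA p) a ≠ 0 := (map_ne_zero _).mpr ha0
    have h := (Curves.ord_add_eq_left haF (g := jF QA p - algebraMap QA (XF QA p) a)
      (Or.inr (by rw [Curves.ord_algebraMap]; exact hx))).1
    rw [add_sub_cancel, Curves.ord_algebraMap] at h
    exact Curves.ordGE_of_le (by rw [x.ord_inv, hw, Curves.ord_pow, h, mul_zero, neg_zero])
  have hGV : OrdGE x 1 (G - algebraMap QA (XF QA p) (V : QA)) := by
    have h1 := (hV z hz).sub ((Curves.ordGE_algebraMap x (V : QA)).mul (hpow (p - 1)))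
    have h2 := h1.mul hwinv
    rw [add_zero] at h2
    have hw0 : w ≠ 0 := pow_ne_zero _ hj0
    rwa [show (z - algebraMap QA (XF QA p) ((V : QA) * a ^ (p - 1)) -
      algebraMap QA (XF QA p) (V : QA) *
        (jF QA p ^ (p - 1) - algebraMap QA (XF QA p) (a ^ (p - 1)))) * w⁻¹ =
        G - algebraMap QA (XF QA p) (V : QA) by
        rw [hG, ← hw, map_mul]; field_simp; ring] at h2
  have hGVne : G - algebraMap QA (XF QA p) (V : QA) ≠ 0 := fun h ↦ by
    have h' : G = algebraMap QA (XF QA p) (V : QA) := sub_eq_zero.mp h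
    rw [h', Curves.ord_algebraMap] at hc0pos
    omega
  have hGVpos : 0 < x.ord (G - algebraMap QA (XF QA p) (V : QA)) := by
    have := hGV.le_ord hGVne
    omega
  have hGbne : Gb - algebraMap _ _ (residue A V) ≠ 0 := fun h ↦ by
    rw [sub_eq_zero] at h
    rw [h, Curves.ord_algebraMap] at hQ0
    omega
  have hpos := hposPole V hGbne x hxpole hGVpos
  rcases himg _ hxpole with hi | h0
  · refine ⟨fun hV0 ↦ ?_, fun _ ↦ hi⟩
    exfalso
    rw [hV0, map_zero, sub_zero] at hpos
    rcases himg Q hQpole with hQi | hQ0'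
    · rw [hi, ← hQi, hQG] at hpos
      omega
    · rw [← hQ0', hQG] at hQ0
      omega
  · refine ⟨fun _ ↦ h0, fun hV0 ↦ ?_⟩
    exfalso
    rw [h0] at hpos
    have h := (Curves.ordGE_of_le (show (1 : ℤ) ≤ (r (cuspZero p)).ord Gb by omega)).sub
      (Curves.ordGE_of_le (show (1 : ℤ) ≤
        (r (cuspZero p)).ord (Gb - algebraMap _ _ (residue A V)) by omega))
    rw [sub_sub_cancel] at h
    have := h.le_ord ((map_ne_zero _).mpr hV0)
    rw [Curves.ord_algebraMap] at this
    omega

end Separating

end FLTAgent.Mazur
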