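import Fermat.Agent.Mazur.OverField
import Fermat.Agent.DetCyclo.Basic
import Mathlib.RingTheory.Nakayama
import Mathlib.LinearAlgebra.Matrix.NonsingularInverse

/-!
# Rank two representations over a finite `ℚ_l`-algebra with a reduction map at `l`

`Z` is the kernel of the reduction at `l`; the only hypotheses on it are that reduction is faithful
over the algebra, invariant under inertia, and that the square of Frobenius has no fixed point.
-/

set_option autoImplicit false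
set_option linter.overlappingInstances false
set_option linter.unusedSectionVars false
set_option linter.style.haveILetI false

noncomputable section

namespace FLTAgent.Mazur

open Matrix FLTAgent.DetCyclo

local notation "QQb" => AlgebraicClosure ℚ
local notation "GG" => (AlgebraicClosure ℚ ≃ₐ[ℚ] AlgebraicClosure ℚ)

/-- The representation, with the reduction at `l`. -/
structure RankTwo (l p : ℕ) [Fact l.Prime] (B : Type) [CommRing B] [Algebra ℚ_[l] B]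
    [Algebra ℤ_[l] B] where
  /-- matrices -/
  M : GG → Matrix (Fin 2) (Fin 2) B
  M_one : M 1 = 1
  M_mul : ∀ σ τ, M (σ * τ) = M σ * M τ
  bdd : Bdd l M
  cont : Tends0 l (fun σ ↦ M σ - 1)
  /-- the cyclotomic character -/
  χ : GG → ℤ_[l]
  cyclo : ∀ (n : ℕ) (σ : GG) (k : ℕ), (∀ ζ : QQb, ζ ^ l ^ n = 1 → σ ζ = ζ ^ k) →
    (l : ℤ_[l]) ^ n ∣ χ σ - k
  χ_mul : ∀ σ τ, χ (σ * τ) = χ σ * χ τ
  /-- the trace -/
  t : GG → B
  rel : ∀ σ, M σ * M σ - t σ • M σ + algebraMap ℤ_[l] B (χ σ) • (1 : Matrix (Fin 2) (Fin 2) B) = 0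
  t_int : ∀ σ, IsIntegral ℤ_[l] (t σ)
  htr : ∀ σ, ∃ (j : ℕ) (y : B), IsIntegral ℤ_[l] y ∧
    (t σ - 1 - algebraMap ℤ_[l] B (χ σ)) ^ j = l * y
  /-- the place over `l` -/
  Al : ValuationSubring (AlgebraicClosure ℚ)
  /-- the place over `p` -/
  Ap : ValuationSubring (AlgebraicClosure ℚ)
  liesl : Al.LiesOverPrime l
  liesp : Ap.LiesOverPrime p
  /-- places over the other primes -/
  place : ℕ → ValuationSubring (AlgebraicClosure ℚ)
  liesq : ∀ q : ℕ, q.Prime → (place q).LiesOverPrime q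
  unram : ∀ q : ℕ, q.Prime → q ≠ p → q ≠ l → ∀ σ ∈ (place q).inertiaSubgroupIn ℚ, M σ = 1
  unip : ∀ σ ∈ Ap.inertiaSubgroupIn ℚ, (M σ - 1) * (M σ - 1) = 0
  /-- the kernel of the reduction -/
  Z : Submodule B (Fin 2 → B)
  Z_ann : ∀ s : B, (∀ z, s • z ∈ Z) → s = 0
  inertia : ∀ σ ∈ Al.inertiaSubgroupIn ℚ, ∀ z, M σ *ᵥ z - z ∈ Z
  /-- a Frobenius element -/
  φl : GG
  φl_mem : φl ∈ Al.decompositionSubgroup ℚ
  φl_stable : ∀ z ∈ Z, M φl *ᵥ z ∈ Z
  frob : ∀ z, M φl *ᵥ (M φl *ᵥ z) - z ∈ Z → z ∈ Z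
  /-- an element at `p` -/
  φp : GG
  φp_mem : φp ∈ Ap.decompositionSubgroup ℚ
  φp_sq : χ φp ^ 2 ≠ 1

variable {l p : ℕ} [Fact l.Prime]

/-- A normal open subgroup containing inertia at one place over each prime is everything. -/
theorem eq_top_of_inertia (Al Ap : ValuationSubring QQb) (place : ℕ → ValuationSubring QQb)
    (hl : Al.LiesOverPrime l) (hp : Ap.LiesOverPrime p)
    (hplace : ∀ q : ℕ, q.Prime → (place q).LiesOverPrime q) (H : Subgroup GG) [H.Normal]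
    (hH : IsOpen (H : Set GG))
    (hq : ∀ q : ℕ, q.Prime → q ≠ p → q ≠ l → (place q).inertiaSubgroupIn ℚ ≤ H)
    (hIp : Ap.inertiaSubgroupIn ℚ ≤ H) (hIl : Al.inertiaSubgroupIn ℚ ≤ H) : H = ⊤ := by
  refine Places.eq_top_of_forall_inertia_le H hH fun ℓ hℓ V hV ↦ ?_
  have key : ∀ W : ValuationSubring QQb, W.LiesOverPrime ℓ → W.inertiaSubgroupIn ℚ ≤ H →
      V.inertiaSubgroupIn ℚ ≤ H := fun W hW hle σ hσ ↦ by
    obtain ⟨g, hg⟩ := Places.exists_smul_eq hℓ hV hW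
    have h := hle (hg ▸ Places.conj_mem_inertia V hσ g)
    have h' := Subgroup.Normal.conj_mem ‹H.Normal› _ h g⁻¹
    simpa [mul_assoc] using h'
  by_cases h1 : ℓ = p
  · exact key Ap (h1 ▸ hp) hIp
  · by_cases h2 : ℓ = l
    · exact key Al (h2 ▸ hl) hIl
    · exact key _ (hplace ℓ hℓ) (hq ℓ hℓ h1 h2)

/-- Inertia at `l` moves some root of unity of order `l²`. -/
theorem exists_inertia_moved (hpl : p ≠ l) (hp : p.Prime) (Al Ap : ValuationSubring QQb)
    (place : ℕ → ValuationSubring QQb) (hAl : Al.LiesOverPrime l) (hAp : Ap.LiesOverPrime p)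
    (hplace : ∀ q : ℕ, q.Prime → (place q).LiesOverPrime q) {ζ : QQb}
    (hζ : IsPrimitiveRoot ζ (l ^ 2)) : ∃ σ ∈ Al.inertiaSubgroupIn ℚ, σ ζ ≠ ζ := by
  have hl : l.Prime := Fact.out
  by_contra h
  push Not at h
  haveI := isGalois_QQb
  haveI : (MulAction.stabilizer GG ζ).Normal := ⟨fun σ hσ g ↦ by
    obtain ⟨j, -, hj⟩ := hζ.eq_pow_of_pow_eq_one (ξ := g⁻¹ ζ)
      (by rw [← map_pow, hζ.pow_eq_one, map_one])
    rw [MulAction.mem_stabilizer_iff] at hσ ⊢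
    have e : σ ζ = ζ := hσ
    show g (σ (g⁻¹ ζ)) = ζ
    rw [← hj, map_pow σ, e, hj, ← AlgEquiv.mul_apply, mul_inv_cancel, AlgEquiv.one_apply]⟩
  have hopen : IsOpen (MulAction.stabilizer GG ζ : Set GG) := by
    haveI : FiniteDimensional ℚ (IntermediateField.adjoin ℚ ({ζ} : Set QQb)) :=
      IntermediateField.adjoin.finiteDimensional
        (Algebra.IsAlgebraic.isAlgebraic (R := ℚ) ζ).isIntegral
    exact Subgroup.isOpen_mono (H₁ := (IntermediateField.adjoin ℚ ({ζ} : Set QQb)).fixingSubgroup)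
      (fun σ hσ ↦ (IntermediateField.mem_fixingSubgroup_iff _ _).mp hσ ζ
        (IntermediateField.subset_adjoin ℚ _ rfl)) (IntermediateField.fixingSubgroup_isOpen _)
  have hunit : ∀ (q : ℕ) (A : ValuationSubring QQb), q.Prime → A.LiesOverPrime q → q ≠ l →
      A.inertiaSubgroupIn ℚ ≤ MulAction.stabilizer GG ζ := fun q A hq hA hql σ hσ ↦
    map_eq_self_of_unit_pow A hq hA
      (fun hd ↦ hql ((Nat.prime_dvd_prime_iff_eq hq hl).mp (hq.dvd_of_dvd_pow hd)))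
      (valuation_root_of_unity A (NeZero.ne (l ^ 2)) hζ.pow_eq_one) hσ
      (by rw [hζ.pow_eq_one, map_one])
  have htop := eq_top_of_inertia Al Ap place hAl hAp hplace (MulAction.stabilizer GG ζ) hopen
    (fun q h1 h2 h3 ↦ hunit q _ h1 (hplace q h1) h3) (hunit p _ hp hAp hpl) h
  have hfix : ∀ σ : GG, σ ζ = ζ := fun σ ↦ by
    have : σ ∈ MulAction.stabilizer GG ζ := by rw [htop]; exact Subgroup.mem_top σ
    exact this
  obtain ⟨r, hr⟩ := IntermediateField.mem_bot.mp ((InfiniteGalois.mem_bot_iff_fixed _).mpr hfix)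
  rw [eq_ratCast] at hr
  have hr1 : r ^ l ^ 2 = 1 := by
    have := hζ.pow_eq_one
    rw [← hr] at this
    exact_mod_cast this
  have habs : |r| = 1 := (pow_eq_one_iff_of_nonneg (abs_nonneg r) (NeZero.ne (l ^ 2))).mp
    (by rw [← abs_pow, hr1, abs_one])
  have h4 : l ^ 2 ∣ 2 := by
    refine (hζ.pow_eq_one_iff_dvd 2).mp ?_
    rw [← hr, ← Rat.cast_pow, ← sq_abs, habs, one_pow, Rat.cast_one]
  have := Nat.le_of_dvd two_pos h4
  nlinarith [hl.two_le]

variable {B : Type} [CommRing B] [Algebra ℚ_[l] B] [Algebra ℤ_[l] B]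
  [IsScalarTower ℤ_[l] ℚ_[l] B] [Module.Finite ℚ_[l] B]

namespace RankTwo

variable (D : RankTwo l p B)

/-- The entries of the cocycle data modulo a maximal ideal. -/
def MK (m : Ideal B) (σ : GG) : Matrix (Fin 2) (Fin 2) (B ⧸ m) :=
  (D.M σ).map (Ideal.Quotient.mk m)

theorem MK_mul (m : Ideal B) (σ τ : GG) : D.MK m (σ * τ) = D.MK m σ * D.MK m τ := by
  rw [MK, D.M_mul, Matrix.map_mul]; rfl

theorem MK_one (m : Ideal B) : D.MK m 1 = 1 := by
  rw [MK, D.M_one, Matrix.map_one _ (map_zero _) (map_one _)]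

theorem χ_one : D.χ 1 = 1 := by
  refine PadicInt.ext_of_toZModPow.mp fun n ↦ ?_
  obtain ⟨y, hy⟩ := D.cyclo n 1 1 fun ζ _ ↦ by simp
  have := congrArg (PadicInt.toZModPow (p := l) n) hy
  rw [map_sub, Nat.cast_one, map_one, map_mul, toZModPow_natCast_pow, zero_mul, sub_eq_zero] at this
  rw [this, map_one]

theorem exists_χ_ne_one (hpl : p ≠ l) (hp : p.Prime) :
    ∃ σ ∈ D.Al.inertiaSubgroupIn ℚ, D.χ σ ≠ 1 := by
  have hl : l.Prime := Fact.out
  haveI : NeZero ((l : ℕ) : QQb) := ⟨Nat.cast_ne_zero.mpr hl.ne_zero⟩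
  obtain ⟨ζ, hζ⟩ := HasEnoughRootsOfUnity.exists_primitiveRoot QQb (l ^ 2)
  obtain ⟨σ, hσ, hne⟩ := exists_inertia_moved hpl hp D.Al D.Ap D.place D.liesl D.liesp D.liesq hζ
  refine ⟨σ, hσ, fun h1 ↦ hne ?_⟩
  have he := isExp_expChar hζ σ
  obtain ⟨y, hy⟩ := D.cyclo 2 σ (expChar (l ^ 2) ζ σ).val fun x hx ↦ by
    obtain ⟨i, -, rfl⟩ := hζ.eq_pow_of_pow_eq_one hx
    rw [map_pow, he, ← pow_mul, ← pow_mul, mul_comm]
  have := congrArg (PadicInt.toZModPow (p := l) 2) hy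
  rw [h1, map_sub, map_one, map_natCast, ZMod.natCast_zmod_val, map_mul, toZModPow_natCast_pow,
    zero_mul, sub_eq_zero] at this
  have hthis := this
  haveI : Fact (1 < l ^ 2) := ⟨Nat.one_lt_pow two_ne_zero hl.one_lt⟩
  rw [he, ← hthis, ZMod.val_one, pow_one]

theorem t_eq {σ : GG} (hσ : ∀ z, D.M σ *ᵥ z - z ∈ D.Z) :
    D.t σ = 1 + algebraMap ℤ_[l] B (D.χ σ) := by
  set χ := algebraMap ℤ_[l] B (D.χ σ)
  refine (sub_eq_zero.mp (D.Z_ann (1 + χ - D.t σ) fun z ↦ ?_)).symm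
  have h := congrArg (· *ᵥ z) (D.rel σ)
  simp only [add_mulVec, sub_mulVec, ← mulVec_mulVec, smul_mulVec, one_mulVec, zero_mulVec] at h
  have h1 := hσ z
  have h2 := hσ (D.M σ *ᵥ z)
  have e : (1 + χ - D.t σ) • z = (D.t σ • (D.M σ *ᵥ z - z)) -
      (D.M σ *ᵥ (D.M σ *ᵥ z) - D.M σ *ᵥ z) - (D.M σ *ᵥ z - z) := by
    ext i
    have hi := congrFun h i
    simp only [Pi.add_apply, Pi.sub_apply, Pi.smul_apply, Pi.zero_apply, smul_eq_mul] at hi ⊢
    linear_combination hi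
  rw [e]
  exact sub_mem (sub_mem (D.Z.smul_mem _ h1) h2) h1

/-- No maximal ideal trivialises the square of Frobenius on the quotient. -/
theorem not_forall_mem (m : Ideal B) [m.IsMaximal]
    (h : ∀ z, ∀ i, (D.M D.φl *ᵥ (D.M D.φl *ᵥ z) - z) i ∈ m) : False := by
  classical
  let Q := (Fin 2 → B) ⧸ D.Z
  let N : (Fin 2 → B) →ₗ[B] (Fin 2 → B) :=
    (Matrix.mulVecLin (D.M D.φl)).comp (Matrix.mulVecLin (D.M D.φl)) - LinearMap.id
  have hN : ∀ z, N z = D.M D.φl *ᵥ (D.M D.φl *ᵥ z) - z := fun z ↦ rfl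
  let NQ : Q →ₗ[B] Q := D.Z.mapQ D.Z N fun z hz ↦ by
    rw [Submodule.mem_comap, hN]
    exact sub_mem (D.φl_stable _ (D.φl_stable _ hz)) hz
  have hinj : Function.Injective NQ := by
    rw [injective_iff_map_eq_zero]
    intro x hx
    obtain ⟨z, rfl⟩ := Submodule.Quotient.mk_surjective _ x
    rw [Submodule.mapQ_apply, Submodule.Quotient.mk_eq_zero, hN] at hx
    exact (Submodule.Quotient.mk_eq_zero _).mpr (D.frob z hx)
  haveI : Module.Finite ℚ_[l] Q := inferInstance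
  have hsurj : Function.Surjective NQ := LinearMap.surjective_of_injective
    (f := NQ.restrictScalars ℚ_[l]) hinj
  obtain ⟨r, hr, hr0⟩ := Submodule.exists_sub_one_mem_and_smul_eq_zero_of_fg_of_le_smul m
    (⊤ : Submodule B Q) Module.Finite.fg_top (fun x _ ↦ by
      obtain ⟨y, rfl⟩ := hsurj x
      obtain ⟨z, rfl⟩ := Submodule.Quotient.mk_surjective _ y
      rw [Submodule.mapQ_apply, hN, pi_eq_sum_univ' (D.M D.φl *ᵥ (D.M D.φl *ᵥ z) - z)]
      rw [← Submodule.mkQ_apply, map_sum]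
      refine Submodule.sum_mem _ fun i _ ↦ ?_
      rw [map_smul]
      exact Submodule.smul_mem_smul (h z i) Submodule.mem_top)
  have hr' : r = 0 := D.Z_ann r fun z ↦ (Submodule.Quotient.mk_eq_zero _).mp (by
    rw [Submodule.Quotient.mk_smul]; exact hr0 _ Submodule.mem_top)
  rw [hr', zero_sub, Ideal.neg_mem_iff] at hr
  exact ‹m.IsMaximal›.ne_top ((Ideal.eq_top_iff_one m).mpr hr)

variable (σ₀ : GG)

/-- The projector onto the unramified quotient. -/
def proj : Matrix (Fin 2) (Fin 2) B :=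
  algebraMap ℚ_[l] B ((1 - (D.χ σ₀ : ℚ_[l]))⁻¹) •
    (D.M σ₀ - algebraMap ℤ_[l] B (D.χ σ₀) • (1 : Matrix (Fin 2) (Fin 2) B))

variable {σ₀} (h₀ : σ₀ ∈ D.Al.inertiaSubgroupIn ℚ) (h₁ : D.χ σ₀ ≠ 1)

include h₁ in
theorem inv_mul_one_sub :
    algebraMap ℚ_[l] B ((1 - (D.χ σ₀ : ℚ_[l]))⁻¹) * (1 - algebraMap ℤ_[l] B (D.χ σ₀)) = 1 := by
  rw [IsScalarTower.algebraMap_apply ℤ_[l] ℚ_[l] B, ← map_one (algebraMap ℚ_[l] B), ← map_sub,
    ← map_mul, PadicInt.algebraMap_apply, inv_mul_cancel₀, map_one]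
  exact sub_ne_zero.mpr fun e ↦ h₁ (PadicInt.ext (e.symm.trans PadicInt.coe_one.symm))

include h₁ in
theorem one_sub_proj : (1 : Matrix (Fin 2) (Fin 2) B) - D.proj σ₀ =
    algebraMap ℚ_[l] B ((1 - (D.χ σ₀ : ℚ_[l]))⁻¹) • (1 - D.M σ₀) := by
  have h := D.inv_mul_one_sub h₁
  rw [proj]
  ext i j
  simp only [Matrix.sub_apply, Matrix.smul_apply, smul_eq_mul]
  linear_combination (-(1 : Matrix (Fin 2) (Fin 2) B) i j) * h

include h₀ h₁ in
theorem one_sub_proj_mem (z : Fin 2 → B) : ((1 : Matrix (Fin 2) (Fin 2) B) - D.proj σ₀) *ᵥ z ∈ D.Z := by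
  rw [D.one_sub_proj h₁, smul_mulVec, sub_mulVec, one_mulVec]
  refine D.Z.smul_mem _ ?_
  rw [← neg_sub]
  exact neg_mem (D.inertia σ₀ h₀ z)

include h₀ h₁ in
theorem proj_sq : D.proj σ₀ * D.proj σ₀ = D.proj σ₀ := by
  have h := D.rel σ₀
  rw [D.t_eq (D.inertia σ₀ h₀)] at h
  have hi := D.inv_mul_one_sub h₁
  set c := algebraMap ℚ_[l] B ((1 - (D.χ σ₀ : ℚ_[l]))⁻¹)
  set χ := algebraMap ℤ_[l] B (D.χ σ₀)
  have e : (D.M σ₀ - χ • (1 : Matrix (Fin 2) (Fin 2) B)) * (D.M σ₀ - χ • 1) =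
      (1 - χ) • (D.M σ₀ - χ • 1) := by
    simp only [Matrix.sub_mul, Matrix.mul_sub, Matrix.smul_mul, Matrix.mul_smul, Matrix.one_mul,
      Matrix.mul_one]
    ext i j
    have hij := congrFun (congrFun h i) j
    simp only [Matrix.add_apply, Matrix.sub_apply, Matrix.smul_apply, smul_eq_mul,
      Matrix.zero_apply] at hij ⊢
    linear_combination hij
  show (c • _) * (c • _) = c • _
  rw [Matrix.smul_mul, Matrix.mul_smul, e, smul_smul, smul_smul, mul_assoc, hi, mul_one]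

include h₀ h₁ in
/-- The projector is non-zero modulo every maximal ideal. -/
theorem proj_map_ne_zero (m : Ideal B) [m.IsMaximal] :
    (D.proj σ₀).map (Ideal.Quotient.mk m) ≠ 0 := by
  intro h
  set s := ((1 : Matrix (Fin 2) (Fin 2) B) - D.proj σ₀).det
  have hs : Ideal.Quotient.mk m s = 1 := by
    rw [RingHom.map_det, map_sub, RingHom.mapMatrix_apply, RingHom.mapMatrix_apply, h,
      Matrix.map_one _ (map_zero _) (map_one _), sub_zero, Matrix.det_one]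
  have hP : s • D.proj σ₀ = 0 := by
    have := congrArg (fun X => X * ((1 : Matrix (Fin 2) (Fin 2) B) - D.proj σ₀).adjugate)
      (show D.proj σ₀ * (1 - D.proj σ₀) = 0 by
        rw [Matrix.mul_sub, Matrix.mul_one, D.proj_sq h₀ h₁, sub_self])
    simpa [Matrix.mul_assoc, Matrix.mul_adjugate] using this
  have : s = 0 := D.Z_ann s fun z ↦ by
    have e : s • z = s • (((1 : Matrix (Fin 2) (Fin 2) B) - D.proj σ₀) *ᵥ z) := by
      rw [sub_mulVec, one_mulVec, smul_sub, ← smul_mulVec, hP, zero_mulVec, sub_zero]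
    rw [e]
    exact D.Z.smul_mem _ (D.one_sub_proj_mem h₀ h₁ z)
  rw [this, map_zero] at hs
  exact zero_ne_one hs

variable (hp : p.Prime) (hpl : p ≠ l)

include h₀ h₁ hp hpl in
/-- Some element acts non-scalarly modulo every maximal ideal. -/
theorem exists_nonscalar (m : Ideal B) [m.IsMaximal] : ∃ σ, ¬ IsScalarMat (D.MK m σ) := by
  by_contra hall
  push Not at hall
  letI := Ideal.Quotient.field m
  let f := Ideal.Quotient.mk m
  let ψ : GG → B ⧸ m := fun σ ↦ D.MK m σ 0 0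
  have hM : ∀ σ, D.MK m σ = ψ σ • (1 : Matrix (Fin 2) (Fin 2) (B ⧸ m)) :=
    fun σ ↦ exists_eq_smul_one (hall σ)
  have hmul : ∀ σ τ, ψ (σ * τ) = ψ σ * ψ τ := fun σ τ ↦ by
    show D.MK m (σ * τ) 0 0 = _
    rw [D.MK_mul, hM σ, hM τ]
    simp [Matrix.smul_apply, ψ, mul_comm]
  have hone : ψ 1 = 1 := by simp [ψ, D.MK_one]
  have hrel : ∀ σ, ψ σ ^ 2 - f (D.t σ) * ψ σ + f (algebraMap ℤ_[l] B (D.χ σ)) = 0 := fun σ ↦ by
    have h := congrArg (fun X => (f.mapMatrix X) 0 0) (D.rel σ)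
    simp only [map_add, map_sub, map_mul, RingHom.mapMatrix_apply] at h
    rw [show (D.M σ).map f = ψ σ • (1 : Matrix (Fin 2) (Fin 2) (B ⧸ m)) from hM σ] at h
    simp [Matrix.mul_apply, Fin.sum_univ_two, Matrix.map_apply] at h
    have e : f (D.M σ 0 0) = ψ σ := rfl
    simp only [e] at h
    rw [← Algebra.algebraMap_eq_smul_one] at h
    linear_combination h
  have hint : ∀ σ, IsIntegral ℤ_[l] (ψ σ) := fun σ ↦ by
    let q : Polynomial (integralClosure ℤ_[l] (B ⧸ m)) :=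
      Polynomial.X ^ 2 - Polynomial.C ⟨f (D.t σ), (D.t_int σ).map
        (Ideal.Quotient.mkₐ ℤ_[l] m)⟩ * Polynomial.X +
        Polynomial.C (algebraMap ℤ_[l] _ (D.χ σ))
    refine isIntegral_trans (R := ℤ_[l]) (A := integralClosure ℤ_[l] (B ⧸ m)) _
      ⟨q, by simp only [q]; monicity!, ?_⟩
    simp [q]
    exact hrel σ
  -- trivial on inertia at `l`
  have hIl : ∀ σ ∈ D.Al.inertiaSubgroupIn ℚ, ψ σ = 1 := by
    have key : ∀ σ ∈ D.Al.inertiaSubgroupIn ℚ, D.χ σ ≠ 1 → ψ σ = 1 := fun σ hσ hne ↦ by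
      have ht := congrArg f (D.t_eq (D.inertia σ hσ))
      rw [map_add, map_one] at ht
      have h := hrel σ
      rw [ht] at h
      have h' : (ψ σ - 1) * (ψ σ - f (algebraMap ℤ_[l] B (D.χ σ))) = 0 := by linear_combination h
      refine sub_eq_zero.mp ((mul_eq_zero.mp h').resolve_right fun e ↦
        D.proj_map_ne_zero hσ hne m ?_)
      rw [RankTwo.proj, Matrix.map_smul' _ _ _ (map_mul f), Matrix.map_sub _ (map_sub f),
        Matrix.map_smul' _ _ _ (map_mul f), Matrix.map_one _ (map_zero _) (map_one _)]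
      rw [show (D.M σ).map f = ψ σ • (1 : Matrix (Fin 2) (Fin 2) (B ⧸ m)) from hM σ,
        sub_eq_zero.mp e, sub_self, smul_zero]
    intro σ hσ
    by_cases hne : D.χ σ = 1
    · have h2 := key (σ * σ₀) (mul_mem hσ h₀) (by rwa [D.χ_mul, hne, one_mul])
      rwa [hmul, key σ₀ h₀ h₁, mul_one] at h2
    · exact key σ hσ hne
  have hIp : ∀ σ ∈ D.Ap.inertiaSubgroupIn ℚ, ψ σ = 1 := fun σ hσ ↦ by
    have h := congrArg (fun X => (f.mapMatrix X) 0 0) (D.unip σ hσ)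
    simp only [map_sub, map_mul, map_one, RingHom.mapMatrix_apply] at h
    rw [show (D.M σ).map f = ψ σ • (1 : Matrix (Fin 2) (Fin 2) (B ⧸ m)) from hM σ] at h
    simp [Matrix.mul_apply, Fin.sum_univ_two] at h
    exact sub_eq_zero.mp h
  -- hence trivial
  have hψ : ∀ σ, ψ σ = 1 := by
    let ψ' : GG →* integralClosure ℤ_[l] (B ⧸ m) :=
      { toFun := fun σ ↦ ⟨ψ σ, hint σ⟩
        map_one' := Subtype.ext hone
        map_mul' := fun σ τ ↦ Subtype.ext (hmul σ τ) }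
    intro σ
    refine sub_eq_zero.mp (congrArg Subtype.val (eq_zero_of_forall_natCast_pow_dvd (l := l)
      (x := ψ' σ - 1) fun n ↦ ?_))
    obtain ⟨C, hC, hcont⟩ := D.cont
    obtain ⟨M, hM'⟩ := exists_natCast_pow_mul_mem_of_fg (l := l) (hC.map
      (((Ideal.Quotient.mkₐ ℤ_[l] m).toLinearMap).comp
        ((LinearMap.proj (R := ℤ_[l]) (φ := fun _ : Fin 2 ↦ B) 0).comp
          (LinearMap.proj (R := ℤ_[l]) (φ := fun _ : Fin 2 ↦ Fin 2 → B) 0))))
    obtain ⟨V, hV, hVd⟩ := hcont (n + M)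
    let q := Ideal.Quotient.mk (Ideal.span {(l : integralClosure ℤ_[l] (B ⧸ m)) ^ n})
    let g : GG →* _ ⧸ Ideal.span {(l : integralClosure ℤ_[l] (B ⧸ m)) ^ n} := q.toMonoidHom.comp ψ'
    have hmem : ∀ τ, τ ∈ g.ker ↔ (l : integralClosure ℤ_[l] (B ⧸ m)) ^ n ∣ ψ' τ - 1 := fun τ ↦ by
      rw [MonoidHom.mem_ker, ← Ideal.mem_span_singleton, ← Ideal.Quotient.eq]
      exact Iff.rfl
    refine (hmem σ).mp ?_
    rw [eq_top_of_inertia D.Al D.Ap D.place D.liesl D.liesp D.liesq g.ker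
      (Subgroup.isOpen_mono (fun τ hτ ↦ (hmem τ).mpr ?_) hV)
      (fun r h1 h2 h3 τ hτ ↦ (hmem τ).mpr ?_) (fun τ hτ ↦ (hmem τ).mpr ?_)
      (fun τ hτ ↦ (hmem τ).mpr ?_)]
    · exact Subgroup.mem_top σ
    · obtain ⟨y, hy, e⟩ := hVd τ hτ
      refine ⟨⟨_, hM' _ (Submodule.mem_map_of_mem hy)⟩, Subtype.ext ?_⟩
      have e' := congrArg (fun X : Matrix (Fin 2) (Fin 2) B => f (X 0 0)) e
      simp only [Matrix.sub_apply, map_sub, Matrix.one_apply_eq, map_one, Matrix.smul_apply,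
        Algebra.smul_def, map_mul, map_pow, map_natCast] at e'
      push_cast
      show ψ τ - 1 = _
      rw [show ψ τ = f (D.M τ 0 0) from rfl, e', pow_add]
      simp [f, mul_assoc, Function.comp_def]
    · have h : ψ τ = 1 := by simp [ψ, RankTwo.MK, D.unram r h1 h2 h3 τ hτ]
      rw [show ψ' τ = 1 from Subtype.ext h, sub_self]; exact dvd_zero _
    · rw [show ψ' τ = 1 from Subtype.ext (hIp τ hτ), sub_self]; exact dvd_zero _
    · rw [show ψ' τ = 1 from Subtype.ext (hIl τ hτ), sub_self]; exact dvd_zero _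
  refine D.not_forall_mem m fun z i ↦ ?_
  rw [← Ideal.Quotient.eq_zero_iff_mem, Pi.sub_apply, map_sub, RingHom.map_mulVec,
    show (f ∘ (D.M D.φl *ᵥ z)) = (D.M D.φl).map f *ᵥ (f ∘ z) from
      funext fun j ↦ RingHom.map_mulVec f _ _ j]
  rw [show (D.M D.φl).map f = ψ D.φl • (1 : Matrix (Fin 2) (Fin 2) (B ⧸ m)) from hM _, hψ,
    one_smul, one_mulVec, one_mulVec]
  exact sub_self _

include h₀ h₁ hp hpl in
theorem trace_det (m : Ideal B) [m.IsMaximal] (σ : GG) :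
    (D.MK m σ).trace = Ideal.Quotient.mk m (D.t σ) ∧
      (D.MK m σ).det = Ideal.Quotient.mk m (algebraMap ℤ_[l] B (D.χ σ)) := by
  letI := Ideal.Quotient.field m
  let f := Ideal.Quotient.mk m
  have hrel : ∀ τ, D.MK m τ * D.MK m τ - f (D.t τ) • D.MK m τ +
      f (algebraMap ℤ_[l] B (D.χ τ)) • 1 = 0 := fun τ ↦ by
    have h := congrArg (fun X => (f.mapMatrix X)) (D.rel τ)
    simp only [map_add, map_sub, map_mul, map_zero, RingHom.mapMatrix_apply] at h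
    rw [Matrix.map_smul' _ _ _ (map_mul f), Matrix.map_smul' _ _ _ (map_mul f),
      Matrix.map_one _ (map_zero _) (map_one _)] at h
    exact h
  have hns : ∀ τ, ¬ IsScalarMat (D.MK m τ) → (D.MK m τ).trace = f (D.t τ) ∧
      (D.MK m τ).det = f (algebraMap ℤ_[l] B (D.χ τ)) := fun τ hτ ↦
    trace_det_of_relation hτ (hrel τ)
  by_cases hσ : IsScalarMat (D.MK m σ)
  swap
  · exact hns σ hσ
  obtain ⟨g, hg⟩ := D.exists_nonscalar h₀ h₁ hp hpl m
  have hinv : D.MK m σ * D.MK m σ⁻¹ = 1 := by rw [← D.MK_mul, mul_inv_cancel, D.MK_one]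
  have hprod : ¬ IsScalarMat (D.MK m (σ * g)) := fun h ↦ hg (by
    have := (hσ.of_mul_eq_one hinv).mul h
    rwa [← D.MK_mul, inv_mul_cancel_left] at this)
  have h1 := (hns _ hprod).2
  rw [D.MK_mul, Matrix.det_mul, (hns g hg).2, D.χ_mul, map_mul, map_mul] at h1
  have hg0 : f (algebraMap ℤ_[l] B (D.χ g)) ≠ 0 := by
    rw [← (hns g hg).2]
    intro h0
    have : (D.MK m g * D.MK m g⁻¹).det = 1 := by
      rw [← D.MK_mul, mul_inv_cancel, D.MK_one, Matrix.det_one]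
    rw [Matrix.det_mul, h0, zero_mul] at this
    exact zero_ne_one this
  have hdet := mul_right_cancel₀ hg0 h1
  refine ⟨?_, hdet⟩
  have hr := congrFun (congrFun (hrel σ) 0) 0
  have hd0 : D.MK m σ 0 0 ≠ 0 := fun h0 ↦ by
    have : (D.MK m σ * D.MK m σ⁻¹).det = 1 := by rw [hinv, Matrix.det_one]
    rw [Matrix.det_mul, Matrix.det_fin_two, h0, hσ.1, hσ.2.1] at this
    simp at this
  rw [Matrix.det_fin_two, hσ.1, hσ.2.1, ← hσ.2.2, mul_zero, sub_zero] at hdet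
  simp [Matrix.mul_apply, Fin.sum_univ_two, hσ.1, hσ.2.1] at hr
  rw [Matrix.trace_fin_two, ← hσ.2.2]
  exact mul_left_cancel₀ hd0 (by linear_combination hdet + hr)

include h₀ h₁ hp hpl in
theorem det_proj : (D.proj σ₀).det = 0 := by
  have hid : (D.proj σ₀).det * (D.proj σ₀).det = (D.proj σ₀).det := by
    rw [← Matrix.det_mul, D.proj_sq h₀ h₁]
  have hu : IsUnit (1 - (D.proj σ₀).det) := by
    by_contra hu
    obtain ⟨m, hm, hmem⟩ := exists_max_ideal_of_mem_nonunits hu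
    haveI := hm
    letI := Ideal.Quotient.field m
    have hd1 : Ideal.Quotient.mk m (D.proj σ₀).det = 1 := by
      rw [← sub_eq_zero, ← map_one (Ideal.Quotient.mk m), ← map_sub,
        Ideal.Quotient.eq_zero_iff_mem, ← Ideal.neg_mem_iff, neg_sub]
      exact hmem
    set PK := (D.proj σ₀).map (Ideal.Quotient.mk m)
    have hP1 : PK = 1 := by
      have hu' : IsUnit PK := (Matrix.isUnit_iff_isUnit_det _).mpr (by
        rw [show PK.det = Ideal.Quotient.mk m (D.proj σ₀).det from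
          (RingHom.map_det _ _).symm, hd1]
        exact isUnit_one)
      have hPP : PK * PK = PK := by rw [← Matrix.map_mul, D.proj_sq h₀ h₁]
      exact (IsUnit.mul_right_inj hu').mp (by rw [hPP, mul_one])
    have hi := congrArg (Ideal.Quotient.mk m) (D.inv_mul_one_sub h₁)
    have htd := (D.trace_det h₀ h₁ hp hpl m σ₀).1
    rw [D.t_eq (D.inertia σ₀ h₀), Matrix.trace_fin_two] at htd
    have e0 := congrFun (congrFun hP1 0) 0
    have e1 := congrFun (congrFun hP1 1) 1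
    simp only [PK, RankTwo.proj, Matrix.map_apply, Matrix.smul_apply, Matrix.sub_apply,
      Matrix.one_apply_eq, smul_eq_mul, mul_one, map_mul, map_sub] at e0 e1
    simp only [RankTwo.MK, Matrix.map_apply, map_add, map_one] at htd
    rw [map_mul, map_sub, map_one] at hi
    have h01 : (0 : B ⧸ m) = 1 := by
      linear_combination e0 + e1 -
        Ideal.Quotient.mk m (algebraMap ℚ_[l] B ((1 - (D.χ σ₀ : ℚ_[l]))⁻¹)) * htd - hi
    exact zero_ne_one h01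
  exact hu.mul_left_eq_zero.mp (by linear_combination -hid)

include h₀ h₁ hp hpl in
theorem mem_Z_iff {z : Fin 2 → B} : z ∈ D.Z ↔ D.proj σ₀ *ᵥ z = 0 := by
  refine ⟨fun hz ↦ ?_, fun hz ↦ ?_⟩
  · have hw : D.proj σ₀ *ᵥ z ∈ D.Z := by
      have := sub_mem hz (D.one_sub_proj_mem h₀ h₁ z)
      rwa [sub_mulVec, one_mulVec, sub_sub_cancel] at this
    funext i
    refine D.Z_ann _ fun x ↦ ?_
    set s := (D.proj σ₀ *ᵥ z) i
    have hd := D.det_proj h₀ h₁ hp hpl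
    rw [Matrix.det_fin_two] at hd
    have e : s • (D.proj σ₀ *ᵥ x) = (D.proj σ₀ *ᵥ x) i • (D.proj σ₀ *ᵥ z) := by
      funext j
      fin_cases i <;> fin_cases j <;>
        simp [s, Matrix.mulVec, dotProduct, Fin.sum_univ_two] <;>
        first
          | linear_combination (z 0 * x 1 - z 1 * x 0) * hd
          | linear_combination (z 1 * x 0 - z 0 * x 1) * hd
          | ring
    have e2 : s • x = (D.proj σ₀ *ᵥ x) i • (D.proj σ₀ *ᵥ z) +
        s • (((1 : Matrix (Fin 2) (Fin 2) B) - D.proj σ₀) *ᵥ x) := by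
      rw [← e, sub_mulVec, one_mulVec, smul_sub, add_sub_cancel]
    rw [e2]
    exact add_mem (D.Z.smul_mem _ hw) (D.Z.smul_mem _ (D.one_sub_proj_mem h₀ h₁ x))
  · have := D.one_sub_proj_mem h₀ h₁ z
    rwa [sub_mulVec, one_mulVec, hz, sub_zero] at this

include h₀ h₁ hp hpl in
theorem proj_mul_inertia {σ : GG} (hσ : σ ∈ D.Al.inertiaSubgroupIn ℚ) :
    D.proj σ₀ * (D.M σ - 1) = 0 := by
  refine Matrix.ext_of_mulVec_single fun i ↦ ?_
  rw [← mulVec_mulVec, sub_mulVec, one_mulVec, zero_mulVec]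
  exact (D.mem_Z_iff h₀ h₁ hp hpl).mp (D.inertia σ hσ _)

include h₀ h₁ hp hpl in
theorem proj_mul_decomposition {σ : GG} (hσ : σ ∈ D.Al.decompositionSubgroup ℚ) :
    D.proj σ₀ * D.M σ * (1 - D.proj σ₀) = 0 := by
  have h := D.proj_mul_inertia h₀ h₁ hp hpl (conj_mem D.Al hσ h₀)
  have h' := congrArg (· * D.M σ) h
  simp only [Matrix.zero_mul] at h'
  rw [Matrix.mul_assoc, Matrix.sub_mul, ← D.M_mul, show σ * σ₀ * σ⁻¹ * σ = σ * σ₀ by group,
    D.M_mul, Matrix.one_mul] at h'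
  rw [D.one_sub_proj h₁, Matrix.mul_smul, Matrix.mul_assoc, Matrix.mul_sub, Matrix.mul_one,
    show D.M σ - D.M σ * D.M σ₀ = -(D.M σ * D.M σ₀ - D.M σ) from (neg_sub _ _).symm,
    Matrix.mul_neg, h', neg_zero, smul_zero]

include hp hpl in
/-- Descent over each residue field. -/
theorem exists_coboundary_residue (m : Ideal B) [m.IsMaximal] (κ : GG → Fin 2 → B ⧸ m)
    (hκ : ∀ σ τ, κ (σ * τ) = κ σ + D.MK m σ *ᵥ κ τ) (hb : Bdd l κ) (hc : Tends0 l κ)
    (hu : ∀ q : ℕ, q.Prime → q ≠ p → q ≠ l → ∀ σ ∈ (D.place q).inertiaSubgroupIn ℚ, κ σ = 0)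
    (hI : ∀ (σ₀ : GG), σ₀ ∈ D.Al.inertiaSubgroupIn ℚ → D.χ σ₀ ≠ 1 →
      ∀ σ ∈ D.Al.inertiaSubgroupIn ℚ, (D.proj σ₀).map (Ideal.Quotient.mk m) *ᵥ κ σ = 0) :
    ∃ A : Fin 2 → B ⧸ m, ∀ σ, κ σ = D.MK m σ *ᵥ A - A := by
  obtain ⟨σ₀, h₀, h₁⟩ := D.exists_χ_ne_one hpl hp
  letI := Ideal.Quotient.field m
  let f := Ideal.Quotient.mk m
  set P := (D.proj σ₀).map f with hPdef
  have hPP : P * P = P := by rw [← Matrix.map_mul, D.proj_sq h₀ h₁]
  have hPdet : P.det = 0 := by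
    rw [show P.det = f (D.proj σ₀).det from (RingHom.map_det _ _).symm,
      D.det_proj h₀ h₁ hp hpl, map_zero]
  have hP1 : (1 - P) ≠ 0 := fun h ↦ by
    rw [← sub_eq_zero.mp h, Matrix.det_one] at hPdet
    exact one_ne_zero hPdet
  have hPne : P ≠ 0 := D.proj_map_ne_zero h₀ h₁ m
  -- an adapted basis
  obtain ⟨j2, hj2⟩ : ∃ j, P *ᵥ Pi.single j 1 ≠ 0 := by
    by_contra hh; push Not at hh
    exact hPne (Matrix.ext_of_mulVec_single fun j ↦ by rw [hh j, zero_mulVec])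
  obtain ⟨j1, hj1⟩ : ∃ j, (1 - P) *ᵥ Pi.single j 1 ≠ 0 := by
    by_contra hh; push Not at hh
    exact hP1 (Matrix.ext_of_mulVec_single fun j ↦ by rw [hh j, zero_mulVec])
  set e1 := (1 - P) *ᵥ Pi.single j1 1
  set e2 := P *ᵥ Pi.single j2 1
  have hPe1 : P *ᵥ e1 = 0 := by
    rw [mulVec_mulVec, Matrix.mul_sub, Matrix.mul_one, hPP, sub_self, zero_mulVec]
  have hPe2 : P *ᵥ e2 = e2 := by rw [mulVec_mulVec, hPP]
  let G : Matrix (Fin 2) (Fin 2) (B ⧸ m) := Matrix.of fun i j ↦ if j = 0 then e1 i else e2 i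
  let E : Matrix (Fin 2) (Fin 2) (B ⧸ m) := !![0, 0; 0, 1]
  have hPG : P * G = G * E := by
    ext i j
    rw [Matrix.mul_apply, Fin.sum_univ_two]
    have a1 := congrFun hPe1 i
    have a2 := congrFun hPe2 i
    simp only [Matrix.mulVec, dotProduct, Fin.sum_univ_two, Pi.zero_apply] at a1 a2
    fin_cases j <;> simp [G, E, Matrix.mul_apply, Fin.sum_univ_two, a1, a2]
  have hG : IsUnit G.det := by
    rw [isUnit_iff_ne_zero]
    intro h0
    obtain ⟨w, hw, hGw⟩ := Matrix.exists_mulVec_eq_zero_iff.mpr h0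
    have hlin : w 0 • e1 + w 1 • e2 = 0 := by
      rw [← hGw]; funext i; simp [G, Matrix.mulVec, dotProduct, Fin.sum_univ_two]; ring
    have hw1 : w 1 = 0 := by
      have := congrArg (P *ᵥ ·) hlin
      simp only [mulVec_add, mulVec_smul, hPe1, hPe2, smul_zero, zero_add, mulVec_zero] at this
      exact (smul_eq_zero.mp this).resolve_right hj2
    rw [hw1, zero_smul, add_zero] at hlin
    have hw0 := (smul_eq_zero.mp hlin).resolve_right hj1
    exact hw (funext fun i ↦ by fin_cases i <;> simp [hw0, hw1])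
  set G' := G⁻¹
  have hGG' : G * G' = 1 := Matrix.mul_nonsing_inv G hG
  have hG'G : G' * G = 1 := Matrix.nonsing_inv_mul G hG
  let N : GG → Matrix (Fin 2) (Fin 2) (B ⧸ m) := fun σ ↦ G' * D.MK m σ * G
  have hNdef : ∀ σ, N σ = G' * D.MK m σ * G := fun _ ↦ rfl
  have hNmul : ∀ σ τ, N (σ * τ) = N σ * N τ := fun σ τ ↦ by
    simp only [hNdef, D.MK_mul, Matrix.mul_assoc]
    rw [← Matrix.mul_assoc G G', hGG', Matrix.one_mul]
  have hN1 : N 1 = 1 := by rw [hNdef, D.MK_one, Matrix.mul_one, hG'G]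
  let w : GG → Fin 2 → B ⧸ m := fun σ ↦ G' *ᵥ κ σ
  have hwmul : ∀ σ τ, w (σ * τ) = w σ + N σ *ᵥ w τ := fun σ τ ↦ by
    simp only [w, hκ, mulVec_add, mulVec_mulVec, hNdef, Matrix.mul_assoc, hGG', Matrix.mul_one]
  have hEG' : E * G' = G' * P :=
    calc E * G' = G' * (G * E) * G' := by rw [← Matrix.mul_assoc, hG'G, Matrix.one_mul]
      _ = G' * P := by rw [← hPG, Matrix.mul_assoc, Matrix.mul_assoc, hGG', Matrix.mul_one]
  have hG'P : ∀ X : Matrix (Fin 2) (Fin 2) (B ⧸ m), G' * (P * X * P) * G = E * (G' * X * G) * E :=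
    fun X ↦ by
      rw [show E * (G' * X * G) * E = (E * G') * X * (G * E) by simp only [Matrix.mul_assoc],
        hEG', ← hPG]
      simp only [Matrix.mul_assoc]
  have hIl : ∀ σ ∈ D.Al.inertiaSubgroupIn ℚ, E * (N σ - 1) = 0 := fun σ hσ ↦ by
    have h := congrArg (fun X => f.mapMatrix X) (D.proj_mul_inertia h₀ h₁ hp hpl hσ)
    simp only [map_mul, map_sub, map_one, map_zero, RingHom.mapMatrix_apply] at h
    rw [hNdef, Matrix.mul_sub, Matrix.mul_one, ← Matrix.mul_assoc, ← Matrix.mul_assoc, hEG']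
    calc G' * P * D.MK m σ * G - E
        = G' * (P * (D.MK m σ - 1)) * G + (G' * P * G - E) := by
          simp only [Matrix.mul_sub, Matrix.sub_mul, Matrix.mul_one, Matrix.mul_assoc]; abel
      _ = 0 := by
          rw [show P * (D.MK m σ - 1) = 0 from h, Matrix.mul_zero, Matrix.zero_mul, Matrix.mul_assoc,
            hPG, ← Matrix.mul_assoc, hG'G, Matrix.one_mul, sub_self, zero_add]
  have hDl : ∀ σ ∈ D.Al.decompositionSubgroup ℚ, E * N σ * (1 - E) = 0 := fun σ hσ ↦ by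
    have h := congrArg (fun X => f.mapMatrix X) (D.proj_mul_decomposition h₀ h₁ hp hpl hσ)
    simp only [map_mul, map_sub, map_one, map_zero, RingHom.mapMatrix_apply] at h
    rw [hNdef, ← Matrix.mul_assoc, ← Matrix.mul_assoc, hEG']
    calc G' * P * D.MK m σ * G * (1 - E) = G' * (P * D.MK m σ * (1 - P)) * G := by
          simp only [Matrix.mul_sub, Matrix.sub_mul, Matrix.mul_one, Matrix.mul_assoc, hPG]
      _ = 0 := by rw [show P * D.MK m σ * (1 - P) = 0 from h, Matrix.mul_zero, Matrix.zero_mul]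
  have hNtr : ∀ σ, N σ 0 0 + N σ 1 1 = f (D.t σ) ∧
      N σ 0 0 * N σ 1 1 - N σ 0 1 * N σ 1 0 = f (algebraMap ℤ_[l] B (D.χ σ)) := fun σ ↦ by
    obtain ⟨ht, hd⟩ := D.trace_det h₀ h₁ hp hpl m σ
    refine ⟨?_, ?_⟩
    · rw [← Matrix.trace_fin_two, hNdef, Matrix.trace_mul_comm, ← Matrix.mul_assoc, hGG',
        Matrix.one_mul, ht]
    · rw [← Matrix.det_fin_two, hNdef, Matrix.det_mul, Matrix.det_mul,
        mul_right_comm, ← Matrix.det_mul, hG'G, Matrix.det_one, one_mul, hd]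
  -- transport of boundedness
  let pr : Fin 2 → Fin 2 → (Matrix (Fin 2) (Fin 2) (B ⧸ m) →ₗ[ℤ_[l]] B ⧸ m) :=
    fun i j ↦ Matrix.entryLinearMap ℤ_[l] (B ⧸ m) i j
  let φM : Matrix (Fin 2) (Fin 2) B →ₗ[ℤ_[l]] Matrix (Fin 2) (Fin 2) (B ⧸ m) :=
    (LinearMap.mulRight ℤ_[l] G).comp ((LinearMap.mulLeft ℤ_[l] G').comp
      (Ideal.Quotient.mkₐ ℤ_[l] m).toLinearMap.mapMatrix)
  let φv : (Fin 2 → B ⧸ m) →ₗ[ℤ_[l]] (Fin 2 → B ⧸ m) := (Matrix.mulVecLin G').restrictScalars ℤ_[l]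
  let Φ : (Matrix (Fin 2) (Fin 2) (B ⧸ m)) × (Fin 2 → B ⧸ m) →ₗ[ℤ_[l]] (Fin 6 → B ⧸ m) :=
    LinearMap.pi ![(pr 0 0).comp (LinearMap.fst _ _ _), (pr 0 1).comp (LinearMap.fst _ _ _),
      (pr 1 0).comp (LinearMap.fst _ _ _), (pr 1 1).comp (LinearMap.fst _ _ _),
      (LinearMap.proj 0).comp (LinearMap.snd _ _ _), (LinearMap.proj 1).comp (LinearMap.snd _ _ _)]
  have hΦ : ∀ (X : Matrix (Fin 2) (Fin 2) (B ⧸ m)) (v : Fin 2 → B ⧸ m),
      Φ (X, v) = ![X 0 0, X 0 1, X 1 0, X 1 1, v 0, v 1] := fun X v ↦ by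
    funext i; fin_cases i <;> rfl
  have hbdd : Bdd l (fun σ ↦ ![N σ 0 0, N σ 0 1, N σ 1 0, N σ 1 1, w σ 0, w σ 1]) := by
    refine ((((D.bdd.map φM).map (LinearMap.inl ℤ_[l] _ (Fin 2 → B ⧸ m))).add
      ((hb.map φv).map (LinearMap.inr ℤ_[l] (Matrix (Fin 2) (Fin 2) (B ⧸ m)) _))).map Φ).congr
      fun σ ↦ ?_
    rw [show (LinearMap.inl ℤ_[l] _ (Fin 2 → B ⧸ m)) (φM (D.M σ)) +
      (LinearMap.inr ℤ_[l] (Matrix (Fin 2) (Fin 2) (B ⧸ m)) _) (φv (κ σ)) = (N σ, w σ) by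
        simp [φM, φv, hNdef, w, RankTwo.MK, LinearMap.mapMatrix_apply]]
    exact hΦ _ _
  have hcont : Tends0 l (fun σ ↦
      ![N σ 0 0 - 1, N σ 0 1, N σ 1 0, N σ 1 1 - 1, w σ 0, w σ 1]) := by
    refine ((((D.cont.map φM).map (LinearMap.inl ℤ_[l] _ (Fin 2 → B ⧸ m))).add
      ((hc.map φv).map (LinearMap.inr ℤ_[l] (Matrix (Fin 2) (Fin 2) (B ⧸ m)) _))).map Φ).congr
      fun σ ↦ ?_
    rw [show (LinearMap.inl ℤ_[l] _ (Fin 2 → B ⧸ m)) (φM (D.M σ - 1)) +
      (LinearMap.inr ℤ_[l] (Matrix (Fin 2) (Fin 2) (B ⧸ m)) _) (φv (κ σ)) = (N σ - 1, w σ) by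
        rw [show N σ - 1 = G' * (D.MK m σ - 1) * G by
          rw [Matrix.mul_sub, Matrix.mul_one, Matrix.sub_mul, hG'G]]
        simp [φM, φv, w, RankTwo.MK, LinearMap.mapMatrix_apply, Matrix.map_sub]]
    rw [hΦ]
    simp
  have hχK : ∀ σ, f (algebraMap ℤ_[l] B (D.χ σ)) = algebraMap ℤ_[l] (B ⧸ m) (D.χ σ) :=
    fun σ ↦ rfl
  have entries : ∀ σ τ i j, N (σ * τ) i j = N σ i 0 * N τ 0 j + N σ i 1 * N τ 1 j :=
    fun σ τ i j ↦ by rw [hNmul, Matrix.mul_apply, Fin.sum_univ_two]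
  have wentries : ∀ σ τ i, w (σ * τ) i = w σ i + (N σ i 0 * w τ 0 + N σ i 1 * w τ 1) :=
    fun σ τ i ↦ by rw [hwmul]; fin_cases i <;> simp [Matrix.mulVec, dotProduct, Fin.sum_univ_two]
  have hc10 : ∀ σ ∈ D.Al.decompositionSubgroup ℚ, N σ 1 0 = 0 := fun σ hσ ↦ by
    have := congrFun (congrFun (hDl σ hσ) 1) 0
    simpa [E, Matrix.mul_apply, Matrix.sub_apply, Matrix.vecMul, dotProduct, Fin.sum_univ_two] using this
  obtain ⟨A1, A2, hA⟩ := exists_coboundary_field (K := B ⧸ m) hp hpl D.χ D.cyclo D.Al D.Ap D.place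
    D.liesl D.liesp D.liesq (fun σ ↦ N σ 0 0) (fun σ ↦ N σ 0 1) (fun σ ↦ N σ 1 0)
    (fun σ ↦ N σ 1 1) (fun σ ↦ w σ 0) (fun σ ↦ w σ 1)
    ⟨by simp [hN1], fun σ τ ↦ entries σ τ 0 0⟩ ⟨by simp [hN1], fun σ τ ↦ entries σ τ 0 1⟩
    ⟨by simp [hN1], fun σ τ ↦ entries σ τ 1 0⟩ ⟨by simp [hN1], fun σ τ ↦ entries σ τ 1 1⟩
    (fun σ τ ↦ wentries σ τ 0) (fun σ τ ↦ wentries σ τ 1) hbdd hcont
    (fun σ ↦ by rw [(hNtr σ).2, hχK])
    (fun σ ↦ by
      obtain ⟨j, y, hy, e⟩ := D.htr σ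
      refine ⟨j, f y, hy.map (Ideal.Quotient.mkₐ ℤ_[l] m), ?_⟩
      have e' := congrArg f e
      rw [map_pow, map_sub, map_sub, map_one, map_mul, map_natCast, hχK, ← (hNtr σ).1] at e'
      exact e')
    (fun σ ↦ by rw [(hNtr σ).1]; exact (D.t_int σ).map (Ideal.Quotient.mkₐ ℤ_[l] m))
    (fun q h1 h2 h3 σ hσ ↦ by
      have hN' : N σ = 1 := by
        rw [hNdef, RankTwo.MK, D.unram q h1 h2 h3 σ hσ,
          Matrix.map_one _ (map_zero _) (map_one _), Matrix.mul_one, hG'G]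
      have hw' : w σ = 0 := by simp [w, hu q h1 h2 h3 σ hσ]
      simp [hN', hw'])
    (fun σ hσ ↦ by
      have h := congrArg (fun X => G' * f.mapMatrix X * G) (D.unip σ hσ)
      simp only [map_mul, map_sub, map_one, map_zero, RingHom.mapMatrix_apply, Matrix.mul_zero,
        Matrix.zero_mul] at h
      have h' : (N σ - 1) * (N σ - 1) = 0 := by
        rw [← h, show N σ - 1 = G' * (D.MK m σ - 1) * G by
          rw [Matrix.mul_sub, Matrix.mul_one, Matrix.sub_mul, hG'G]]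
        simp only [Matrix.mul_assoc]
        rw [← Matrix.mul_assoc G G', hGG', Matrix.one_mul]
        rfl
      have a00 := congrFun (congrFun h' 0) 0
      have a01 := congrFun (congrFun h' 0) 1
      have a10 := congrFun (congrFun h' 1) 0
      have a11 := congrFun (congrFun h' 1) 1
      simp [Matrix.mul_apply, Fin.sum_univ_two] at a00 a01 a10 a11
      exact ⟨by linear_combination a00, by linear_combination a01, by linear_combination a10,
        by linear_combination a11⟩)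
    hc10
    (fun σ hσ ↦ by
      have a11 := congrFun (congrFun (hIl σ hσ) 1) 1
      simp [E, Matrix.mul_apply, Fin.sum_univ_two, sub_eq_zero] at a11
      refine ⟨a11, ?_⟩
      have h0 : E *ᵥ w σ = 0 := by
        show E *ᵥ (G' *ᵥ κ σ) = 0
        rw [mulVec_mulVec, hEG', ← mulVec_mulVec, hI σ₀ h₀ h₁ σ hσ, mulVec_zero]
      simpa [E, Matrix.mulVec, dotProduct, Fin.sum_univ_two] using congrFun h0 1)
    D.φl D.φl_mem (fun hsq ↦ by
      -- the square of Frobenius would fix the quotient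
      have hE : E * (N D.φl * N D.φl) * E = E := by
        have h0 := hc10 _ D.φl_mem
        ext i j
        simp only [E, Matrix.mul_apply, Fin.sum_univ_two]
        fin_cases i <;> fin_cases j <;> simp [h0]
        linear_combination hsq
      refine D.proj_map_ne_zero h₀ h₁ m ?_
      have hPMP : P * (D.MK m D.φl * D.MK m D.φl) * P = P := by
        have h2 : G' * (P * (D.MK m D.φl * D.MK m D.φl) * P) * G = G' * P * G := by
          rw [hG'P, show G' * P * G = E by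
            rw [Matrix.mul_assoc, hPG, ← Matrix.mul_assoc, hG'G, Matrix.one_mul]]
          rw [show G' * (D.MK m D.φl * D.MK m D.φl) * G = N D.φl * N D.φl by
            rw [← hNmul, hNdef, D.MK_mul]]
          exact hE
        have h3 := congrArg (fun X => G * X * G') h2
        simpa [Matrix.mul_assoc, hGG', ← Matrix.mul_assoc G G'] using h3
      have hsurj : ∀ z, ∃ y, D.proj σ₀ *ᵥ (D.M D.φl *ᵥ (D.M D.φl *ᵥ y) - y) = D.proj σ₀ *ᵥ z := by
        let L : (Fin 2 → B) →ₗ[B] (Fin 2 → B) :=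
          (Matrix.mulVecLin (D.proj σ₀)).comp
            ((Matrix.mulVecLin (D.M D.φl)).comp (Matrix.mulVecLin (D.M D.φl)) - LinearMap.id)
        let S := LinearMap.range (Matrix.mulVecLin (D.proj σ₀))
        let L' : S →ₗ[B] S := (L.domRestrict S).codRestrict S fun x ↦ ⟨_, rfl⟩
        have hinj : Function.Injective L' := by
          rw [injective_iff_map_eq_zero]
          rintro ⟨x, y, rfl⟩ hx
          have hx' : D.proj σ₀ *ᵥ (D.M D.φl *ᵥ (D.M D.φl *ᵥ (D.proj σ₀ *ᵥ y)) -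
              D.proj σ₀ *ᵥ y) = 0 := congrArg Subtype.val hx
          refine Subtype.ext ?_
          show D.proj σ₀ *ᵥ y = 0
          have := (D.mem_Z_iff h₀ h₁ hp hpl).mp (D.frob _ ((D.mem_Z_iff h₀ h₁ hp hpl).mpr hx'))
          rwa [mulVec_mulVec, D.proj_sq h₀ h₁] at this
        intro z
        haveI : FiniteDimensional ℚ_[l] S :=
          Module.Finite.of_injective (S.subtype.restrictScalars ℚ_[l]) Subtype.val_injective
        obtain ⟨y, hy⟩ := LinearMap.surjective_of_injective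
          (f := L'.restrictScalars ℚ_[l]) hinj ⟨D.proj σ₀ *ᵥ z, z, rfl⟩
        exact ⟨y.1, congrArg Subtype.val hy⟩
      refine Matrix.ext_of_mulVec_single fun i ↦ ?_
      obtain ⟨y, hy⟩ := hsurj (Pi.single i 1)
      have hP' : P * D.MK m D.φl * (1 - P) = 0 := by
        have h := congrArg (fun X => f.mapMatrix X)
          (D.proj_mul_decomposition h₀ h₁ hp hpl D.φl_mem)
        simp only [map_mul, map_sub, map_one, map_zero, RingHom.mapMatrix_apply] at h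
        exact h
      have hy' := congrArg (f ∘ ·) hy
      have hmv : ∀ (X : Matrix (Fin 2) (Fin 2) B) (v : Fin 2 → B),
          f ∘ (X *ᵥ v) = X.map f *ᵥ (f ∘ v) := fun X v ↦ funext fun j ↦ RingHom.map_mulVec f X v j
      have hsub : ∀ v v' : Fin 2 → B, f ∘ (v - v') = f ∘ v - f ∘ v' :=
        fun v v' ↦ funext fun j ↦ map_sub f _ _
      simp only [hmv, hsub] at hy'
      have hone : f ∘ (Pi.single i (1 : B)) = Pi.single i (1 : B ⧸ m) :=
        funext fun j ↦ by by_cases hji : j = i <;> simp [Pi.single_apply, hji]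
      rw [hone] at hy'
      rw [zero_mulVec]
      refine hy'.symm.trans ?_
      rw [mulVec_sub, mulVec_mulVec, mulVec_mulVec]
      show ((P * D.MK m D.φl) * D.MK m D.φl) *ᵥ _ - P *ᵥ _ = 0
      have hPM : P * D.MK m D.φl = P * D.MK m D.φl * P := by
        have := hP'
        rwa [Matrix.mul_sub, Matrix.mul_one, sub_eq_zero] at this
      have hfull : P * D.MK m D.φl * D.MK m D.φl = P * (D.MK m D.φl * D.MK m D.φl) * P :=
        calc P * D.MK m D.φl * D.MK m D.φl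
            = P * D.MK m D.φl * P * D.MK m D.φl := by rw [← hPM]
          _ = P * D.MK m D.φl * (P * D.MK m D.φl * P) := by
              rw [← hPM, ← Matrix.mul_assoc (P * D.MK m D.φl) P, ← hPM]
          _ = P * D.MK m D.φl * P * D.MK m D.φl * P := by simp only [Matrix.mul_assoc]
          _ = P * (D.MK m D.φl * D.MK m D.φl) * P := by
              rw [← hPM]; simp only [Matrix.mul_assoc]
      rw [hfull, hPMP, sub_self])
    D.φp D.φp_mem D.φp_sq
  refine ⟨G *ᵥ ![A1, A2], fun σ ↦ ?_⟩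
  have hws : w σ = N σ *ᵥ ![A1, A2] - ![A1, A2] := by
    funext i
    fin_cases i
    · simp [Matrix.mulVec, dotProduct, Fin.sum_univ_two]; linear_combination (hA σ).1
    · simp [Matrix.mulVec, dotProduct, Fin.sum_univ_two]; linear_combination (hA σ).2
  have := congrArg (G *ᵥ ·) hws
  simp only [w, hNdef, mulVec_sub, mulVec_mulVec, ← Matrix.mul_assoc, hGG', Matrix.one_mul,
    one_mulVec] at this
  rw [mulVec_mulVec]
  exact this

include hp hpl in
/-- Descent over the algebra: a cocycle which is unramified outside `p`, reduces to zero at `l`, and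
is bounded and continuous, is a coboundary. -/
theorem exists_coboundary (κ : GG → Fin 2 → B)
    (hκ : ∀ σ τ, κ (σ * τ) = κ σ + D.M σ *ᵥ κ τ) (hb : Bdd l κ) (hc : Tends0 l κ)
    (hu : ∀ q : ℕ, q.Prime → q ≠ p → q ≠ l → ∀ σ ∈ (D.place q).inertiaSubgroupIn ℚ, κ σ = 0)
    (hI : ∀ σ ∈ D.Al.inertiaSubgroupIn ℚ, κ σ ∈ D.Z) :
    ∃ A : Fin 2 → B, ∀ σ, κ σ = D.M σ *ᵥ A - A := by
  classical
  haveI : IsNoetherianRing B := isNoetherian_of_tower ℚ_[l] inferInstance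
  haveI : IsArtinianRing B := isArtinian_of_tower ℚ_[l] inferInstance
  suffices H : ∀ I : Ideal B, ∀ κ : GG → Fin 2 → B, (∀ σ i, κ σ i ∈ I) →
      (∀ σ τ, κ (σ * τ) = κ σ + D.M σ *ᵥ κ τ) → Bdd l κ → Tends0 l κ →
      (∀ q : ℕ, q.Prime → q ≠ p → q ≠ l → ∀ σ ∈ (D.place q).inertiaSubgroupIn ℚ, κ σ = 0) →
      (∀ σ ∈ D.Al.inertiaSubgroupIn ℚ, κ σ ∈ D.Z) → ∃ A, ∀ σ, κ σ = D.M σ *ᵥ A - A from
    H ⊤ κ (fun _ _ ↦ Submodule.mem_top) hκ hb hc hu hI
  intro I
  induction I using WellFoundedLT.induction with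
  | _ I IH =>
  intro κ hmem hκ hb hc hu hI
  rcases eq_or_ne I ⊥ with rfl | hne
  · exact ⟨0, fun σ ↦ by
      rw [mulVec_zero, sub_zero]; funext i; exact (Submodule.mem_bot B).mp (hmem σ i)⟩
  obtain ⟨J, hJI, hJmax⟩ :=
    (wellFounded_gt (α := Ideal B)).has_min {J | J < I} ⟨⊥, bot_lt_iff_ne_bot.mpr hne⟩
  replace hJI : J < I := hJI
  replace hJmax : ∀ K : Ideal B, K < I → ¬ J < K := hJmax
  obtain ⟨i₀, hi₀, hi₀J⟩ := SetLike.exists_of_lt hJI
  let φ : B →ₗ[B] B ⧸ J := (Submodule.mkQ J).comp (LinearMap.toSpanSingleton B B i₀)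
  let m : Ideal B := LinearMap.ker φ
  have hm_iff : ∀ b, b ∈ m ↔ b * i₀ ∈ J := fun b ↦ by
    simp only [m, φ, LinearMap.mem_ker, LinearMap.comp_apply, LinearMap.toSpanSingleton_apply,
      smul_eq_mul]
    exact Submodule.Quotient.mk_eq_zero J
  have hgen : ∀ {c}, c ∈ I → c ∉ J → J ⊔ Ideal.span {c} = I := fun {c} hcI hcJ ↦ by
    have hle : J ⊔ Ideal.span {c} ≤ I := sup_le hJI.le ((Ideal.span_singleton_le_iff_mem I).mpr hcI)
    by_contra hh
    refine hJmax _ (lt_of_le_of_ne hle hh) (lt_of_le_of_ne le_sup_left fun e ↦ hcJ ?_)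
    rw [e]
    exact Ideal.mem_sup_right (Ideal.mem_span_singleton_self c)
  haveI hmax : m.IsMaximal := by
    refine Ideal.isMaximal_iff.mpr ⟨fun h ↦ hi₀J (by simpa using (hm_iff 1).mp h), ?_⟩
    intro J' x hle hx hxJ'
    have h : i₀ ∈ J ⊔ Ideal.span {x * i₀} := by
      rw [hgen (I.mul_mem_left _ hi₀) (fun h ↦ hx ((hm_iff x).mpr h))]
      exact hi₀
    obtain ⟨j, hj, y, hy, e⟩ := Submodule.mem_sup.mp h
    obtain ⟨c, rfl⟩ := Ideal.mem_span_singleton'.mp hy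
    have h1 : 1 - c * x ∈ m := (hm_iff _).mpr (by
      rw [show (1 - c * x) * i₀ = j by linear_combination -e]; exact hj)
    have := J'.add_mem (hle h1) (J'.mul_mem_left c hxJ')
    rwa [sub_add_cancel] at this
  let ν : (B ⧸ m) →ₗ[B] B ⧸ J := Submodule.liftQ m φ le_rfl
  have hν : LinearMap.ker (ν.restrictScalars ℚ_[l]) = ⊥ := LinearMap.ker_eq_bot.mpr
    (LinearMap.ker_eq_bot.mp (Submodule.ker_liftQ_eq_bot _ _ le_rfl le_rfl) :
      Function.Injective ν)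
  obtain ⟨ρ, hρ⟩ := LinearMap.exists_leftInverse_of_injective _ hν
  let θ : B →ₗ[ℚ_[l]] B ⧸ m := ρ.comp ((Submodule.mkQ J).restrictScalars ℚ_[l])
  have hθ : ∀ b j, j ∈ J → θ (b * i₀ + j) = Ideal.Quotient.mk m b := fun b j hj ↦ by
    have e : Submodule.mkQ J (b * i₀ + j) = ν (Ideal.Quotient.mk m b) := by
      rw [map_add, show Submodule.mkQ J j = 0 from (Submodule.Quotient.mk_eq_zero J).mpr hj,
        add_zero]
      rfl
    show ρ (Submodule.mkQ J (b * i₀ + j)) = _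
    rw [e]
    exact LinearMap.congr_fun hρ _
  have hdec : ∀ x ∈ I, ∃ b, ∃ j ∈ J, x = b * i₀ + j := fun x hx ↦ by
    rw [← hgen hi₀ hi₀J] at hx
    obtain ⟨j, hj, y, hy, rfl⟩ := Submodule.mem_sup.mp hx
    obtain ⟨b, rfl⟩ := Ideal.mem_span_singleton'.mp hy
    exact ⟨b, j, hj, add_comm _ _⟩
  have hθmul : ∀ b, ∀ x ∈ I, θ (b * x) = Ideal.Quotient.mk m b * θ x := fun b x hx ↦ by
    obtain ⟨c, j, hj, rfl⟩ := hdec x hx
    rw [hθ c j hj, mul_add, ← mul_assoc, hθ _ _ (J.mul_mem_left b hj), map_mul]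
  have hθvec : ∀ (X : Matrix (Fin 2) (Fin 2) B) (v : Fin 2 → B), (∀ i, v i ∈ I) →
      (fun i ↦ θ ((X *ᵥ v) i)) = X.map (Ideal.Quotient.mk m) *ᵥ fun i ↦ θ (v i) :=
    fun X v hv ↦ funext fun i ↦ by
      simp [Matrix.mulVec, dotProduct, Fin.sum_univ_two, hθmul _ _ (hv _)]
  have hθJ : ∀ x ∈ I, θ x = 0 → x ∈ J := fun x hx h ↦ by
    obtain ⟨b, j, hj, rfl⟩ := hdec x hx
    rw [hθ b j hj, Ideal.Quotient.eq_zero_iff_mem] at h
    exact J.add_mem ((hm_iff b).mp h) hj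
  let Θ : (Fin 2 → B) →ₗ[ℤ_[l]] (Fin 2 → B ⧸ m) :=
    LinearMap.pi fun i ↦ (θ.restrictScalars ℤ_[l]).comp (LinearMap.proj i)
  have hΘ : ∀ v : Fin 2 → B, Θ v = fun i ↦ θ (v i) := fun v ↦ rfl
  obtain ⟨A, hA⟩ := D.exists_coboundary_residue hp hpl m (fun σ ↦ Θ (κ σ))
    (fun σ τ ↦ by
      rw [hκ, map_add, hΘ (D.M σ *ᵥ κ τ), hθvec _ _ (hmem τ)]
      rfl)
    (hb.map Θ) (hc.map Θ)
    (fun q h1 h2 h3 σ hσ ↦ by rw [hu q h1 h2 h3 σ hσ, map_zero])
    (fun σ₀ h₀ h₁ σ hσ ↦ by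
      rw [hΘ, ← hθvec _ _ (hmem σ), (D.mem_Z_iff h₀ h₁ hp hpl).mp (hI σ hσ)]
      funext i
      exact map_zero θ)
  choose a ha using fun i ↦ Ideal.Quotient.mk_surjective (A i)
  let v : Fin 2 → B := fun i ↦ a i * i₀
  have hvI : ∀ i, v i ∈ I := fun i ↦ I.mul_mem_left _ hi₀
  have hθv : (fun i ↦ θ (v i)) = A := funext fun i ↦ by
    rw [← ha i, ← hθ (a i) 0 J.zero_mem, add_zero]
  have hdI : ∀ σ i, (D.M σ *ᵥ v - v) i ∈ I := fun σ i ↦ by
    refine I.sub_mem ?_ (hvI i)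
    simp only [Matrix.mulVec, dotProduct]
    exact I.sum_mem fun j _ ↦ I.mul_mem_left _ (hvI j)
  let L : Matrix (Fin 2) (Fin 2) B →ₗ[ℤ_[l]] (Fin 2 → B) :=
    { toFun := fun X ↦ -(X *ᵥ v)
      map_add' := fun X Y ↦ by rw [add_mulVec, neg_add]
      map_smul' := fun r X ↦ by rw [RingHom.id_apply, smul_mulVec, smul_neg] }
  have hκ' : ∀ σ, κ σ + L (D.M σ - 1) = κ σ - (D.M σ *ᵥ v - v) := fun σ ↦ by
    show κ σ + -((D.M σ - 1) *ᵥ v) = _
    rw [sub_mulVec, one_mulVec, ← sub_eq_add_neg]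
  obtain ⟨A', hA'⟩ := IH J hJI (fun σ ↦ κ σ + L (D.M σ - 1))
    (fun σ i ↦ by
      rw [hκ']
      refine hθJ _ (I.sub_mem (hmem σ i) (hdI σ i)) ?_
      have h1 := congrFun (hA σ) i
      have h2 := congrFun (hθvec (D.M σ) v hvI) i
      rw [Pi.sub_apply, Pi.sub_apply, map_sub, map_sub, h2, hθv, congrFun hθv i]
      rw [show θ (κ σ i) = Θ (κ σ) i from rfl, h1, Pi.sub_apply]
      exact sub_self _)
    (fun σ τ ↦ by
      rw [hκ', hκ', hκ', hκ, D.M_mul, mulVec_sub, mulVec_sub, mulVec_mulVec]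
      abel)
    (hb.add ((D.bdd.add (bdd_const (-1))).map L) |>.congr fun σ ↦ by rw [← sub_eq_add_neg])
    (hc.add (D.cont.map L))
    (fun q h1 h2 h3 σ hσ ↦ by
      rw [hu q h1 h2 h3 σ hσ, D.unram q h1 h2 h3 σ hσ, sub_self, map_zero, add_zero])
    (fun σ hσ ↦ by rw [hκ']; exact D.Z.sub_mem (hI σ hσ) (D.inertia σ hσ v))
  refine ⟨A' + v, fun σ ↦ ?_⟩
  have h := hA' σ
  rw [hκ', sub_eq_iff_eq_add] at h
  rw [h, mulVec_add]
  abel

end RankTwo

end FLTAgent.Mazur
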