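import Fermat.Agent.Mazur.Lattice
import Fermat.Agent.Mazur.AtP

/-!
# The residual step of the descent

All residual classes of valid cocycles are cut out by one linear form, modulo coboundaries.
-/

set_option autoImplicit false
set_option linter.overlappingInstances false
set_option linter.unusedSectionVars false

noncomputable section

namespace FLTAgent.Mazur

open scoped Pointwise

local notation "QQb" => AlgebraicClosure ℚ
local notation "GG" => (AlgebraicClosure ℚ ≃ₐ[ℚ] AlgebraicClosure ℚ)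

section Points

variable {l p : ℕ} [Fact l.Prime]

/-- Some inertia element at `p` moves a root of `p`. -/
theorem exists_kum_ne_zero {A : ValuationSubring QQb} (hp : p.Prime) (hA : A.LiesOverPrime p)
    {m : ℕ} [NeZero m] (hm : 1 < m) {ζ π : QQb} (hζ : IsPrimitiveRoot ζ m) (hπ : π ^ m = p) :
    ∃ σ ∈ A.inertiaSubgroupIn ℚ, kum m ζ π σ ≠ 0 := by
  by_contra h
  push Not at h
  have hπ0 : π ≠ 0 := fun e ↦ by
    rw [e, zero_pow (NeZero.ne m)] at hπ; exact Nat.cast_ne_zero.mpr hp.ne_zero hπ.symm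
  have hfix : ∀ σ ∈ A.inertiaSubgroupIn ℚ, σ π = π := fun σ hσ ↦ by
    rw [kum_spec_rat hζ (r := (p : ℚ)) (Nat.cast_ne_zero.mpr hp.ne_zero)
      (by rw [hπ, Rat.cast_natCast]) σ, h σ hσ, ZMod.val_zero, pow_zero, one_mul]
  obtain ⟨k, hk⟩ := exists_zpow_valuation A hp hA hπ0 hfix
  have h1 : A.valuation (p : QQb) ^ (1 : ℤ) = A.valuation (p : QQb) ^ (k * m) := by
    conv_lhs => rw [zpow_one, ← hπ, map_pow, hk, ← zpow_natCast, ← zpow_mul]
  have h2 : (1 : ℤ) = k * m := zpow_valuation_injective A hp hA h1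
  have h3 : (m : ℤ) ∣ 1 := ⟨k, by rw [h2, mul_comm]⟩
  exact hm.ne' (by exact_mod_cast Int.eq_one_of_dvd_one (by positivity) h3)

/-- Some inertia element at `2` moves a square root of `-1`. -/
theorem exists_kum_ne_zero_two {A : ValuationSubring QQb} (hA : A.LiesOverPrime 2)
    {m : ℕ} [NeZero m] (hm : m = 2) {ζ μ : QQb} (hζ : IsPrimitiveRoot ζ m) (hμ : μ ^ m = -1) :
    ∃ σ ∈ A.inertiaSubgroupIn ℚ, kum m ζ μ σ ≠ 0 := by
  by_contra h
  push Not at h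
  have hfix : ∀ σ ∈ A.inertiaSubgroupIn ℚ, σ (μ - 1) = μ - 1 := fun σ hσ ↦ by
    rw [map_sub, map_one, kum_spec_rat hζ (r := (-1 : ℚ)) (by norm_num)
      (by rw [hμ]; push_cast; rfl) σ, h σ hσ, ZMod.val_zero, pow_zero, one_mul]
  subst hm
  have hne : μ - 1 ≠ 0 := fun e ↦ by
    rw [sub_eq_zero.mp e, one_pow] at hμ
    exact two_ne_zero (α := QQb) (by linear_combination hμ)
  obtain ⟨k, hk⟩ := exists_zpow_valuation A Nat.prime_two hA hne hfix
  have hv : A.valuation μ = 1 :=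
    valuation_root_of_unity A (m := 4) (by norm_num) (by rw [show 4 = 2 * 2 by rfl, pow_mul, hμ]; ring)
  have e : (μ - 1) ^ 2 = -(((2 : ℕ) : QQb) * μ) := by push_cast; linear_combination hμ
  have h1 : A.valuation ((2 : ℕ) : QQb) ^ (1 : ℤ) = A.valuation ((2 : ℕ) : QQb) ^ (k * 2) := by
    have := congrArg A.valuation e
    rw [map_pow, hk, Valuation.map_neg, map_mul, hv, mul_one] at this
    rw [zpow_one, zpow_mul, zpow_two, ← sq, this]
  have h2 : (1 : ℤ) = k * 2 := zpow_valuation_injective A Nat.prime_two hA h1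
  omega

end Points

variable {l p : ℕ} [Fact l.Prime] {O : Type} [CommRing O] [IsDomain O] [IsDiscreteValuationRing O]
  [Algebra ℤ_[l] O] [Module.Finite ℤ_[l] O] [Module.Free ℤ_[l] O] {ϖ : O} {R : Rep O ϖ}

/-- An additive function killed by all inertia groups vanishes. -/
theorem dvd_of_additive (S : Setup l p R) (hp : p.Prime) (m : O) (f : GG → O)
    (hadd : ∀ σ τ, m ∣ f (σ * τ) - (f σ + f τ))
    (hV : ∃ V : Subgroup GG, IsOpen (V : Set GG) ∧ ∀ σ ∈ V, m ∣ f σ)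
    (hq : ∀ q : ℕ, q.Prime → q ≠ p → q ≠ l → ∀ σ ∈ (S.place q).inertiaSubgroupIn ℚ, m ∣ f σ)
    (hIp : ∀ σ ∈ S.Ap.inertiaSubgroupIn ℚ, m ∣ f σ)
    (hIl : ∀ σ ∈ S.Al.inertiaSubgroupIn ℚ, m ∣ f σ) : ∀ σ, m ∣ f σ := by
  let q := Ideal.Quotient.mk (Ideal.span {m})
  have hq' : ∀ x y, q x = q y ↔ m ∣ x - y := fun x y ↦ by
    rw [Ideal.Quotient.eq, Ideal.mem_span_singleton]
  let F : GG →* Multiplicative (O ⧸ Ideal.span {m}) := MonoidHom.mk'
    (fun σ ↦ Multiplicative.ofAdd (q (f σ))) fun σ τ ↦ by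
      rw [← ofAdd_add, ← map_add, EmbeddingLike.apply_eq_iff_eq, hq']
      exact hadd σ τ
  have hmem : ∀ σ, σ ∈ F.ker ↔ m ∣ f σ := fun σ ↦ by
    rw [MonoidHom.mem_ker]
    show Multiplicative.ofAdd (q (f σ)) = 1 ↔ _
    rw [← ofAdd_zero, EmbeddingLike.apply_eq_iff_eq, ← map_zero q, hq', sub_zero]
  obtain ⟨V, hVo, hVd⟩ := hV
  have htop := S.eq_top Fact.out hp F.ker
    (Subgroup.isOpen_mono (fun σ hσ ↦ (hmem σ).mpr (hVd σ hσ)) hVo)
    (fun r h1 h2 h3 σ hσ ↦ (hmem σ).mpr (hq r h1 h2 h3 σ hσ))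
    (fun σ hσ ↦ (hmem σ).mpr (hIp σ hσ)) fun σ hσ ↦ (hmem σ).mpr (hIl σ hσ)
  exact fun σ ↦ (hmem σ).mp (htop ▸ Subgroup.mem_top σ)

/-- For odd `l` some inertia element at `l` moves the `l`-th roots of unity. -/
theorem exists_expChar_ne_one (S : Setup l p R) (hp : p.Prime) (hpl : p ≠ l) (hl2 : l ≠ 2) {ζ : QQb}
    (hζ : IsPrimitiveRoot ζ (l ^ 1)) :
    ∃ σ ∈ S.Al.inertiaSubgroupIn ℚ, σ ζ ≠ ζ := by
  have hl : l.Prime := Fact.out
  by_contra h
  push Not at h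
  haveI := isGalois_QQb
  haveI : (MulAction.stabilizer GG ζ).Normal := ⟨fun σ hσ g ↦ by
    obtain ⟨j, -, hj⟩ := hζ.eq_pow_of_pow_eq_one (ξ := g⁻¹ ζ)
      (by rw [← map_pow, hζ.pow_eq_one, map_one])
    rw [MulAction.mem_stabilizer_iff] at hσ ⊢
    have e : σ ζ = ζ := hσ
    show g (σ (g⁻¹ ζ)) = ζ
    rw [← hj, map_pow σ, e, hj, ← AlgEquiv.mul_apply, mul_inv_cancel, AlgEquiv.one_apply]⟩
  have hopen : IsOpen (MulAction.stabilizer GG ζ : Set GG) := by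
    haveI : FiniteDimensional ℚ (IntermediateField.adjoin ℚ ({ζ} : Set QQb)) :=
      IntermediateField.adjoin.finiteDimensional
        (Algebra.IsAlgebraic.isAlgebraic (R := ℚ) ζ).isIntegral
    exact Subgroup.isOpen_mono (H₁ := (IntermediateField.adjoin ℚ ({ζ} : Set QQb)).fixingSubgroup)
      (fun σ hσ ↦ (IntermediateField.mem_fixingSubgroup_iff _ _).mp hσ ζ
        (IntermediateField.subset_adjoin ℚ _ rfl)) (IntermediateField.fixingSubgroup_isOpen _)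
  have hunit : ∀ (q : ℕ) (A : ValuationSubring QQb), q.Prime → A.LiesOverPrime q → q ≠ l →
      A.inertiaSubgroupIn ℚ ≤ MulAction.stabilizer GG ζ := fun q A hq hA hql σ hσ ↦
    map_eq_self_of_unit_pow A hq hA
      (fun hd ↦ hql ((Nat.prime_dvd_prime_iff_eq hq hl).mp (hq.dvd_of_dvd_pow hd)))
      (valuation_root_of_unity A (NeZero.ne (l ^ 1)) hζ.pow_eq_one) hσ
      (by rw [hζ.pow_eq_one, map_one])
  have htop := S.eq_top hl hp (MulAction.stabilizer GG ζ) hopen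
    (fun q h1 h2 h3 ↦ hunit q _ h1 (S.liesq q h1) h3) (hunit p _ hp S.liesp hpl) h
  have hfix : ∀ σ : GG, σ ζ = ζ := fun σ ↦ by
    have : σ ∈ MulAction.stabilizer GG ζ := by rw [htop]; exact Subgroup.mem_top σ
    exact this
  obtain ⟨r, hr⟩ := IntermediateField.mem_bot.mp ((InfiniteGalois.mem_bot_iff_fixed _).mpr hfix)
  rw [eq_ratCast] at hr
  have hr1 : r ^ l = 1 := by
    have := hζ.pow_eq_one
    rw [← hr, pow_one] at this
    exact_mod_cast this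
  have : r = 1 := ((hl.odd_of_ne_two hl2).pow_inj).mp (by rw [hr1, one_pow])
  exact hζ.ne_one (by rw [pow_one]; exact hl.one_lt) (by rw [← hr, this, Rat.cast_one])

/-- Functionals on the residue field. -/
def IsResidual (ϖ : O) (g : O →+ ZMod (l ^ 1)) : Prop := ∀ y, g (ϖ * y) = 0

theorem dvd_of_forall_residual (hϖ : Irreducible ϖ) {x : O}
    (h : ∀ g : O →+ ZMod (l ^ 1), IsResidual ϖ g → g x = 0) : ϖ ∣ x := by
  obtain ⟨e, u, hu⟩ := IsDiscreteValuationRing.eq_unit_mul_pow_irreducible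
    (natCast_prime_ne_zero (l := l) (O := O)) hϖ
  rcases e with _ | e
  · rw [pow_zero, mul_one] at hu
    exact absurd (hu ▸ u.isUnit) natCast_prime_not_isUnit
  have h1 : (l : O) ^ 1 ∣ ϖ ^ e * x := dvd_of_forall_functional fun g ↦
    h (g.comp (AddMonoidHom.mulLeft (ϖ ^ e))) fun y ↦ functional_eq_zero_of_dvd g (by
      show (l : O) ^ 1 ∣ ϖ ^ e * (ϖ * y)
      rw [pow_one, hu, IsUnit.mul_left_dvd u.isUnit, pow_succ, ← mul_assoc]
      exact dvd_mul_right _ _)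
  rw [pow_one, hu, IsUnit.mul_left_dvd u.isUnit, pow_succ] at h1
  exact (mul_dvd_mul_iff_left (pow_ne_zero e hϖ.ne_zero)).mp h1

theorem IsResidual.eq_zero {g : O →+ ZMod (l ^ 1)} (hg : IsResidual ϖ g) {x : O} (hx : ϖ ∣ x) :
    g x = 0 := by
  obtain ⟨y, rfl⟩ := hx; exact hg y

theorem IsResidual.comp_mul {g : O →+ ZMod (l ^ 1)} (hg : IsResidual ϖ g) (r : O) :
    IsResidual ϖ (g.comp (AddMonoidHom.mulLeft r)) := fun y ↦ by
  show g (r * (ϖ * y)) = 0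
  rw [mul_left_comm]; exact hg _

theorem natCast_dvd_of_irreducible_dvd (hϖ : Irreducible ϖ) {k : ℤ} (h : ϖ ∣ (k : O)) :
    (l : ℤ) ∣ k := by
  by_contra hk
  obtain ⟨a, b, hab⟩ := ((Nat.prime_iff_prime_int.mp (Fact.out : l.Prime)).coprime_iff_not_dvd).mpr hk
  refine hϖ.not_isUnit (isUnit_of_dvd_one ?_)
  rw [show (1 : O) = ((a * l + b * k : ℤ) : O) by rw [hab, Int.cast_one], Int.cast_add, Int.cast_mul,
    Int.cast_mul, Int.cast_natCast]
  exact ((irreducible_dvd_natCast hϖ).mul_left _).add (h.mul_left _)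

variable (ζ π μ : AlgebraicClosure ℚ)

/-- Residually in the span of the Kummer cocycles of `p`, `-1` and of the coboundaries. -/
def InSpan (ϖ : O) (c : GG → O) : Prop :=
  ∀ g : O →+ ZMod (l ^ 1), IsResidual ϖ g → ∃ i s d : ZMod (l ^ 1), ∀ σ : GG,
    g (c σ) = i * kum (l ^ 1) ζ π σ + s * kum (l ^ 1) ζ μ σ + (expChar (l ^ 1) ζ σ - 1) * d

variable {ζ π μ}

theorem InSpan.sub_mul {c c' : GG → O} (h : InSpan (l := l) ζ π μ ϖ c)
    (h' : InSpan (l := l) ζ π μ ϖ c') (y : O) :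
    InSpan (l := l) ζ π μ ϖ (fun σ ↦ c σ - y * c' σ) := fun g hg ↦ by
  obtain ⟨i, s, d, e⟩ := h g hg
  obtain ⟨i', s', d', e'⟩ := h' _ (hg.comp_mul y)
  refine ⟨i - i', s - s', d - d', fun σ ↦ ?_⟩
  have := e' σ
  rw [AddMonoidHom.comp_apply, AddMonoidHom.coe_mulLeft] at this
  rw [map_sub, e σ, this]; ring

theorem inSpan_cyclo {χ : GG → O} (hχ : IsCyclo l χ) (hζ : IsPrimitiveRoot ζ (l ^ 1)) (r : O) :
    InSpan (l := l) ζ π μ ϖ (fun σ ↦ (χ σ - 1) * r) := fun g _ ↦ ⟨0, 0, g r, fun σ ↦ by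
  show g ((χ σ - 1) * r) = _
  rw [sub_mul, map_sub, one_mul, functional_mul g (hχ.dvd_expChar hζ σ), ZMod.natCast_zmod_val]
  ring⟩

theorem inSpan_of_cocycle (hϖ : Irreducible ϖ) (hp : p.Prime) (S : Setup l p R)
    (hζ : IsPrimitiveRoot ζ (l ^ 1)) (hπ : π ^ l ^ 1 = p) (hμ : μ ^ l ^ 1 = -1) {c : GG → O}
    (hc : ∀ σ τ, ϖ ∣ c (σ * τ) - (c σ + R.det σ * c τ))
    (hV : ∃ V : Subgroup GG, IsOpen (V : Set GG) ∧ ∀ σ ∈ V, ϖ ∣ c σ)
    (hq : ∀ q : ℕ, q.Prime → q ≠ p → q ≠ l → ∀ σ ∈ (S.place q).inertiaSubgroupIn ℚ, ϖ ∣ c σ)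
    (hl : ValZero (l := l) S.Al c) : InSpan (l := l) ζ π μ ϖ c := by
  intro g hg
  obtain ⟨V, hVo, hVd⟩ := hV
  refine exists_rational_combination hp hζ hπ hμ (c := fun σ ↦ g (c σ)) (isExp_expChar hζ)
    (fun σ τ ↦ ?_) V hVo (fun σ hσ ↦ hg.eq_zero (hVd σ hσ)) fun q hq1 hq2 ↦ ?_
  · have h := hg.eq_zero (hc σ τ)
    rw [map_sub, map_add, functional_mul g (S.cyclo.dvd_expChar hζ σ), ZMod.natCast_zmod_val,
      sub_eq_zero] at h
    exact h
  · by_cases hql : q = l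
    · subst hql
      exact ⟨S.Al, S.liesl, 0, by rw [mul_zero]; exact hl 1 g ζ hζ⟩
    · exact ⟨S.place q, S.liesq q hq1, 0, by
        rw [mul_zero]; exact hasVal_zero fun σ hσ ↦ hg.eq_zero (hq q hq1 hq2 hql σ hσ)⟩

/-- Reachable residual classes. -/
def Reach (R : Rep O ϖ) (κ : Cocycle R) : Prop :=
  ∃ x1 x2, ∀ σ, ϖ ∣ κ.u σ - ((R.a σ - 1) * x1 + R.b σ * x2) ∧
    ϖ ∣ κ.v σ - (R.c σ * x1 + (R.d σ - 1) * x2)

/-- The combination `κ - y ε`. -/
def Cocycle.subMul (κ ε : Cocycle R) (y : O) : Cocycle R where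
  u σ := κ.u σ - y * ε.u σ
  v σ := κ.v σ - y * ε.v σ
  u_mul σ τ := by rw [κ.u_mul, ε.u_mul]; ring
  v_mul σ τ := by rw [κ.v_mul, ε.v_mul]; ring
  cont n := by
    obtain ⟨V, hV, h⟩ := κ.cont n
    obtain ⟨W, hW, h'⟩ := ε.cont n
    exact ⟨V ⊓ W, hV.inter hW, fun σ hσ ↦ ⟨(h σ hσ.1).1.sub ((h' σ hσ.2).1.mul_left _),
      (h σ hσ.1).2.sub ((h' σ hσ.2).2.mul_left _)⟩⟩

theorem Valid.subMul {S : Setup l p R} {κ ε : Cocycle R} (hκ : Valid l p S κ)
    (hε : Valid l p S ε) (y : O) : Valid l p S (κ.subMul ε y) where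
  unram q h1 h2 h3 σ hσ := by
    obtain ⟨e1, e2⟩ := hκ.unram q h1 h2 h3 σ hσ
    obtain ⟨e3, e4⟩ := hε.unram q h1 h2 h3 σ hσ
    simp [Cocycle.subMul, e1, e2, e3, e4]
  inertia_l σ hσ := by simp [Cocycle.subMul, hκ.inertia_l σ hσ, hε.inertia_l σ hσ]

theorem residual_diagonal (hϖ : Irreducible ϖ) (hp : p.Prime) (hpl : p ≠ l) (S : Setup l p R)
    (htr : ∀ σ, ϖ ∣ R.a σ + R.d σ - 1 - R.det σ) (hc : ∀ σ, ϖ ∣ R.c σ)
    (hζ : IsPrimitiveRoot ζ (l ^ 1)) :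
    (∀ σ, ϖ ∣ R.d σ - 1) ∧ ∀ σ, ϖ ∣ R.a σ - R.det σ := by
  have hl : l.Prime := Fact.out
  haveI : Fact (1 < l ^ 1) := ⟨by rw [pow_one]; exact hl.one_lt⟩
  have hprime : Prime ϖ := hϖ.prime
  have had : ∀ σ, ϖ ∣ R.a σ - 1 ∨ ϖ ∣ R.d σ - 1 := fun σ ↦ hprime.dvd_or_dvd (by
    rw [show (R.a σ - 1) * (R.d σ - 1) = -(R.a σ + R.d σ - 1 - R.det σ) + R.b σ * R.c σ by
      rw [Rep.det]; ring]
    exact (htr σ).neg_right.add ((hc σ).mul_left _))
  suffices hd : ∀ σ, ϖ ∣ R.d σ - 1 by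
    refine ⟨hd, fun σ ↦ ?_⟩
    rw [show R.a σ - R.det σ = -(R.a σ * (R.d σ - 1)) + R.b σ * R.c σ by rw [Rep.det]; ring]
    exact ((hd σ).mul_left _).neg_right.add ((hc σ).mul_left _)
  intro s
  by_contra hs
  have ha : ∀ σ, ϖ ∣ R.a σ - 1 := fun σ ↦ (had σ).elim id fun h ↦ by
    rcases had (σ * s) with h' | h'
    · have := (had s).resolve_right hs
      rw [R.a_mul] at h'
      rw [show R.a σ - 1 = (R.a σ * R.a s + R.b σ * R.c s - 1) - R.a σ * (R.a s - 1) -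
        R.b σ * R.c s by ring]
      exact (h'.sub (this.mul_left _)).sub ((hc s).mul_left _)
    · refine absurd ?_ hs
      rw [R.d_mul] at h'
      rw [show R.d s - 1 = (R.c σ * R.b s + R.d σ * R.d s - 1) - (R.d σ - 1) * R.d s -
        R.c σ * R.b s by ring]
      exact (h'.sub (h.mul_right _)).sub ((hc σ).mul_right _)
  by_cases hl2 : l = 2
  · refine hs ?_
    have hk : expChar (l ^ 1) ζ s = 1 := by
      have hu : s ζ ≠ 1 := fun e ↦ hζ.ne_one Fact.out (by rwa [map_eq_one_iff s s.injective] at e)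
      rw [isExp_expChar hζ s] at hu
      have hlt := ZMod.val_lt (expChar (l ^ 1) ζ s)
      have h0 : (expChar (l ^ 1) ζ s).val ≠ 0 := fun e ↦ hu (by rw [e, pow_zero])
      refine ZMod.val_injective _ ?_
      rw [ZMod.val_one]
      subst hl2
      omega
    have h1 := S.cyclo.dvd_expChar hζ s
    rw [hk, ZMod.val_one, Nat.cast_one, pow_one] at h1
    have h2 := (irreducible_dvd_natCast (l := l) hϖ).trans h1
    rw [show R.d s - 1 = (R.det s - 1) - R.d s * (R.a s - 1) + R.b s * R.c s by rw [Rep.det]; ring]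
    exact (h2.sub ((ha s).mul_left _)).add ((hc s).mul_left _)
  · obtain ⟨t, ht, htζ⟩ := exists_expChar_ne_one S hp hpl hl2 hζ
    refine htζ ?_
    have h1 := (irreducible_dvd_natCast (l := l) hϖ).trans
      (pow_one (l : O) ▸ S.cyclo.dvd_expChar hζ t)
    have h2 : ϖ ∣ R.det t - 1 := by
      rw [Rep.det, S.decomp_c t (Places.inertia_le_decomposition _ ht), S.inertia_d t ht]
      simpa using ha t
    have h3 := h2.sub h1
    rw [sub_sub_sub_cancel_left] at h3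
    have h4 : (l : ℤ) ∣ ((expChar (l ^ 1) ζ t).val : ℤ) - 1 :=
      natCast_dvd_of_irreducible_dvd hϖ (by push_cast; exact h3)
    have h5 : ((expChar (l ^ 1) ζ t).val : ℤ) = 1 := by
      have hlt : (expChar (l ^ 1) ζ t).val < l := (ZMod.val_lt _).trans_eq (pow_one l)
      obtain ⟨j, hj⟩ := h4
      have : -(1 : ℤ) ≤ (l : ℤ) * j ∧ (l : ℤ) * j < l - 1 := ⟨by omega, by omega⟩
      have hj0 : j = 0 := by
        have hl2' : (2 : ℤ) ≤ l := by exact_mod_cast hl.two_le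
        rcases lt_trichotomy j 0 with h | h | h
        · nlinarith
        · exact h
        · nlinarith
      rw [hj0, mul_zero] at hj; omega
    rw [isExp_expChar hζ t, show (expChar (l ^ 1) ζ t).val = 1 by exact_mod_cast h5, pow_one]

end FLTAgent.Mazur
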