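import Fermat.Agent.Mazur.Tate
import Fermat.Agent.Mazur.HeckeIndex
import Fermat.Agent.Mazur.HeckeKernel
import Fermat.Agent.Mazur.Idem
import Fermat.Agent.Kronecker.GoodReduction
import Fermat.Agent.FrobTrace.Global

/-!
# The operators stabilising the kernel of reduction and the Eisenstein idempotent

At prime level every trace lies in the algebra of `l`-adic operators stabilising the kernel of the
reduction at a place over `l`, and so does the idempotent cutting out the Eisenstein part.
-/

set_option autoImplicit false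
set_option linter.style.haveILetI false
set_option linter.unusedSectionVars false
set_option synthInstance.maxHeartbeats 400000
set_option maxHeartbeats 1000000

noncomputable section

open CongruenceSubgroup TensorProduct AlgebraicCurve IsLocalRing
open scoped MatrixGroups

namespace FLTAgent.Mazur.Tate

open ModularCurve (JZero reductionModL ReductionInputsModL modularFunctionFieldFullC
  heckeOperatorBar)

variable (p l : ℕ) [Fact p.Prime] [NeZero p] [Fact l.Prime]

local notation "QA" => AlgebraicClosure ℚ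
local notation "GG" => (AlgebraicClosure ℚ ≃ₐ[ℚ] AlgebraicClosure ℚ)
local notation "HH" => CuspForm.heckeAlgebra p 2 (∅ : Set ℕ)
local notation "TT" => ℤ_[l] ⊗[ℤ] (CuspForm.heckeAlgebra p 2 (∅ : Set ℕ))

instance instFreeHecke : Module.Free ℤ HH := Module.free_of_finite_type_torsion_free'

theorem lev_smul (k : ℕ) (c : ℤ_[l]) (v : Lat p l) :
    lev p l k (c • v) = (PadicInt.toZModPow k c).val • lev p l k v := by
  have h : (l : ℤ_[l]) ^ k ∣ c - ((PadicInt.toZModPow k c).val : ℕ) :=
    (toZModPow_eq_zero_iff l).1 (by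
      rw [map_sub, map_natCast, ZMod.natCast_zmod_val, sub_self])
  rw [← map_nsmul, ← sub_eq_zero, ← map_sub, lev_eq_zero_iff]
  intro i
  rw [Pi.sub_apply, Pi.smul_apply, Pi.smul_apply, nsmul_eq_mul, smul_eq_mul, ← sub_mul]
  exact h.mul_right _

theorem eq_smul_of_lev_eq_zero {k : ℕ} {v : Lat p l} (h : lev p l k v = 0) :
    ∃ z, v = ((l : ℤ_[l]) ^ k) • z := by
  choose z hz using (lev_eq_zero_iff p l).1 h
  exact ⟨z, funext fun i => hz i⟩

theorem lev_map_eq_zero {k : ℕ} (f : Module.End ℤ_[l] (Lat p l)) {v : Lat p l}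
    (h : lev p l k v = 0) : lev p l k (f v) = 0 := by
  obtain ⟨z, rfl⟩ := eq_smul_of_lev_eq_zero p l h
  rw [map_smul, lev_smul_pow]

theorem lev_nsmul_succ (k : ℕ) (v : Lat p l) :
    lev p l (k + 1) ((l : ℤ_[l]) • v) = lev p l k v := by
  rw [show (l : ℤ_[l]) • v = l • v from Nat.cast_smul_eq_nsmul _ _ _, map_nsmul, nsmul_lev_succ]

theorem latticeHom_gal (x : TT) (σ : GG) (v : Lat p l) :
    latticeHom l (hecke p l) x (gal p l σ v) = gal p l σ (latticeHom l (hecke p l) x v) := by
  induction x using TensorProduct.induction_on with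
  | zero => rw [map_zero, LinearMap.zero_apply, LinearMap.zero_apply, map_zero]
  | add x y hx hy => rw [map_add, LinearMap.add_apply, LinearMap.add_apply, hx, hy, map_add]
  | tmul c t =>
    simp only [latticeHom, Algebra.TensorProduct.lift_tmul, Module.End.mul_apply, Algebra.ofId_apply,
      Module.algebraMap_end_apply, RingHom.toIntAlgHom_apply]
    rw [gal_comm, map_smul]

theorem latticeHom_one_tmul (t : HH) :
    latticeHom l (hecke p l) ((1 : ℤ_[l]) ⊗ₜ[ℤ] t) = hecke p l t := by
  simp [latticeHom, Algebra.TensorProduct.lift_tmul]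

section Stable

variable (A : ValuationSubring QA)

/-- Operators stabilising the kernel of reduction at every level. -/
def stab : Subalgebra ℤ_[l] TT where
  carrier := {x | ∀ k w, reductionModL A p (lev p l k w) = 0 →
    reductionModL A p (lev p l k (latticeHom l (hecke p l) x w)) = 0}
  mul_mem' := fun {x y} hx hy k w hw => by
    rw [map_mul, Module.End.mul_apply]
    exact hx k _ (hy k w hw)
  add_mem' := fun {x y} hx hy k w hw => by
    rw [map_add, LinearMap.add_apply, map_add, map_add, hx k w hw, hy k w hw, add_zero]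
  algebraMap_mem' := fun c k w hw => by
    rw [AlgHom.commutes, Module.algebraMap_end_apply, lev_smul, map_nsmul, hw, nsmul_zero]

theorem mem_stab_of_approx {x : TT}
    (h : ∀ k : ℕ, ∃ y ∈ stab p l A, ∃ z, x - y = ((l : ℤ_[l]) ^ k) • z) : x ∈ stab p l A := by
  intro k w hw
  obtain ⟨y, hy, z, hz⟩ := h k
  rw [sub_eq_iff_eq_add'.1 hz, map_add, map_smul, LinearMap.add_apply, LinearMap.smul_apply,
    map_add, lev_smul_pow, add_zero]
  exact hy k w hw

variable {A} (hA : A.LiesOverPrime l) (hlp : l ≠ p)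

include hA hlp

theorem reductionInputs : ReductionInputsModL A p :=
  (Kronecker.goodReductionAt p l Fact.out
    (fun h => hlp ((Nat.prime_dvd_prime_iff_eq Fact.out Fact.out).1 h)) A hA).1

theorem tmul_heckeGen_mem_stab {r : ℕ} (hr : r.Prime) (hrp : r ≠ p) :
    (1 : ℤ_[l]) ⊗ₜ[ℤ] CuspForms.heckeGen p r hr ∈ stab p l A := by
  intro k w hw
  rw [latticeHom_one_tmul, show lev p l k (hecke p l (CuspForms.heckeGen p r hr) w) =
      heckeOperatorBar p ⟨r, hr⟩ (lev p l k w) from lev_heckeGen p l k ⟨r, hr⟩ w]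
  erw [ModularCurve.heckeOperatorBar_apply]
  haveI : Fact r.Prime := ⟨hr⟩
  haveI : IsAlgClosed (ResidueField A) := FrobTrace.isAlgClosed_residueField A
  have hpk : (p : ResidueField A) ≠ 0 := Specialization.natCast_ne_zero_residue hA
    fun h => hlp ((Nat.prime_dvd_prime_iff_eq Fact.out Fact.out).1 h)
  haveI : Curves.IsFunctionField (ResidueField A) (modularFunctionFieldFullC (ResidueField A) p) :=
    GoodModel.isFunctionField_fullC hpk
  exact reductionModL_hecke_eq_zero (reductionInputs p l hA hlp) hpk r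
    (fun h => hrp ((Nat.prime_dvd_prime_iff_eq hr Fact.out).1 h))
    (pow_ne_zero k (Fact.out : l.Prime).ne_zero) (nsmul_lev p l k w) hw

theorem tmul_mem_stab {t : HH} (ht : t ∈ awayAlg p) : (1 : ℤ_[l]) ⊗ₜ[ℤ] t ∈ stab p l A := by
  induction ht using Algebra.adjoin_induction with
  | mem x hx =>
    obtain ⟨q, hq, rfl⟩ := hx
    exact tmul_heckeGen_mem_stab p l hA hlp q.2 hq
  | algebraMap c =>
    have : (1 : ℤ_[l]) ⊗ₜ[ℤ] (algebraMap ℤ HH c) = algebraMap ℤ_[l] TT (c : ℤ_[l]) := by
      rw [Algebra.algebraMap_eq_smul_one, tmul_smul, ← Algebra.TensorProduct.one_def, zsmul_one,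
        map_intCast]
    rw [this]
    exact Subalgebra.algebraMap_mem _ _
  | add a b _ _ ha hb => rw [tmul_add]; exact add_mem ha hb
  | mul a b _ _ ha hb =>
    rw [show (1 : ℤ_[l]) ⊗ₜ[ℤ] (a * b) = (1 ⊗ₜ[ℤ] a) * (1 ⊗ₜ[ℤ] b) by
      rw [Algebra.TensorProduct.tmul_mul_tmul, one_mul]]
    exact mul_mem ha hb

omit hA hlp in
theorem toFull_mem_awayAlg {S : Finset ℕ} (hpS : p ∈ S)
    (t : CuspForm.heckeAlgebra p 2 (↑S : Set ℕ)) : EigenReps.toFull p S t ∈ awayAlg p := by
  obtain ⟨t, ht⟩ := t
  induction ht using Algebra.adjoin_induction with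
  | mem x hx =>
    rcases hx with ⟨r, hr, hrp, hrS, rfl⟩ | ⟨r, hrp, hr, hrS, rfl⟩
    · refine (congrArg (· ∈ awayAlg p) (EigenReps.toFull_T p S hr hrp hrS)).mpr ?_
      exact heckeGen_mem_awayAlg p hr fun h => hrS (h ▸ hpS)
    · exact absurd hpS (((Nat.prime_dvd_prime_iff_eq hr Fact.out).1 hrp) ▸ hrS)
  | algebraMap c => exact Subalgebra.algebraMap_mem (awayAlg p) c
  | add a b ha hb iha ihb =>
    exact (congrArg (· ∈ awayAlg p) (map_add (EigenReps.toFull p S) ⟨a, ha⟩ ⟨b, hb⟩)).mpr
      (add_mem iha ihb)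
  | mul a b ha hb iha ihb =>
    exact (congrArg (· ∈ awayAlg p) (map_mul (EigenReps.toFull p S) ⟨a, ha⟩ ⟨b, hb⟩)).mpr
      (mul_mem iha ihb)

end Stable

section Eisenstein

omit [Fact l.Prime] in
theorem mem_pairSet : ∀ q : ℕ, q.Prime → q ∣ p → q ∈ ({l, p} : Finset ℕ) := fun q hq h => by
  simp [(Nat.prime_dvd_prime_iff_eq hq Fact.out).1 h]

/-- The trace in the `l`-adic algebra. -/
def tr (σ : GG) : TT :=
  trace p l {l, p} (Finset.mem_insert_self _ _) (mem_pairSet p l) σ

theorem tr_rel (σ : GG) (v : Lat p l) :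
    gal p l σ (gal p l σ v) - latticeHom l (hecke p l) (tr p l σ) (gal p l σ v) + chi l σ • v = 0 :=
  trace_rel p l {l, p} _ _ σ v

/-- The defect from Eisenstein. -/
def xd (σ : GG) : TT := tr p l σ - 1 - algebraMap ℤ_[l] TT (chi l σ)

variable {A : ValuationSubring QA} (hA : A.LiesOverPrime l) (hlp : l ≠ p)

include hA hlp in
theorem xd_mem_stab (σ : GG) : xd p l σ ∈ stab p l A := by
  refine sub_mem (sub_mem (mem_stab_of_approx p l A fun k => ?_) (one_mem _))
    (Subalgebra.algebraMap_mem _ _)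
  exact ⟨_, tmul_mem_stab p l hA hlp (toFull_mem_awayAlg p (by simp) _),
    trace_spec p l {l, p} (Finset.mem_insert_self _ _) (mem_pairSet p l) σ k⟩

theorem natCast_pow_dvd_iff {k : ℕ} {x : TT} :
    (l : TT) ^ k ∣ x ↔ ∃ z, x = ((l : ℤ_[l]) ^ k) • z :=
  exists_congr fun z => by rw [natCast_pow_mul_eq_smul']

include hA hlp in
/-- The idempotent of the Eisenstein part. -/
theorem exists_eps : ∃ ε : TT, ε ∈ stab p l A ∧ ε * ε = ε ∧
    (∀ σ, ∃ (j : ℕ) (y : TT), ε * xd p l σ ^ j = (l : TT) * y) ∧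
    ∀ (k : ℕ) (v : Lat p l), (∀ σ, lev p l k (latticeHom l (hecke p l) (xd p l σ) v) = 0) →
      lev p l k (latticeHom l (hecke p l) ε v) = lev p l k v := by
  classical
  haveI := finite_quotient_natCast_pow (l := l) (R := TT) 1
  let cls : GG → TT ⧸ Ideal.span {(l : TT) ^ 1} := fun σ => Ideal.Quotient.mk _ (xd p l σ)
  have hfin : (Set.range cls).Finite := Set.toFinite _
  choose rep hrep using fun q : Set.range cls => q.2
  haveI := hfin.fintype
  choose e he hpow using fun q : Set.range cls => exists_idempotent l (xd p l (rep q))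
  choose N hN1 hNd using hpow
  refine ⟨∏ q, (1 - e q), prod_mem fun q _ => sub_mem (one_mem _) ?_, ?_, fun σ => ?_,
    fun k v hv => ?_⟩
  · refine mem_stab_of_approx p l A fun k => ⟨xd p l (rep q) ^ N q k,
      pow_mem (xd_mem_stab p l hA hlp (rep q)) (N q k), ?_⟩
    exact (natCast_pow_dvd_iff p l).1 (hNd q k)
  · rw [← Finset.prod_mul_distrib]
    exact Finset.prod_congr rfl fun q _ => by linear_combination he q
  · let q : Set.range cls := ⟨cls σ, σ, rfl⟩
    refine ⟨N q 1, ?_⟩
    have h1 : (l : TT) ∣ xd p l σ ^ N q 1 - e q := by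
      have ha : (l : TT) ∣ xd p l σ - xd p l (rep q) := by
        have := Ideal.Quotient.eq.1 (hrep q).symm
        rwa [Ideal.mem_span_singleton, pow_one] at this
      have hb := hNd q 1
      rw [pow_one] at hb
      have hc := (ha.trans (sub_dvd_pow_sub_pow _ _ (N q 1))).sub hb
      rwa [show xd p l σ ^ N q 1 - xd p l (rep q) ^ N q 1 - (e q - xd p l (rep q) ^ N q 1) =
        xd p l σ ^ N q 1 - e q by ring] at hc
    obtain ⟨y, hy⟩ := h1
    refine ⟨(∏ x, (1 - e x)) * y, ?_⟩
    rw [sub_eq_iff_eq_add'.1 hy, mul_add,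
      show (∏ x, (1 - e x)) * e q = 0 from by
        rw [← Finset.mul_prod_erase _ _ (Finset.mem_univ q)]
        linear_combination -(∏ x ∈ Finset.univ.erase q, (1 - e x)) * he q]
    ring
  · refine Finset.prod_induction (fun q => 1 - e q)
      (fun a => lev p l k (latticeHom l (hecke p l) a v) = lev p l k v) (fun a b ha hb => ?_)
      (by rw [map_one, Module.End.one_apply]) fun q _ => ?_
    · rw [← sub_eq_zero, ← map_sub] at hb
      have := lev_map_eq_zero p l (latticeHom l (hecke p l) a) hb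
      rw [map_sub, map_sub, sub_eq_zero, ← Module.End.mul_apply, ← map_mul] at this
      exact this.trans ha
    · obtain ⟨z, hz⟩ := (natCast_pow_dvd_iff p l).1 (hNd q k)
      rw [map_sub, map_one, LinearMap.sub_apply, Module.End.one_apply, map_sub,
        sub_eq_iff_eq_add'.1 hz, map_add, map_smul, LinearMap.add_apply, LinearMap.smul_apply,
        map_add, lev_smul_pow, add_zero, ← Nat.sub_add_cancel (hN1 q k), pow_succ, map_mul,
        Module.End.mul_apply, lev_map_eq_zero p l _ (hv _), sub_zero]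

end Eisenstein

end FLTAgent.Mazur.Tate
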