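import Fermat.Agent.Mazur.Separation

/-!
# Mazur's key step, given unipotent inertia at `p`
-/

set_option autoImplicit false
set_option linter.style.haveILetI false
set_option synthInstance.maxHeartbeats 400000

noncomputable section

open ModularCurve AlgebraicCurve WeierstrassCurve WeierstrassCurve.Affine

namespace FLTAgent.Mazur

/-- A rational point of order `p` missing the identity component at `2` and `3` misses it at
every multiplicative prime other than `p`. -/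
theorem not_inZeroComponentAt_of_unipotent {p : ℕ} [Fact p.Prime]
    (hp' : p ∉ ({2, 3, 5, 7, 13} : Finset ℕ)) (hbad : UnipotentAt p)
    (W : WeierstrassCurve ℤ) (hΔ : W.Δ ≠ 0)
    (Q : ((W.map (Int.castRingHom ℚ))⁄(AlgebraicClosure ℚ)).Point)
    (hQfix : ∀ σ : AlgebraicClosure ℚ ≃ₐ[ℚ] AlgebraicClosure ℚ, σ • Q = Q)
    (hQord : addOrderOf Q = p)
    (h2Δ : (2 : ℤ) ∣ W.Δ) (h2c₄ : ¬ (2 : ℤ) ∣ W.c₄)
    (h2 : ∀ A : ValuationSubring (AlgebraicClosure ℚ), A.LiesOverPrime 2 →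
      ¬ W.InZeroComponentAt A Q)
    (h3Δ : (3 : ℤ) ∣ W.Δ) (h3c₄ : ¬ (3 : ℤ) ∣ W.c₄)
    (h3 : ∀ A : ValuationSubring (AlgebraicClosure ℚ), A.LiesOverPrime 3 →
      ¬ W.InZeroComponentAt A Q)
    {ℓ : ℕ} (hℓ : ℓ.Prime) (hℓp : ℓ ≠ p) (hℓΔ : (ℓ : ℤ) ∣ W.Δ) (hℓc₄ : ¬ (ℓ : ℤ) ∣ W.c₄)
    (A : ValuationSubring (AlgebraicClosure ℚ)) (hA : A.LiesOverPrime ℓ) :
    ¬ W.InZeroComponentAt A Q := by
  intro hz
  have hne : p ≠ 2 ∧ p ≠ 3 ∧ p ≠ 5 ∧ p ≠ 7 ∧ p ≠ 13 := by simpa using hp'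
  have hp5 : 5 ≤ p := by
    have h2le := (Fact.out : p.Prime).two_le
    have h4 : p ≠ 4 := fun h => absurd (h ▸ (Fact.out : p.Prime)) (by norm_num)
    omega
  obtain ⟨x, hx, hxred⟩ := exists_point_cusp hp5 hΔ ⟨2, Nat.prime_two, h2Δ, h2c₄⟩ Q hQord
    fun σ => ⟨1, by rw [one_nsmul, hQfix]⟩
  refine cusp_separation hp' hbad hx (Or.inr ⟨rfl, rfl⟩) ?_ ?_ hℓ hℓp hA fun r hr =>
    (hxred ℓ hℓ hℓp hℓΔ hℓc₄ A hA r hr).2.1 hz
  · exact fun B hB r hr =>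
      (hxred 2 Nat.prime_two hne.1.symm h2Δ h2c₄ B hB r hr).2.2 (h2 B hB)
  · exact fun B hB r hr =>
      (hxred 3 Nat.prime_three hne.2.1.symm h3Δ h3c₄ B hB r hr).2.2 (h3 B hB)

end FLTAgent.Mazur
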