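import Fermat.Agent.Mazur.HeckeLattice
import Fermat.Agent.EigenLattice.Rep
import Fermat.Agent.EigenReps.Approx
import Mathlib.NumberTheory.Padics.RingHoms

/-!
# The `l`-adic Tate module of `J₀(N)` in coordinates

Integral vectors give compatible torsion classes; Galois, the Hecke algebra, the cyclotomic
character and the trace in the `l`-adic Hecke algebra act on them.
-/

set_option autoImplicit false
set_option linter.style.haveILetI false
set_option linter.unusedSectionVars false
set_option synthInstance.maxHeartbeats 400000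
set_option maxHeartbeats 1000000

noncomputable section

open Matrix CongruenceSubgroup TensorProduct AlgebraicCurve FLTAgent.DetCyclo
open scoped MatrixGroups

namespace FLTAgent.Mazur.Tate

open FLTAgent.EigenLattice (Ix bas heckeMx heckeO galO torsCoord scaleHom galMxPow)
open FLTAgent.PeriodHecke (actDual pairMap)
open ModularCurve (JZero modularFunctionFieldBar heckeOperatorBar)

variable (N : ℕ) [NeZero N] (l : ℕ) [Fact l.Prime]

local notation "QA" => AlgebraicClosure ℚ
local notation "GG" => (AlgebraicClosure ℚ ≃ₐ[ℚ] AlgebraicClosure ℚ)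
local notation "HH" => CuspForm.heckeAlgebra N 2 (∅ : Set ℕ)
local notation "κC" => Kronecker.complexEmb

/-- The lattice. -/
abbrev Lat : Type := Ix N → ℤ_[l]

instance instNeZeroPow (k : ℕ) : NeZero (l ^ k) := ⟨pow_ne_zero _ (Fact.out : l.Prime).ne_zero⟩

theorem natCast_mem : (l : ℤ_[l]) ∈ IsLocalRing.maximalIdeal ℤ_[l] := by
  rw [PadicInt.maximalIdeal_eq_span_p]
  exact Ideal.mem_span_singleton_self _

theorem toZModPow_eq_zero_iff {k : ℕ} {x : ℤ_[l]} :
    PadicInt.toZModPow k x = 0 ↔ (l : ℤ_[l]) ^ k ∣ x := by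
  rw [← RingHom.mem_ker, PadicInt.ker_toZModPow, Ideal.mem_span_singleton]

theorem toZModPow_eq_natCast {k : ℕ} {x : ℤ_[l]} {c : ℕ}
    (h : ((l ^ k : ℕ) : ℤ_[l]) ∣ x - c) : PadicInt.toZModPow k x = (c : ZMod (l ^ k)) := by
  rw [Nat.cast_pow] at h
  have h1 := (toZModPow_eq_zero_iff l).2 h
  rwa [map_sub, map_natCast, sub_eq_zero] at h1

/-- The reduction of a vector. -/
def redVec (k : ℕ) : Lat N l →+ (Ix N → ZMod (l ^ k)) :=
  (PadicInt.toZModPow k).toAddMonoidHom.compLeft (Ix N)

theorem redVec_apply (k : ℕ) (v : Lat N l) (i : Ix N) :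
    redVec N l k v i = PadicInt.toZModPow k (v i) := rfl

/-- The torsion class of a vector at level `k`. -/
def levT (k : ℕ) : Lat N l →+ Pic0.torsion QA (modularFunctionFieldBar N) (l ^ k) :=
  (torsCoord (N := N) κC (l ^ k)).symm.toAddMonoidHom.comp (redVec N l k)

/-- The class at level `k`. -/
def lev (k : ℕ) : Lat N l →+ JZero N :=
  (Pic0.torsion QA (modularFunctionFieldBar N) (l ^ k)).subtype.comp (levT N l k)

theorem torsCoord_levT (k : ℕ) (v : Lat N l) :
    torsCoord κC (l ^ k) (levT N l k v) = redVec N l k v :=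
  (torsCoord (N := N) κC (l ^ k)).apply_symm_apply _

theorem nsmul_lev (k : ℕ) (v : Lat N l) : l ^ k • lev N l k v = 0 :=
  (EigenReps.mem_torsion_iff_nsmul N).1 (levT N l k v).2

theorem lev_eq_zero_iff {k : ℕ} {v : Lat N l} :
    lev N l k v = 0 ↔ ∀ i, (l : ℤ_[l]) ^ k ∣ v i := by
  rw [show lev N l k v = 0 ↔ levT N l k v = 0 from ⟨fun h => Subtype.ext h,
      fun h => congrArg Subtype.val h⟩,
    ← AddEquiv.map_eq_zero_iff (torsCoord (N := N) κC (l ^ k)), torsCoord_levT, funext_iff]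
  exact forall_congr' fun i => toZModPow_eq_zero_iff l

/-- Vectors are determined by their classes. -/
theorem eq_zero_of_lev {v : Lat N l} (h : ∀ k, lev N l k v = 0) : v = 0 :=
  funext fun i => EigenLattice.eq_of_forall_natPow_dvd l (natCast_mem l) fun k => by
    rw [Nat.cast_pow, Pi.zero_apply, sub_zero]
    exact (lev_eq_zero_iff N l).1 (h k) i

theorem exists_eq_of_lev_eq {k : ℕ} {v w : Lat N l} (h : lev N l k v = lev N l k w) :
    ∃ z : Lat N l, v - w = ((l : ℤ_[l]) ^ k) • z := by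
  have h1 : lev N l k (v - w) = 0 := by rw [map_sub, h, sub_self]
  choose z hz using (lev_eq_zero_iff N l).1 h1
  exact ⟨z, funext fun i => hz i⟩

theorem castHom_toZModPow (k : ℕ) (x : ℤ_[l]) :
    ZMod.castHom (pow_dvd_pow l k.le_succ) (ZMod (l ^ k)) (PadicInt.toZModPow (k + 1) x) =
      PadicInt.toZModPow k x :=
  DFunLike.congr_fun (PadicInt.zmod_cast_comp_toZModPow k (k + 1) k.le_succ) x

/-- Coordinates of a multiple at the lower level. -/
theorem coord_nsmul {n m n' : ℕ} [NeZero n] [NeZero m] [NeZero n'] (h : n' = n * m)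
    (c : Pic0.torsion QA (modularFunctionFieldBar N) n)
    (d : Pic0.torsion QA (modularFunctionFieldBar N) n') (hd : m • (d : JZero N) = c) (i : Ix N)
    (hdvd : n ∣ n') :
    ZMod.castHom hdvd (ZMod n) (torsCoord κC n' d i) = torsCoord κC n c i := by
  subst h
  have hinj : Function.Injective (scaleHom n m) := fun a b hab => by
    apply TorsionHom.rootHom_injective n
    rw [← EigenLattice.rootHom_scaleHom n m, hab, EigenLattice.rootHom_scaleHom]
  refine hinj ?_
  rw [← EigenLattice.torsCoord_mul_level κC n m c (m • d) hd i, map_nsmul, Pi.smul_apply]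
  obtain ⟨a, ha⟩ := ZMod.natCast_zmod_surjective (torsCoord κC (n * m) d i)
  rw [← ha, map_natCast, nsmul_eq_mul, ← Nat.cast_mul]
  show ((m * (a : ZMod n).val : ℕ) : ZMod (n * m)) = _
  rw [ZMod.val_natCast, ZMod.natCast_eq_natCast_iff, mul_comm n m]
  exact (Nat.mod_modEq a _).mul_left' m

theorem nsmul_lev_succ (k : ℕ) (v : Lat N l) : l • lev N l (k + 1) v = lev N l k v := by
  have hmem : l • lev N l (k + 1) v ∈ Pic0.torsion QA (modularFunctionFieldBar N) (l ^ k) :=
    (EigenReps.mem_torsion_iff_nsmul N).2 (by rw [← mul_nsmul', ← pow_succ, nsmul_lev])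
  have h : (⟨_, hmem⟩ : Pic0.torsion QA (modularFunctionFieldBar N) (l ^ k)) = levT N l k v := by
    refine (torsCoord (N := N) κC (l ^ k)).injective (funext fun i => ?_)
    rw [torsCoord_levT, ← coord_nsmul N (pow_succ l k) ⟨_, hmem⟩ (levT N l (k + 1) v) rfl i
      (pow_dvd_pow l k.le_succ), torsCoord_levT]
    exact castHom_toZModPow l k (v i)
  exact congrArg Subtype.val h

theorem nsmul_pow_lev (k j : ℕ) (v : Lat N l) : l ^ j • lev N l (k + j) v = lev N l k v := by
  induction j with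
  | zero => rw [pow_zero, one_nsmul, add_zero]
  | succ j ih => rw [pow_succ', mul_nsmul, ← Nat.add_assoc, nsmul_lev_succ, ih]

/-- A compatible sequence of torsion classes comes from a vector. -/
theorem exists_of_compatible (x : ℕ → JZero N) (h0 : x 0 = 0) (h : ∀ k, l • x (k + 1) = x k) :
    ∃ v : Lat N l, ∀ k, lev N l k v = x k := by
  have hpow : ∀ k, l ^ k • x k = 0 := fun k => by
    induction k with
    | zero => rw [pow_zero, one_nsmul, h0]
    | succ k ih => rw [pow_succ', mul_nsmul, h, ih]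
  let c : ∀ k, Ix N → ZMod (l ^ k) := fun k =>
    torsCoord κC (l ^ k) ⟨x k, (EigenReps.mem_torsion_iff_nsmul N).2 (hpow k)⟩
  have hc : ∀ k i, ZMod.castHom (pow_dvd_pow l k.le_succ) (ZMod (l ^ k)) (c (k + 1) i) = c k i :=
    fun k i => coord_nsmul N (pow_succ l k) _ _ (h k) i _
  have hdvd : ∀ i, ∀ k, ((l ^ k : ℕ) : ℤ_[l]) ∣ ((c (k + 1) i).val : ℤ_[l]) - ((c k i).val : ℕ) := by
    intro i k
    rw [Nat.cast_pow]
    refine (toZModPow_eq_zero_iff l).1 ?_
    rw [map_sub, map_natCast, map_natCast, ZMod.natCast_zmod_val, sub_eq_zero, ← hc k i]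
    conv_rhs => rw [← ZMod.natCast_zmod_val (c (k + 1) i), map_natCast]
  have hdvd' : ∀ i {k m}, k ≤ m →
      ((l ^ k : ℕ) : ℤ_[l]) ∣ ((c m i).val : ℤ_[l]) - ((c k i).val : ℕ) := by
    intro i k m hkm
    induction m, hkm using Nat.le_induction with
    | base => rw [sub_self]; exact dvd_zero _
    | succ m hkm ih =>
      have h1 : ((l ^ k : ℕ) : ℤ_[l]) ∣ ((l ^ m : ℕ) : ℤ_[l]) :=
        Nat.cast_dvd_cast (pow_dvd_pow l hkm)
      simpa using dvd_add (h1.trans (hdvd i m)) ih
  choose v hv using fun i => EigenLattice.exists_limit_natPow l (natCast_mem l)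
    (fun k => ((c k i).val : ℤ_[l])) (hdvd' i)
  refine ⟨v, fun k => ?_⟩
  have : levT N l k v = ⟨x k, (EigenReps.mem_torsion_iff_nsmul N).2 (hpow k)⟩ := by
    refine (torsCoord (N := N) κC (l ^ k)).injective (funext fun i => ?_)
    rw [torsCoord_levT, redVec_apply, toZModPow_eq_natCast l (hv i k), ZMod.natCast_zmod_val]
  exact congrArg Subtype.val this

/-- The Galois action. -/
def gal : GG →* Module.End ℤ_[l] (Lat N l) where
  toFun σ := Matrix.toLinAlgEquiv' (galO N l κC ℤ_[l] (natCast_mem l) σ)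
  map_one' := by rw [EigenLattice.galO_one, map_one]
  map_mul' σ τ := by rw [EigenLattice.galO_mul, map_mul]

theorem heckeO_mul (s t : HH) :
    heckeO N ℤ_[l] (s * t) = heckeO N ℤ_[l] s * heckeO N ℤ_[l] t := by
  rw [mul_comm s t, heckeO, EigenLattice.heckeMx_mul, Matrix.map_mul]
  rfl

/-- The Hecke action. -/
def hecke : HH →+* Module.End ℤ_[l] (Lat N l) where
  toFun t := Matrix.toLinAlgEquiv' (heckeO N ℤ_[l] t)
  map_one' := by
    rw [heckeO, EigenLattice.heckeMx_one, Matrix.map_one _ (map_zero _) (map_one _), map_one]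
  map_mul' s t := by rw [heckeO_mul, map_mul]
  map_zero' := by
    have h : heckeMx N (0 : HH) = 0 := add_eq_left.1 ((EigenLattice.heckeMx_add N 0 0).symm.trans
      (by rw [add_zero]))
    rw [heckeO, h, Matrix.map_zero _ (map_zero _), map_zero]
  map_add' s t := by
    rw [heckeO, heckeO, heckeO, EigenLattice.heckeMx_add, Matrix.map_add _ (map_add _), map_add]

theorem redVec_gal (k : ℕ) (σ : GG) (v : Lat N l) :
    redVec N l k (gal N l σ v) = galMxPow N l κC k σ *ᵥ redVec N l k v :=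
  funext fun i => EigenLattice.functional_galO N l κC ℤ_[l] (natCast_mem l)
    (PadicInt.toZModPow k).toAddMonoidHom σ v i

theorem lev_gal (k : ℕ) (σ : GG) (v : Lat N l) : lev N l k (gal N l σ v) = σ • lev N l k v := by
  have h : levT N l k (gal N l σ v) =
      JZero.torsionGaloisRep N (l ^ k) σ (levT N l k v) := by
    refine (torsCoord (N := N) κC (l ^ k)).injective ?_
    rw [torsCoord_levT, redVec_gal, ← torsCoord_levT]
    exact EigenLattice.galMx_mulVec κC (l ^ k) σ _
  exact (congrArg Subtype.val h).trans (JZero.coe_torsionGaloisRep_apply N σ _)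

theorem torsCoord_levT_hecke (k : ℕ) (t : HH) (v : Lat N l) :
    torsCoord κC (l ^ k) (levT N l k (hecke N l t v)) =
      (heckeMx N t).map (Int.castRingHom (ZMod (l ^ k))) *ᵥ torsCoord κC (l ^ k) (levT N l k v) := by
  rw [torsCoord_levT, torsCoord_levT]
  exact funext fun i => EigenLattice.functional_intMulVec l
    (PadicInt.toZModPow k).toAddMonoidHom (heckeMx N t) v i

theorem lev_heckeGen (k : ℕ) (q : Nat.Primes) (v : Lat N l) :
    lev N l k (hecke N l (CuspForms.heckeGen N q q.2) v) = heckeOperatorBar N q (lev N l k v) := by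
  have h : levT N l k (hecke N l (CuspForms.heckeGen N q q.2) v) =
      TorsionHom.heckeTors (N := N) (l ^ k) q (levT N l k v) := by
    refine (torsCoord (N := N) κC (l ^ k)).injective ?_
    rw [torsCoord_levT_hecke, EigenLattice.torsCoord_heckeTors]
  exact (congrArg Subtype.val h).trans (TorsionHom.coe_heckeTors (N := N) (l ^ k) q _)

theorem gal_comm (σ : GG) (t : HH) (v : Lat N l) :
    hecke N l t (gal N l σ v) = gal N l σ (hecke N l t v) := by
  induction t using EigenLattice.hecke_induction N generalizing v with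
  | hgen q =>
    have h := congrArg (fun M => Matrix.toLinAlgEquiv' M v)
      (EigenLattice.galO_heckeGen N l κC ℤ_[l] (natCast_mem l) σ q)
    simp only [map_mul, Module.End.mul_apply] at h
    exact h.symm
  | hint c =>
    rw [map_intCast, Module.End.intCast_apply, Module.End.intCast_apply, map_zsmul]
  | hadd s t hs ht => rw [map_add, LinearMap.add_apply, LinearMap.add_apply, hs, ht, map_add]
  | hmul s t hs ht => rw [map_mul, Module.End.mul_apply, Module.End.mul_apply, ht, hs]

/-- The cyclotomic character. -/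
def chi (σ : GG) : ℤ_[l] := (cyclotomicCharacter QA l σ.toRingEquiv).val

theorem chi_mul (σ τ : GG) : chi l (σ * τ) = chi l σ * chi l τ := by
  rw [chi, chi, chi, ← Units.val_mul, ← map_mul]
  rfl

theorem cycloExponent_chi (k : ℕ) (σ : GG) :
    CycloExponent l k σ (PadicInt.toZModPow k (chi l σ)).val := fun ζ hζ =>
  cyclotomicCharacter.spec l σ.toRingEquiv ζ hζ

theorem chi_spec (k : ℕ) (σ : GG) {c : ℕ} (hc : CycloExponent l k σ c) :
    (l : ℤ_[l]) ^ k ∣ chi l σ - c := by
  refine (toZModPow_eq_zero_iff l).1 ?_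
  rw [map_sub, map_natCast, sub_eq_zero, ← ZMod.natCast_zmod_val (PadicInt.toZModPow k (chi l σ))]
  exact (ZMod.natCast_eq_natCast_iff _ _ _).2 ((cycloExponent_chi l k σ).modEq hc)

theorem lev_chi_smul (k : ℕ) (σ : GG) {c : ℕ} (hc : CycloExponent l k σ c) (v : Lat N l) :
    lev N l k (chi l σ • v) = c • lev N l k v := by
  obtain ⟨y, hy⟩ := chi_spec l k σ hc
  rw [← map_nsmul, ← sub_eq_zero, ← map_sub, lev_eq_zero_iff]
  intro i
  refine ⟨y * v i, ?_⟩
  rw [Pi.sub_apply, Pi.smul_apply, Pi.smul_apply, nsmul_eq_mul, smul_eq_mul, ← sub_mul, hy,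
    mul_assoc]

section Trace

variable (S : Finset ℕ)

theorem lev_toFull (k : ℕ) (t : CuspForm.heckeAlgebra N 2 (↑S : Set ℕ)) (v : Lat N l) :
    lev N l k (hecke N l (EigenReps.toFull N S t) v) =
      (EigenReps.act N S (l ^ k) t (levT N l k v) : JZero N) := by
  have h : levT N l k (hecke N l (EigenReps.toFull N S t) v) =
      EigenReps.act N S (l ^ k) t (levT N l k v) := by
    refine (torsCoord (N := N) κC (l ^ k)).injective ?_
    rw [torsCoord_levT_hecke]
    show _ = EigenLattice.vecEquiv N (ZMod (l ^ k))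
      (TorsionHom.torsEquiv (N := N) κC (l ^ k) (EigenReps.act N S (l ^ k) t (levT N l k v)))
    rw [EigenReps.act, RingHom.comp_apply, EigenReps.conjEnd_apply, RingHom.comp_apply,
      EigenLattice.vecEquiv_actA]
    rfl
  exact congrArg Subtype.val h

variable (hlS : l ∈ S) (hNS : ∀ q : ℕ, q.Prime → q ∣ N → q ∈ S)

/-- The approximation of the trace modulo `l ^ k`. -/
def trApprox (σ : GG) (k : ℕ) : HH :=
  EigenReps.toFull N S
    (EigenReps.liftOp N S l hlS hNS (EigenReps.shift N S l + k) σ)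

theorem trApprox_compat (σ : GG) {k m : ℕ} (hkm : k ≤ m) :
    ∃ s : HH, trApprox N l S hlS hNS σ m = trApprox N l S hlS hNS σ k + (l ^ k : ℕ) • s := by
  obtain ⟨s, hs⟩ := (EigenReps.isLift_liftOp N S l hlS hNS (n := EigenReps.shift N S l + m)
    (n' := EigenReps.shift N S l + k) (by omega) σ).eq_add (Nat.le_add_right _ _)
      (EigenReps.isLift_liftOp N S l hlS hNS (n := EigenReps.shift N S l + k) le_rfl σ)
  refine ⟨EigenReps.toFull N S s, ?_⟩
  rw [trApprox, hs, map_add, map_nsmul, Nat.add_sub_cancel_left]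
  rfl

theorem exists_trace (σ : GG) : ∃ x : ℤ_[l] ⊗[ℤ] HH, ∀ k, ∃ z : ℤ_[l] ⊗[ℤ] HH,
    x - (1 : ℤ_[l]) ⊗ₜ[ℤ] trApprox N l S hlS hNS σ k = ((l : ℤ_[l]) ^ k) • z := by
  haveI : Module.Free ℤ HH := Module.free_of_finite_type_torsion_free'
  let b := Module.Free.chooseBasis ℤ HH
  let a : ℕ → _ → ℤ := fun k i => b.repr (trApprox N l S hlS hNS σ k) i
  have ha : ∀ i {k m}, k ≤ m → ((l ^ k : ℕ) : ℤ_[l]) ∣ (a m i : ℤ_[l]) - a k i := by
    intro i k m hkm
    obtain ⟨s, hs⟩ := trApprox_compat N l S hlS hNS σ hkm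
    refine ⟨(b.repr s i : ℤ), ?_⟩
    simp only [a]
    rw [hs, map_add, map_nsmul, Finsupp.add_apply, Finsupp.smul_apply, nsmul_eq_mul]
    push_cast
    ring
  choose x hx using fun i => EigenLattice.exists_limit_natPow l (natCast_mem l)
    (fun k => (a k i : ℤ_[l])) (ha i)
  choose y hy using hx
  refine ⟨∑ i, x i ⊗ₜ[ℤ] b i, fun k => ⟨∑ i, y i k ⊗ₜ[ℤ] b i, ?_⟩⟩
  conv_lhs => rw [← b.sum_repr (trApprox N l S hlS hNS σ k), tmul_sum]
  rw [← Finset.sum_sub_distrib, Finset.smul_sum]
  refine Finset.sum_congr rfl fun i _ => ?_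
  rw [← smul_tmul, zsmul_one, ← sub_tmul, smul_tmul', smul_eq_mul, ← Nat.cast_pow, ← hy i k]

/-- The trace. -/
def trace (σ : GG) : ℤ_[l] ⊗[ℤ] HH := (exists_trace N l S hlS hNS σ).choose

theorem trace_spec (σ : GG) (k : ℕ) : ∃ z : ℤ_[l] ⊗[ℤ] HH,
    trace N l S hlS hNS σ - (1 : ℤ_[l]) ⊗ₜ[ℤ] trApprox N l S hlS hNS σ k =
      ((l : ℤ_[l]) ^ k) • z :=
  (exists_trace N l S hlS hNS σ).choose_spec k

theorem lev_smul_pow (k : ℕ) (v : Lat N l) : lev N l k ((l : ℤ_[l]) ^ k • v) = 0 :=
  (lev_eq_zero_iff N l).2 fun i => ⟨v i, rfl⟩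

theorem lev_trace (σ : GG) (k : ℕ) (v : Lat N l) :
    lev N l k (latticeHom l (hecke N l) (trace N l S hlS hNS σ) v) =
      lev N l k (hecke N l (trApprox N l S hlS hNS σ k) v) := by
  obtain ⟨z, hz⟩ := trace_spec N l S hlS hNS σ k
  rw [sub_eq_iff_eq_add'.1 hz, map_add, map_smul, LinearMap.add_apply, LinearMap.smul_apply,
    map_add, lev_smul_pow, add_zero]
  congr 1
  simp [latticeHom, Algebra.TensorProduct.lift_tmul]

theorem trace_rel (σ : GG) (v : Lat N l) :
    gal N l σ (gal N l σ v) - latticeHom l (hecke N l) (trace N l S hlS hNS σ) (gal N l σ v) +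
      chi l σ • v = 0 := by
  refine eq_zero_of_lev N l fun k => ?_
  have hL := EigenReps.isLift_liftOp N S l hlS hNS (n := EigenReps.shift N S l + k)
    (Nat.le_add_left k _) σ
  rw [map_add, map_sub, lev_trace, trApprox, lev_toFull, hL.2,
    lev_chi_smul N l k σ hL.1, lev_gal,
    show (levT N l k (gal N l σ v) : JZero N) = lev N l k (gal N l σ v) from rfl, lev_gal,
    inv_smul_smul]
  abel

end Trace

section Coord

/-- The chosen pair and index. -/
def pairU : Module.Dual ℤ (PeriodHecke.Hpar (Gamma0 N) ℤ) :=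
  (PeriodHecke.exists_free_pair N).choose

/-- The second vector of the pair. -/
def pairV : Module.Dual ℤ (PeriodHecke.Hpar (Gamma0 N) ℤ) :=
  (PeriodHecke.exists_free_pair N).choose_spec.choose

theorem pair_spec : Function.Injective (pairMap (actDual N) (pairU N) (pairV N)) ∧
    ∃ m : ℤ, m ≠ 0 ∧ ∀ w, m • w ∈ LinearMap.range (pairMap (actDual N) (pairU N) (pairV N)) :=
  (PeriodHecke.exists_free_pair N).choose_spec.choose_spec

/-- Coordinates in pairs of functionals. -/
def coord : Lat N l →ₗ[ℤ_[l]] (Fin 2 → (HH →ₗ[ℤ] ℤ_[l])) :=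
  LinearMap.pi fun i =>
    { toFun := fun v => (bas N).constr ℤ v ∘ₗ
        (LinearMap.applyₗ (![pairU N, pairV N] i)).comp (actDual N).toAddMonoidHom.toIntLinearMap
      map_add' := fun v w => by rw [map_add, LinearMap.add_comp]
      map_smul' := fun c v => by
        rw [show (bas N).constr ℤ (c • v) = c • (bas N).constr ℤ v from
          (bas N).ext fun j => by simp, LinearMap.smul_comp]
        rfl }

theorem coord_apply (v : Lat N l) (i : Fin 2) (t : HH) :
    coord N l v i t = (bas N).constr ℤ v (actDual N t (![pairU N, pairV N] i)) := rfl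

theorem constr_hecke (s : HH) (v : Lat N l) :
    (bas N).constr ℤ (hecke N l s v) = (bas N).constr ℤ v ∘ₗ actDual N s :=
  (bas N).ext fun i => by
    rw [Module.Basis.constr_basis, LinearMap.comp_apply, EigenLattice.constr_comp]
    rfl

theorem coord_hecke (s : HH) (v : Lat N l) (i : Fin 2) (t : HH) :
    coord N l (hecke N l s v) i t = coord N l v i (t * s) := by
  rw [coord_apply, coord_apply, constr_hecke, mul_comm t s, map_mul]
  rfl

theorem coord_injective : Function.Injective (coord N l) := by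
  refine (injective_iff_map_eq_zero _).2 fun v hv => ?_
  obtain ⟨-, m, hm, hmem⟩ := pair_spec N
  funext j
  obtain ⟨⟨s, t⟩, hst⟩ := hmem (bas N j)
  have h1 := congrArg ((bas N).constr ℤ v) hst
  rw [PeriodHecke.pairMap_apply, map_add, map_zsmul, Module.Basis.constr_basis] at h1
  have hs : coord N l v 0 s = 0 := by rw [hv]; rfl
  have ht : coord N l v 1 t = 0 := by rw [hv]; rfl
  rw [coord_apply, Matrix.cons_val_zero] at hs
  rw [coord_apply, Matrix.cons_val_one, Matrix.cons_val_zero] at ht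
  rw [hs, ht, add_zero] at h1
  exact (smul_eq_zero.1 h1.symm).resolve_left hm

/-- The exponent of the index. -/
theorem exists_coord_span : ∃ a : ℕ, ∀ η : Fin 2 → (HH →ₗ[ℤ] ℤ_[l]),
    ∃ v, coord N l v = ((l : ℤ_[l]) ^ a) • η := by
  obtain ⟨hinj, m, hm, hmem⟩ := pair_spec N
  have hm' : (m : ℤ_[l]) ≠ 0 := Int.cast_ne_zero.2 hm
  refine ⟨(m : ℤ_[l]).valuation, fun η => ?_⟩
  let P := pairMap (actDual N) (pairU N) (pairV N)
  let pre := (LinearEquiv.ofInjective P hinj).symm.toLinearMap.comp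
    ((m • LinearMap.id).codRestrict (LinearMap.range P) hmem)
  let u := PadicInt.unitCoeff hm'
  refine ⟨((u⁻¹ : ℤ_[l]ˣ) : ℤ_[l]) • fun j =>
    η 0 (pre (bas N j)).1 + η 1 (pre (bas N j)).2, ?_⟩
  have hΦ : (bas N).constr ℤ (fun j => η 0 (pre (bas N j)).1 + η 1 (pre (bas N j)).2) =
      (η 0).comp ((LinearMap.fst ℤ HH HH).comp pre) +
        (η 1).comp ((LinearMap.snd ℤ HH HH).comp pre) :=
    (bas N).ext fun j => by rw [Module.Basis.constr_basis]; rfl
  have hpre : ∀ z, pre (P z) = m • z := fun z => hinj (by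
    rw [map_zsmul]
    exact congrArg Subtype.val ((LinearEquiv.ofInjective P hinj).apply_symm_apply _))
  have hu : ((u⁻¹ : ℤ_[l]ˣ) : ℤ_[l]) * (m : ℤ_[l]) = (l : ℤ_[l]) ^ (m : ℤ_[l]).valuation := by
    conv_lhs => rw [PadicInt.unitCoeff_spec hm']
    rw [← mul_assoc, Units.inv_mul, one_mul]
  funext i
  refine LinearMap.ext fun t => ?_
  rw [map_smul, Pi.smul_apply, LinearMap.smul_apply, Pi.smul_apply, LinearMap.smul_apply,
    smul_eq_mul, smul_eq_mul, ← hu, mul_assoc]
  congr 1
  rw [coord_apply, hΦ]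
  fin_cases i
  · have e : actDual N t (pairU N) = P (t, 0) := by simp [P, PeriodHecke.pairMap_apply]
    simp [e, hpre, ← zsmul_eq_mul]
  · have e : actDual N t (pairV N) = P (0, t) := by simp [P, PeriodHecke.pairMap_apply]
    simp [e, hpre, ← zsmul_eq_mul]

end Coord

theorem gal_cont (n : ℕ) : ∃ V : Subgroup GG, IsOpen (V : Set GG) ∧
    ∀ σ ∈ V, ∀ v, ∃ y, gal N l σ v - v = ((l : ℤ_[l]) ^ n) • y := by
  obtain ⟨L, hL, h⟩ := EigenLattice.exists_level_galO N l κC ℤ_[l] (natCast_mem l) n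
  refine ⟨L.fixingSubgroup, L.fixingSubgroup_isOpen, fun σ hσ v => ?_⟩
  have hσ' : ∀ a ∈ L, σ a = a := (IntermediateField.mem_fixingSubgroup_iff L σ).1 hσ
  have hd : ∀ i, (l : ℤ_[l]) ^ n ∣ (gal N l σ v - v) i := fun i => by
    rw [← Ideal.mem_span_singleton, ← Ideal.span_singleton_pow, ← PadicInt.maximalIdeal_eq_span_p]
    have e : (gal N l σ v - v) i =
        ∑ j, (galO N l κC ℤ_[l] (natCast_mem l) σ i j - (1 : Matrix (Ix N) (Ix N) ℤ_[l]) i j) * v j := by
      show ((galO N l κC ℤ_[l] (natCast_mem l) σ) *ᵥ v) i - v i = _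
      conv_lhs => arg 2; rw [← Matrix.one_mulVec v]
      rw [← Pi.sub_apply, ← Matrix.sub_mulVec]
      rfl
    rw [e]
    exact Ideal.sum_mem _ fun j _ => Ideal.mul_mem_right _ _ (h σ hσ' i j)
  choose y hy using hd
  exact ⟨y, funext fun i => hy i⟩

/-- Inertia away from `N l` is trivial. -/
theorem gal_inertia {q : ℕ} (hq : q.Prime) (hqN : ¬ q ∣ N) (hql : q ≠ l) {A : ValuationSubring QA}
    (hA : A.LiesOverPrime q) {σ : GG} (hσ : σ ∈ A.inertiaSubgroupIn ℚ) (v : Lat N l) :
    gal N l σ v = v := by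
  refine sub_eq_zero.1 (eq_zero_of_lev N l fun k => ?_)
  rw [map_sub, lev_gal, sub_eq_zero]
  exact EigenReps.inertia_smul_torsion N hq hqN
    (fun h => hql ((Nat.prime_dvd_prime_iff_eq hq Fact.out).1 (hq.dvd_of_dvd_pow h))) hA hσ
    (nsmul_lev N l k v)

theorem chi_frobenius {q : ℕ} (hq : q.Prime) (hql : q ≠ l) {A : ValuationSubring QA}
    (hA : A.LiesOverPrime q) {σ : GG} (hσ : A.IsFrobeniusAt σ q) : chi l σ = q :=
  sub_eq_zero.1 <| EigenLattice.eq_of_forall_natPow_dvd l (natCast_mem l) fun k => by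
    rw [Nat.cast_pow, sub_zero]
    exact chi_spec l k σ (cycloExponent_frobenius hq hql hA hσ k)

end FLTAgent.Mazur.Tate
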